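import Fermat.Agent.SS2.ModelLattice
import Fermat.Agent.Reduction.ChartMem

/-!
Regular functions on the special fibre lift to rational functions on the chart.
-/

set_option autoImplicit false
set_option linter.unusedSectionVars false
set_option linter.style.haveILetI false
set_option synthInstance.maxHeartbeats 100000
set_option maxHeartbeats 1000000

noncomputable section

open ModularCurve AlgebraicCurve IsLocalRing
open FLTAgent.RR (Bd Pol)

namespace FLTAgent.SS2

open FLTAgent.Reduction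

variable {A : ValuationSubring Qb} {N : ℕ} [NeZero N] {ℓ : ℕ}

theorem tB_mem_rationalFn (A : ValuationSubring Qb) (N : ℕ) [NeZero N] (s : Bool) :
    tB N s ∈ rationalFn A N := by
  have h : ModFun.jBar N ∈ rationalFn A N := mem_rationalFn.mpr fun i => by
    rw [coe_jBar, coeffEmb, coeffMap_coeff]
    exact IntermediateField.algebraMap_mem _ _
  cases s
  · exact h
  · exact inv_mem h

variable (C : Ctx A N ℓ)
include C

/-- coefficients of chart functions are integral -/
theorem coeff_mem_of_chart {s : Bool} {x : FB N} (hx : x ∈ regOn Qb (tB N s)) (hG : x ∈ GR A N) :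
    ∀ i, coeffLin N i x ∈ A := by
  intro i
  obtain ⟨G, -, hG', -, -⟩ := exists_series_BT C s (BT_of_mem C hx hG)
  rw [coeffLin_apply, ← hG', coeffMap_coeff]
  exact (G.coeff i).2

/-- a rational chart function is a constant of the inertia field times one with nonzero reduction -/
theorem exists_T_scale {s : Bool} {y : FB N} (hy : y ∈ regOn Qb (tB N s))
    (hyr : y ∈ rationalFn A N) (hy0 : y ≠ 0) :
    ∃ (t : Qb) (u : FB N), t ∈ inertiaFixed A ∧ t ≠ 0 ∧ u ∈ rationalFn A N ∧ u ∈ GR A N ∧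
      red A N u ≠ 0 ∧ y = cB N t * u := by
  obtain ⟨c, u, hc, hu, rfl⟩ := exists_scale_UG C hy0
  have huR : u ∈ regOn Qb (tB N s) := by
    have h := mul_mem ((regOn Qb (tB N s)).algebraMap_mem c⁻¹) hy
    rwa [← mul_assoc, ← map_mul, inv_mul_cancel₀ hc, map_one, one_mul] at h
  obtain ⟨G, x, hG, hx, -⟩ := exists_series_BT C s (BT_of_mem C huR hu.1)
  obtain ⟨i, hi⟩ : ∃ i, residue A (G.coeff i) ≠ 0 := by
    by_contra hcon
    push Not at hcon
    refine hu.2 (Subtype.ext ?_)
    rw [coe_red C hu.1, redS_series hG, ZeroMemClass.coe_zero]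
    exact HahnSeries.ext (funext fun i => (coeffMap_coeff _ _ i).trans (hcon i))
  set a := G.coeff i
  have ha : (a : Qb) ≠ 0 := fun h => hi (by rw [show a = 0 from Subtype.ext h, map_zero])
  have hainv : (a : Qb)⁻¹ ∈ A := by
    rw [← A.valuation_le_one_iff, map_inv₀, (res_ne_zero_iff A a).mp hi, inv_one]
  have hcoef : coeffLin N i (cB N c * u) = c * (a : Qb) := by
    rw [← Algebra.smul_def, LinearMap.map_smul, smul_eq_mul, coeffLin_apply, ← hG, coeffMap_coeff]
    rfl
  have ht : c * (a : Qb) ∈ inertiaFixed A := hcoef ▸ coeffLin_mem hyr i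
  have heq : cB N c * u = cB N (c * (a : Qb)) * (cB N (a : Qb)⁻¹ * u) := by
    rw [← mul_assoc (cB N (c * (a : Qb))), ← map_mul, mul_assoc c, mul_inv_cancel₀ ha, mul_one]
  have hu' : cB N (a : Qb)⁻¹ * u ∈ GR A N := mul_mem (cB_mem hainv) hu.1
  refine ⟨c * (a : Qb), cB N (a : Qb)⁻¹ * u, ht, mul_ne_zero hc ha, ?_, hu', ?_, heq⟩
  · have h := mul_mem (const_mem_rationalFn (N := N) (inv_mem ht)) hyr
    rw [heq, ← mul_assoc, ← map_mul, inv_mul_cancel₀ (mul_ne_zero hc ha), map_one, one_mul] at h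
    exact h
  · rw [red_mul C (cB_mem hainv) hu.1, red_cB C ⟨_, hainv⟩]
    refine mul_ne_zero ((_root_.map_ne_zero _).mpr ((res_ne_zero_iff A _).mpr ?_)) hu.2
    show A.valuation ((a : Qb)⁻¹) = 1
    rw [map_inv₀, (res_ne_zero_iff A a).mp hi, inv_one]

/-- in a space stable under inertia every integral function is congruent to a rational one -/
theorem exists_rational_congr {s : Bool} (V : Submodule Qb (FB N)) [FiniteDimensional Qb V]
    (hst : ∀ σ ∈ A.inertiaSubgroupIn ℚ, ∀ x ∈ V, galFn N σ • x ∈ V)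
    (hreg : ∀ x ∈ V, x ∈ regOn Qb (tB N s)) {b : FB N} (hbV : b ∈ V) (hb : b ∈ GR A N) :
    ∃ b' ∈ V, b' ∈ rationalFn A N ∧ b' ∈ GR A N ∧ red A N b' = red A N b := by
  classical
  obtain ⟨hq, hA⟩ : ℓ.Prime ∧ A.LiesOverPrime ℓ := ⟨C.prime, C.lies⟩
  let P : FB N → Prop := fun x => x ∈ V ∧ x ∈ rationalFn A N ∧ x ∈ GR A N
  obtain ⟨S, hS, hli, hgen⟩ := exists_finset_gen hq hA P V (fun x hx => ⟨hx.1, hx.2.1⟩)
    (fun i => ⟨1, fun x hx => by
      rw [map_one, A.valuation_le_one_iff]
      exact coeff_mem_of_chart C (hreg x hx.1) hx.2.2 i⟩)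
  have hspan : V ≤ Submodule.span Qb (S : Set (FB N)) := by
    refine (le_span_rational (A := A) V hst).trans (Submodule.span_le.mpr ?_)
    rintro y ⟨hyV, hyr⟩
    rcases eq_or_ne y 0 with rfl | hy0
    · exact zero_mem _
    obtain ⟨t, u, ht, ht0, hur, huG, -, rfl⟩ := exists_T_scale C (hreg y hyV) hyr hy0
    have huV : u ∈ V := by
      have h := V.smul_mem t⁻¹ hyV
      rwa [Algebra.smul_def, ← mul_assoc, ← map_mul, inv_mul_cancel₀ ht0, map_one, one_mul] at h
    obtain ⟨d, -, hud⟩ := hgen u ⟨huV, hur, huG⟩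
    rw [SetLike.mem_coe, ← Algebra.smul_def]
    refine Submodule.smul_mem _ _ ?_
    rw [hud]
    refine sum_mem fun i hi => ?_
    rw [← Algebra.smul_def]
    exact Submodule.smul_mem _ _ (Submodule.subset_span hi)
  obtain ⟨a, hsum⟩ : ∃ a : FB N → Qb, ∑ i ∈ S, a i • i = b := by
    obtain ⟨a, -, ha⟩ := Submodule.mem_span_finset.mp (hspan hbV)
    exact ⟨a, ha⟩
  have hcombV : ∀ d : FB N → Qb, ∑ i ∈ S, cB N (d i) * i ∈ V := fun d => sum_mem fun i hi => by
    rw [← Algebra.smul_def]; exact V.smul_mem _ (hS i hi).1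
  have hcomb : ∀ t : FB N → A, (∀ i, (t i : Qb) ∈ inertiaFixed A) →
      P (∑ i ∈ S, cB N (t i : Qb) * i) ∧
      red A N (∑ i ∈ S, cB N (t i : Qb) * i) =
        ∑ i ∈ S, algebraMap (kA A) (FS A N) (residue A (t i)) * red A N i := by
    intro t ht
    refine ⟨⟨hcombV fun i => (t i : Qb), sum_mem fun i hi => mul_mem (const_mem_rationalFn (ht i)) (hS i hi).2.1,
      sum_mem fun i hi => mul_mem (cB_mem (t i).2) (hS i hi).2.2⟩, ?_⟩
    refine Subtype.ext ?_
    rw [coe_red C (sum_mem fun i hi => mul_mem (cB_mem (t i).2) (hS i hi).2.2),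
      redS_sum C S _ (fun i hi => mul_mem (cB_mem (t i).2) (hS i hi).2.2),
      AddSubmonoidClass.coe_finsetSum]
    refine Finset.sum_congr rfl fun i hi => ?_
    rw [MulMemClass.coe_mul, redS_mul (cB_mem (t i).2) (hS i hi).2.2, redS_cB, coe_red C (hS i hi).2.2]
    rfl
  have hredA : ∀ (a' : FB N → A), red A N (∑ i ∈ S, cB N (a' i : Qb) * i) =
      ∑ i ∈ S, algebraMap (kA A) (FS A N) (residue A (a' i)) * red A N i := by
    intro a'
    refine Subtype.ext ?_
    rw [coe_red C (sum_mem fun i hi => mul_mem (cB_mem (a' i).2) (hS i hi).2.2),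
      redS_sum C S _ (fun i hi => mul_mem (cB_mem (a' i).2) (hS i hi).2.2),
      AddSubmonoidClass.coe_finsetSum]
    refine Finset.sum_congr rfl fun i hi => ?_
    rw [MulMemClass.coe_mul, redS_mul (cB_mem (a' i).2) (hS i hi).2.2, redS_cB, coe_red C (hS i hi).2.2]
    rfl
  have haA : ∀ i ∈ S, a i ∈ A := by
    by_contra hcon
    push Not at hcon
    obtain ⟨i₁, hi₁, hbad⟩ := hcon
    obtain ⟨i₀, hi₀, hmax⟩ := S.exists_max_image (fun i => A.valuation (a i)) ⟨i₁, hi₁⟩
    have hlt : 1 < A.valuation (a i₀) := lt_of_lt_of_le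
      (not_le.mp (mt (A.valuation_le_one_iff _).mp hbad)) (hmax i₁ hi₁)
    have ha0 : a i₀ ≠ 0 := fun h => by
      rw [h, map_zero] at hlt
      exact not_lt_zero hlt
    have hdiv : ∀ i ∈ S, (a i₀)⁻¹ * a i ∈ A := fun i hi => by
      rw [← A.valuation_le_one_iff, map_mul, map_inv₀, inv_mul_le_one₀ (zero_lt_one.trans hlt)]
      exact hmax i hi
    let a' : FB N → A := fun i => if hi : i ∈ S then ⟨(a i₀)⁻¹ * a i, hdiv i hi⟩ else 0
    have hinv : (a i₀)⁻¹ ∈ A := by
      rw [← A.valuation_le_one_iff, map_inv₀]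
      exact (inv_le_one_of_one_le₀ hlt.le)
    have hsum' : ∑ i ∈ S, cB N (a' i : Qb) * i = cB N (a i₀)⁻¹ * b := by
      rw [← hsum, Finset.mul_sum]
      refine Finset.sum_congr rfl fun i hi => ?_
      simp only [a', dif_pos hi]
      rw [Algebra.smul_def, ← mul_assoc, ← map_mul]
    have hr0 : ∑ i ∈ S, algebraMap (kA A) (FS A N) (residue A (a' i)) * red A N i = 0 := by
      rw [← hredA a', hsum', red_mul C (cB_mem hinv) hb, red_cB C ⟨_, hinv⟩,
        show residue A (⟨(a i₀)⁻¹, hinv⟩ : A) = 0 from (res_eq_zero_iff A _).mpr (by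
          show A.valuation ((a i₀)⁻¹) < 1
          rw [map_inv₀]
          exact inv_lt_one_of_one_lt₀ hlt), map_zero, zero_mul]
    choose t htT htr using fun i => exists_residue_T hq hA (a' i)
    obtain ⟨hy, hyred⟩ := hcomb t htT
    simp only [htr] at hyred
    rw [hr0] at hyred
    set y := ∑ i ∈ S, cB N (t i : Qb) * i
    have hone : residue A (t i₀) = 1 := by
      rw [htr, show a' i₀ = 1 from Subtype.ext (by
        simp only [a', dif_pos hi₀]
        exact inv_mul_cancel₀ ha0), map_one]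
    obtain ⟨d, hd, hyd⟩ : ∃ d : FB N → Qb, (∀ i, d i ∈ TF A ∧ d i ∈ A) ∧
        y = cB N (ℓ : Qb) * ∑ i ∈ S, cB N (d i) * i := by
      rcases eq_or_ne y 0 with h0 | h0
      · exact ⟨0, fun i => ⟨zero_mem _, zero_mem _⟩, by simp [h0]⟩
      obtain ⟨τ, u, hτ, hτ0, hur, huG, hune, hyu⟩ := exists_T_scale C (hreg y hy.1) hy.2.1 h0
      have huV : u ∈ V := by
        have h := V.smul_mem τ⁻¹ hy.1
        rwa [Algebra.smul_def, hyu, ← mul_assoc, ← map_mul, inv_mul_cancel₀ hτ0, map_one, one_mul] at h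
      have hτA : τ ∈ A := mem_A_of_UG_mul C ⟨huG, hune⟩ (hyu ▸ hy.2.2)
      rw [hyu, red_mul C (cB_mem hτA) huG, red_cB C ⟨τ, hτA⟩, mul_eq_zero] at hyred
      have hτlt : A.valuation τ < 1 := (res_eq_zero_iff A ⟨τ, hτA⟩).mp
        ((algebraMap (kA A) (FS A N)).injective ((hyred.resolve_right hune).trans (map_zero _).symm))
      obtain ⟨m, hm⟩ := exists_zpow_valuation_T hq hA hτ hτ0
      have hm1 : 1 ≤ m := by
        by_contra hcon'
        rw [hm] at hτlt
        exact absurd hτlt (not_lt.mpr (one_le_zpow_of_nonpos₀ (valuation_q_pos hq) (le_of_lt hA) (by omega)))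
      have hq0 : (ℓ : Qb) ≠ 0 := Nat.cast_ne_zero.mpr hq.ne_zero
      have hτq : τ / (ℓ : Qb) ∈ A := by
        rw [← A.valuation_le_one_iff, map_div₀, div_le_one₀ (valuation_q_pos hq), hm]
        calc A.valuation (ℓ : Qb) ^ m ≤ A.valuation (ℓ : Qb) ^ (1 : ℤ) :=
              zpow_le_zpow_right_of_le_one₀ (valuation_q_pos hq) (le_of_lt hA) hm1
          _ = _ := zpow_one _
      obtain ⟨d, hd, hud⟩ := hgen (cB N (τ / (ℓ : Qb)) * u)
        ⟨by rw [← Algebra.smul_def]; exact V.smul_mem _ huV,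
          mul_mem (const_mem_rationalFn (div_mem hτ (natCast_mem _ ℓ))) hur,
          mul_mem (cB_mem hτq) huG⟩
      refine ⟨d, hd, ?_⟩
      rw [← hud, hyu, ← mul_assoc, ← map_mul, mul_div_cancel₀ _ hq0]
    have hti : (t i₀ : Qb) = (ℓ : Qb) * d i₀ := by
      have h := hli
      rw [Fintype.linearIndependent_iff] at h
      have h0 := h (fun i : S => (t i : Qb) - (ℓ : Qb) * d i) (by
        rw [Finset.sum_coe_sort S (fun i => ((t i : Qb) - (ℓ : Qb) * d i) • i)]
        simp only [Algebra.smul_def, map_sub, map_mul, sub_mul, Finset.sum_sub_distrib]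
        rw [sub_eq_zero]
        refine hyd.trans ?_
        rw [Finset.mul_sum]
        exact Finset.sum_congr rfl fun i _ => (mul_assoc _ _ _).symm) ⟨i₀, hi₀⟩
      exact sub_eq_zero.mp h0
    have h1 : A.valuation (t i₀ : Qb) < 1 := by
      rw [hti, map_mul]
      exact (mul_le_of_le_one_right' ((A.valuation_le_one_iff _).mpr (hd i₀).2)).trans_lt hA
    rw [(res_eq_zero_iff A _).mpr h1] at hone
    exact zero_ne_one hone
  let a' : FB N → A := fun i => if hi : i ∈ S then ⟨a i, haA i hi⟩ else 0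
  choose t htT htr using fun i => exists_residue_T hq hA (a' i)
  obtain ⟨hy, hyred⟩ := hcomb t htT
  refine ⟨_, hy.1, hy.2.1, hy.2.2, ?_⟩
  rw [hyred]
  simp only [htr]
  rw [← hredA a']
  congr 1
  rw [← hsum]
  refine Finset.sum_congr rfl fun i hi => ?_
  simp only [a', dif_pos hi]
  exact (Algebra.smul_def _ _).symm

/-- every regular function of the special fibre is the reduction of a rational chart function -/
theorem exists_rational_lift {s : Bool} {x : FS A N} (hx : BS A N s x) :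
    ∃ b : FB N, BT A N s b ∧ b ∈ rationalFn A N ∧ red A N b = x := by
  classical
  obtain ⟨b, hb, hbx⟩ := exists_lift C hx
  set t := tB N s
  set m : ℕ := ∑ P ∈ (Pol (K := Qb) t).support, (-P.ord b).toNat
  set E : Divisor Qb (FB N) := m • Pol (K := Qb) t
  have hE : ∀ P : Place Qb (FB N), E P = (m : ℤ) * max (-P.ord t) 0 := fun P => by
    show (m • Pol (K := Qb) t) P = _
    rw [Finsupp.smul_apply, RR.Pol_apply, nsmul_eq_mul]
  have hbE : b ∈ riemannRochSpace E := by
    intro P
    show Bd P b (E P)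
    by_cases hP : Bd P t 0
    · have h0 := (RR.bd_iff_ord (tB_ne_zero N s)).mp hP
      rw [hE, max_eq_right (by simpa using h0), mul_zero]
      exact (hb.mem_regOn) P hP
    · have h0 := (RR.not_bd_iff.mp hP).2
      have hmem : P ∈ (Pol (K := Qb) t).support := by
        rw [Finsupp.mem_support_iff, RR.Pol_apply]
        omega
      have hm : (-P.ord b).toNat ≤ m :=
        Finset.single_le_sum (f := fun P => (-P.ord b).toNat) (fun _ _ => Nat.zero_le _) hmem
      refine RR.bd_iff.mpr (Or.inr ?_)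
      have h2 : (m : ℤ) ≤ (m : ℤ) * max (-P.ord t) 0 :=
        le_mul_of_one_le_right (by positivity) (by omega)
      rw [hE]
      omega
  haveI := RR.finiteDimensional_rr (K := Qb) E
  have hst : ∀ σ ∈ A.inertiaSubgroupIn ℚ, ∀ y ∈ riemannRochSpace E,
      galFn N σ • y ∈ riemannRochSpace E := fun σ hσ y hy => rr_stable (by
    show galFn N σ • (m • Pol (K := Qb) t) = _
    rw [show galFn N σ • (m • Pol (K := Qb) t) = m • galFn N σ • Pol (K := Qb) t from
      map_nsmul (DistribSMul.toAddMonoidHom (Divisor Qb (FB N)) (galFn N σ)) m _,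
      pol_fixed (tB_mem_rationalFn A N s) hσ]) hy
  have hreg : ∀ y ∈ riemannRochSpace E, y ∈ regOn Qb t := fun y hy P hP => by
    have h0 := (RR.bd_iff_ord (tB_ne_zero N s)).mp hP
    have h1 : Bd P y (E P) := hy P
    rwa [hE, max_eq_right (by simpa using h0), mul_zero] at h1
  obtain ⟨b', hb'V, hb'r, hb'G, hb'x⟩ :=
    exists_rational_congr C (s := s) _ hst hreg hbE (BT.mem_GR C hb)
  exact ⟨b', BT_of_mem C (hreg _ hb'V) hb'G, hb'r, hb'x.trans hbx⟩

/-- the same, for functions without poles where the coordinate has none -/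
theorem exists_rational_lift_reg {s : Bool} {x : FS A N} (hx : x ∈ regOn (kA A) (tS A N s)) :
    ∃ b : FB N, b ∈ regOn Qb (tB N s) ∧ b ∈ GR A N ∧ b ∈ rationalFn A N ∧ red A N b = x := by
  obtain ⟨b, hb, hr, hbx⟩ := exists_rational_lift C ((BS_iff C).mpr hx)
  exact ⟨b, hb.mem_regOn, BT.mem_GR C hb, hr, hbx⟩

end FLTAgent.SS2
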