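import Fermat.Agent.SS2.ModelBase
import Fermat.Agent.SS.Frame
import Fermat.Agent.Reduction.PlaceMap

/-!
Values at the zeros of the coordinate: above a point where one of the three images of `j` reduces to
zero the middle one reduces to zero. Units congruent to one on all branches moving the poles of chart
functions onto the chart of the middle image.
-/

set_option autoImplicit false
set_option linter.unusedSectionVars false
set_option linter.style.haveILetI false
set_option linter.unusedSimpArgs false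
set_option synthInstance.maxHeartbeats 200000
set_option maxHeartbeats 1000000

noncomputable section

open ModularCurve AlgebraicCurve IsLocalRing
open FLTAgent.RR (Bd)

namespace FLTAgent.SS2

open FLTAgent.Reduction (Qb FB FS Ctx GR cB tB tS jS kA red redS regOn BS BT Val)

/-! ### places along embeddings -/

section Pull

variable {F F' : Type*} [Field F] [Field F'] [Algebra Qb F] [Algebra Qb F'] [RR.FnField Qb F]
  [RR.FnField Qb F'] (φ : F →ₐ[Qb] F')

/-- the place below -/
theorem exists_pull (P : Place Qb F') : ∃ P0 : Place Qb F,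
    (∀ a, Bd P (φ a) 0 ↔ Bd P0 a 0) ∧ (∀ a c, Val P (φ a) c ↔ Val P0 a c) ∧
    ∀ (y : F') (t : F), y ∈ regOn Qb (φ t) → Bd P0 t 0 → Val P y 0 →
      Val P0 (normAlong φ y) 0 := by
  letI := algebraAlong φ
  haveI := isScalarTower_along φ
  haveI : Module.Finite F F' := HeckeJ.finiteAlong φ
  haveI : Algebra.IsIntegral F F' := Algebra.IsIntegral.of_finite _ _
  haveI : HasPrincipalDivisors Qb F' := RR.hasPrincipalDivisors
  have he : (0 : ℤ) < (P.ramificationIndex (F := F) : ℤ) := by
    exact_mod_cast P.ramificationIndex_pos (F := F)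
  have hord : ∀ a, P.ord (φ a) = (P.ramificationIndex (F := F) : ℤ) * (P.restrict F).ord a :=
    fun a => P.ord_restrict a
  refine ⟨P.restrict F, fun a => ?_, fun a c => ?_, fun y t hy ht h0 => ?_⟩
  · simp only [RR.bd_iff, map_eq_zero, hord, neg_zero]
    exact or_congr_right (mul_nonneg_iff_of_pos_left he)
  · show Bd P (φ a - algebraMap Qb F' c) (-1) ↔ Bd _ (a - algebraMap Qb F c) (-1)
    rw [← φ.commutes c, ← map_sub]
    simp only [RR.bd_iff, map_eq_zero, hord, neg_neg]
    exact or_congr_right ⟨fun h => by nlinarith, fun h => by nlinarith⟩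
  · show Val _ (Algebra.norm F y) 0
    rcases eq_or_ne y 0 with rfl | hy0
    · rw [Algebra.norm_zero]; exact Reduction.Val.zero
    refine Reduction.val_zero_of_ord_pos (HeckeJ.ord_norm_pos hy0 (fun w hw => ?_)
      (Place.restrict_mem_fiber P) (h0.ord_pos hy0))
    have h1 : Bd w (φ t) 0 := by
      rw [← RR.mem_iff_bd]
      show algebraMap F F' t ∈ w.toValuationSubring
      rw [← Place.mem_restrict_iff (F := F), Place.mem_fiber.mp hw]
      exact RR.mem_iff_bd.mpr ht
    have h2 := (RR.bd_iff_ord hy0).mp (hy w h1)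
    omega

/-- pullback of regular functions -/
theorem map_regOn {t a : F} (ha : a ∈ regOn Qb t) : φ a ∈ regOn Qb (φ t) := fun P hP => by
  obtain ⟨P0, h1, -, -⟩ := exists_pull φ P
  exact (h1 a).mpr (ha P0 ((h1 t).mp hP))

/-- norms of regular functions are regular -/
theorem regOn_normAlong {t : F} {y : F'} (hy : y ∈ regOn Qb (φ t)) :
    normAlong φ y ∈ regOn Qb t := by
  letI := algebraAlong φ
  haveI := isScalarTower_along φ
  haveI : Module.Finite F F' := HeckeJ.finiteAlong φ
  haveI : Algebra.IsIntegral F F' := Algebra.IsIntegral.of_finite _ _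
  haveI : HasPrincipalDivisors Qb F' := RR.hasPrincipalDivisors
  intro v hv
  show Bd v (Algebra.norm F y) 0
  rcases eq_or_ne y 0 with rfl | hy0
  · rw [Algebra.norm_zero]; exact RR.Bd.zero
  refine RR.bd_iff.mpr (Or.inr ?_)
  rw [neg_zero]
  refine HeckeJ.ord_norm_nonneg hy0 fun w hw => ?_
  have h1 : Bd w (φ t) 0 := by
    rw [← RR.mem_iff_bd]
    show algebraMap F F' t ∈ w.toValuationSubring
    rw [← Place.mem_restrict_iff (F := F), Place.mem_fiber.mp hw]
    exact RR.mem_iff_bd.mpr hv
  have h2 := (RR.bd_iff_ord hy0).mp (hy w h1)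
  omega

/-- the norm of an image -/
theorem normAlong_map (a : F) : normAlong φ (φ a) = a ^ finrankAlong Qb φ := by
  letI := algebraAlong φ
  exact Algebra.norm_algebraMap (S := F') a

theorem normAlong_ne_zero {y : F'} (hy : y ≠ 0) : normAlong φ y ≠ 0 := by
  letI := algebraAlong φ
  haveI : Module.Finite F F' := HeckeJ.finiteAlong φ
  exact Algebra.norm_ne_zero_iff.mpr hy

end Pull

variable {A : ValuationSubring Qb} {M q : ℕ} [NeZero M] [NeZero q] (C : Ctx A M q)

include C

/-- if `j(τ)` reduces to zero then so does `j(qτ)` -/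
theorem vanish_beta {P : Place Qb (FB (M * q))} {v w : Qb}
    (hv : Val P (heckeAlphaBar Qb M q (ModFun.jBar M)) v) (hv1 : A.valuation v < 1)
    (hw : Val P (heckeBetaBar Qb M q (ModFun.jBar M)) w) : A.valuation w < 1 := by
  classical
  have hvA : v ∈ A := (A.valuation_le_one_iff v).mp hv1.le
  obtain ⟨γ, δ, hγδ, hgoal⟩ : ∃ γ δ : A, (γ : Qb) * w = (δ : Qb) ∧
      (residue A δ = 0 → A.valuation w < 1) := by
    by_cases hwA : w ∈ A
    · exact ⟨1, ⟨w, hwA⟩, by simp, fun h => (Reduction.res_eq_zero_iff A _).mp h⟩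
    · have hw1 : 1 < A.valuation w := not_le.mp (mt (A.valuation_le_one_iff w).mp hwA)
      have hwi : w⁻¹ ∈ A := by
        rw [← A.valuation_le_one_iff, map_inv₀]
        exact inv_le_one_of_one_le₀ hw1.le
      refine ⟨⟨w⁻¹, hwi⟩, 1, ?_, fun h => absurd h (by rw [map_one]; exact one_ne_zero)⟩
      show w⁻¹ * w = ((1 : A) : Qb)
      rw [inv_mul_cancel₀ (fun h => by simp [h] at hw1)]
      rfl
  refine hgoal ?_
  set f : FB M := cB M (γ : Qb) * ModFun.jBar M - cB M (δ : Qb) with hf
  set G : LaurentSeries A :=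
    HahnSeries.single 0 γ * Reduction.tA A false - HahnSeries.single 0 δ with hGdef
  have hG : Reduction.up A G = (f : LS) := by
    rw [hGdef, map_sub, map_mul, ← Reduction.coe_cB_A A M γ, ← Reduction.coe_cB_A A M δ,
      Reduction.up_tA A M false]
    rfl
  set fr : FS A M := algebraMap (kA A) (FS A M) (residue A γ) * jS A M -
    algebraMap (kA A) (FS A M) (residue A δ) with hfr
  have hfr' : (fr : LaurentSeries (kA A)) = Reduction.dn A G := by
    rw [hGdef, map_sub, map_mul, coeffMap_single, coeffMap_single, Reduction.dn_tA A M false, hfr,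
      AddSubgroupClass.coe_sub, MulMemClass.coe_mul]
    simp only [← algebraMap_laurentSeries_eq_single]
    rfl
  obtain ⟨hNG, hNr⟩ := Reduction.red_normBeta C hG hfr'
  -- the norm vanishes below
  have hfreg : f ∈ regOn Qb (ModFun.jBar M) := sub_mem (mul_mem (Subalgebra.algebraMap_mem _ _)
    (Reduction.self_mem_regOn _)) (Subalgebra.algebraMap_mem _ _)
  have hbreg : heckeBetaBar Qb M q f ∈ regOn Qb (heckeAlphaBar Qb M q (ModFun.jBar M)) := by
    intro u hu
    have hu' : Bd u (heckeBetaBar Qb M q (ModFun.jBar M)) 0 := by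
      have h1 := (RR.bd_iff_ord ((_root_.map_ne_zero _).mpr
        (Reduction.tB_ne_zero M false))).mp hu
      rw [neg_zero] at h1
      refine RR.bd_iff.mpr (Or.inr ?_)
      have h2 := SS.ord_aFn_neg_iff C u
      rw [neg_zero]
      by_contra hcon
      exact absurd h1 (not_le.mpr (h2.mpr (not_le.mp hcon)))
    exact map_regOn _ hfreg u hu'
  obtain ⟨P0, -, hval, hnorm⟩ := exists_pull (heckeAlphaBar Qb M q) P
  have hj0 : Val P0 (ModFun.jBar M) v := (hval _ _).mp hv
  have hbf : Val P (heckeBetaBar Qb M q f) 0 := by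
    have h1 := ((Reduction.Val.const (v := P) (γ : Qb)).mul hw).sub
      (Reduction.Val.const (v := P) (δ : Qb))
    rw [hγδ, sub_self] at h1
    rwa [hf, map_sub, map_mul, AlgHom.commutes, AlgHom.commutes]
  have hN0 : Val P0 (Reduction.normBeta M q f) 0 :=
    hnorm _ _ hbreg hj0.bd hbf
  have hBT : BT A M false (Reduction.normBeta M q f) :=
    Reduction.BT_of_mem C (regOn_normAlong (heckeAlphaBar Qb M q) hbreg) hNG
  set Q := Reduction.rP C P0
  obtain ⟨_, hQN⟩ := Reduction.val_rP C hBT hj0 hvA hN0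
  obtain ⟨_, hQj⟩ := Reduction.val_rP C (Reduction.BT_tB false) hj0 hvA hj0
  rw [Reduction.red_tB C, (Reduction.res_eq_zero_iff A _).mpr hv1] at hQj
  rw [hNr, show residue A (⟨(0 : Qb), _⟩ : A) = 0 from map_zero _] at hQN
  -- conjugates of `fr`
  have hconj : ∀ τ : kA A →+* kA A, coeffMap τ (fr : LaurentSeries (kA A)) =
      ((algebraMap (kA A) (FS A M) (τ (residue A γ)) * jS A M -
        algebraMap (kA A) (FS A M) (τ (residue A δ)) : FS A M) : LaurentSeries (kA A)) := by
    intro τ
    rw [hfr, AddSubgroupClass.coe_sub, MulMemClass.coe_mul, AddSubgroupClass.coe_sub,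
      MulMemClass.coe_mul, map_sub, map_mul]
    show coeffMap τ (algebraMap (kA A) (LaurentSeries (kA A)) _) * coeffMap τ (jqModC (kA A)) -
        coeffMap τ (algebraMap (kA A) (LaurentSeries (kA A)) _) =
      algebraMap (kA A) (LaurentSeries (kA A)) _ * jqModC (kA A) -
        algebraMap (kA A) (LaurentSeries (kA A)) _
    simp only [algebraMap_laurentSeries_eq_single, coeffMap_single, coeffMap_jqModC]
  have hv' : ∀ τ : kA A →+* kA A, Val Q (algebraMap (kA A) (FS A M) (τ (residue A γ)) * jS A M -
      algebraMap (kA A) (FS A M) (τ (residue A δ))) (-τ (residue A δ)) := fun τ => by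
    have h := ((Reduction.Val.const (v := Q) (τ (residue A γ))).mul hQj).sub
      (Reduction.Val.const (v := Q) (τ (residue A δ)))
    rwa [mul_zero, zero_sub] at h
  have e1 : Reduction.frobS C • fr = algebraMap (kA A) (FS A M)
      ((Reduction.frobK C : kA A →+* kA A) (residue A γ)) * jS A M -
      algebraMap (kA A) (FS A M) ((Reduction.frobK C : kA A →+* kA A) (residue A δ)) :=
    Subtype.ext (by rw [Reduction.frobS, Reduction.coe_fullAut_smul]; exact hconj _)
  have e2 : (Reduction.frobS C)⁻¹ • fr = algebraMap (kA A) (FS A M)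
      (((Reduction.frobK C).symm : kA A →+* kA A) (residue A γ)) * jS A M -
      algebraMap (kA A) (FS A M)
        (((Reduction.frobK C).symm : kA A →+* kA A) (residue A δ)) :=
    Subtype.ext (by rw [Reduction.frobS, Reduction.coe_fullAut_inv_smul]; exact hconj _)
  rw [e1, e2] at hQN
  have h := hQN.unique ((hv' _).mul ((hv' _).pow q))
  rcases mul_eq_zero.mp h.symm with h1 | h1
  · exact (RingHom.injective _) ((neg_eq_zero.mp h1).trans (map_zero _).symm)
  · exact (RingHom.injective _)
      ((neg_eq_zero.mp (eq_zero_of_pow_eq_zero h1)).trans (map_zero _).symm)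

/-- the same with the two copies exchanged -/
theorem vanish_alpha {P : Place Qb (FB (M * q))} {v w : Qb}
    (hv : Val P (heckeBetaBar Qb M q (ModFun.jBar M)) v) (hv1 : A.valuation v < 1)
    (hw : Val P (heckeAlphaBar Qb M q (ModFun.jBar M)) w) : A.valuation w < 1 := by
  obtain ⟨P', -, hval, -⟩ := exists_pull (SS.atkinW M q) P
  refine vanish_beta C (P := P') (v := v) ((hval _ _).mp ?_) hv1 ((hval _ _).mp ?_)
  · rwa [SS.atkinW_i1 C]
  · rwa [SS.atkinW_i2 C]

/-- at a zero of the coordinate the middle image of `j` reduces to zero -/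
theorem exists_middle_value {P : Place Qb (FB (M * q * q))} (hP : 0 < P.ord (Jprod M q)) :
    ∃ v : Qb, A.valuation v < 1 ∧ Val P (img M q 1 (ModFun.jBar M)) v := by
  have hbd : ∀ k, Bd P (img M q k (ModFun.jBar M)) 0 := fun k =>
    bd_img_of_inChart (s := false) C.prime (show InChart false (P.ord (Jprod M q)) from hP.le) k
  choose c hc using fun k => Reduction.exists_val (RR.hasRes P) (hbd k)
  refine ⟨c 1, ?_, hc 1⟩
  obtain ⟨k, hk⟩ : ∃ k, c k = 0 := by
    by_contra hcon
    push Not at hcon
    have h := fun k => ((hc k).ord_eq_zero (hcon k)).2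
    rw [ord_Jprod, ← img_jBar, ← img_jBar, ← img_jBar, h, h, h] at hP
    omega
  have h0 : A.valuation (c k) < 1 := by rw [hk, map_zero]; exact zero_lt_one
  obtain ⟨P1, -, hv1, -⟩ := exists_pull (heckeAlphaBar Qb (M * q) q) P
  obtain ⟨P2, -, hv2, -⟩ := exists_pull (heckeBetaBar Qb (M * q) q) P
  have e1 : Val P (heckeBetaBar Qb (M * q) q (heckeAlphaBar Qb M q (ModFun.jBar M))) (c 1) := by
    rw [beta_alpha]; exact hc 1
  fin_cases k
  · exact vanish_beta C ((hv1 _ _).mp (hc 0)) h0 ((hv1 _ _).mp (hc 1))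
  · exact h0
  · exact vanish_alpha C ((hv2 _ _).mp (hc 2)) h0 ((hv2 _ _).mp e1)

/-- a unit of level `M`, congruent to one, whose middle image moves the poles of a chart function -/
theorem exists_unit_move (s : Bool) {x : FB (M * q * q)}
    (hx : ∀ P : Place Qb (FB (M * q * q)), InChart s (P.ord (Jprod M q)) → Bd P x 0) :
    ∃ u : FB M, u ∈ rationalFn A M ∧ u ∈ GR A M ∧ red A M u = 1 ∧
      u ∈ regOn Qb (tB M s) ∧ img M q 1 u * x ∈ regOn Qb (img M q 1 (tB M s)) := by
  classical
  cases s
  · refine ⟨1, one_mem _, one_mem _, Reduction.red_one C, one_mem _, fun P hP => ?_⟩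
    rw [map_one, one_mul]
    refine hx P ((inChart_false_Jprod C.prime).mpr ((bd_jImg_iff C.prime 1).mp ?_))
    rw [← img_jBar]
    exact hP
  set S : Finset (Place Qb (FB (M * q * q))) := RR.zeros (Jprod M q)
  have hval : ∀ P : Place Qb (FB (M * q * q)), ∃ v : Qb, P ∈ S →
      A.valuation v < 1 ∧ Val P (img M q 1 (ModFun.jBar M)) v := fun P => by
    by_cases hP : P ∈ S
    · obtain ⟨v, hv⟩ := exists_middle_value C (RR.mem_zeros.mp hP)
      exact ⟨v, fun _ => hv⟩
    · exact ⟨0, fun h => absurd h hP⟩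
  choose v hv using hval
  set fac : Place Qb (FB (M * q * q)) → FB M := fun P => 1 - cB M (v P) * tB M true
  set u0 : FB M := ∏ P ∈ S, fac P
  have hfG : ∀ P ∈ S, fac P ∈ GR A M := fun P hP => sub_mem (one_mem _)
    (mul_mem (Reduction.cB_mem ((A.valuation_le_one_iff _).mp (hv P hP).1.le))
      (Reduction.tB_mem true))
  have hfr : ∀ P ∈ S, red A M (fac P) = 1 := fun P hP => by
    have hA := (A.valuation_le_one_iff _).mp (hv P hP).1.le
    rw [Reduction.red_sub C (one_mem _)
      (mul_mem (Reduction.cB_mem hA) (Reduction.tB_mem true)), Reduction.red_one C,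
      Reduction.red_mul C (Reduction.cB_mem hA) (Reduction.tB_mem true),
      Reduction.red_cB C ⟨_, hA⟩, (Reduction.res_eq_zero_iff A _).mpr (hv P hP).1, map_zero,
      zero_mul, sub_zero]
  have hfreg : ∀ P, fac P ∈ regOn Qb (tB M true) := fun P =>
    sub_mem (one_mem _) (mul_mem (Subalgebra.algebraMap_mem _ _) (Reduction.self_mem_regOn _))
  have hu0r : u0 ∈ rationalFn A M := by
    intro σ hσ
    set g := galFn (M * q * q) σ
    have hJ : g • Jprod M q = Jprod M q := Jprod_rational A σ hσ
    have hj1 : g • img M q 1 (ModFun.jBar M) = img M q 1 (ModFun.jBar M) :=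
      img_rational (jBar_rational A M) 1 σ hσ
    have hS : ∀ P, g • P ∈ S ↔ P ∈ S := fun P => by
      rw [RR.mem_zeros, RR.mem_zeros]
      conv_lhs => rw [← hJ, SemilinearAut.ord_smul]
    have hvg : ∀ P ∈ S, v (g • P) = σ (v P) := fun P hP => by
      refine (hv _ ((hS P).mpr hP)).2.unique ?_
      have h := (hv P hP).2
      show Bd _ _ _
      rw [← hj1, ← galFn_smul_const, ← smul_sub, RR.bd_iff, SemilinearAut.ord_smul,
        smul_eq_zero_iff_eq]
      exact RR.bd_iff.mp h
    have hfac : ∀ P ∈ S, galFn M σ • fac P = fac (g • P) := fun P hP => by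
      show galFn M σ • (1 - algebraMap Qb (FB M) (v P) * tB M true) =
        1 - algebraMap Qb (FB M) (v (g • P)) * tB M true
      rw [smul_sub, smul_one, smul_mul', galFn_smul_const, hvg P hP,
        tB_mem_rationalFn A M true σ hσ]
    rw [Finset.smul_prod']
    rw [Finset.prod_congr rfl hfac]
    exact Finset.prod_equiv (MulAction.toPerm g) (fun P => (hS P).symm) fun P _ => rfl
  have hu0G : u0 ∈ GR A M := prod_mem hfG
  have hu0red : red A M u0 = 1 := by
    rw [Reduction.red_prod C S _ hfG, Finset.prod_eq_one hfr]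
  have hu0reg : u0 ∈ regOn Qb (tB M true) := prod_mem fun P _ => hfreg P
  have hu0ne : u0 ≠ 0 := fun h => by
    rw [h, show red A M 0 = (0 : FS A M) from by
      have := Reduction.red_cB C (0 : A)
      simpa [map_zero] using this] at hu0red
    exact zero_ne_one hu0red
  set k : ℕ := ∑ P ∈ S, (-P.ord x).toNat
  refine ⟨u0 ^ k, pow_mem hu0r k, pow_mem hu0G k, by rw [Reduction.red_pow C hu0G, hu0red, one_pow],
    pow_mem hu0reg k, fun P hP => ?_⟩
  have hU : Bd P (img M q 1 u0) 0 := map_regOn (img M q 1) hu0reg P hP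
  rw [map_pow]
  by_cases hin : InChart true (P.ord (Jprod M q))
  · simpa using (hU.pow k).mul (hx P hin)
  have hPS : P ∈ S := RR.mem_zeros.mpr (by simpa [InChart] using hin)
  rcases eq_or_ne x 0 with rfl | hx0
  · rw [mul_zero]; exact RR.Bd.zero
  have hU0 : img M q 1 u0 ≠ 0 := (_root_.map_ne_zero _).mpr hu0ne
  have hone : 1 ≤ P.ord (img M q 1 u0) := by
    have hj := (hv P hPS).2
    have hv0 : v P ≠ 0 := fun h => by
      rw [h] at hj
      have hne : img M q 1 (ModFun.jBar M) ≠ 0 :=
        (_root_.map_ne_zero _).mpr (Reduction.tB_ne_zero M false)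
      have h1 := hj.ord_pos hne
      have h2 := (RR.bd_iff_ord ((_root_.map_ne_zero _).mpr (Reduction.tB_ne_zero M true))).mp hP
      rw [show img M q 1 (tB M true) = (img M q 1 (ModFun.jBar M))⁻¹ from map_inv₀ _ _,
        P.ord_inv] at h2
      omega
    have hfac : Val P (img M q 1 (fac P)) 0 := by
      have h := (Reduction.Val.one (v := P)).sub
        ((Reduction.Val.const (v := P) (v P)).mul (hj.inv hv0))
      rw [mul_inv_cancel₀ hv0, sub_self] at h
      show Val P (img M q 1 (1 - algebraMap Qb (FB M) (v P) * (ModFun.jBar M)⁻¹)) 0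
      rwa [map_sub, map_one, map_mul, AlgHom.commutes, map_inv₀]
    have hrest : Bd P (img M q 1 (∏ P' ∈ S.erase P, fac P')) 0 :=
      map_regOn (img M q 1) (prod_mem fun P' _ => hfreg P') P hP
    have h : Bd P (img M q 1 u0) (-1 + 0) := by
      show Bd P (img M q 1 (∏ P' ∈ S, fac P')) _
      rw [← Finset.mul_prod_erase S fac hPS, map_mul]
      refine RR.Bd.mul ?_ hrest
      have h' := hfac
      rwa [Val, map_zero, sub_zero] at h'
    have := (RR.bd_iff_ord hU0).mp h
    omega
  refine RR.bd_iff.mpr (Or.inr ?_)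
  rw [P.ord_mul (pow_ne_zero _ hU0) hx0, RR.ord_pow]
  have hk : (-P.ord x).toNat ≤ k :=
    Finset.single_le_sum (f := fun P => (-P.ord x).toNat) (fun _ _ => Nat.zero_le _) hPS
  have : (k : ℤ) ≤ k * P.ord (img M q 1 u0) := le_mul_of_one_le_right (by positivity) hone
  omega

end FLTAgent.SS2
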