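import Fermat.Agent.HeckeJ.API
import Fermat.Agent.Genus.Export
import Fermat.Agent.Genus.Cosets
import Mathlib.LinearAlgebra.FreeModule.Finite.Matrix
import Fermat.Prelude.Thm_ModularCurve_coeffMap_qExpand

/-!
The inclusions between the function fields of the curves `X₀`, their degrees, and the behaviour of
the norms along the degeneracy maps when a prime is added to the level.
-/

set_option autoImplicit false
set_option linter.unusedSectionVars false

noncomputable section

open ModularCurve AlgebraicCurve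

namespace FLTAgent.SS2

/-- `ℚ̄(X₀(N))` -/
abbrev Fld (N : ℕ) : Type := ↥(modularFunctionFieldBar N)

local notation "Kb" => AlgebraicClosure ℚ

open FLTAgent.ModFun (jBar jNBar)

theorem bar_mono {a b : ℕ} [NeZero a] [NeZero b] (h : a ∣ b) :
    modularFunctionFieldBar a ≤ modularFunctionFieldBar b := by
  rw [modularFunctionFieldBar, laurentBaseChange, IntermediateField.adjoin_le_iff]
  rintro _ ⟨y, hy, rfl⟩
  exact coeffEmb_mem_laurentBaseChange _ (full_degeneracy_le h hy)

/-- the inclusion of function fields for levels `a ∣ b` (same expansions) -/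
def incl {a b : ℕ} [NeZero a] [NeZero b] (h : a ∣ b) :
    Fld a →ₐ[AlgebraicClosure ℚ] Fld b :=
  IntermediateField.inclusion (bar_mono h)

theorem coe_incl {a b : ℕ} [NeZero a] [NeZero b] (h : a ∣ b) (x : Fld a) :
    ((incl h x : Fld b) : LaurentSeries (AlgebraicClosure ℚ)) = x :=
  IntermediateField.coe_inclusion _ x

theorem incl_jBar {a b : ℕ} [NeZero a] [NeZero b] (h : a ∣ b) : incl h (jBar a) = jBar b :=
  Subtype.ext (coe_incl h _)

/-- the norm along an embedding of function fields -/
def normAlong {F F' : Type*} [Field F] [Field F'] [Algebra (AlgebraicClosure ℚ) F]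
    [Algebra (AlgebraicClosure ℚ) F'] (φ : F →ₐ[AlgebraicClosure ℚ] F') : F' →* F :=
  letI := algebraAlong φ
  Algebra.norm F

theorem ndeg_map {F F' : Type*} [Field F] [Field F'] [Algebra Kb F] [Algebra Kb F']
    (φ : F →ₐ[Kb] F') (x : F) :
    RR.ndeg Kb (φ x) = RR.ndeg Kb x * finrankAlong Kb φ := by
  letI := algebraAlong φ
  haveI := isScalarTower_along φ
  exact HeckeJ.ndeg_algebraMap x

theorem ndeg_jBar_eq (a : ℕ) [NeZero a] : RR.ndeg Kb (jBar a) = dedekindPsi a :=
  (ModFun.ndeg_jBar a).trans (Genus.card_cosetSpace (N := a))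

theorem finrankAlong_incl {a b : ℕ} [NeZero a] [NeZero b] (h : a ∣ b) :
    finrankAlong (AlgebraicClosure ℚ) (incl h) * dedekindPsi a = dedekindPsi b := by
  have h1 := ndeg_map (incl h) (jBar a)
  rw [incl_jBar, ndeg_jBar_eq, ndeg_jBar_eq] at h1
  rw [h1, mul_comm]

theorem dedekindPsi_pos' (a : ℕ) [NeZero a] : 0 < dedekindPsi a := by
  rw [← Genus.card_cosetSpace (N := a)]
  exact Nat.card_pos

theorem finrankAlong_incl_prime {N r : ℕ} [NeZero N] [NeZero r] (hr : r.Prime) (hrN : ¬ r ∣ N) :
    finrankAlong (AlgebraicClosure ℚ) (incl (dvd_mul_right N r)) = r + 1 := by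
  have h1 := finrankAlong_incl (dvd_mul_right N r)
  have h2 : dedekindPsi r = r + 1 := by
    have := Genus.dedekindPsi_prime_pow hr Nat.one_pos
    simpa [pow_one] using this
  rw [Genus.dedekindPsi_mul ((hr.coprime_iff_not_dvd.mpr hrN).symm), h2,
    mul_comm (dedekindPsi N)] at h1
  exact Nat.eq_of_mul_eq_mul_right (dedekindPsi_pos' N) h1

open scoped FLTAgent.Genus in
/-- two levels generate the field of their least common multiple -/
theorem incl_generates {a b c : ℕ} [NeZero a] [NeZero b] [NeZero c] (ha : a ∣ c) (hb : b ∣ c)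
    (h : c ∣ Nat.lcm a b) :
    IntermediateField.adjoin (AlgebraicClosure ℚ)
      (Set.range (incl ha) ∪ Set.range (incl hb)) = ⊤ := by
  classical
  set E := IntermediateField.adjoin Kb (Set.range (incl ha) ∪ Set.range (incl hb)) with hE
  set k := RR.KK Kb (jBar c) with hk
  have hkE : k ≤ E := by
    rw [hk, RR.KK, IntermediateField.adjoin_le_iff, Set.singleton_subset_iff]
    exact IntermediateField.subset_adjoin _ _ (Or.inl ⟨_, incl_jBar ha⟩)
  let C := Genus.interiorChart c UpperHalfPlane.I
  obtain ⟨i0⟩ : Nonempty (Genus.CosetSpace c) := inferInstance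
  have hagree : ∀ i, (C.sigma i).comp k.val = (C.sigma i0).comp k.val := by
    intro i
    refine AlgHom.ext fun x => ?_
    obtain ⟨x, hx⟩ := x
    show C.sigma i x = C.sigma i0 x
    induction hx using IntermediateField.adjoin_induction with
    | mem y hy =>
      rw [Set.mem_singleton_iff] at hy
      subst hy
      exact (Genus.sigma_jBar_interior c _ i).trans (Genus.sigma_jBar_interior c _ i0).symm
    | algebraMap z => rw [AlgHom.commutes, AlgHom.commutes]
    | add y z _ _ hy hz => rw [map_add, map_add, hy, hz]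
    | inv y _ hy => rw [map_inv₀, map_inv₀, hy]
    | mul y z _ _ hy hz => rw [map_mul, map_mul, hy, hz]
  letI : Algebra k (Genus.MeroGerm C.pt) := ((C.sigma i0).comp k.val).toRingHom.toAlgebra
  let E' := IntermediateField.extendScalars hkE
  let e : Genus.CosetSpace c → (E' →ₐ[k] Genus.MeroGerm C.pt) := fun i =>
    { (C.sigma i).toRingHom.comp E'.val.toRingHom with
      commutes' := fun x => DFunLike.congr_fun (hagree i) x }
  have he : Function.Injective e := by
    intro i i' hii
    have hd : ∀ (a' : ℕ) [NeZero a'] (h' : a' ∣ c) (_ : Set.range (incl h') ⊆ E),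
        i.out⁻¹ * i'.out⁻¹⁻¹ ∈ CongruenceSubgroup.Gamma0 a' := by
      intro a' _ h' hr
      have hmem : a' ∈ c.divisors := Nat.mem_divisors.mpr ⟨h', NeZero.ne c⟩
      have hg : Genus.gen c ⟨a', hmem⟩ = incl h' (jNBar a') := by
        refine Subtype.ext ?_
        rw [coe_incl]
        rfl
      have h1 := DFunLike.congr_fun hii
        (⟨incl h' (jNBar a'), hr ⟨_, rfl⟩⟩ : E')
      change C.sigma i (incl h' (jNBar a')) = C.sigma i' (incl h' (jNBar a')) at h1
      rw [← hg, C.sigma_gen, C.sigma_gen, Genus.germOf_eq_iff] at h1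
      refine (ModFun.jFun_scale_conj_eq_iff a' i.out⁻¹ i'.out⁻¹).mp fun τ => sub_eq_zero.mp ?_
      exact Genus.eq_zero_of_eventually
        (F := fun τ => Genus.conjJ a' i.out τ - Genus.conjJ a' i'.out τ)
        ((Genus.mdiff_conjJ a' _).sub (Genus.mdiff_conjJ a' _))
        (h1.mono fun z hz => sub_eq_zero.mpr hz) τ
    have h1 := hd a ha (fun x hx => IntermediateField.subset_adjoin _ _ (Or.inl hx))
    have h2 := hd b hb (fun x hx => IntermediateField.subset_adjoin _ _ (Or.inr hx))
    rw [inv_inv] at h1 h2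
    rw [← QuotientGroup.out_eq' i, ← QuotientGroup.out_eq' i', QuotientGroup.eq]
    rw [CongruenceSubgroup.Gamma0_mem, ZMod.intCast_zmod_eq_zero_iff_dvd] at h1 h2 ⊢
    rw [Int.natCast_dvd] at h1 h2 ⊢
    exact h.trans (Nat.lcm_dvd h1 h2)
  haveI : FiniteDimensional k (Fld c) := RR.finiteDimensional_KK (ModFun.transcendental_jBar c)
  have hcard := (Nat.card_le_card_of_injective e he).trans
    (card_algHom_le_finrank k E' (Genus.MeroGerm C.pt))
  have htop : E' = ⊤ := by
    refine IntermediateField.eq_of_le_of_finrank_le le_top ?_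
    rw [IntermediateField.finrank_top']
    refine le_trans (le_of_eq ?_) hcard
    exact ModFun.ndeg_jBar c
  rw [eq_top_iff]
  intro x _
  have : x ∈ E' := htop ▸ IntermediateField.mem_top
  exact this

/-- norms commute with a linearly disjoint change of the field -/
theorem normAlong_baseChange {F F' G G' : Type*} [Field F] [Field F'] [Field G] [Field G']
    [Algebra Kb F] [Algebra Kb F'] [Algebra Kb G] [Algebra Kb G'] [RR.FnField Kb F]
    [RR.FnField Kb F'] [RR.FnField Kb G] [RR.FnField Kb G']
    (φ : F →ₐ[Kb] F') (φ' : G →ₐ[Kb] G') (ι : F →ₐ[Kb] G) (ι' : F' →ₐ[Kb] G')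
    (hsq : ∀ x, ι' (φ x) = φ' (ι x))
    (hgen : IntermediateField.adjoin Kb (Set.range φ' ∪ Set.range ι') = ⊤)
    (hdeg : finrankAlong Kb φ' = finrankAlong Kb φ) (x : F') :
    normAlong φ' (ι' x) = ι (normAlong φ x) := by
  classical
  letI := algebraAlong φ
  letI := algebraAlong φ'
  haveI := isScalarTower_along φ
  haveI := isScalarTower_along φ'
  haveI : Module.Finite F F' := HeckeJ.finiteAlong φ
  haveI : Module.Finite G G' := HeckeJ.finiteAlong φ'
  let b := Module.finBasis F F'
  have hrep : ∀ y : F', ι' y = ∑ i, ι (b.repr y i) • ι' (b i) := by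
    intro y
    conv_lhs => rw [← b.sum_repr y, map_sum]
    refine Finset.sum_congr rfl fun i _ => ?_
    rw [Algebra.smul_def, Algebra.smul_def, map_mul]
    exact congrArg (· * _) (hsq _)
  let S : Submodule G G' := Submodule.span G (Set.range fun i => ι' (b i))
  have hι : ∀ y, ι' y ∈ S := fun y => by
    rw [hrep y]
    exact sum_mem fun i _ => S.smul_mem _ (Submodule.subset_span ⟨i, rfl⟩)
  let T := Algebra.adjoin G (Set.range ι')
  have hTS : Subalgebra.toSubmodule T ≤ S := by
    rw [Algebra.adjoin_eq_span]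
    refine Submodule.span_le.mpr fun z hz => ?_
    obtain ⟨y, rfl⟩ : z ∈ Set.range ι' := by
      induction hz using Submonoid.closure_induction with
      | mem z hz => exact hz
      | one => exact ⟨1, map_one _⟩
      | mul u v _ _ hu hv =>
        obtain ⟨u, rfl⟩ := hu
        obtain ⟨v, rfl⟩ := hv
        exact ⟨u * v, map_mul _ _ _⟩
    exact hι y
  have hspan : ⊤ ≤ S := by
    intro z hz0
    clear hz0
    refine hTS ?_
    have hz : z ∈ IntermediateField.adjoin Kb (Set.range φ' ∪ Set.range ι') :=
      hgen ▸ IntermediateField.mem_top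
    show z ∈ T
    induction hz using IntermediateField.adjoin_induction with
    | mem y hy =>
      rcases hy with ⟨g, rfl⟩ | hy
      · exact T.algebraMap_mem g
      · exact Algebra.subset_adjoin hy
    | algebraMap a =>
      rw [IsScalarTower.algebraMap_apply Kb G G']
      exact T.algebraMap_mem _
    | add y w _ _ hy hw => exact add_mem hy hw
    | inv y _ hy =>
      exact T.inv_mem_of_algebraic (x := ⟨y, hy⟩) (Algebra.IsAlgebraic.isAlgebraic y)
    | mul y w _ _ hy hw => exact mul_mem hy hw
  have hcard : Fintype.card (Fin (Module.finrank F F')) = Module.finrank G G' := by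
    rw [Fintype.card_fin]; exact hdeg.symm
  let b' : Module.Basis (Fin (Module.finrank F F')) G G' :=
    Module.Basis.mk (linearIndependent_of_top_le_span_of_card_eq_finrank hspan hcard) hspan
  have hb' : ∀ i, b' i = ι' (b i) := fun i => Module.Basis.mk_apply _ _ i
  have hr : ∀ y i, b'.repr (ι' y) i = ι (b.repr y i) := by
    intro y i
    have : ι' y = ∑ j, ι (b.repr y j) • b' j := by simp only [hb']; exact hrep y
    rw [this, b'.repr_sum_self]
  show Algebra.norm G (ι' x) = ι (Algebra.norm F x)
  rw [Algebra.norm_eq_matrix_det b', Algebra.norm_eq_matrix_det b, AlgHom.map_det]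
  congr 1
  ext i j
  rw [AlgHom.mapMatrix_apply, Matrix.map_apply, Algebra.leftMulMatrix_eq_repr_mul,
    Algebra.leftMulMatrix_eq_repr_mul, hb', ← map_mul, hr]

variable {M q r : ℕ} [NeZero M] [NeZero q] [NeZero r]

theorem lcm_dvd_aux (hr : r.Prime) (hrM : ¬ r ∣ M * q) :
    M * r * q ∣ Nat.lcm (M * r) (M * q) := by
  have h : (M * q).Coprime r := (hr.coprime_iff_not_dvd.mpr hrM).symm
  rw [show M * r * q = (M * q) * r by ring]
  exact h.mul_dvd_of_dvd_of_dvd (Nat.dvd_lcm_right _ _)
    ((dvd_mul_left r M).trans (Nat.dvd_lcm_left _ _))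

theorem dedekindPsi_aux (hr : r.Prime) (hrM : ¬ r ∣ M * q) :
    dedekindPsi (M * r * q) * dedekindPsi M = dedekindPsi (M * r) * dedekindPsi (M * q) := by
  have h : (M * q).Coprime r := (hr.coprime_iff_not_dvd.mpr hrM).symm
  rw [show M * r * q = (M * q) * r by ring, Genus.dedekindPsi_mul h,
    Genus.dedekindPsi_mul h.coprime_mul_right]
  ring

theorem alpha_eq_incl (a l : ℕ) [NeZero a] [NeZero l] :
    heckeAlphaBar Kb a l = incl (dvd_mul_right a l) := rfl

/-- the norm along `α` of a function pulled back from a level without `r` -/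
theorem normAlong_alpha_incl (hr : r.Prime) (hrM : ¬ r ∣ M * q)
    (h : M * q ∣ M * r * q) (f : Fld (M * q)) :
    normAlong (heckeAlphaBar (AlgebraicClosure ℚ) (M * r) q) (incl h f) =
      incl (dvd_mul_right M r) (normAlong (heckeAlphaBar (AlgebraicClosure ℚ) M q) f) := by
  refine normAlong_baseChange _ _ _ _ (fun x => Subtype.ext ?_) ?_ ?_ f
  · rw [alpha_eq_incl, alpha_eq_incl, coe_incl, coe_incl, coe_incl, coe_incl]
  · rw [alpha_eq_incl]
    exact incl_generates _ h (lcm_dvd_aux hr hrM)
  · rw [alpha_eq_incl, alpha_eq_incl]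
    have h1 := finrankAlong_incl (dvd_mul_right (M * r) q)
    have h2 := finrankAlong_incl (dvd_mul_right M q)
    have h3 := dedekindPsi_aux (M := M) (q := q) hr hrM
    rw [← h1, ← h2] at h3
    refine Nat.eq_of_mul_eq_mul_right (Nat.mul_pos (dedekindPsi_pos' (M * r)) (dedekindPsi_pos' M)) ?_
    linarith

/-- the norm along `β` of a function pulled back from a level without `r` -/
theorem normAlong_beta_incl (hr : r.Prime) (hrM : ¬ r ∣ M * q)
    (h : M * q ∣ M * r * q) (f : Fld (M * q)) :
    normAlong (heckeBetaBar (AlgebraicClosure ℚ) (M * r) q) (incl h f) =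
      incl (dvd_mul_right M r) (normAlong (heckeBetaBar (AlgebraicClosure ℚ) M q) f) := by
  have hsq : ∀ x, incl h (heckeBetaBar Kb M q x) =
      heckeBetaBar Kb (M * r) q (incl (dvd_mul_right M r) x) := fun x => Subtype.ext (by
    rw [coe_incl, coe_heckeBetaBar, coe_heckeBetaBar, coe_incl])
  refine normAlong_baseChange _ _ _ _ hsq ?_ ?_ f
  · rw [eq_top_iff, ← ModFun.generated_bar, IntermediateField.adjoin_le_iff]
    rintro y (rfl | rfl)
    · exact IntermediateField.subset_adjoin _ _ (Or.inr ⟨_, incl_jBar h⟩)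
    · refine IntermediateField.subset_adjoin _ _ (Or.inl ⟨jNBar (M * r), Subtype.ext ?_⟩)
      rw [coe_heckeBetaBar]
      show qExpand Kb q (coeffEmb Kb (qExpand ℚ (M * r) jq)) = coeffEmb Kb (qExpand ℚ (M * r * q) jq)
      rw [coeffEmb, ← coeffMap_qExpand, qExpand_qExpand, qExpand_congr (mul_comm q (M * r))]
  · have e1 := ndeg_map (heckeBetaBar Kb (M * r) q) (incl (dvd_mul_right M r) (jBar M))
    rw [← hsq, ndeg_map (incl h), ndeg_map (heckeBetaBar Kb M q),
      ndeg_map (incl (dvd_mul_right M r)), ndeg_jBar_eq] at e1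
    have hM : ¬ r ∣ M := fun hd => hrM (hd.mul_right q)
    have e2 : finrankAlong Kb (incl h) = r + 1 := by
      have h2 := finrankAlong_incl h
      rw [show dedekindPsi (M * r * q) = dedekindPsi (M * q) * dedekindPsi r by
        rw [show M * r * q = (M * q) * r by ring]
        exact Genus.dedekindPsi_mul ((hr.coprime_iff_not_dvd.mpr hrM).symm),
        mul_comm (dedekindPsi _)] at h2
      have h3 : dedekindPsi r = r + 1 := by
        have := Genus.dedekindPsi_prime_pow hr Nat.one_pos
        simpa [pow_one] using this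
      rw [h3] at h2
      exact Nat.eq_of_mul_eq_mul_right (dedekindPsi_pos' (M * q)) h2
    rw [e2, finrankAlong_incl_prime hr hM] at e1
    refine Nat.eq_of_mul_eq_mul_left (Nat.mul_pos (dedekindPsi_pos' M) (Nat.succ_pos r)) ?_
    linarith

end FLTAgent.SS2

end
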