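import Fermat.Agent.SS2.Branches
import Fermat.Agent.SS.Repr

/-!
Residues on the three branches lie in the function field of the special fibre of level `M`: multiply
by a high power of a function vanishing on the other branches, take the trace to level `Mq`.
-/

set_option autoImplicit false
set_option linter.all false
set_option synthInstance.maxHeartbeats 200000
set_option maxHeartbeats 1000000

noncomputable section

open ModularCurve AlgebraicCurve IsLocalRing
open FLTAgent.Reduction (Qb FB FS kA GR redS)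

namespace FLTAgent.SS2

variable {A : ValuationSubring Qb}

/-- an integral scalable series with zero residue is a small multiple of an integral one -/
theorem exists_small_factor {y : LS} (hy : Scalable A y) (h : y ∈ GG A) (h0 : redL A y = 0) :
    ∃ (c : Qb) (z : LS), A.valuation c < 1 ∧ z ∈ GG A ∧ y = cL c * z := by
  obtain ⟨d, hd, h1, h2⟩ := hy
  have e : y = cL d⁻¹ * (cL d * y) := by
    rw [← mul_assoc, ← cL_mul, inv_mul_cancel₀ hd, cL_one, one_mul]
  have hA : d⁻¹ ∈ A := mem_A_of_cL_mul h1 h2 (e ▸ h)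
  refine ⟨d⁻¹, cL d * y, ?_, h1, e⟩
  refine lt_of_le_of_ne ((A.valuation_le_one_iff _).mpr hA) fun hv => ?_
  rw [e, redL_mul (cL_mem hA) h1, redL_cL ⟨d⁻¹, hA⟩] at h0
  rcases mul_eq_zero.mp h0 with h' | h'
  · exact (Reduction.res_ne_zero_iff A ⟨d⁻¹, hA⟩).mpr hv ((_root_.map_eq_zero _).mp h')
  · exact h2 h'

/-- a high power of a small series absorbs a given series -/
theorem exists_pow_absorb {ℓ : ℕ} (hℓ : ℓ.Prime) (hA : A.LiesOverPrime ℓ) {w y : LS}
    (hw : w = 0 ∨ Scalable A w) {c : Qb} {z : LS} (hc : A.valuation c < 1) (hz : z ∈ GG A)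
    (he : y = cL c * z) :
    ∃ n₀ : ℕ, ∀ n, n₀ ≤ n → w * y ^ n ∈ GG A ∧ redL A (w * y ^ n) = 0 := by
  rcases hw with rfl | ⟨d, hd, h1, -⟩
  · exact ⟨0, fun n _ => by rw [zero_mul]; exact ⟨zero_mem _, redL_zero⟩⟩
  obtain ⟨m, hm⟩ := Reduction.exists_pow_le A hℓ hA hc hd
  refine ⟨m + 1, fun n hn => ?_⟩
  have hlt : A.valuation (c ^ n / d) < 1 := by
    rw [map_div₀, map_pow, div_lt_one₀ (zero_lt_iff.mpr ((Valuation.ne_zero_iff _).mpr hd))]
    refine lt_of_le_of_lt (pow_le_pow_right_of_le_one' hc.le hn) ?_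
    rw [pow_succ]
    calc A.valuation c ^ m * A.valuation c ≤ A.valuation d * A.valuation c :=
          mul_le_mul_left hm _
      _ < A.valuation d * 1 :=
          mul_lt_mul_of_pos_left hc (zero_lt_iff.mpr ((Valuation.ne_zero_iff _).mpr hd))
      _ = A.valuation d := mul_one _
  have hmem : c ^ n / d ∈ A := (A.valuation_le_one_iff _).mp hlt.le
  have e : w * y ^ n = cL (c ^ n / d) * ((cL d * w) * z ^ n) := by
    have h3 : cL (c ^ n / d) * cL d = cL c ^ n := by
      rw [← cL_mul, div_mul_cancel₀ _ hd]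
      exact map_pow (algebraMap Qb LS) c n
    rw [he, mul_pow, ← mul_assoc (cL (c ^ n / d)), ← mul_assoc (cL (c ^ n / d)), h3]
    ring
  rw [e]
  have h2 := mul_mem h1 (pow_mem hz n)
  refine ⟨mul_mem (cL_mem hmem) h2, ?_⟩
  rw [redL_mul (cL_mem hmem) h2, redL_cL ⟨_, hmem⟩, (Reduction.res_eq_zero_iff A _).mpr hlt,
    map_zero, zero_mul]

variable {M q : ℕ} [NeZero M] [NeZero q] (C : Reduction.Ctx A M q)

/-- the Atkin–Lehner maps agree -/
theorem atkinW_eq : SS.atkinW M q = atkin M q C.prime C.not_dvd := by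
  rw [SS.atkinW, dif_pos ⟨C.prime, C.not_dvd⟩]
  rfl

include C in
theorem redL_side_false {y : FB (M * q)} (h : (y : LS) ∈ GG A) :
    redL A (y : LS) ∈ modularFunctionFieldFullC (kA A) M := by
  have h' : y ∈ SS.GS M q A false := h
  rw [redL_coe (show y ∈ GR A (M * q) from h), show redS A (M * q) y =
    (SS.redM M q A false y : LaurentSeries (kA A)) from (SS.isRed_redM C h').2]
  exact SetLike.coe_mem _

theorem redL_side_true {y : FB (M * q)} (h : s2 M q C.prime C.not_dvd y ∈ GG A) :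
    redL A (s2 M q C.prime C.not_dvd y) ∈ modularFunctionFieldFullC (kA A) M := by
  have e : s2 M q C.prime C.not_dvd y = ((SS.atkinW M q y : FB (M * q)) : LS) := by
    rw [atkinW_eq C]; rfl
  rw [e] at h ⊢
  have h' : y ∈ SS.GS M q A true := h
  rw [redL_coe (show SS.atkinW M q y ∈ GR A (M * q) from h),
    show redS A (M * q) (SS.atkinW M q y) = (SS.redM M q A true y : LaurentSeries (kA A)) from
      (SS.isRed_redM C h').2]
  exact SetLike.coe_mem _

theorem jM0_GR : jM0 M ∈ GR A M := Reduction.tB_mem false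

theorem redS_jM0 : redS A M (jM0 M) = jqModC (kA A) := Reduction.redS_tB (N := M) false

include C in
theorem qExpand_jqModC : qExpand (kA A) q (jqModC (kA A)) = jqModC (kA A) ^ q := by
  have h := congrArg Subtype.val (SS.Fr_jS C)
  rwa [SS.coe_Fr, SubmonoidClass.coe_pow] at h

/-- `j̄ - j̄^(q²)` -/
def dBar (A : ValuationSubring Qb) (q : ℕ) : LaurentSeries (kA A) :=
  jqModC (kA A) - jqModC (kA A) ^ (q * q)

include C in
theorem dBar_mem : dBar A q ∈ modularFunctionFieldFullC (kA A) M :=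
  sub_mem (jqModC_mem_full _ M) (pow_mem (jqModC_mem_full _ M) _)

include C in
theorem dBar_ne_zero : dBar A q ≠ 0 := fun h => SS.zbar_ne_zero C (Subtype.ext h)

variable (M q) in
/-- `j(q²τ) - j(τ)` -/
def piFn : FB (M * q * q) := i2 M q (jM0 M) - i0 M q (jM0 M)

variable (M q) in
/-- `j(q²τ) - j(qτ)^q` -/
def sepFn : FB (M * q * q) := i2 M q (jM0 M) - i1 M q (jM0 M) ^ q

include C in
theorem red20_pi : e20 M q (piFn M q) ∈ GG A ∧ redL A (e20 M q (piFn M q)) = -dBar A q := by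
  obtain ⟨a2, b2⟩ := red20_i2 (q := q) (jM0_GR (A := A) (M := M))
  obtain ⟨a0, b0⟩ := red20_i0 (q := q) (jM0_GR (A := A) (M := M))
  rw [piFn, map_sub]
  refine ⟨sub_mem a2 a0, ?_⟩
  rw [redL_sub a2 a0, b2, b0, redS_jM0, qExpand_jqModC C, map_pow, qExpand_jqModC C, ← pow_mul,
    dBar, neg_sub]

theorem red02_pi : e02 M q C.prime C.not_dvd (piFn M q) ∈ GG A ∧
    redL A (e02 M q C.prime C.not_dvd (piFn M q)) = dBar A q := by
  obtain ⟨a2, b2⟩ := red02_i2 C.prime C.not_dvd (jM0_GR (A := A) (M := M))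
  obtain ⟨a0, b0⟩ := red02_i0 C.prime C.not_dvd (jM0_GR (A := A) (M := M))
  rw [piFn, map_sub]
  refine ⟨sub_mem a2 a0, ?_⟩
  rw [redL_sub a2 a0, b2, b0, redS_jM0, qExpand_jqModC C, map_pow, qExpand_jqModC C, ← pow_mul]
  rfl

theorem red11_pi_zero (ζ : PR q) : e11 M q C.prime C.not_dvd ζ (piFn M q) ∈ GG A ∧
    redL A (e11 M q C.prime C.not_dvd ζ (piFn M q)) = 0 := by
  obtain ⟨a2, b2⟩ := red11_i2 C ζ (jM0_GR (A := A) (M := M))
  obtain ⟨a0, b0⟩ := red11_i0 C ζ (jM0_GR (A := A) (M := M))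
  rw [piFn, map_sub]
  exact ⟨sub_mem a2 a0, by rw [redL_sub a2 a0, b2, b0, sub_self]⟩

include C in
theorem red20_sep : e20 M q (sepFn M q) ∈ GG A ∧ redL A (e20 M q (sepFn M q)) = 0 := by
  obtain ⟨a2, b2⟩ := red20_i2 (q := q) (jM0_GR (A := A) (M := M))
  obtain ⟨a1, b1⟩ := red20_i1 (q := q) (jM0_GR (A := A) (M := M))
  rw [sepFn, map_sub, map_pow]
  exact ⟨sub_mem a2 (pow_mem a1 q), by
    rw [redL_sub a2 (pow_mem a1 q), redL_pow a1, b2, b1, redS_jM0, qExpand_jqModC C, map_pow,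
      qExpand_jqModC C, sub_self]⟩

theorem red11_sep (ζ : PR q) : e11 M q C.prime C.not_dvd ζ (sepFn M q) ∈ GG A ∧
    redL A (e11 M q C.prime C.not_dvd ζ (sepFn M q)) = dBar A q := by
  obtain ⟨a2, b2⟩ := red11_i2 C ζ (jM0_GR (A := A) (M := M))
  obtain ⟨a1, b1⟩ := red11_i1 C ζ (jM0_GR (A := A) (M := M))
  rw [sepFn, map_sub, map_pow]
  refine ⟨sub_mem a2 (pow_mem a1 q), ?_⟩
  rw [redL_sub a2 (pow_mem a1 q), redL_pow a1, b2, b1, redS_jM0, qExpand_jqModC C, ← pow_mul]
  rfl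

theorem zero_or_scalable {e : FB (M * q * q) →ₐ[Qb] LS} (he : BddGen A e)
    (x : FB (M * q * q)) (C : Reduction.Ctx A M q) : e x = 0 ∨ Scalable A (e x) := by
  rcases eq_or_ne x 0 with rfl | hx
  · exact Or.inl (map_zero _)
  · exact Or.inr (scalable_of_bddGen C.prime C.lies he hx)

theorem small_of_red_zero {e : FB (M * q * q) →ₐ[Qb] LS} (he : BddGen A e) (x : FB (M * q * q))
    (C : Reduction.Ctx A M q) (h : e x ∈ GG A) (h0 : redL A (e x) = 0) :
    ∃ (c : Qb) (z : LS), A.valuation c < 1 ∧ z ∈ GG A ∧ e x = cL c * z := by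
  rcases zero_or_scalable he x C with h1 | h1
  · exact ⟨0, 0, by rw [map_zero]; exact zero_lt_one, zero_mem _, by rw [h1, mul_zero]⟩
  · exact exists_small_factor h1 h h0

theorem twist_inv_mem (ζ : PR q) {y : LS} (hy : y ∈ GG A) :
    (∀ (C : Reduction.Ctx A M q), Reduction.twist ζ.u⁻¹ y ∈ GG A ∧
      redL A (Reduction.twist ζ.u⁻¹ y) = redL A y) := fun C => by
  obtain ⟨u, hu, hu1⟩ := PR.exists_unit C ζ
  rw [← hu, ← map_inv]
  refine twist_mem_of_residue_one u⁻¹ ?_ hy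
  have h := congrArg (residue A) (show (u : A) * ((u⁻¹ : Aˣ) : A) = 1 from u.mul_inv)
  rwa [map_mul, hu1, one_mul, map_one] at h

theorem mem_of_mul_mem {K : IntermediateField (kA A) (LaurentSeries (kA A))}
    {r d : LaurentSeries (kA A)} (hd : d ∈ K) (hd0 : d ≠ 0) (h : r * d ∈ K) : r ∈ K := by
  have := div_mem h hd
  rwa [mul_div_assoc, div_self hd0, mul_one] at this

include C in
/-- branch `20` -/
theorem landing20 {x : FB (M * q * q)} (hx : e20 M q x ∈ GG A) :
    redL A (e20 M q x) ∈ modularFunctionFieldFullC (kA A) M := by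
  classical
  have hn : ∀ ζ : PR q, ∃ n₀ : ℕ, ∀ n, n₀ ≤ n →
      e11 M q C.prime C.not_dvd ζ x * e11 M q C.prime C.not_dvd ζ (piFn M q) ^ n ∈ GG A ∧
        redL A (e11 M q C.prime C.not_dvd ζ x *
          e11 M q C.prime C.not_dvd ζ (piFn M q) ^ n) = 0 := fun ζ => by
    obtain ⟨c, z, hc, hz, he⟩ := small_of_red_zero (bddGen_e11 C ζ) _ C
      (red11_pi_zero C ζ).1 (red11_pi_zero C ζ).2
    exact exists_pow_absorb C.prime C.lies (zero_or_scalable (bddGen_e11 C ζ) x C) hc hz he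
  choose n₀ hn₀ using hn
  set n := Finset.univ.sup n₀
  set T := trAlong (heckeAlphaBar Qb (M * q) q) (x * piFn M q ^ n)
  have hsmall : ∀ ζ : PR q,
      Reduction.twist ζ.u⁻¹ (e11 M q C.prime C.not_dvd ζ (x * piFn M q ^ n)) ∈ GG A ∧
      redL A (Reduction.twist ζ.u⁻¹ (e11 M q C.prime C.not_dvd ζ (x * piFn M q ^ n))) = 0 := by
    intro ζ
    rw [map_mul (e11 M q C.prime C.not_dvd ζ), map_pow (e11 M q C.prime C.not_dvd ζ)]
    obtain ⟨h1, h2⟩ := hn₀ ζ n (Finset.le_sup (Finset.mem_univ ζ))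
    obtain ⟨h3, h4⟩ := twist_inv_mem ζ h1 C
    exact ⟨h3, h4.trans h2⟩
  have hmain := mul_mem hx (pow_mem (red20_pi C).1 n)
  have hsum := sum_mem (t := Finset.univ) fun ζ _ => (hsmall ζ).1
  have hT : (T : LS) = e20 M q x * e20 M q (piFn M q) ^ n + ∑ ζ : PR q,
      Reduction.twist ζ.u⁻¹ (e11 M q C.prime C.not_dvd ζ (x * piFn M q ^ n)) := by
    rw [val_trAlong_alpha C.prime C.not_dvd, map_mul (e20 M q), map_pow (e20 M q)]
  have hr := redL_side_false C (y := T) (hT ▸ add_mem hmain hsum)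
  rw [hT, redL_add hmain hsum, redL_sum _ _ fun ζ _ => (hsmall ζ).1,
    Finset.sum_eq_zero fun ζ _ => (hsmall ζ).2, add_zero, redL_mul hx (pow_mem (red20_pi C).1 n),
    redL_pow (red20_pi C).1, (red20_pi C).2] at hr
  exact mem_of_mul_mem (pow_mem (neg_mem (dBar_mem C)) n)
    (pow_ne_zero _ (neg_ne_zero.mpr (dBar_ne_zero C))) hr

/-- branch `02` -/
theorem landing02 {x : FB (M * q * q)} (hx : e02 M q C.prime C.not_dvd x ∈ GG A) :
    redL A (e02 M q C.prime C.not_dvd x) ∈ modularFunctionFieldFullC (kA A) M := by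
  classical
  have hn : ∀ ζ : PR q, ∃ n₀ : ℕ, ∀ n, n₀ ≤ n →
      e11 M q C.prime C.not_dvd ζ x * e11 M q C.prime C.not_dvd ζ (piFn M q) ^ n ∈ GG A ∧
        redL A (e11 M q C.prime C.not_dvd ζ x *
          e11 M q C.prime C.not_dvd ζ (piFn M q) ^ n) = 0 := fun ζ => by
    obtain ⟨c, z, hc, hz, he⟩ := small_of_red_zero (bddGen_e11 C ζ) _ C
      (red11_pi_zero C ζ).1 (red11_pi_zero C ζ).2
    exact exists_pow_absorb C.prime C.lies (zero_or_scalable (bddGen_e11 C ζ) x C) hc hz he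
  choose n₀ hn₀ using hn
  set n := Finset.univ.sup n₀
  set T := trAlong (heckeBetaBar Qb (M * q) q) (x * piFn M q ^ n)
  have hsmall : ∀ ζ : PR q, e11 M q C.prime C.not_dvd ζ (x * piFn M q ^ n) ∈ GG A ∧
      redL A (e11 M q C.prime C.not_dvd ζ (x * piFn M q ^ n)) = 0 := fun ζ => by
    rw [map_mul (e11 M q C.prime C.not_dvd ζ), map_pow (e11 M q C.prime C.not_dvd ζ)]
    exact hn₀ ζ n (Finset.le_sup (Finset.mem_univ ζ))
  have hmain := mul_mem hx (pow_mem (red02_pi C).1 n)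
  have hsum := sum_mem (t := Finset.univ) fun ζ _ => (hsmall ζ).1
  have hT : s2 M q C.prime C.not_dvd T =
      e02 M q C.prime C.not_dvd x * e02 M q C.prime C.not_dvd (piFn M q) ^ n +
        ∑ ζ : PR q, e11 M q C.prime C.not_dvd ζ (x * piFn M q ^ n) := by
    rw [s2_trAlong_beta, map_mul (e02 M q C.prime C.not_dvd), map_pow (e02 M q C.prime C.not_dvd)]
  have hr := redL_side_true C (y := T) (hT ▸ add_mem hmain hsum)
  rw [hT, redL_add hmain hsum, redL_sum _ _ fun ζ _ => (hsmall ζ).1,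
    Finset.sum_eq_zero fun ζ _ => (hsmall ζ).2, add_zero, redL_mul hx (pow_mem (red02_pi C).1 n),
    redL_pow (red02_pi C).1, (red02_pi C).2] at hr
  exact mem_of_mul_mem (pow_mem (dBar_mem C) n) (pow_ne_zero _ (dBar_ne_zero C)) hr

/-- branch `11`, for rational functions -/
theorem landing11 {x : FB (M * q * q)} (hr : x ∈ rationalFn A (M * q * q)) (ζ₀ : PR q)
    (hx : e11 M q C.prime C.not_dvd ζ₀ x ∈ GG A) :
    redL A (e11 M q C.prime C.not_dvd ζ₀ x) ∈ modularFunctionFieldFullC (kA A) M := by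
  classical
  obtain ⟨c, z, hc, hz, he⟩ := small_of_red_zero bddGen_e20 _ C (red20_sep C).1 (red20_sep C).2
  obtain ⟨n, hn⟩ := exists_pow_absorb C.prime C.lies (zero_or_scalable bddGen_e20 x C) hc hz he
  obtain ⟨h20, h20'⟩ := hn n le_rfl
  set T := trAlong (heckeAlphaBar Qb (M * q) q) (x * sepFn M q ^ n)
  have hterm : ∀ ζ : PR q,
      Reduction.twist ζ.u⁻¹ (e11 M q C.prime C.not_dvd ζ (x * sepFn M q ^ n)) ∈ GG A ∧
      redL A (Reduction.twist ζ.u⁻¹ (e11 M q C.prime C.not_dvd ζ (x * sepFn M q ^ n))) =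
        redL A (e11 M q C.prime C.not_dvd ζ₀ x) * dBar A q ^ n := by
    intro ζ
    rw [map_mul (e11 M q C.prime C.not_dvd ζ), map_pow (e11 M q C.prime C.not_dvd ζ)]
    obtain ⟨h1, h1'⟩ := red11_indep C hr ζ₀ ζ hx
    obtain ⟨h2, h2'⟩ := red11_sep C ζ
    obtain ⟨h3, h4⟩ := twist_inv_mem ζ (mul_mem h1 (pow_mem h2 n)) C
    exact ⟨h3, by rw [h4, redL_mul h1 (pow_mem h2 n), redL_pow h2, h1', h2']⟩
  have hsum := sum_mem (t := Finset.univ) fun ζ _ => (hterm ζ).1
  have hT : (T : LS) = e20 M q x * e20 M q (sepFn M q) ^ n + ∑ ζ : PR q,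
      Reduction.twist ζ.u⁻¹ (e11 M q C.prime C.not_dvd ζ (x * sepFn M q ^ n)) := by
    rw [val_trAlong_alpha C.prime C.not_dvd, map_mul (e20 M q), map_pow (e20 M q)]
  have h := redL_side_false C (y := T) (hT ▸ add_mem h20 hsum)
  rw [hT, redL_add h20 hsum, h20', zero_add, redL_sum _ _ fun ζ _ => (hterm ζ).1,
    Finset.sum_congr rfl fun ζ _ => (hterm ζ).2, Finset.sum_const, nsmul_eq_mul, Finset.card_univ,
    card_PR C.prime, mul_comm ((q - 1 : ℕ) : LaurentSeries (kA A))] at h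
  have hne : ((q - 1 : ℕ) : LaurentSeries (kA A)) ≠ 0 := by
    rw [← map_natCast (algebraMap (kA A) (LaurentSeries (kA A)))]
    refine (_root_.map_ne_zero _).mpr (Reduction.natCast_residue_ne_zero A C.prime C.lies fun hd => ?_)
    have := C.prime.two_le
    have := Nat.le_of_dvd (by omega) hd
    omega
  exact mem_of_mul_mem (pow_mem (dBar_mem C) n) (pow_ne_zero _ (dBar_ne_zero C))
    (mem_of_mul_mem (natCast_mem _ _) hne h)

/-- residues on every branch lie in the function field of the special fibre of level `M` -/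
theorem landing (ζ : PR q) (b : Fin 3) (x : FB (M * q * q))
    (hr : x ∈ rationalFn A (M * q * q)) (hx : eB M q C.prime C.not_dvd ζ b x ∈ GG A) :
    ∃ r : FS A M,
      redL A (eB M q C.prime C.not_dvd ζ b x) = (r : LaurentSeries (kA A)) := by
  refine ⟨⟨_, ?_⟩, rfl⟩
  fin_cases b
  · exact landing20 C hx
  · exact landing02 C hx
  · exact landing11 C hr ζ hx

end FLTAgent.SS2

end
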