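import Fermat.Agent.SS2.Assemble
import Fermat.Agent.SS2.FibNormalise

/-!
A divisor whose trivialisation has norms that are constants times `n`-th powers is killed by a fixed
integer, given local generators of the twisted sections.
-/

set_option autoImplicit false
set_option linter.unusedSectionVars false
set_option linter.unusedVariables false
set_option linter.style.haveILetI false
set_option maxHeartbeats 600000

noncomputable section

open AlgebraicCurve IsLocalRing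
open FLTAgent.RR (Bd KK)
open FLTAgent.Reduction (Val)

namespace FLTAgent.SS2

/-- a constant with a given power -/
theorem exists_const_root {k L : Type*} [Field k] [IsAlgClosed k] [Field L] [Algebra k L] {n : ℕ}
    (hn : n ≠ 0) {x : L} {c : k} (h : x ^ n = algebraMap k L c) :
    ∃ μ : k, x = algebraMap k L μ ∧ μ ^ n = c := by
  classical
  set p : Polynomial k := Polynomial.X ^ n - Polynomial.C c with hp
  have hp0 : p ≠ 0 := (Polynomial.monic_X_pow_sub_C c hn).ne_zero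
  have hs : p.Splits := IsAlgClosed.splits p
  have hroot : x ∈ (p.map (algebraMap k L)).roots := by
    rw [Polynomial.mem_roots (Polynomial.map_ne_zero hp0)]
    simp [hp, h]
  rw [hs.roots_map] at hroot
  obtain ⟨μ, hμ, rfl⟩ := Multiset.mem_map.mp hroot
  refine ⟨μ, rfl, ?_⟩
  have := (Polynomial.mem_roots hp0).mp hμ
  simpa [hp, sub_eq_zero] using this

/-- `exists_root_of_pow` in a field -/
theorem exists_root_of_pow₀ {L : Type*} [Field L] {n q : ℕ} (hqn : Nat.Coprime q n) {r h : L}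
    (hr : r ≠ 0) (hh : h ≠ 0) (he : r ^ q = h ^ n) : ∃ g : L, g ≠ 0 ∧ r = g ^ n := by
  obtain ⟨g, hg⟩ := exists_root_of_pow hqn (r := Units.mk0 r hr) (h := Units.mk0 h hh)
    (Units.ext (by simpa using he))
  exact ⟨g, g.ne_zero, by simpa using congrArg Units.val hg⟩

namespace Fib

variable {K : Type*} [Field K] [IsAlgClosed K] [CharZero K] {A : ValuationSubring K}
  {F : Type*} [Field F] [Algebra K F] [RR.FnField K F]
  {Fs : Type*} [Field Fs] [Algebra (ResidueField A) Fs] (M : Fib K A F Fs) {n : ℕ}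

/-- `x` has exponent `i` on the component `b` -/
def HasExp (b : Fin 3) (x : F) (i : ℤ) : Prop :=
  x * M.ϖ b ^ (-i) ∈ M.G b ∧ M.red b (x * M.ϖ b ^ (-i)) ≠ 0

variable {M} in
theorem HasExp.ne_zero {b : Fin 3} {x : F} {i : ℤ} (h : M.HasExp b x i) : x ≠ 0 := fun h0 =>
  h.2 (by rw [h0, zero_mul, M.red_zero])

variable {M} in
theorem HasExp.mem_Ω {b : Fin 3} {x : F} {i : ℤ} (h : M.HasExp b x i) : x ∈ M.Ω := by
  have := mul_mem (M.G_le b _ h.1) (zpow_mem (M.ϖ_mem_Ω b) i)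
  rwa [mul_assoc, ← zpow_add₀ (M.ϖ_ne b), neg_add_cancel, zpow_zero, mul_one] at this

variable {M} in
theorem HasExp.mul {b : Fin 3} {x y : F} {i j : ℤ} (hx : M.HasExp b x i) (hy : M.HasExp b y j) :
    M.HasExp b (x * y) (i + j) := by
  have e : x * y * M.ϖ b ^ (-(i + j)) = (x * M.ϖ b ^ (-i)) * (y * M.ϖ b ^ (-j)) := by
    rw [neg_add, zpow_add₀ (M.ϖ_ne b)]
    ring
  refine ⟨e ▸ mul_mem hx.1 hy.1, ?_⟩
  rw [e, M.red_mul b _ hx.1 _ hy.1]
  exact mul_ne_zero hx.2 hy.2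

variable {M} in
theorem HasExp.inv {b : Fin 3} {x : F} {i : ℤ} (hx : M.HasExp b x i) : M.HasExp b x⁻¹ (-i) := by
  have e : x⁻¹ * M.ϖ b ^ (- -i) = (x * M.ϖ b ^ (-i))⁻¹ := by
    rw [mul_inv, ← zpow_neg]
  have h := M.inv_mem_G b hx.1 hx.2
  refine ⟨e ▸ h.1, ?_⟩
  rw [e, h.2]
  exact inv_ne_zero hx.2

variable {M} in
theorem HasExp.pow {b : Fin 3} {x : F} {i : ℤ} (hx : M.HasExp b x i) :
    ∀ k : ℕ, M.HasExp b (x ^ k) (k * i)
  | 0 => by
    refine ⟨?_, ?_⟩ <;> simp [M.red_one, one_mem]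
  | k + 1 => by
    have h := (HasExp.pow hx k).mul hx
    rw [show (k : ℤ) * i + i = ((k + 1 : ℕ) : ℤ) * i by push_cast; ring, ← pow_succ] at h
    exact h

variable {M} in
theorem HasExp.zpow {b : Fin 3} {x : F} {i : ℤ} (hx : M.HasExp b x i) :
    ∀ k : ℤ, M.HasExp b (x ^ k) (k * i)
  | .ofNat k => by simpa using hx.pow k
  | .negSucc k => by
    have h := (hx.pow (k + 1)).inv
    rw [show Int.negSucc k * i = -(((k + 1 : ℕ) : ℤ) * i) by
      rw [Int.negSucc_eq]; push_cast; ring, zpow_negSucc]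
    exact h

variable {M} in
theorem HasExp.unique {b : Fin 3} {x : F} {i j : ℤ} (hi : M.HasExp b x i) (hj : M.HasExp b x j) :
    i = j := by
  have key : ∀ {i j : ℤ}, M.HasExp b x i → M.HasExp b x j → i ≤ j := by
    intro i j hi hj
    by_contra hlt
    refine hj.2 ?_
    have h := (M.zpow_ϖ_mul b hi.1 (show 1 ≤ i - j by omega)).2
    rwa [mul_left_comm, ← zpow_add₀ (M.ϖ_ne b), show i - j + -i = -j by ring] at h
  exact le_antisymm (key hi hj) (key hj hi)

theorem exists_hasExp (b : Fin 3) {x : F} (hx : x ∈ M.Ω) (hx0 : x ≠ 0) : ∃ i, M.HasExp b x i :=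
  M.exists_scale b x hx hx0

variable {M} in
theorem HasExp.zero_iff {b : Fin 3} {x : F} :
    M.HasExp b x 0 ↔ x ∈ M.G b ∧ M.red b x ≠ 0 := by
  simp [HasExp]

theorem hasExp_q (b : Fin 3) : M.HasExp b (algebraMap K F (M.q : K)) (M.e b) := by
  have h := M.q_eq b
  rwa [← zpow_natCast, ← zpow_neg] at h

/-- exponents of rational constants -/
theorem exists_hasExp_const {c : K} (hc : c ∈ M.T) (hc0 : c ≠ 0) :
    ∃ l : ℤ, A.valuation c = A.valuation (M.q : K) ^ l ∧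
      ∀ b, M.HasExp b (algebraMap K F c) (l * M.e b) := by
  obtain ⟨l, hl⟩ := M.val_T c hc hc0
  refine ⟨l, hl, fun b => ?_⟩
  set u := c * ((M.q : K) ^ l)⁻¹ with hu
  have huT : u ∈ M.T := mul_mem hc (inv_mem (zpow_mem M.q_mem_T _))
  have hval : A.valuation u = 1 := by
    rw [hu, map_mul, map_inv₀, map_zpow₀, hl, mul_inv_cancel₀]
    exact zpow_ne_zero _ ((_root_.map_ne_zero _).mpr M.q_ne)
  have huA : u ∈ A := by rw [← A.valuation_le_one_iff, hval]
  have hur : residue A ⟨u, huA⟩ ≠ 0 := by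
    rw [Ne, residue_eq_zero_iff, ValuationSubring.valuation_lt_one_iff]
    simp [hval]
  have h1 : M.HasExp b (algebraMap K F u) 0 := by
    rw [HasExp.zero_iff]
    refine ⟨M.const_mem b ⟨u, huA⟩ huT, ?_⟩
    rw [M.red_const b ⟨u, huA⟩ huT]
    exact (_root_.map_ne_zero _).mpr hur
  have h := ((M.hasExp_q b).zpow l).mul h1
  rwa [add_zero, ← map_zpow₀, ← map_mul,
    show (M.q : K) ^ l * u = c by
      rw [hu, mul_left_comm, mul_inv_cancel₀ (zpow_ne_zero _ M.q_ne), mul_one]] at h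

/-- the branch next to the middle one (`2`) under the first resp. second projection -/
def side : Bool → Fin 3
  | false => 0
  | true => 1

/-- The norms along the two projections, read inside the function field. -/
structure Norms (M : Fib K A F Fs) where
  /-- the norm along a projection, pulled back -/
  N : Bool → (F →* F)
  mem : ∀ t, ∀ x ∈ M.Ω, N t x ∈ M.Ω
  ne_zero : ∀ t, ∀ x : F, x ≠ 0 → N t x ≠ 0
  const : ∀ t, ∀ c ∈ M.T, N t (algebraMap K F c) = algebraMap K F c ^ M.q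
  red_side : ∀ t x, x ∈ M.G (side t) → x ∈ M.G 2 →
    N t x ∈ M.G (side t) ∧ N t x ∈ M.G 2 ∧
    M.red (side t) (N t x) = M.red (side t) x * M.red 2 x ^ (M.q - 1) ∧
    M.red 2 (N t x) = M.red (side t) x * M.red 2 x ^ (M.q - 1)
  red_other : ∀ t x, x ∈ M.G (side (!t)) → N t x ∈ M.G (side (!t)) ∧
    M.red (side (!t)) (N t x) = M.red (side (!t)) x ^ M.q
  exp_side : ∀ t x i k, M.HasExp (side t) x i → M.HasExp 2 x k →
    M.HasExp (side t) (N t x) (i + k)
  exp_other : ∀ t x i, M.HasExp (side (!t)) x i → M.HasExp (side (!t)) (N t x) ((M.q : ℤ) * i)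
  regular : ∀ t s, ∀ x ∈ M.R s, ∃ U ∈ M.R s, U * N t x ∈ M.R s ∧
    ∃ c : ResidueField A, c ≠ 0 ∧ ∀ b, M.red b U = algebraMap (ResidueField A) Fs c

variable {M} (Nm : Norms M)

/-- the norm of a normalised trivialisation is a unit times an `n`-th power of a unit on all components -/
theorem Norms.exists_unit_root (he : ∀ t, M.e (side t) = 1) (hn : n ≠ 0) (t : Bool) {f G : F}
    {lam : K} (hlam : lam ∈ M.T) (hlam0 : lam ≠ 0) (hG : G ∈ M.Ω) (hG0 : G ≠ 0)
    (hNf : Nm.N t f = algebraMap K F lam * G ^ n) (hf : ∀ b, M.HasExp b f 0) :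
    ∃ (u : K) (G' : F), u ∈ M.T ∧ u ≠ 0 ∧ G' ∈ M.Ω ∧ Nm.N t f = algebraMap K F u * G' ^ n ∧
      ∀ b, M.HasExp b G' 0 ∧ M.HasExp b (algebraMap K F u) 0 := by
  choose g hg using fun b => M.exists_hasExp b hG hG0
  obtain ⟨l, -, hl⟩ := M.exists_hasExp_const hlam hlam0
  have hexp : ∀ b, M.HasExp b (Nm.N t f) (l * M.e b + n * g b) := fun b => by
    rw [hNf]; exact (hl b).mul ((hg b).pow n)
  have hzero : ∀ b, M.HasExp b (Nm.N t f) 0 := by
    intro b
    have h2 := Nm.red_side t f (HasExp.zero_iff.mp (hf (side t))).1 (HasExp.zero_iff.mp (hf 2)).1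
    have h1 := Nm.red_other t f (HasExp.zero_iff.mp (hf (side (!t)))).1
    have hne : M.red (side t) f * M.red 2 f ^ (M.q - 1) ≠ 0 :=
      mul_ne_zero (HasExp.zero_iff.mp (hf _)).2 (pow_ne_zero _ (HasExp.zero_iff.mp (hf 2)).2)
    have hcases : b = side t ∨ b = side (!t) ∨ b = 2 := by
      cases t <;> fin_cases b <;> simp [side]
    rcases hcases with rfl | rfl | rfl
    · exact HasExp.zero_iff.mpr ⟨h2.1, h2.2.2.1 ▸ hne⟩
    · exact HasExp.zero_iff.mpr ⟨h1.1, h1.2 ▸ pow_ne_zero _ (HasExp.zero_iff.mp (hf _)).2⟩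
    · exact HasExp.zero_iff.mpr ⟨h2.2.1, h2.2.2.2 ▸ hne⟩
  have hl' : l = -((n : ℤ) * g (side t)) := by
    have := (hexp (side t)).unique (hzero (side t))
    rw [he t] at this
    push_cast at this
    linarith
  set w : ℤ := g (side t)
  refine ⟨lam * ((M.q : K) ^ w) ^ n, G * (algebraMap K F ((M.q : K) ^ w))⁻¹,
    mul_mem hlam (pow_mem (zpow_mem M.q_mem_T _) _),
    mul_ne_zero hlam0 (pow_ne_zero _ (zpow_ne_zero _ M.q_ne)),
    mul_mem hG (inv_mem (M.const_Ω _ (zpow_mem M.q_mem_T _))), ?_, fun b => ⟨?_, ?_⟩⟩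
  · rw [hNf, map_mul, map_pow, mul_pow, inv_pow, mul_mul_mul_comm,
      mul_inv_cancel₀ (pow_ne_zero _ ((_root_.map_ne_zero _).mpr (zpow_ne_zero _ M.q_ne))), mul_one]
  · have h := (hg b).mul ((M.hasExp_q b).zpow w).inv
    rw [← map_zpow₀] at h
    have he' : g b + -(w * M.e b) = 0 := by
      have := (hexp b).unique (hzero b)
      rw [hl'] at this
      have h0 : (n : ℤ) * (g b + -(w * M.e b)) = 0 := by linear_combination this
      exact (mul_eq_zero.mp h0).resolve_left (by exact_mod_cast hn)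
    rwa [he'] at h
  · have h := (hl b).mul (((M.hasExp_q b).zpow w).pow n)
    rw [← map_zpow₀, ← map_pow, ← map_mul] at h
    rwa [show l * (M.e b : ℤ) + n * (w * M.e b) = 0 by rw [hl']; ring] at h

theorem mem_A_of_hasExp {c : K} (hc : c ∈ M.T) (hc0 : c ≠ 0) {b : Fin 3}
    (h : M.HasExp b (algebraMap K F c) 0) : c ∈ A := by
  obtain ⟨l, hl, hl'⟩ := M.exists_hasExp_const hc hc0
  have h0 := (hl' b).unique h
  have : l = 0 := (mul_eq_zero.mp h0).resolve_right (by exact_mod_cast (M.e_pos b).ne')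
  rw [← A.valuation_le_one_iff, hl, this, zpow_zero]

/-- a unit on a component: exponent zero -/
theorem HasExp.red_ne {b : Fin 3} {x : F} (h : M.HasExp b x 0) : M.red b x ≠ 0 :=
  (HasExp.zero_iff.mp h).2

theorem HasExp.mem_G {b : Fin 3} {x : F} (h : M.HasExp b x 0) : x ∈ M.G b :=
  (HasExp.zero_iff.mp h).1

theorem side_or (b : Fin 3) (t : Bool) : b = side t ∨ b = side (!t) ∨ b = 2 := by
  cases t <;> fin_cases b <;> simp [side]

/-- residues of the norm of a unit -/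
theorem Norms.red_unit (t : Bool) {x : F} (hx : ∀ b, x ∈ M.G b) :
    (∀ b, Nm.N t x ∈ M.G b) ∧
    M.red (side t) (Nm.N t x) = M.red (side t) x * M.red 2 x ^ (M.q - 1) ∧
    M.red 2 (Nm.N t x) = M.red (side t) x * M.red 2 x ^ (M.q - 1) ∧
    M.red (side (!t)) (Nm.N t x) = M.red (side (!t)) x ^ M.q := by
  have h2 := Nm.red_side t x (hx _) (hx _)
  have h1 := Nm.red_other t x (hx _)
  refine ⟨fun b => ?_, h2.2.2.1, h2.2.2.2, h1.2⟩
  rcases side_or b t with rfl | rfl | rfl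
  exacts [h2.1, h1.1, h2.2.1]

/-- roots of functions bounded at a place -/
theorem bd_of_pow {v : Place K F} {x : F} {k : ℕ} (hk : k ≠ 0) (h : Bd v (x ^ k) 0) : Bd v x 0 := by
  rcases eq_or_ne x 0 with rfl | hx
  · exact RR.Bd.zero
  rw [RR.bd_iff_ord (pow_ne_zero _ hx), RR.ord_pow] at h
  rw [RR.bd_iff_ord hx]
  have : (1 : ℤ) ≤ k := by exact_mod_cast Nat.pos_of_ne_zero hk
  nlinarith

/-- the product of a norm of a local section with the root of the norm of the trivialisation takes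
equal values on the branches through a point -/
theorem Norms.ratio (hn : n ≠ 0) (W : M.Twist n) (t : Bool) {u : K} (huT : u ∈ M.T) (hu0 : u ≠ 0)
    {G : F} (hNf : Nm.N t W.f = algebraMap K F u * G ^ n)
    (hG : ∀ b, M.HasExp b G 0 ∧ M.HasExp b (algebraMap K F u) 0) (μ : Fin 3 → ResidueField A)
    (hμ : ∀ b, M.red b G = algebraMap (ResidueField A) Fs (μ b)) {s : Bool} {g : F}
    (hg : g ∈ M.I W.D s) (Q : Place (ResidueField A) Fs)
    (hQ : ∀ b, InChart s (Q.ord (M.Jbar b)))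
    (hsame : ∀ b b', M.SamePt s b Q b' Q) (ζ : Fin 3 → ResidueField A)
    (hζ : ∀ b, Val Q (M.red b g) (ζ b)) :
    ζ (side t) * ζ 2 ^ (M.q - 1) * μ (side t) = ζ (side (!t)) ^ M.q * μ (side (!t)) ∧
      ζ (side t) * ζ 2 ^ (M.q - 1) * μ 2 = ζ (side (!t)) ^ M.q * μ (side (!t)) := by
  have hgG := M.GI_iff.mp hg.1
  have hfG : ∀ b, W.f ∈ M.G b := W.f_mem
  -- the regular function `v = gⁿ f`
  have hv : g ^ n * W.f ∈ M.R s := by
    refine ⟨M.GI_iff.mpr fun b => mul_mem (pow_mem (hgG b) n) (hfG b), fun P hP => ?_⟩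
    rcases eq_or_ne g 0 with hg0 | hg0
    · rw [hg0, zero_pow hn, zero_mul]; exact RR.Bd.zero
    have h := (RR.bd_iff_ord hg0).mp (hg.2 P hP)
    rw [RR.bd_iff_ord (mul_ne_zero (pow_ne_zero _ hg0) W.f_ne),
      P.ord_mul (pow_ne_zero _ hg0) W.f_ne, RR.ord_pow, ← W.ord_f]
    simp only [Finsupp.coe_zero, Pi.zero_apply]
    nlinarith
  obtain ⟨U, hU, hUN, c, hc, hUr⟩ := Nm.regular t s _ hv
  obtain ⟨hNg, hNg1, hNg2, hNg3⟩ := Nm.red_unit t hgG
  set H := Nm.N t g * G * U with hH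
  have hUG := M.GI_iff.mp hU.1
  have hHG : ∀ b, H ∈ M.G b := fun b => mul_mem (mul_mem (hNg b) (hG b).1.mem_G) (hUG b)
  have hui : algebraMap K F u ≠ 0 := (_root_.map_ne_zero _).mpr hu0
  have hpow : H ^ n = algebraMap K F u⁻¹ * (U ^ (n - 1) * (U * Nm.N t (g ^ n * W.f))) := by
    obtain ⟨m, rfl⟩ := Nat.exists_eq_succ_of_ne_zero hn
    rw [Nat.succ_sub_one, map_mul, map_pow, hNf, hH, map_inv₀, mul_pow, mul_pow]
    field_simp
    simp only [Nat.succ_eq_add_one, pow_succ]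
    ring
  have hHR : H ∈ M.R s := by
    refine ⟨M.GI_iff.mpr hHG, fun P hP => ?_⟩
    simp only [Finsupp.coe_zero, Pi.zero_apply]
    refine bd_of_pow hn ?_
    rw [hpow]
    have h1 := (pow_mem hU (n - 1))
    have h2 := (mul_mem h1 hUN).2 P hP
    simpa using (RR.Bd.of_algebraMap (v := P) u⁻¹).mul h2
  -- values of `H`
  have hval : ∀ b r, Val Q (M.red b (Nm.N t g)) r →
      Val Q (M.red b H) (r * μ b * c) := by
    intro b r hr
    rw [hH, M.red_mul b _ (mul_mem (hNg b) (hG b).1.mem_G) _ (hUG b),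
      M.red_mul b _ (hNg b) _ (hG b).1.mem_G, hμ, hUr]
    exact (hr.mul (Val.const (v := Q) (μ b))).mul (Val.const c)
  have h0 := hval (side t) _ (by rw [hNg1]; exact (hζ _).mul ((hζ 2).pow _))
  have h1 := hval 2 _ (by rw [hNg2]; exact (hζ _).mul ((hζ 2).pow _))
  have h2 := hval (side (!t)) _ (by rw [hNg3]; exact (hζ _).pow _)
  exact ⟨mul_right_cancel₀ hc (((hsame _ _).val_eq M hHR h0).unique h2),
    mul_right_cancel₀ hc (((hsame _ _).val_eq M hHR h1).unique h2)⟩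

variable (t : Bool → Fs) (htr : ∀ s, Transcendental (ResidueField A) (t s))
  (hfd : ∀ s, FiniteDimensional (KK (ResidueField A) (t s)) Fs)
  (hsep : ∀ s, Algebra.IsSeparable (KK (ResidueField A) (t s)) Fs)
  (hchart : ∀ s b (Q : Place (ResidueField A) Fs), InChart s (Q.ord (M.Jbar b)) ↔ Bd Q (t s) 0)
  (p : ℕ) [Fact p.Prime] [CharP (ResidueField A) p] [IsAlgClosed (ResidueField A)]

include htr hfd hsep hchart p in
/-- the divisor of a rational function whose norms are constants times `n`-th powers is killed by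
`(q + 1)(q - 1)(q² - 1)` -/
theorem Norms.kill (hA : SS.Arch A) (hn : (n : ResidueField A) ≠ 0) (hq : 2 ≤ M.q)
    (hqn : Nat.Coprime M.q n) (he : ∀ b, M.e b = if b = 2 then M.q - 1 else 1)
    (hgen : ∀ (W : M.Twist n) s b (Q : Place (ResidueField A) Fs), InChart s (Q.ord (M.Jbar b)) →
      ∃ g ∈ M.I W.D s, ∃ c : ResidueField A, c ≠ 0 ∧ ∀ b' (Q' : Place (ResidueField A) Fs),
        InChart s (Q'.ord (M.Jbar b')) → M.SamePt s b Q b' Q' →
          ∃ ζ, Val Q' (M.red b' g) ζ ∧ ζ ^ n = c)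
    (hclass : ∀ s b (Q : Place (ResidueField A) Fs), InChart s (Q.ord (M.Jbar b)) →
      (∀ b' (Q' : Place (ResidueField A) Fs), InChart s (Q'.ord (M.Jbar b')) →
        M.SamePt s b Q b' Q' → b' = b ∧ Q' = Q) ∨
      ((∀ b', InChart s (Q.ord (M.Jbar b'))) ∧ (∀ b' b'', M.SamePt s b' Q b'' Q) ∧
        ∀ b' (Q' : Place (ResidueField A) Fs), InChart s (Q'.ord (M.Jbar b')) →
          M.SamePt s b Q b' Q' → Q' = Q))
    {D : Divisor K F} {f : F} (hD : Divisor.degree D = 0) (hf : f ∈ M.Ω) (hf0 : f ≠ 0)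
    (hord : ∀ P : Place K F, (n : ℤ) * D P = P.ord f)
    (hnorm : ∀ d : Bool, ∃ G ∈ M.Ω, ∃ lam ∈ M.T, lam ≠ 0 ∧ G ≠ 0 ∧
      Nm.N d f = algebraMap K F lam * G ^ n) :
    ∃ x : F, x ≠ 0 ∧ ∀ P : Place K F,
      (((M.q + 1) * (M.q - 1) * (M.q ^ 2 - 1) : ℕ) : ℤ) * D P = P.ord x := by
  classical
  have hn0 : n ≠ 0 := fun h => hn (by simp [h])
  have hq1 : ((M.q - 1 : ℕ) : ℤ) = (M.q : ℤ) - 1 := by push_cast [Nat.cast_sub (by omega : 1 ≤ M.q)]; ring
  have hes : ∀ d : Bool, M.e (side d) = 1 := fun d => by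
    rw [he]; cases d <;> simp [side]
  have he1 : (M.e 2 : ℤ) = (M.q : ℤ) - 1 := by rw [he, if_pos rfl, hq1]
  haveI : HasPrincipalDivisors K F := RR.hasPrincipalDivisors
  -- step one: the valuations
  choose G hG lam hlam hlam0 hG0 hNf using hnorm
  choose i hi using fun b => M.exists_hasExp b hf hf0
  choose g hg using fun d b => M.exists_hasExp b (hG d) (hG0 d)
  choose l _ hl using fun d => M.exists_hasExp_const (hlam d) (hlam0 d)
  have hs : ∀ d, i (side d) + i 2 = l d + n * g d (side d) ∧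
      (M.q : ℤ) * i (side (!d)) = l d + n * g d (side (!d)) := fun d => by
    have hexp : ∀ b, M.HasExp b (Nm.N d f) (l d * M.e b + n * g d b) := fun b => by
      rw [hNf]; exact (hl d b).mul ((hg d b).pow n)
    have h1 := (Nm.exp_side d f _ _ (hi (side d)) (hi 2)).unique (hexp _)
    have h2 := (Nm.exp_other d f _ (hi (side (!d)))).unique (hexp _)
    rw [hes, Nat.cast_one, mul_one] at h1 h2
    exact ⟨h1, h2⟩
  obtain ⟨hc1, hc2⟩ := valuations_congr (n := n) (q := M.q) (hs false).1 (hs false).2 (hs true).1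
    (hs true).2
  set v : ℤ := ((M.q : ℤ) + 1) * i (side false) with hv
  set Cq : F := algebraMap K F ((M.q : K) ^ v) with hCq
  have hCq0 : Cq ≠ 0 := (_root_.map_ne_zero _).mpr (zpow_ne_zero _ M.q_ne)
  have hexp1 : ∀ b, M.HasExp b (f ^ (M.q + 1) * Cq⁻¹) (((M.q : ℤ) + 1) * i b - v * M.e b) := by
    intro b
    have h := ((hi b).pow (M.q + 1)).mul ((M.hasExp_q b).zpow v).inv
    rw [← map_zpow₀, ← hCq] at h
    rwa [show ((M.q + 1 : ℕ) : ℤ) * i b + -(v * M.e b) = ((M.q : ℤ) + 1) * i b - v * M.e b by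
      push_cast; ring] at h
  have hdiv : ∀ b, (n : ℤ) ∣ ((M.q : ℤ) + 1) * i b - v * M.e b := by
    intro b
    rcases side_or b false with rfl | rfl | rfl
    · rw [hes, hv, Nat.cast_one, mul_one, sub_self]; exact dvd_zero _
    · rw [hes, hv, Nat.cast_one, mul_one]
      obtain ⟨d, hd⟩ := hc1
      exact ⟨-d, by rw [mul_neg, ← hd]; simp only [Bool.not_false]; ring⟩
    · rw [he1, hv, show ((M.q : ℤ) + 1) * i (side false) * ((M.q : ℤ) - 1) =
        ((M.q : ℤ) - 1) * (((M.q : ℤ) + 1) * i (side false)) by ring]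
      exact hc2
  choose a ha using hdiv
  -- step two: remove the exponents
  haveI := hfd false
  haveI := hsep false
  have hct : ∀ b (Q : Place (ResidueField A) Fs), InChart false (Q.ord (M.Jbar b)) → Bd Q (t false) 0 :=
    fun b Q hQ => (hchart false b Q).mp hQ
  obtain ⟨φ0, hφ0, hφ⟩ := M.exists_approx (htr false) hct a (fun _ => 1) (fun _ => one_ne_zero)
  have hφe : ∀ b, M.HasExp b φ0 (a b) := fun b => ⟨(hφ b).1, (hφ b).2 ▸ one_ne_zero⟩
  have hφ00 : φ0 ≠ 0 := (hφe 0).ne_zero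
  set f2 := f ^ (M.q + 1) * Cq⁻¹ * (φ0 ^ n)⁻¹ with hf2
  have hexp2 : ∀ b, M.HasExp b f2 0 := fun b => by
    have h := (hexp1 b).mul ((hφe b).pow n).inv
    rw [ha, add_neg_cancel] at h
    exact h
  have hroot2 : ∀ d, ∃ (u : K) (G' : F), u ∈ M.T ∧ u ≠ 0 ∧ G' ∈ M.Ω ∧
      Nm.N d f2 = algebraMap K F u * G' ^ n ∧
      ∀ b, M.HasExp b G' 0 ∧ M.HasExp b (algebraMap K F u) 0 := fun d => by
    refine Nm.exists_unit_root hes hn0 d (lam := lam d ^ (M.q + 1) * (((M.q : K) ^ v) ^ M.q)⁻¹)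
      (G := G d ^ (M.q + 1) * (Nm.N d φ0)⁻¹) ?_ ?_ ?_ ?_ ?_ hexp2
    · exact mul_mem (pow_mem (hlam d) _) (inv_mem (pow_mem (zpow_mem M.q_mem_T _) _))
    · exact mul_ne_zero (pow_ne_zero _ (hlam0 d)) (inv_ne_zero (pow_ne_zero _ (zpow_ne_zero _ M.q_ne)))
    · exact mul_mem (pow_mem (hG d) _) (inv_mem (Nm.mem d _ hφ0))
    · exact mul_ne_zero (pow_ne_zero _ (hG0 d)) (inv_ne_zero (Nm.ne_zero d _ hφ00))
    · have hinv : ∀ x : F, x ≠ 0 → Nm.N d x⁻¹ = (Nm.N d x)⁻¹ := fun x hx =>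
        eq_inv_of_mul_eq_one_left (by rw [← map_mul, inv_mul_cancel₀ hx, map_one])
      rw [hf2, map_mul, map_mul, map_pow, hinv _ hCq0, hinv _ (pow_ne_zero _ hφ00), map_pow, hNf,
        hCq, Nm.const d _ (zpow_mem M.q_mem_T _), map_mul, map_pow, map_inv₀, map_pow, mul_pow,
        mul_pow, inv_pow, ← pow_mul, ← pow_mul, mul_comm n (M.q + 1)]
      ring
  choose u2 G2 hu2 hu20 hG2 hN2 hG2e using hroot2
  -- residues are `n`-th powers up to `q - 1`
  have hr : ∀ d, ∃ c : ResidueField A,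
      M.red (side d) f2 * M.red 2 f2 ^ (M.q - 1) =
        algebraMap (ResidueField A) Fs c * M.red (side d) (G2 d) ^ n ∧
      M.red (side (!d)) f2 ^ M.q =
        algebraMap (ResidueField A) Fs c * M.red (side (!d)) (G2 d) ^ n := fun d => by
    obtain ⟨hN, h1, -, h3⟩ := Nm.red_unit d fun b => (hexp2 b).mem_G
    have huA : ((u2 d : K)) ∈ A := mem_A_of_hasExp (hu2 d) (hu20 d) (hG2e d (side d)).2
    refine ⟨residue A ⟨u2 d, huA⟩, ?_, ?_⟩ <;>
      [rw [← h1]; rw [← h3]] <;>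
      rw [hN2, M.red_mul _ _ (hG2e d _).2.mem_G _ (pow_mem (hG2e d _).1.mem_G n),
        M.red_pow _ (hG2e d _).1.mem_G, M.red_const _ ⟨u2 d, huA⟩ (hu2 d)]
  choose c2 hc2a hc2b using hr
  have hne : ∀ b, M.red b f2 ≠ 0 := fun b => (hexp2 b).red_ne
  have hc2n : ∀ d, ∃ κ : ResidueField A, κ ^ n = c2 d :=
    fun d => IsAlgClosed.exists_pow_nat_eq _ hn0.bot_lt
  choose κ hκ using hc2n
  have hκne : ∀ d, algebraMap (ResidueField A) Fs (κ d) ≠ 0 := fun d h0 => by
    have h := hc2b d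
    rw [← hκ d, map_pow, h0, zero_pow hn0, zero_mul] at h
    exact pow_ne_zero _ (hne _) h
  have hroot : ∀ b, ∃ h : Fs, h ≠ 0 ∧ M.red b f2 ^ (M.q - 1) = h ^ n := by
    have hout : ∀ d, ∃ h : Fs, h ≠ 0 ∧ M.red (side (!d)) f2 = h ^ n := fun d =>
      exists_root_of_pow₀ hqn (hne _)
        (mul_ne_zero (hκne d) (hG2e d (side (!d))).1.red_ne)
        (by rw [hc2b, ← hκ d, map_pow, mul_pow])
    intro b
    rcases side_or b false with rfl | rfl | rfl
    · obtain ⟨h, h0, hh⟩ := hout true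
      exact ⟨h ^ (M.q - 1), pow_ne_zero _ h0, by
        rw [← pow_mul, mul_comm, pow_mul, ← hh]; rfl⟩
    · obtain ⟨h, h0, hh⟩ := hout false
      exact ⟨h ^ (M.q - 1), pow_ne_zero _ h0, by rw [← pow_mul, mul_comm, pow_mul, ← hh]⟩
    · obtain ⟨h, h0, hh⟩ := hout true
      refine ⟨algebraMap (ResidueField A) Fs (κ false) * M.red (side false) (G2 false) / h,
        div_ne_zero (mul_ne_zero (hκne false) (hG2e _ _).1.red_ne) h0, ?_⟩
      have := hc2a false
      rw [← hκ false, map_pow, show M.red (side false) f2 = h ^ n from hh] at this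
      rw [div_pow, mul_pow, eq_div_iff (pow_ne_zero _ h0), mul_comm, this]
  choose h hh0 hh using hroot
  -- step three: the twist congruent to one
  set f3 := f2 ^ (M.q - 1) with hf3
  set D1 : Divisor K F := (M.q + 1) • D with hD1
  obtain ⟨E0, hE0, hE0d⟩ := HasPrincipalDivisors.exists_divisor (K := K) (F := F) φ0 hφ00
  have hf20 : f2 ≠ 0 := (hexp2 0).ne_zero
  have hord2 : ∀ P : Place K F,
      (n : ℤ) * ((M.q - 1) • (D1 - E0) : Divisor K F) P = P.ord f3 := by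
    intro P
    rw [hf3, RR.ord_pow, hf2, P.ord_mul (mul_ne_zero (pow_ne_zero _ hf0) (inv_ne_zero hCq0))
      (inv_ne_zero (pow_ne_zero _ hφ00)), P.ord_mul (pow_ne_zero _ hf0) (inv_ne_zero hCq0),
      P.ord_inv, P.ord_inv, RR.ord_pow, RR.ord_pow, hCq, RR.ord_algebraMap, ← hord]
    simp only [hD1, Finsupp.smul_apply, Finsupp.sub_apply, nsmul_eq_mul, hE0]
    push_cast
    ring
  obtain ⟨φ, W, hφΩ, hφ0', hWD, hWf⟩ := M.exists_twist (htr false) hct
    (D := (M.q - 1) • (D1 - E0)) (f := f3) (by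
      rw [hD1, map_nsmul, map_sub, map_nsmul, hD, hE0d, smul_zero, sub_zero, smul_zero])
    (pow_ne_zero _ hf20) hord2 (fun _ => 0) h hh0 (fun b => by
      have hm := (hexp2 b).mem_G
      simp only [mul_zero, neg_zero, zpow_zero, mul_one]
      exact ⟨pow_mem hm _, by rw [hf3, M.red_pow b hm, hh b]⟩)
  have hW0 : ∀ b, M.HasExp b W.f 0 := fun b =>
    HasExp.zero_iff.mpr ⟨W.f_mem b, by rw [W.red_f]; exact one_ne_zero⟩
  have hroot4 : ∀ d, ∃ (u : K) (G' : F), u ∈ M.T ∧ u ≠ 0 ∧ G' ∈ M.Ω ∧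
      Nm.N d W.f = algebraMap K F u * G' ^ n ∧
      ∀ b, M.HasExp b G' 0 ∧ M.HasExp b (algebraMap K F u) 0 := fun d => by
    refine Nm.exists_unit_root hes hn0 d (lam := u2 d ^ (M.q - 1))
      (G := G2 d ^ (M.q - 1) * (Nm.N d φ)⁻¹) (pow_mem (hu2 d) _) (pow_ne_zero _ (hu20 d))
      (mul_mem (pow_mem (hG2 d) _) (inv_mem (Nm.mem d _ hφΩ)))
      (mul_ne_zero (pow_ne_zero _ (hG2e d 0).1.ne_zero) (inv_ne_zero (Nm.ne_zero d _ hφ0'))) ?_ hW0
    have e : Nm.N d W.f * Nm.N d φ ^ n = Nm.N d f2 ^ (M.q - 1) := by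
      rw [← map_pow, ← map_pow, ← map_mul, hWf, div_mul_cancel₀ _ (pow_ne_zero _ hφ0'), hf3]
    rw [← mul_inv_cancel_right₀ (pow_ne_zero n (Nm.ne_zero d _ hφ0')) (Nm.N d W.f), e, hN2,
      mul_pow, mul_pow, map_pow, inv_pow, ← pow_mul, ← pow_mul, mul_comm n (M.q - 1), mul_assoc]
  choose u4 G4 hu4 hu40 hG4 hN4 hG4e using hroot4
  -- the constants
  have hμ : ∀ d, ∃ (ū : ResidueField A) (μ : Fin 3 → ResidueField A), ū ≠ 0 ∧
      ∀ b, M.red b (G4 d) = algebraMap (ResidueField A) Fs (μ b) ∧ μ b ^ n = ū := fun d => by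
    have huA : u4 d ∈ A := mem_A_of_hasExp (hu4 d) (hu40 d) (hG4e d 0).2
    set v := residue A ⟨u4 d, huA⟩
    have hv0 : v ≠ 0 := fun h0 => (hG4e d 0).2.red_ne (by
      rw [M.red_const 0 ⟨u4 d, huA⟩ (hu4 d), show residue A ⟨u4 d, huA⟩ = 0 from h0, map_zero])
    obtain ⟨-, h1, h2, h3⟩ := Nm.red_unit d W.f_mem
    have hpow : ∀ b, M.red b (G4 d) ^ n = algebraMap (ResidueField A) Fs v⁻¹ := fun b => by
      have hone : M.red b (Nm.N d W.f) = 1 := by
        rcases side_or b d with rfl | rfl | rfl <;>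
          simp [h1, h2, h3, W.red_f]
      rw [hN4, M.red_mul _ _ (hG4e d b).2.mem_G _ (pow_mem (hG4e d b).1.mem_G n),
        M.red_pow _ (hG4e d b).1.mem_G, M.red_const b ⟨u4 d, huA⟩ (hu4 d)] at hone
      rw [map_inv₀]
      exact eq_inv_of_mul_eq_one_right hone
    choose μ hμ hμn using fun b => exists_const_root hn0 (hpow b)
    exact ⟨v⁻¹, μ, inv_ne_zero hv0, fun b => ⟨hμ b, hμn b⟩⟩
  choose ū μ hū hμ using hμ
  have hμ0 : ∀ d b, μ d b ≠ 0 := fun d b h0 => hū d (by rw [← (hμ d b).2, h0, zero_pow hn0])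
  set Ca : ResidueField A := μ false (side true) / μ false (side false)
  set Cb : ResidueField A := μ true (side false) / μ true (side true)
  have hCn : Ca ^ n = 1 ∧ Cb ^ n = 1 := by
    constructor <;> rw [div_pow, (hμ _ _).2, (hμ _ _).2, div_self (hū _)]
  set ω : Fin 3 → ResidueField A := ![(Ca * Cb ^ M.q)⁻¹, (Cb * Ca ^ M.q)⁻¹, 1] with hω
  have hinv : ∀ x y : ResidueField A, x ^ n = 1 → y ^ n = 1 → ((x * y ^ M.q)⁻¹) ^ n = 1 := by
    intro x y hx hy
    rw [inv_pow, mul_pow, hx, ← pow_mul, mul_comm M.q n, pow_mul, hy, one_pow, one_mul, inv_one]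
  have hωn : ∀ b, ω b ^ n = 1 := fun b => by
    fin_cases b
    exacts [hinv _ _ hCn.1 hCn.2, hinv _ _ hCn.2 hCn.1, one_pow n]
  have hω0 : ∀ b, ω b ≠ 0 := fun b h0 => by
    have := hωn b
    rw [h0, zero_pow hn0] at this
    exact zero_ne_one this
  set m := M.q ^ 2 - 1 with hm
  obtain ⟨x, hx, hxD⟩ := M.exists_principal_of_ratios t htr hfd hsep hchart p hA hn W m ω hωn
    (fun s b Q hQ => by
      obtain ⟨g, hg, c, hc, hgv⟩ := hgen W s b Q hQ
      have hz : ∀ ζ : ResidueField A, ζ ^ n = c → ζ ≠ 0 := fun ζ h h0 =>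
        hc (by rw [← h, h0, zero_pow hn0])
      rcases hclass s b Q hQ with hsing | ⟨hQb, hall, huniq⟩
      · obtain ⟨ζ, hζ, hζn⟩ := hgv b Q hQ (fun x _ => Iff.rfl)
        refine ⟨g, hg, ζ ^ m / ω b, div_ne_zero (pow_ne_zero _ (hz ζ hζn)) (hω0 b),
          fun b' Q' hQ' hs => ?_⟩
        obtain ⟨rfl, rfl⟩ := hsing b' Q' hQ' hs
        exact ⟨ζ, hζ, (div_mul_cancel₀ _ (hω0 _)).symm⟩
      · choose ζ hζ hζn using fun b' => hgv b' Q (hQb b') (hall b b')
        have hζ0 : ∀ b', ζ b' ≠ 0 := fun b' => hz _ (hζn b')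
        have R := fun d => (Nm.ratio hn0 W d (hu4 d) (hu40 d) (hN4 d) (hG4e d) (μ d)
          (fun b' => (hμ d b').1) hg Q hQb hall ζ hζ).1
        have hpow' : ∀ z : ResidueField A, z ^ M.q = z ^ (M.q - 1) * z := fun z => by
          rw [← pow_succ, Nat.sub_add_cancel (by omega : 1 ≤ M.q)]
        have ha : ζ (side false) / ζ 2 = Ca * (ζ (side true) / ζ 2) ^ M.q := by
          have h1 := R false
          simp only [Bool.not_false] at h1
          rw [div_pow, div_mul_div_comm, hpow' (ζ 2), div_eq_div_iff (hζ0 2)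
            (mul_ne_zero (hμ0 _ _) (mul_ne_zero (pow_ne_zero _ (hζ0 2)) (hζ0 2)))]
          linear_combination (ζ 2) * h1
        have hb : ζ (side true) / ζ 2 = Cb * (ζ (side false) / ζ 2) ^ M.q := by
          have h1 := R true
          simp only [Bool.not_true] at h1
          rw [div_pow, div_mul_div_comm, hpow' (ζ 2), div_eq_div_iff (hζ0 2)
            (mul_ne_zero (hμ0 _ _) (mul_ne_zero (pow_ne_zero _ (hζ0 2)) (hζ0 2)))]
          linear_combination (ζ 2) * h1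
        have hq1' : 1 ≤ M.q := by omega
        have ra := ratio_pow hq1' ha hb (div_ne_zero (hζ0 _) (hζ0 2))
        have rb := ratio_pow hq1' hb ha (div_ne_zero (hζ0 _) (hζ0 2))
        refine ⟨g, hg, ζ 2 ^ m, pow_ne_zero _ (hζ0 2), fun b' Q' hQ' hs => ?_⟩
        obtain rfl := huniq b' Q' hQ' hs
        refine ⟨ζ b', hζ b', ?_⟩
        rw [div_pow, ← hm, div_eq_iff (pow_ne_zero _ (hζ0 2))] at ra rb
        rcases side_or b' false with rfl | rfl | rfl
        · rw [ra]; simp [hω, side, mul_comm]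
        · rw [Bool.not_false, rb]; simp [hω, side, mul_comm]
        · simp [hω])
  refine ⟨x * φ ^ m * φ0 ^ ((M.q - 1) * m),
    mul_ne_zero (mul_ne_zero hx (pow_ne_zero _ hφ0')) (pow_ne_zero _ hφ00), fun P => ?_⟩
  rw [P.ord_mul (mul_ne_zero hx (pow_ne_zero _ hφ0')) (pow_ne_zero _ hφ00),
    P.ord_mul hx (pow_ne_zero _ hφ0'), RR.ord_pow, RR.ord_pow, ← hxD, hWD]
  simp only [hD1, Finsupp.smul_apply, Finsupp.sub_apply, nsmul_eq_mul, hE0]
  push_cast
  ring


end Fib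

end FLTAgent.SS2

end
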