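import Fermat.Agent.SS2.ModelRes

/-!
Rational functions integral on a branch, their restrictions, uniformisers of the branches, and
scales.
-/

set_option autoImplicit false
set_option linter.unusedSectionVars false
set_option linter.style.haveILetI false
set_option linter.unusedSimpArgs false
set_option synthInstance.maxHeartbeats 200000
set_option maxHeartbeats 1000000

noncomputable section

open ModularCurve AlgebraicCurve IsLocalRing

namespace FLTAgent.SS2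

open FLTAgent.Reduction (Qb FB FS Ctx GR jS kA red redS)

variable {A : ValuationSubring Qb} {M q : ℕ} [NeZero M] [NeZero q] (C : Ctx A M q)

local notation "F" => FB (M * q * q)
local notation "ι'" => algebraMap Qb (FB (M * q * q))

/-- residues of rational functions integral on a branch lie in the special fibre of level `M` -/
def Landing : Prop :=
  ∀ (ζ : PR q) (b : Fin 3) (x : F), x ∈ rationalFn A (M * q * q) →
    eB M q C.prime C.not_dvd ζ b x ∈ GG A →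
    ∃ r : FS A M, redL A (eB M q C.prime C.not_dvd ζ b x) = (r : LaurentSeries (kA A))

/-- integral powers of a series with non-zero residue -/
theorem zpow_mem_GG {u : LS} (hu : u ∈ GG A) (hr : redL A u ≠ 0) :
    ∀ k : ℤ, u ^ k ∈ GG A ∧ redL A (u ^ k) ≠ 0
  | .ofNat k => by
    rw [Int.ofNat_eq_natCast, zpow_natCast, redL_pow hu]
    exact ⟨pow_mem hu k, pow_ne_zero _ hr⟩
  | .negSucc k => by
    rw [zpow_negSucc]
    have h : redL A (u ^ (k + 1)) ≠ 0 := by rw [redL_pow hu]; exact pow_ne_zero _ hr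
    obtain ⟨h1, h2⟩ := inv_mem_GL (pow_mem hu (k + 1)) h
    exact ⟨h1, by rw [h2]; exact inv_ne_zero h⟩

theorem cL_zpow (c : Qb) (i : ℤ) : cL (c ^ i) = cL c ^ i := map_zpow₀ (algebraMap Qb LS) c i

/-- the rational functions integral on the branch `b` -/
def GB (b : Fin 3) : Subring F where
  carrier := {x | x ∈ rationalFn A (M * q * q) ∧ ∃ r, IsRes C b x r}
  mul_mem' := fun ⟨hx, _, hr⟩ ⟨hy, _, hs⟩ => ⟨mul_mem hx hy, _, hr.mul hs⟩
  one_mem' := ⟨one_mem _, _, IsRes.one⟩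
  add_mem' := fun ⟨hx, _, hr⟩ ⟨hy, _, hs⟩ => ⟨add_mem hx hy, _, hr.add hs⟩
  zero_mem' := ⟨zero_mem _, 0, fun ζ => by
    rw [map_zero, ZeroMemClass.coe_zero]; exact ⟨zero_mem _, redL_zero⟩⟩
  neg_mem' := fun {x} ⟨hx, r, hr⟩ => ⟨neg_mem hx, -r, fun ζ => by
    rw [map_neg, NegMemClass.coe_neg, redL_neg (hr ζ).1, (hr ζ).2]
    exact ⟨neg_mem (hr ζ).1, rfl⟩⟩

open Classical in
/-- the restriction to the branch `b` -/
def redB (b : Fin 3) (x : F) : FS A M := if h : ∃ r, IsRes C b x r then h.choose else 0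

variable {C}

theorem IsRes.redB_eq {b : Fin 3} {x : F} {r : FS A M} (h : IsRes C b x r) : redB C b x = r := by
  rw [redB, dif_pos ⟨r, h⟩]
  exact (Exists.choose_spec (⟨r, h⟩ : ∃ r, IsRes C b x r)).unique h

theorem IsRes.mem_GB {b : Fin 3} {x : F} {r : FS A M} (h : IsRes C b x r)
    (hx : x ∈ rationalFn A (M * q * q)) : x ∈ GB C b :=
  ⟨hx, r, h⟩

theorem GB_le {b : Fin 3} {x : F} (h : x ∈ GB C b) : x ∈ rationalFn A (M * q * q) := h.1

theorem isRes_redB {b : Fin 3} {x : F} (h : x ∈ GB C b) : IsRes C b x (redB C b x) := by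
  obtain ⟨-, r, hr⟩ := h
  rwa [hr.redB_eq]

variable (C)

theorem redB_add (b : Fin 3) : ∀ x ∈ GB C b, ∀ y ∈ GB C b,
    redB C b (x + y) = redB C b x + redB C b y :=
  fun _ hx _ hy => ((isRes_redB hx).add (isRes_redB hy)).redB_eq

theorem redB_mul (b : Fin 3) : ∀ x ∈ GB C b, ∀ y ∈ GB C b,
    redB C b (x * y) = redB C b x * redB C b y :=
  fun _ hx _ hy => ((isRes_redB hx).mul (isRes_redB hy)).redB_eq

theorem redB_one (b : Fin 3) : redB C b 1 = 1 := IsRes.one.redB_eq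

theorem const_mem_GB (b : Fin 3) (a : A) (ha : (a : Qb) ∈ TF A) : ι' (a : Qb) ∈ GB C b :=
  (IsRes.const a).mem_GB (const_mem_rationalFn ha)

theorem redB_const (b : Fin 3) (a : A) :
    redB C b (ι' (a : Qb)) = algebraMap (kA A) (FS A M) (residue A a) :=
  (IsRes.const a).redB_eq

/-- for rational functions residues do not depend on the root of unity -/
theorem isRes_of_series {b : Fin 3} {x : F} (hx : x ∈ rationalFn A (M * q * q)) {ζ : PR q}
    (h : eB M q C.prime C.not_dvd ζ b x ∈ GG A) {r : FS A M}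
    (hr : redL A (eB M q C.prime C.not_dvd ζ b x) = (r : LaurentSeries (kA A))) :
    IsRes C b x r := by
  intro ζ'
  fin_cases b
  · exact ⟨h, hr⟩
  · exact ⟨h, hr⟩
  · exact ⟨(red11_indep C hx ζ ζ' h).1, (red11_indep C hx ζ ζ' h).2.trans hr⟩

theorem mem_GB_of_series (hl : Landing C) {b : Fin 3} {x : F}
    (hx : x ∈ rationalFn A (M * q * q)) {ζ : PR q} (h : eB M q C.prime C.not_dvd ζ b x ∈ GG A) :
    x ∈ GB C b ∧
      (redB C b x : LaurentSeries (kA A)) = redL A (eB M q C.prime C.not_dvd ζ b x) := by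
  obtain ⟨r, hr⟩ := hl ζ b x hx h
  have hres := isRes_of_series C hx h hr
  exact ⟨hres.mem_GB hx, by rw [hres.redB_eq, hr]⟩

/-! ### uniformisers -/

variable (M q) in
/-- the uniformisers -/
def vpi : Fin 3 → F
  | 0 => algebraMap Qb (FB (M * q * q)) (q : Qb)
  | 1 => algebraMap Qb (FB (M * q * q)) (q : Qb)
  | 2 => i2 M q (ModFun.jBar M) - i0 M q (ModFun.jBar M)

variable (q) in
/-- the multiplicities -/
def eMul : Fin 3 → ℕ
  | 0 => 1
  | 1 => 1
  | 2 => q - 1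

variable (q) in
/-- the scales of the branches -/
def pB (ζ : PR q) : Fin 3 → Qb
  | 0 => (q : Qb)
  | 1 => (q : Qb)
  | 2 => 1 - (ζ : Qb)

include C

theorem pB_ne (ζ : PR q) : ∀ b, pB q ζ b ≠ 0
  | 0 => Nat.cast_ne_zero.mpr C.prime.ne_zero
  | 1 => Nat.cast_ne_zero.mpr C.prime.ne_zero
  | 2 => PR.one_sub_ne_zero C.prime ζ

omit C in
theorem theta_jqModC_ne {k : Type*} [Field k] : theta (jqModC k) ≠ 0 := fun h => by
  have h1 := congrArg (fun s : LaurentSeries k => s.coeff (-1)) h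
  simp [coeff_jqModC_neg_one] at h1

theorem redS_jBar : redS A M (ModFun.jBar M) = jqModC (kA A) := by
  rw [redS_eq_red C (SS.jBar_red C).1, (SS.jBar_red C).2]
  rfl

theorem scaled_vpi (ζ : PR q) : ∀ b,
    cL (pB q ζ b)⁻¹ * eB M q C.prime C.not_dvd ζ b (vpi M q b) ∈ GG A ∧
      redL A (cL (pB q ζ b)⁻¹ * eB M q C.prime C.not_dvd ζ b (vpi M q b)) ≠ 0 := by
  have h1 : ∀ f : F →ₐ[Qb] LS, cL (q : Qb)⁻¹ * f (ι' (q : Qb)) = 1 := fun f => by
    rw [AlgHom.commutes]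
    show cL _ * cL _ = 1
    rw [← cL_mul, inv_mul_cancel₀ (Nat.cast_ne_zero.mpr C.prime.ne_zero), cL_one]
  intro b
  fin_cases b
  · show cL (q : Qb)⁻¹ * e20 M q (ι' (q : Qb)) ∈ GG A ∧
      redL A (cL (q : Qb)⁻¹ * e20 M q (ι' (q : Qb))) ≠ 0
    rw [h1, redL_one]
    exact ⟨one_mem _, one_ne_zero⟩
  · show cL (q : Qb)⁻¹ * e02 M q C.prime C.not_dvd (ι' (q : Qb)) ∈ GG A ∧
      redL A (cL (q : Qb)⁻¹ * e02 M q C.prime C.not_dvd (ι' (q : Qb))) ≠ 0
    rw [h1, redL_one]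
    exact ⟨one_mem _, one_ne_zero⟩
  · obtain ⟨h, h'⟩ := red11_pi C ζ (SS.jBar_red C).1
    refine ⟨h, ?_⟩
    show redL A (cL (1 - (ζ : Qb))⁻¹ *
      e11 M q C.prime C.not_dvd ζ (i2 M q (ModFun.jBar M) - i0 M q (ModFun.jBar M))) ≠ 0
    rw [h', redS_jBar C]
    exact theta_jqModC_ne

theorem vpi_ne (b : Fin 3) : vpi M q b ≠ 0 := fun h => by
  obtain ⟨ζ⟩ := nonempty_PR C
  exact (scaled_vpi C ζ b).2 (by rw [h, map_zero, mul_zero, redL_zero])

theorem vpi_rational : ∀ b, vpi M q b ∈ rationalFn A (M * q * q)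
  | 0 => const_mem_rationalFn (natCast_mem _ _)
  | 1 => const_mem_rationalFn (natCast_mem _ _)
  | 2 => sub_mem (img_rational (jBar_rational A M) 2) (img_rational (jBar_rational A M) 0)

theorem isRes_vpi : ∀ b, IsRes C b (vpi M q b) 0 := by
  have hq0 : residue A ((q : A)) = 0 := by
    haveI := Reduction.charP_residue A C.prime C.lies
    rw [map_natCast]
    exact CharP.cast_eq_zero (kA A) q
  have h : ∀ b : Fin 3, IsRes C b (ι' (q : Qb)) 0 := fun b => by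
    have := IsRes.const (C := C) (b := b) ((q : A))
    rwa [hq0, map_zero, show ((q : A) : Qb) = (q : Qb) from rfl] at this
  intro b
  fin_cases b
  · exact h 0
  · exact h 1
  · have h2 := (isRes_img C (SS.jBar_red C).1 2 2).sub (isRes_img C (SS.jBar_red C).1 2 0)
    exact h2.congr_res (by simp [imgRes])

theorem vpi_mem (b : Fin 3) : vpi M q b ∈ GB C b := (isRes_vpi C b).mem_GB (vpi_rational C b)

theorem redB_vpi (b : Fin 3) : redB C b (vpi M q b) = 0 := (isRes_vpi C b).redB_eq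

/-- scaling by a power of a uniformiser -/
theorem eB_mul_zpow (ζ : PR q) (b : Fin 3) (x : F) (i : ℤ) :
    eB M q C.prime C.not_dvd ζ b (x * vpi M q b ^ (-i)) =
      cL (pB q ζ b ^ (-i)) * eB M q C.prime C.not_dvd ζ b x *
        (cL (pB q ζ b)⁻¹ * eB M q C.prime C.not_dvd ζ b (vpi M q b)) ^ (-i) := by
  rw [mul_zpow, cL_zpow, cL_inv, inv_zpow, map_mul, map_zpow₀]
  have h : cL (pB q ζ b) ^ (-i) ≠ 0 :=
    zpow_ne_zero _ ((_root_.map_ne_zero _).mpr (pB_ne C ζ b))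
  field_simp

/-- from scales of series to exponents -/
theorem hasExp_of_series (hl : Landing C) {b : Fin 3} {x : F}
    (hx : x ∈ rationalFn A (M * q * q)) {ζ : PR q} {i : ℤ}
    (h : cL (pB q ζ b ^ (-i)) * eB M q C.prime C.not_dvd ζ b x ∈ GG A)
    (h' : redL A (cL (pB q ζ b ^ (-i)) * eB M q C.prime C.not_dvd ζ b x) ≠ 0) :
    x * vpi M q b ^ (-i) ∈ GB C b ∧ redB C b (x * vpi M q b ^ (-i)) ≠ 0 := by
  obtain ⟨hu, hu'⟩ := scaled_vpi C ζ b
  obtain ⟨hu, hu'⟩ := zpow_mem_GG hu hu' (-i)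
  have hm : eB M q C.prime C.not_dvd ζ b (x * vpi M q b ^ (-i)) ∈ GG A := by
    rw [eB_mul_zpow C]; exact mul_mem h hu
  obtain ⟨h1, h2⟩ := mem_GB_of_series C hl (mul_mem hx (zpow_mem (vpi_rational C b) _)) hm
  refine ⟨h1, fun h0 => ?_⟩
  rw [h0, ZeroMemClass.coe_zero, eB_mul_zpow C, redL_mul h hu] at h2
  exact mul_ne_zero h' hu' h2.symm

/-- from exponents to scales of series -/
theorem series_of_hasExp {b : Fin 3} {x : F} {i : ℤ} (h : x * vpi M q b ^ (-i) ∈ GB C b)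
    (h' : redB C b (x * vpi M q b ^ (-i)) ≠ 0) (ζ : PR q) :
    x ∈ rationalFn A (M * q * q) ∧
      cL (pB q ζ b ^ (-i)) * eB M q C.prime C.not_dvd ζ b x ∈ GG A ∧
      redL A (cL (pB q ζ b ^ (-i)) * eB M q C.prime C.not_dvd ζ b x) ≠ 0 := by
  refine ⟨?_, ?_⟩
  · have := mul_mem (GB_le h) (zpow_mem (vpi_rational C b) i)
    rwa [mul_assoc x, ← zpow_add₀ (vpi_ne C b), neg_add_cancel, zpow_zero, mul_one x] at this
  obtain ⟨hy, hy'⟩ := isRes_redB h ζ
  have hy0 : redL A (eB M q C.prime C.not_dvd ζ b (x * vpi M q b ^ (-i))) ≠ 0 := by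
    rw [hy']
    exact fun hz => h' (Subtype.ext hz)
  obtain ⟨hu, hu'⟩ := scaled_vpi C ζ b
  have hu0 : cL (pB q ζ b)⁻¹ * eB M q C.prime C.not_dvd ζ b (vpi M q b) ≠ 0 :=
    fun hz => hu' (by rw [hz, redL_zero])
  obtain ⟨hu, hu'⟩ := zpow_mem_GG hu hu' i
  have e : cL (pB q ζ b ^ (-i)) * eB M q C.prime C.not_dvd ζ b x =
      eB M q C.prime C.not_dvd ζ b (x * vpi M q b ^ (-i)) *
        (cL (pB q ζ b)⁻¹ * eB M q C.prime C.not_dvd ζ b (vpi M q b)) ^ i := by
    rw [eB_mul_zpow C, mul_assoc _ _ ((cL (pB q ζ b)⁻¹ * eB M q C.prime C.not_dvd ζ b (vpi M q b)) ^ i),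
      ← zpow_add₀ hu0, neg_add_cancel, zpow_zero, mul_one]
  rw [e, redL_mul hy hu]
  exact ⟨mul_mem hy hu, mul_ne_zero hy0 hu'⟩

theorem exists_scale_GB (hl : Landing C) (b : Fin 3) {x : F}
    (hx : x ∈ rationalFn A (M * q * q)) (hx0 : x ≠ 0) :
    ∃ i : ℤ, x * vpi M q b ^ (-i) ∈ GB C b ∧ redB C b (x * vpi M q b ^ (-i)) ≠ 0 := by
  obtain ⟨ζ⟩ := nonempty_PR C
  suffices h : ∃ i : ℤ, cL (pB q ζ b ^ i) * eB M q C.prime C.not_dvd ζ b x ∈ GG A ∧
      redL A (cL (pB q ζ b ^ i) * eB M q C.prime C.not_dvd ζ b x) ≠ 0 by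
    obtain ⟨i, h1, h2⟩ := h
    refine ⟨-i, hasExp_of_series C hl hx (ζ := ζ) ?_ ?_⟩ <;> rwa [neg_neg]
  fin_cases b
  · exact exists_scale20 C hx hx0
  · exact exists_scale02 C hx hx0
  · obtain ⟨i, hi⟩ := exists_scale11 C hx hx0
    exact ⟨i, hi ζ⟩

theorem q_eq_GB (hl : Landing C) (b : Fin 3) :
    ι' (q : Qb) * (vpi M q b ^ eMul q b)⁻¹ ∈ GB C b ∧
      redB C b (ι' (q : Qb) * (vpi M q b ^ eMul q b)⁻¹) ≠ 0 := by
  obtain ⟨ζ⟩ := nonempty_PR C
  have hval : A.valuation (pB q ζ b ^ (-(eMul q b : ℤ)) * (q : Qb)) = 1 := by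
    have hv : A.valuation (pB q ζ b) ^ eMul q b = A.valuation (q : Qb) := by
      fin_cases b
      exacts [pow_one _, pow_one _, valuation_one_sub_pow C ζ]
    rw [map_mul, map_zpow₀, zpow_neg, zpow_natCast, hv, inv_mul_cancel₀]
    exact (Valuation.ne_zero_iff _).mpr (Nat.cast_ne_zero.mpr C.prime.ne_zero)
  have hA : pB q ζ b ^ (-(eMul q b : ℤ)) * (q : Qb) ∈ A := (A.valuation_le_one_iff _).mp hval.le
  have e : cL (pB q ζ b ^ (-(eMul q b : ℤ))) * eB M q C.prime C.not_dvd ζ b (ι' (q : Qb)) =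
      cL (pB q ζ b ^ (-(eMul q b : ℤ)) * (q : Qb)) := by
    rw [AlgHom.commutes, cL_mul]
  have h := hasExp_of_series C hl (b := b) (x := ι' (q : Qb)) (ζ := ζ) (i := (eMul q b : ℤ))
    (const_mem_rationalFn (natCast_mem _ _)) (by rw [e]; exact cL_mem hA)
    (by rw [e, redL_cL ⟨_, hA⟩]
        exact (_root_.map_ne_zero _).mpr ((Reduction.res_ne_zero_iff A _).mpr hval))
  rwa [zpow_neg, zpow_natCast] at h

end FLTAgent.SS2
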