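import Fermat.Agent.SS2.ModelValues
import Fermat.Agent.SS2.BranchesLand
import Fermat.Agent.SS.Chart
import Fermat.Agent.SS.Repr

/-!
Chart functions integral on the three branches restrict to regular functions: their norms to level
`M q` are integral on both sides there, and their restrictions there are regular.
-/

set_option autoImplicit false
set_option linter.unusedSectionVars false
set_option linter.style.haveILetI false
set_option linter.unusedSimpArgs false
set_option synthInstance.maxHeartbeats 200000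
set_option maxHeartbeats 1000000

noncomputable section

open ModularCurve AlgebraicCurve IsLocalRing
open FLTAgent.RR (Bd)

namespace FLTAgent.SS2

open FLTAgent.Reduction (Qb FB FS Ctx GR cB tB tS jS kA red redS regOn BS BT Val)

/-- a function with bounded power is bounded -/
theorem bd_zero_of_pow {K F : Type*} [Field K] [Field F] [Algebra K F] {v : Place K F} {x : F}
    {k : ℕ} (hk : k ≠ 0) (h : Bd v (x ^ k) 0) : Bd v x 0 := by
  rcases eq_or_ne x 0 with rfl | hx
  · exact RR.Bd.zero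
  rw [RR.bd_iff_ord (pow_ne_zero _ hx), RR.ord_pow] at h
  rw [RR.bd_iff_ord hx]
  have : (1 : ℤ) ≤ k := by exact_mod_cast Nat.pos_of_ne_zero hk
  nlinarith

variable {A : ValuationSubring Qb} {M q : ℕ} [NeZero M] [NeZero q] (C : Ctx A M q)

include C

theorem s2_eq (y : FB (M * q)) :
    s2 M q C.prime C.not_dvd y = ((SS.side M q true y : FB (M * q)) : LS) := by
  show ((atkin M q C.prime C.not_dvd y : FB (M * q)) : LS) = ((SS.atkinW M q y : FB (M * q)) : LS)
  rw [atkinW_eq C]

theorem isRed_of_series {b : Bool} {y : FB (M * q)} {r : FS A M}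
    (h : ((SS.side M q b y : FB (M * q)) : LS) ∈ GG A)
    (h' : redL A ((SS.side M q b y : FB (M * q)) : LS) = (r : LaurentSeries (kA A))) :
    SS.IsRed A b y r :=
  ⟨h, (redL_coe ((coe_mem_GG_iff _).mp h)).symm.trans h'⟩

omit C in
theorem cL_one_mul (y : LS) : cL 1 * y = y := by rw [cL_one, one_mul]

variable {x : FB (M * q * q)} {r : Fin 3 → FS A M}

/-- the side `false` of the norm along `α` -/
theorem isRed_normAlpha_false (h0 : IsRes C 0 x (r 0)) (h2 : IsRes C 2 x (r 2)) :
    SS.IsRed A false (normAlong (heckeAlphaBar Qb (M * q) q) x) (r 0 * r 2 ^ (q - 1)) := by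
  obtain ⟨ζ⟩ := nonempty_PR C
  obtain ⟨h1, h1'⟩ := red_norm_alpha_side1 C x 1 (fun _ => 1) (by rw [cL_one_mul]; exact (h0 ζ).1)
    (fun ζ' => by rw [cL_one_mul]; exact (h2 ζ').1)
  simp only [Finset.prod_const_one, mul_one, cL_one_mul] at h1 h1'
  refine isRed_of_series C h1 (h1'.trans ?_)
  rw [show redL A (e20 M q x) = _ from (h0 ζ).2,
    Finset.prod_congr rfl fun ζ' _ => (show redL A (e11 M q C.prime C.not_dvd ζ' x) = _ from (h2 ζ').2),
    Finset.prod_const, Finset.card_univ, card_PR C.prime, MulMemClass.coe_mul,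
    SubmonoidClass.coe_pow]

/-- the side `true` of the norm along `β` -/
theorem isRed_normBeta_true (h1 : IsRes C 1 x (r 1)) (h2 : IsRes C 2 x (r 2)) :
    SS.IsRed A true (normAlong (heckeBetaBar Qb (M * q) q) x) (r 1 * r 2 ^ (q - 1)) := by
  obtain ⟨ζ⟩ := nonempty_PR C
  obtain ⟨h, h'⟩ := red_norm_beta_side2 C x 1 (fun _ => 1) (by rw [cL_one_mul]; exact (h1 ζ).1)
    (fun ζ' => by rw [cL_one_mul]; exact (h2 ζ').1)
  simp only [Finset.prod_const_one, mul_one, cL_one_mul] at h h'
  rw [s2_eq C] at h h'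
  refine isRed_of_series C h (h'.trans ?_)
  rw [show redL A (e02 M q C.prime C.not_dvd x) = _ from (h1 ζ).2,
    Finset.prod_congr rfl fun ζ' _ => (show redL A (e11 M q C.prime C.not_dvd ζ' x) = _ from (h2 ζ').2),
    Finset.prod_const, Finset.card_univ, card_PR C.prime, MulMemClass.coe_mul,
    SubmonoidClass.coe_pow]

/-- the side `true` of the norm along `α` -/
theorem isRed_normAlpha_true (h1 : IsRes C 1 x (r 1)) :
    ∃ R, SS.IsRed A true (normAlong (heckeAlphaBar Qb (M * q) q) x) R ∧ SS.Fr C R = r 1 ^ q := by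
  obtain ⟨ζ⟩ := nonempty_PR C
  obtain ⟨h, h'⟩ := red_norm_alpha_side2 C x 1 (by rw [cL_one_mul]; exact (h1 ζ).1)
  rw [one_pow, cL_one_mul, s2_eq C] at h
  rw [one_pow, cL_one_mul, cL_one_mul, s2_eq C,
    show redL A (e02 M q C.prime C.not_dvd x) = _ from (h1 ζ).2] at h'
  have hR := SS.isRed_redM C (SS.mem_GS.mpr ((coe_mem_GG_iff _).mp h))
  refine ⟨_, hR, Subtype.ext ?_⟩
  rw [SS.coe_Fr, SubmonoidClass.coe_pow, ← hR.2, ← redL_coe ((coe_mem_GG_iff _).mp h)]
  exact h'

/-- the side `false` of the norm along `β` -/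
theorem isRed_normBeta_false (h0 : IsRes C 0 x (r 0)) :
    ∃ R, SS.IsRed A false (normAlong (heckeBetaBar Qb (M * q) q) x) R ∧ SS.Fr C R = r 0 ^ q := by
  obtain ⟨ζ⟩ := nonempty_PR C
  obtain ⟨h, h'⟩ := red_norm_beta_side1 C x 1 (by rw [cL_one_mul]; exact (h0 ζ).1)
  rw [one_pow, cL_one_mul] at h
  rw [one_pow, cL_one_mul, cL_one_mul, show redL A (e20 M q x) = _ from (h0 ζ).2] at h'
  have hR := SS.isRed_redM C (b := false) (SS.mem_GS.mpr ((coe_mem_GG_iff _).mp h))
  refine ⟨_, hR, Subtype.ext ?_⟩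
  rw [SS.coe_Fr, SubmonoidClass.coe_pow, ← hR.2]
  show qExpand (kA A) q (redS A (M * q) (normAlong (heckeBetaBar Qb (M * q) q) x)) = _
  rw [← redL_coe ((coe_mem_GG_iff _).mp h)]
  exact h'

/-- Frobenius preserves regularity -/
theorem Fr_mem_regOn (s : Bool) {f : FS A M} (hf : f ∈ regOn (kA A) (tS A M s)) :
    SS.Fr C f ∈ regOn (kA A) (tS A M s) := by
  haveI := Reduction.finite_tS C s
  haveI := Reduction.separable_tS C s
  obtain ⟨p, hp, hpf⟩ :=
    Reduction.isIntegral_of_mem_regOn (Reduction.transcendental_tS A M s) hf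
  refine Reduction.mem_regOn_of_isIntegral
    ((SS.Fr C).toRingHom.comp (Polynomial.aeval (R := kA A) (tS A M s)).toRingHom) (fun r => ?_)
    ⟨p, hp, ?_⟩
  · show SS.Fr C (Polynomial.aeval (tS A M s) r) ∈ _
    rw [← Polynomial.aeval_algHom_apply, Fr_tS C s]
    exact Algebra.adjoin_le
      (Set.singleton_subset_iff.mpr (pow_mem (Reduction.self_mem_regOn _) q))
      (Polynomial.aeval_mem_adjoin_singleton _ _)
  · show Polynomial.eval₂ _ ((SS.Fr C).toRingHom f) p = 0
    rw [← Polynomial.hom_eval₂, hpf, map_zero]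

/-- the norms of a function regular on the chart of the middle image are regular on the chart -/
theorem normAlong_mem_regOn (s : Bool) (hx : x ∈ regOn Qb (img M q 1 (tB M s))) :
    normAlong (heckeAlphaBar Qb (M * q) q) x ∈ regOn Qb (SS.tJ M q s) ∧
      normAlong (heckeBetaBar Qb (M * q) q) x ∈ regOn Qb (SS.tJ M q s) := by
  constructor
  · exact fun v hv => regOn_normAlong (heckeAlphaBar Qb (M * q) q)
      (t := heckeBetaBar Qb M q (tB M s)) hx v (SS.bd_aFn_bFn C hv).2
  · exact fun v hv => regOn_normAlong (heckeBetaBar Qb (M * q) q)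
      (t := heckeAlphaBar Qb M q (tB M s)) (by rw [beta_alpha]; exact hx) v (SS.bd_aFn_bFn C hv).1

/-- regularity of the combinations read from the norms -/
theorem regular_norm_res (s : Bool) (hx : x ∈ regOn Qb (img M q 1 (tB M s)))
    (hr : ∀ b, IsRes C b x (r b)) :
    r 0 ∈ regOn (kA A) (tS A M s) ∧ r 1 ∈ regOn (kA A) (tS A M s) ∧
      r 0 * r 2 ^ (q - 1) ∈ regOn (kA A) (tS A M s) := by
  obtain ⟨hNa, hNb⟩ := normAlong_mem_regOn C s hx
  obtain ⟨R, hR, hR'⟩ := isRed_normAlpha_true C (hr 1)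
  obtain ⟨S, hS, hS'⟩ := isRed_normBeta_false C (hr 0)
  have hA0 := isRed_normAlpha_false C (hr 0) (hr 2)
  have hB1 := isRed_normBeta_true C (hr 1) (hr 2)
  have ha : ∀ b, normAlong (heckeAlphaBar Qb (M * q) q) x ∈ SS.GS M q A b := fun b => by
    cases b
    exacts [hA0.1, hR.1]
  have hb : ∀ b, normAlong (heckeBetaBar Qb (M * q) q) x ∈ SS.GS M q A b := fun b => by
    cases b
    exacts [hS.1, hB1.1]
  have key : ∀ {y : FB (M * q)} {b : Bool} {r' : FS A M}, y ∈ regOn Qb (SS.tJ M q s) →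
      (∀ b, y ∈ SS.GS M q A b) → SS.IsRed A b y r' → r' ∈ regOn (kA A) (tS A M s) := by
    intro y b r' hy hyG hr'
    rw [← SS.regOn_tJS C, ← hr'.eq]
    exact SS.regular_of_integral C s hy hyG b
  have h1 := Fr_mem_regOn C s (key hNa ha hR)
  have h2 := Fr_mem_regOn C s (key hNb hb hS)
  rw [hR'] at h1
  rw [hS'] at h2
  exact ⟨fun Q hQ => bd_zero_of_pow C.prime.ne_zero (h2 Q hQ),
    fun Q hQ => bd_zero_of_pow C.prime.ne_zero (h1 Q hQ), key hNa ha hA0⟩

/-- functions regular on the chart of the middle image restrict to regular functions -/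
theorem regular_res (s : Bool) (hx : x ∈ regOn Qb (img M q 1 (tB M s)))
    (hr : ∀ b, IsRes C b x (r b)) : ∀ b, r b ∈ regOn (kA A) (tS A M s) := by
  obtain ⟨h0, h1, -⟩ := regular_norm_res C s hx hr
  intro b
  fin_cases b
  · exact h0
  · exact h1
  intro Q hQ
  show Bd Q (r 2) 0
  by_contra hpole
  obtain ⟨hne, hord⟩ := RR.not_bd_iff.mp hpole
  rw [neg_zero] at hord
  obtain ⟨z, hz⟩ := Reduction.val_exists_S C (h0 Q hQ)
  obtain ⟨a, ha⟩ := residue_surjective (R := A) (1 - z)
  obtain ⟨-, -, h2⟩ := regular_norm_res C s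
    (x := x + algebraMap Qb (FB (M * q * q)) (a : Qb))
    (r := fun b => r b + algebraMap (kA A) (FS A M) (residue A a))
    (add_mem hx (Subalgebra.algebraMap_mem _ _)) fun b => (hr b).add (IsRes.const a)
  have hv : Val Q (r 0 + algebraMap (kA A) (FS A M) (residue A a)) 1 := by
    have h := hz.add (Reduction.Val.const (v := Q) (residue A a))
    rwa [show z + residue A a = 1 by rw [ha]; ring] at h
  obtain ⟨hA0, hA⟩ := hv.ord_eq_zero one_ne_zero
  have hB : Q.ord (r 2 + algebraMap (kA A) (FS A M) (residue A a)) < 0 := by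
    by_contra hcon
    push Not at hcon
    have h3 : Bd Q (r 2 + algebraMap (kA A) (FS A M) (residue A a)) 0 :=
      RR.bd_iff.mpr (Or.inr (by omega))
    have h4 := h3.sub (RR.Bd.of_algebraMap (v := Q) (residue A a))
    rw [add_sub_cancel_right] at h4
    exact hpole h4
  have hB0 : r 2 + algebraMap (kA A) (FS A M) (residue A a) ≠ 0 := fun h0' => by
    rw [h0'] at hB
    simp at hB
  have h4 := h2 Q hQ
  rw [RR.bd_iff_ord (mul_ne_zero hA0 (pow_ne_zero _ hB0)), Q.ord_mul hA0 (pow_ne_zero _ hB0), hA,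
    RR.ord_pow] at h4
  have : (1 : ℤ) ≤ ((q - 1 : ℕ) : ℤ) := by
    exact_mod_cast Nat.sub_pos_of_lt C.prime.one_lt
  nlinarith

/-- integral chart functions restrict to regular functions -/
theorem regular_redB (s : Bool) {x : FB (M * q * q)} (hG : ∀ b, x ∈ GB C b)
    (hx : ∀ P : Place Qb (FB (M * q * q)), InChart s (P.ord (Jprod M q)) → Bd P x 0) (b : Fin 3) :
    redB C b x ∈ regOn (kA A) (tS A M s) := by
  obtain ⟨u, -, huG, hured, -, hux⟩ := exists_unit_move C s hx
  refine regular_res C s hux (r := fun b => redB C b x) (fun b => ?_) b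
  have h1 : IsRes C b (img M q 1 u) 1 := (isRes_img C huG b 1).congr_res (by
    fin_cases b <;> simp [imgRes, hured])
  exact (h1.mul (isRes_redB (hG b))).congr_res (one_mul _)

end FLTAgent.SS2
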