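import Fermat.Agent.SS2.KillClass
import Fermat.Agent.SS2.BranchesLand
import Fermat.Agent.SS2.ModelBase
import Fermat.Agent.SS2.ModelRegular
import Fermat.Agent.SS.Chart
import Fermat.Agent.SS2.Kill

/-!
Uniformisers of the branches on the charts: on the middle branch `a(q²τ) - a(τ)`, whose restriction
divided by `1 - ζ` is `θā`, moved to the chart of the cusps where necessary.
-/

set_option autoImplicit false
set_option linter.all false
set_option synthInstance.maxHeartbeats 400000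
set_option maxHeartbeats 1000000

noncomputable section

open ModularCurve AlgebraicCurve IsLocalRing
open FLTAgent.RR (Bd)
open FLTAgent.Reduction

namespace FLTAgent.SS2

variable {A : ValuationSubring Qb} {M q : ℕ} [NeZero M] [NeZero q]

/-- `a(q²τ) - a(τ)` -/
def yMid (M q : ℕ) [NeZero M] [NeZero q] (a : FB M) : FB (M * q * q) :=
  img M q 2 a - img M q 0 a

theorem yMid_rational {a : FB M} (ha : a ∈ rationalFn A M) :
    yMid M q a ∈ rationalFn A (M * q * q) :=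
  sub_mem (img_rational ha 2) (img_rational ha 0)

variable (C : Ctx A M q)
include C

theorem yMid_res {a : FB M} (ha : a ∈ GR A M) (b : Fin 3) :
    ∃ r, KRes C b (yMid M q a) r :=
  ⟨_, ((isRes_img C ha b 2).sub (isRes_img C ha b 0) : IsRes C b (yMid M q a) _)⟩

theorem yMid_regular {s : Bool} {a : FB M} (ha : BT A M s a) {P : Place Qb (FB (M * q * q))}
    (hP : InChart s (P.ord (Jprod M q))) : Bd P (yMid M q a) 0 :=
  (img_regOn 2 ha P (bd_img_of_inChart C.prime hP 2)).sub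
    (img_regOn 0 ha P (bd_img_of_inChart C.prime hP 0))

/-! ### the two projections at the cusps -/

/-- at the cusps the pole order of either of `j(τ)`, `j(qτ)` is at most `q` times the other -/
theorem cusp_ratio {v : Place Qb (FB (M * q))} (hva : v.ord (SS.aFn M q) ≤ 0)
    (hvb : v.ord (SS.bFn M q) ≤ 0) :
    Bd v (SS.bFn M q * ((SS.aFn M q)⁻¹) ^ q) 0 ∧ Bd v (SS.aFn M q * ((SS.bFn M q)⁻¹) ^ q) 0 := by
  have ha := SS.aFn_ne_zero C
  have hb := SS.bFn_ne_zero C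
  obtain ⟨e, w, he, e1, e2⟩ : ∃ (e : ℤ) (w : Place Qb (FB (M * q))), 0 ≤ e ∧
      v.ord (SS.bFn M q) = e * w.ord (SS.aFn M q) ∧ v.ord (SS.aFn M q) = e * w.ord (SS.bFn M q) := by
    have e1 := Place.ord_restrictAlong (SS.atkinW M q) (HeckeJ.isIntegralAlong _) v (SS.aFn M q)
    have e2 := Place.ord_restrictAlong (SS.atkinW M q) (HeckeJ.isIntegralAlong _) v (SS.bFn M q)
    rw [SS.atkinW_aFn C] at e1
    rw [SS.atkinW_bFn C] at e2
    exact ⟨_, _, Int.natCast_nonneg _, e1, e2⟩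
  refine ⟨?_, ?_⟩
  · rw [RR.bd_iff_ord (mul_ne_zero hb (pow_ne_zero _ (inv_ne_zero ha))),
      v.ord_mul hb (pow_ne_zero _ (inv_ne_zero ha)), RR.ord_pow, v.ord_inv]
    have := SS.ord_bFn_ge C (v := v) hva
    linarith
  · rw [RR.bd_iff_ord (mul_ne_zero ha (pow_ne_zero _ (inv_ne_zero hb))),
      v.ord_mul ha (pow_ne_zero _ (inv_ne_zero hb)), RR.ord_pow, v.ord_inv, e1, e2]
    rcases he.eq_or_lt with h0 | h0
    · simp [← h0]
    have hwa : w.ord (SS.aFn M q) ≤ 0 := nonpos_of_mul_nonpos_right (e1 ▸ hvb) h0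
    have := mul_le_mul_of_nonneg_left (SS.ord_bFn_ge C (v := w) hwa) he
    linarith

/-- `l(q²τ) l(τ)^(q-1) / l(qτ)` and `l(τ)^q / l(qτ)` are finite at the cusps, `l = 1/j` -/
theorem cusp_bounded {P : Place Qb (FB (M * q * q))} (hP : InChart true (P.ord (Jprod M q))) :
    Bd P ((jImg M q 2)⁻¹ * ((jImg M q 0)⁻¹) ^ (q - 1) * jImg M q 1) 0 ∧
      Bd P (((jImg M q 0)⁻¹) ^ q * jImg M q 1) 0 := by
  have hk := (inChart_true_Jprod C.prime).mp hP
  set φ := heckeAlphaBar Qb (M * q) q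
  set ψ := heckeBetaBar Qb (M * q) q
  have a0 : φ (SS.aFn M q) = jImg M q 0 := rfl
  have a1 : φ (SS.bFn M q) = jImg M q 1 := rfl
  have b2 : ψ (SS.bFn M q) = jImg M q 2 := rfl
  have b1 : ψ (SS.aFn M q) = jImg M q 1 := img_jBar (M := M) (q := q) 1 ▸ rfl
  have hle : ∀ (χ : FB (M * q) →ₐ[Qb] FB (M * q * q)) (y : FB (M * q)), y ≠ 0 → P.ord (χ y) ≤ 0 →
      (P.restrictAlong χ (HeckeJ.isIntegralAlong χ)).ord y ≤ 0 := fun χ y hy h => by
    have h1 : Bd P (χ y⁻¹) 0 := by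
      rw [map_inv₀, RR.bd_iff_ord (inv_ne_zero ((_root_.map_ne_zero _).mpr hy)), P.ord_inv]
      omega
    rw [bd_restrictAlong χ (HeckeJ.isIntegralAlong χ), RR.bd_iff_ord (inv_ne_zero hy),
      Place.ord_inv] at h1
    omega
  have ha := SS.aFn_ne_zero C
  have hb := SS.bFn_ne_zero C
  have h1 := (bd_restrictAlong φ (HeckeJ.isIntegralAlong φ) P _).mpr
    (cusp_ratio C (hle φ _ ha (a0 ▸ hk 0)) (hle φ _ hb (a1 ▸ hk 1))).1
  have h2 := (bd_restrictAlong ψ (HeckeJ.isIntegralAlong ψ) P _).mpr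
    (cusp_ratio C (hle ψ _ ha (b1 ▸ hk 1)) (hle ψ _ hb (b2 ▸ hk 2))).2
  rw [map_mul, map_pow, map_inv₀, a0, a1] at h1
  rw [map_mul, map_pow, map_inv₀, b1, b2] at h2
  refine ⟨bd_zero_of_pow C.prime.ne_zero ?_, by rw [mul_comm (((jImg M q 0)⁻¹) ^ q)]; exact h1⟩
  have h3 := (h1.pow (q - 1)).mul h2
  rw [mul_zero, add_zero] at h3
  convert h3 using 1
  obtain ⟨m, hm⟩ : ∃ m, q = m + 1 := ⟨q - 1, by have := C.prime.one_le; omega⟩
  simp only [hm, Nat.add_sub_cancel]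
  ring

variable {Mo : Fib Qb A (FB (M * q * q)) (FS A M)} (hM : IsModel C Mo)
include hM

theorem e_two : Mo.e 2 = q - 1 := by rw [hM.e_eq, if_pos rfl]

theorem e_side {b : Fin 3} (hb : b ≠ 2) : Mo.e b = 1 := by rw [hM.e_eq, if_neg hb]

theorem yMid_mem_G {a : FB M} (ha : a ∈ GR A M) (har : a ∈ rationalFn A M) (b : Fin 3) :
    yMid M q a ∈ Mo.G b := by
  obtain ⟨r, hr⟩ := yMid_res C ha b
  exact (hM.of_res b _ r (yMid_rational har) hr).1

/-- `yMid(a)^(q-1)/q` restricts to a constant times `(θā)^(q-1)` -/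
theorem mid_unit {a : FB M} (ha : a ∈ GR A M) (har : a ∈ rationalFn A M)
    (hθ : theta (redS A M a) ≠ 0) :
    ∃ (V : FS A M) (u : kA A), u ≠ 0 ∧ V ≠ 0 ∧
      (V : LaurentSeries (kA A)) = theta (redS A M a) ^ (q - 1) ∧
      yMid M q a ^ (q - 1) * (algebraMap Qb (FB (M * q * q)) (Mo.q : Qb))⁻¹ ∈ Mo.G 2 ∧
      Mo.red 2 (yMid M q a ^ (q - 1) * (algebraMap Qb (FB (M * q * q)) (Mo.q : Qb))⁻¹) =
        algebraMap (kA A) (FS A M) u * V := by
  obtain ⟨ζ⟩ := nonempty_PR C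
  rw [hM.q_eq]
  set x := yMid M q a ^ (q - 1) * (algebraMap Qb (FB (M * q * q)) (q : Qb))⁻¹ with hxdef
  have hxr : x ∈ rationalFn A (M * q * q) :=
    mul_mem (pow_mem (yMid_rational har) _) (inv_mem (const_mem_rationalFn (natCast_mem _ _)))
  have hq0 : (q : Qb) ≠ 0 := Nat.cast_ne_zero.mpr C.prime.ne_zero
  set v : Qb := (1 - (ζ : Qb)) ^ (q - 1) * (q : Qb)⁻¹
  have hv : A.valuation v = 1 := by
    rw [map_mul, map_pow, valuation_one_sub_pow C ζ, map_inv₀,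
      mul_inv_cancel₀ ((Valuation.ne_zero_iff _).mpr hq0)]
  have hvA : v ∈ A := (A.valuation_le_one_iff _).mp hv.le
  obtain ⟨g1, g2⟩ := red11_pi C ζ ha
  have hexp : eB M q C.prime C.not_dvd ζ 2 x =
      cL v * (cL (1 - (ζ : Qb))⁻¹ * e11 M q C.prime C.not_dvd ζ (i2 M q a - i0 M q a)) ^ (q - 1) := by
    show e11 M q C.prime C.not_dvd ζ x = _
    rw [hxdef, map_mul, map_pow, map_inv₀, AlgHom.commutes, mul_pow, ← mul_assoc]
    have e : cL v * cL (1 - (ζ : Qb))⁻¹ ^ (q - 1) = (cL (q : Qb))⁻¹ := by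
      show algebraMap Qb LS v * algebraMap Qb LS (1 - (ζ : Qb))⁻¹ ^ (q - 1) =
        (algebraMap Qb LS (q : Qb))⁻¹
      rw [← map_pow, ← map_mul, ← map_inv₀]
      congr 1
      have h0 : (1 - (ζ : Qb)) ^ (q - 1) ≠ 0 := pow_ne_zero _ (PR.one_sub_ne_zero C.prime ζ)
      simp only [v, inv_pow]
      rw [mul_right_comm, mul_inv_cancel₀ h0, one_mul]
    rw [e, mul_comm]
    rfl
  have hmem : eB M q C.prime C.not_dvd ζ 2 x ∈ GG A := by
    rw [hexp]; exact mul_mem (cL_mem hvA) (pow_mem g1 _)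
  obtain ⟨r, hr⟩ := landing C ζ 2 x hxr hmem
  obtain ⟨hxG, hxred⟩ := hM.of_res 2 x r hxr (isRes_of_series C hxr hmem hr)
  set u := residue A ⟨v, hvA⟩
  have hu : u ≠ 0 := (Reduction.res_ne_zero_iff A _).mpr hv
  have hser : (r : LaurentSeries (kA A)) =
      algebraMap (kA A) _ u * theta (redS A M a) ^ (q - 1) := by
    rw [← hr, hexp, redL_mul (cL_mem hvA) (pow_mem g1 _), redL_pow g1, g2, redL_cL ⟨v, hvA⟩]
  refine ⟨algebraMap (kA A) (FS A M) u⁻¹ * r, u, hu, fun h => ?_, ?_, hxG, ?_⟩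
  · have h' := congrArg (fun z : FS A M => (z : LaurentSeries (kA A))) h
    simp only [MulMemClass.coe_mul, ZeroMemClass.coe_zero, hser, mul_eq_zero] at h'
    rcases h' with h' | h' | h'
    · exact inv_ne_zero hu ((map_eq_zero _).mp h')
    · exact hu ((map_eq_zero _).mp h')
    · exact pow_ne_zero _ hθ h'
  · rw [MulMemClass.coe_mul, hser, ← mul_assoc]
    show algebraMap (kA A) (LaurentSeries (kA A)) u⁻¹ * algebraMap (kA A) _ u * _ = _
    rw [← map_mul, inv_mul_cancel₀ hu, map_one, one_mul]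
  · rw [hxred, ← mul_assoc, ← map_mul, mul_inv_cancel₀ hu, map_one, one_mul]

/-- a uniformiser of the middle branch -/
theorem mid_rho {a : FB M} (ha : a ∈ GR A M) (har : a ∈ rationalFn A M)
    (hθ : theta (redS A M a) ≠ 0) {g : FB (M * q * q)} (hg : g ∈ Mo.G 2) (hg0 : Mo.red 2 g ≠ 0) :
    yMid M q a * g * (Mo.ϖ 2)⁻¹ ∈ Mo.G 2 ∧ Mo.red 2 (yMid M q a * g * (Mo.ϖ 2)⁻¹) ≠ 0 ∧
      ∃ (V : FS A M) (u : kA A), u ≠ 0 ∧ V ≠ 0 ∧
        (V : LaurentSeries (kA A)) = theta (redS A M a) ^ (q - 1) ∧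
        Mo.red 2 (algebraMap Qb (FB (M * q * q)) (Mo.q : Qb) * ((yMid M q a * g) ^ Mo.e 2)⁻¹) =
          (algebraMap (kA A) (FS A M) u * V * Mo.red 2 g ^ (q - 1))⁻¹ := by
  obtain ⟨V, u, hu, hV0, hV, hxG, hxr⟩ := mid_unit C hM ha har hθ
  have hne : algebraMap (kA A) (FS A M) u * V ≠ 0 :=
    mul_ne_zero ((_root_.map_ne_zero _).mpr hu) hV0
  have hq2 : 1 ≤ q - 1 := by have := C.prime.two_le; omega
  have hx0 : Fib.HasExp Mo 2 (yMid M q a ^ (q - 1) * (algebraMap Qb _ (Mo.q : Qb))⁻¹) 0 :=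
    Fib.HasExp.zero_iff.mpr ⟨hxG, hxr ▸ hne⟩
  have hy0 : yMid M q a ≠ 0 := fun h => hx0.ne_zero (by rw [h, zero_pow (by omega), zero_mul])
  obtain ⟨i, hi⟩ := Mo.exists_hasExp 2 (Mo.G_le 2 _ (yMid_mem_G C hM ha har 2)) hy0
  have hi1 : i = 1 := by
    have h := ((hi.pow (q - 1)).mul (Mo.hasExp_q 2).inv).unique hx0
    rw [e_two C hM] at h
    have h0 : ((q - 1 : ℕ) : ℤ) * (i - 1) = 0 := by linear_combination h
    have := (mul_eq_zero.mp h0).resolve_left (by exact_mod_cast (by omega : q - 1 ≠ 0))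
    omega
  subst hi1
  have h := hi.mul (Fib.HasExp.zero_iff.mpr ⟨hg, hg0⟩)
  rw [add_zero, Fib.HasExp, zpow_neg_one] at h
  refine ⟨h.1, h.2, V, u, hu, hV0, hV, ?_⟩
  have hgp : ∀ n : ℕ, g ^ n ∈ Mo.G 2 ∧ Mo.red 2 (g ^ n) = Mo.red 2 g ^ n := fun n => by
    induction n with
    | zero => exact ⟨by rw [pow_zero]; exact one_mem _, by rw [pow_zero, pow_zero, Mo.red_one]⟩
    | succ n ih =>
      rw [pow_succ, pow_succ]
      exact ⟨mul_mem ih.1 hg, by rw [Mo.red_mul 2 _ ih.1 _ hg, ih.2]⟩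
  have hred : Mo.red 2 (yMid M q a ^ (q - 1) * (algebraMap Qb (FB (M * q * q)) (Mo.q : Qb))⁻¹ *
      g ^ (q - 1)) = algebraMap (kA A) (FS A M) u * V * Mo.red 2 g ^ (q - 1) := by
    rw [Mo.red_mul 2 _ hxG _ (hgp _).1, hxr, (hgp _).2]
  have hinv := Mo.inv_mem_G 2 (mul_mem hxG (hgp (q - 1)).1)
    (by rw [hred]; exact mul_ne_zero hne (pow_ne_zero _ hg0))
  rw [← hred, ← hinv.2, e_two C hM]
  congr 1
  rw [mul_inv, mul_inv, inv_inv, mul_pow, mul_inv]
  ring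

omit hM in
/-- values of `q` divided by the power of the uniformiser -/
theorem mid_val {Q : PS A M} {u : kA A} (hu : u ≠ 0) {W : FS A M} (hW0 : W ≠ 0) (hW : Q.ord W = 0)
    {x : FS A M} (hx : x = (algebraMap (kA A) (FS A M) u * W)⁻¹) :
    ∃ c₀ : kA A, c₀ ≠ 0 ∧ Val Q x c₀ := by
  have hu' : algebraMap (kA A) (FS A M) u ≠ 0 := (_root_.map_ne_zero _).mpr hu
  have hx0 : x ≠ 0 := hx ▸ inv_ne_zero (mul_ne_zero hu' hW0)
  have hord : Q.ord x = 0 := by
    rw [hx, Q.ord_inv, Q.ord_mul hu' hW0, RR.ord_algebraMap, hW]; rfl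
  obtain ⟨c, hc⟩ := val_exists_S C (Q := Q) (x := x) (by rw [RR.bd_iff_ord hx0]; omega)
  refine ⟨c, fun h => ?_, hc⟩
  have := (h ▸ hc).ord_pos hx0
  omega

/-- the function `yMid(a)` moved to the chart of the cusps -/
theorem mid_shift {a : FB M} (ha : BT A M false a) (har : a ∈ rationalFn A M) :
    ∃ k : ℕ, yMid M q a * Mo.J⁻¹ ^ k ∈ Mo.R true := by
  have hG := fun b => yMid_mem_G C hM (BT.mem_GR C ha) har b
  have hon : Mo.OnChart 0 false (yMid M q a) := fun P hP => by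
    simpa using yMid_regular C ha (hM.J_eq ▸ hP)
  obtain ⟨k, hk⟩ := Mo.exists_pow_onChart false hon
  refine ⟨k, Mo.GI_iff.mpr fun b => mul_mem (hG b) (pow_mem (Mo.J_inv_mem b).1 k), fun P hP => ?_⟩
  have := hk P hP
  rw [mul_comm (Mo.Jc _ ^ k)] at this
  exact this

theorem J_inv_pow (k : ℕ) :
    Mo.J⁻¹ ^ k ∈ Mo.G 2 ∧ ∃ e : ℕ, Mo.red 2 (Mo.J⁻¹ ^ k) = ((jS A M)⁻¹ ^ e) := by
  obtain ⟨e, -, he⟩ := hM.Jbar_eq 2
  refine ⟨pow_mem (Mo.J_inv_mem 2).1 k, e * k, ?_⟩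
  have : ∀ n : ℕ, Mo.red 2 (Mo.J⁻¹ ^ n) = Mo.red 2 Mo.J⁻¹ ^ n := fun n => by
    induction n with
    | zero => rw [pow_zero, pow_zero, Mo.red_one]
    | succ n ih =>
      rw [pow_succ, pow_succ, Mo.red_mul 2 _ (pow_mem (Mo.J_inv_mem 2).1 n) _ (Mo.J_inv_mem 2).1, ih]
  rw [this, (Mo.J_inv_mem 2).2, he, ← inv_pow, ← pow_mul]

/-- a uniformiser on each branch and chart -/
theorem exists_rho_chart (s : Bool) (b : Fin 3) :
    ∃ ρ, Mo.OnChart 0 s ρ ∧ ρ * (Mo.ϖ b)⁻¹ ∈ Mo.G b ∧ Mo.red b (ρ * (Mo.ϖ b)⁻¹) ≠ 0 := by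
  rcases eq_or_ne b 2 with rfl | hb
  swap
  · refine ⟨algebraMap Qb _ (Mo.q : Qb), fun P _ => by
      simpa using RR.Bd.of_algebraMap (v := P) (Mo.q : Qb), ?_⟩
    have h := Mo.q_eq b
    rwa [e_side C hM hb, pow_one] at h
  have har : tB M false ∈ rationalFn A M := jBar_rational A M
  have hBT : BT A M false (tB M false) := BT_tB false
  have hθ : theta (redS A M (tB M false)) ≠ 0 := by
    rw [redS_tB]; exact theta_jS_ne C
  cases s
  · obtain ⟨h1, h2, -⟩ := mid_rho C hM (BT.mem_GR C hBT) har hθ (one_mem _)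
      (by rw [Mo.red_one]; exact one_ne_zero)
    rw [mul_one] at h1 h2
    exact ⟨_, fun P hP => by simpa using yMid_regular C hBT (hM.J_eq ▸ hP), h1, h2⟩
  · obtain ⟨k, hk⟩ := mid_shift C hM hBT har
    obtain ⟨hg, e, he⟩ := J_inv_pow C hM k
    obtain ⟨h1, h2, -⟩ := mid_rho C hM (BT.mem_GR C hBT) har hθ hg
      (he ▸ pow_ne_zero _ (inv_ne_zero (tS_ne_zero A M false)))
    exact ⟨_, hk.2, h1, h2⟩

variable {D : SS.Data Qb A (FB (M * q)) (FS A M)} (L : LevelData D)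
  {r : ℕ} (hr : r.Prime) (h11 : r % 12 = 11) (hrM : r ∣ M)

omit hM in
include L hr h11 hrM in
/-- lifts of uniformisers at the finite points off the double points -/
theorem exists_mid_lift {Q : PS A M} (hQ : Bd Q (tS A M false) 0) (hne : Q ∉ DblSet D) :
    ∃ a, BT A M false a ∧ a ∈ rationalFn A M ∧ theta (redS A M a) ≠ 0 ∧
      ∀ V : FS A M, (V : LaurentSeries (kA A)) = theta (redS A M a) ^ (q - 1) → Q.ord V = 0 := by
  obtain ⟨t, ht, ht1, hθ⟩ := exists_unif_theta C hQ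
  obtain ⟨a, ha, har, hat⟩ := exists_rational_lift C ((BS_iff C).mpr ht)
  have has : redS A M a = (t : LaurentSeries (kA A)) := by
    rw [← coe_red C (BT.mem_GR C ha), hat]
  refine ⟨a, ha, har, has ▸ hθ, fun V hV => ?_⟩
  obtain ⟨V', hV', -, hord⟩ :=
    theta_ne_off_double C L hr h11 hrM hQ (fun i h => hne ⟨i, h⟩) ht ht1 hθ
  rwa [show V = V' from Subtype.ext (by rw [hV, hV', has])]

omit C hM in
/-- monic polynomials at poles -/
theorem ord_aeval_pole {K F : Type*} [Field K] [Field F] [Algebra K F] {v : Place K F} {x : F}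
    (hx : v.ord x < 0) {p : Polynomial K} (hp : p.Monic) :
    Polynomial.aeval x p ≠ 0 ∧ v.ord (Polynomial.aeval x p) = p.natDegree * v.ord x := by
  have hx0 : x ≠ 0 := fun h => by rw [h, v.ord_zero] at hx; omega
  have h0 : Val v x⁻¹ (0 : K) := val_zero_of_ord_pos (by rw [v.ord_inv]; omega)
  have h1 := h0.aeval p.reverse
  rw [← Polynomial.coeff_zero_eq_eval_zero, Polynomial.coeff_zero_reverse, hp.leadingCoeff] at h1
  obtain ⟨hne, hord⟩ := h1.ord_eq_zero one_ne_zero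
  letI := invertibleOfNonzero hx0
  have he := Polynomial.eval₂_reverse_mul_pow (algebraMap K F) x p
  rw [invOf_eq_inv] at he
  change Polynomial.aeval x⁻¹ p.reverse * x ^ p.natDegree = Polynomial.aeval x p at he
  rw [← he]
  exact ⟨mul_ne_zero hne (pow_ne_zero _ hx0),
    by rw [v.ord_mul hne (pow_ne_zero _ hx0), hord, RR.ord_pow, zero_add]⟩

omit hM in
/-- the order of `(θ(1/j))^(q-1)` at a pole of `j` -/
theorem ord_theta_cusp {Q : PS A M} (hQ : Q.ord (jS A M) < 0) {V : FS A M}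
    (hV : (V : LaurentSeries (kA A)) = theta (redS A M (tB M true)) ^ (q - 1)) :
    Q.ord V = -(((q - 1 : ℕ) : ℤ) * Q.ord (jS A M)) := by
  obtain ⟨P, hPm, hPd, hP⟩ := exists_hasse_kA C
  set Pj := Polynomial.aeval (jS A M) P
  obtain ⟨hP0, hPord⟩ := ord_aeval_pole hQ hPm
  rw [hPd] at hPord
  have hj0 : jS A M ≠ 0 := tS_ne_zero A M false
  have h1728 : (jS A M - 1728) ≠ 0 ∧ Q.ord (jS A M - 1728) = Q.ord (jS A M) := by
    have h := ord_aeval_pole hQ (Polynomial.monic_X_sub_C (1728 : kA A))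
    rw [Polynomial.natDegree_X_sub_C, map_sub, Polynomial.aeval_X, Polynomial.aeval_C,
      map_ofNat] at h
    simpa using h
  set B := jS A M ^ 4 * (jS A M - 1728) ^ 3 * ((jS A M)⁻¹) ^ 12
  have hB0 : B ≠ 0 := mul_ne_zero (mul_ne_zero (pow_ne_zero _ hj0) (pow_ne_zero _ h1728.1))
    (pow_ne_zero _ (inv_ne_zero hj0))
  have key : V ^ 6 = B ^ (q - 1) / Pj := by
    refine Subtype.ext ?_
    have hPc : ((Pj : FS A M) : LaurentSeries (kA A)) = Polynomial.aeval (jqModC (kA A)) P :=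
      (Polynomial.aeval_algHom_apply (modularFunctionFieldFullC (kA A) M).val (jS A M) P).symm
    have hl : redS A M (tB M true) = (jqModC (kA A))⁻¹ := by
      rw [redS_tB]; rfl
    have hjc : jqModC (kA A) ≠ 0 := fun h => hj0 (Subtype.ext h)
    have hθl : theta (jqModC (kA A))⁻¹ = -(theta (jqModC (kA A)) * ((jqModC (kA A))⁻¹) ^ 2) := by
      have h := theta_mul (jqModC (kA A)) (jqModC (kA A))⁻¹
      rw [mul_inv_cancel₀ hjc, ← map_one (algebraMap (kA A) (LaurentSeries (kA A))), theta_const] at h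
      refine mul_left_cancel₀ hjc ?_
      linear_combination h.symm +
        theta (jqModC (kA A)) * (jqModC (kA A))⁻¹ * mul_inv_cancel₀ hjc
    rw [SubmonoidClass.coe_pow, hV, hl, ← pow_mul, mul_comm, pow_mul, hθl,
      Even.neg_pow (by decide), mul_pow, theta_jqModC_pow_six, ← pow_mul]
    show _ = ((B ^ (q - 1) / Pj : FS A M) : LaurentSeries (kA A))
    simp only [B, div_eq_mul_inv]
    push_cast
    rw [hPc, ← eq_inv_of_mul_eq_one_left
      (by rw [mul_comm]; exact hP : deltaC (kA A) ^ (q - 1) * Polynomial.aeval (jqModC (kA A)) P = 1)]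
    rw [show ((jS A M : FS A M) : LaurentSeries (kA A)) = jqModC (kA A) from rfl]
    rw [show ((1728 : FS A M) : LaurentSeries (kA A)) = 1728 from map_ofNat
      (modularFunctionFieldFullC (kA A) M).val 1728]
    simp only [mul_pow]
    ring
  have hV6 := congrArg Q.ord key
  rw [RR.ord_pow, div_eq_mul_inv, Q.ord_mul (pow_ne_zero _ hB0) (inv_ne_zero hP0), Q.ord_inv,
    hPord, RR.ord_pow, Q.ord_mul (mul_ne_zero (pow_ne_zero _ hj0) (pow_ne_zero _ h1728.1))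
      (pow_ne_zero _ (inv_ne_zero hj0)), Q.ord_mul (pow_ne_zero _ hj0) (pow_ne_zero _ h1728.1),
    RR.ord_pow, RR.ord_pow, RR.ord_pow, Q.ord_inv, h1728.2] at hV6
  push_cast at hV6
  linarith

/-- the uniformiser at a cusp of the middle branch -/
theorem exists_rho_cusp {Q : PS A M} (hQ : Q.ord (jS A M) < 0) :
    ∃ ρ ∈ Mo.R true, ρ * (Mo.ϖ 2)⁻¹ ∈ Mo.G 2 ∧ Mo.red 2 (ρ * (Mo.ϖ 2)⁻¹) ≠ 0 ∧
      ∃ c₀ : kA A, c₀ ≠ 0 ∧ Val Q
        (Mo.red 2 (algebraMap Qb (FB (M * q * q)) (Mo.q : Qb) * (ρ ^ Mo.e 2)⁻¹)) c₀ := by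
  have har : tB M true ∈ rationalFn A M := inv_mem (jBar_rational A M)
  have haG : tB M true ∈ GR A M := tB_mem true
  set l : Fin 3 → FB (M * q * q) := fun k => img M q k (tB M true)
  have hl : ∀ k, l k = (jImg M q k)⁻¹ := fun k => by
    show img M q k (ModFun.jBar M)⁻¹ = _
    rw [map_inv₀, img_jBar]
  have hlr : ∀ k, l k ∈ rationalFn A (M * q * q) := fun k => img_rational har k
  have hlres : ∀ b k, l k ∈ Mo.G b ∧ Mo.red b (l k) = tS A M true ^ imgExp q b k := fun b k =>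
    hM.of_res b _ _ (hlr k) (isRes_img_tB C true b k)
  have ht0 : tS A M true ≠ 0 := tS_ne_zero A M true
  have hl1 : ∀ b, (l 1)⁻¹ ∈ Mo.G b ∧ Mo.red b (l 1)⁻¹ = (tS A M true ^ imgExp q b 1)⁻¹ := fun b => by
    obtain ⟨h, h'⟩ := hlres b 1
    have := Mo.inv_mem_G b h (h' ▸ pow_ne_zero _ ht0)
    exact ⟨this.1, this.2.trans (by rw [h'])⟩
  set g := l 0 ^ (q - 1) * (l 1)⁻¹
  have hgG : ∀ b, g ∈ Mo.G b := fun b => mul_mem (pow_mem (hlres b 0).1 _) (hl1 b).1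
  have hg : Mo.red 2 g = (tS A M true)⁻¹ := by
    have hp : ∀ n : ℕ, Mo.red 2 (l 0 ^ n) = tS A M true ^ n := fun n => by
      induction n with
      | zero => rw [pow_zero, pow_zero, Mo.red_one]
      | succ n ih =>
        rw [pow_succ, pow_succ, Mo.red_mul 2 _ (pow_mem (hlres 2 0).1 n) _ (hlres 2 0).1, ih,
          (hlres 2 0).2]
        simp [imgExp]
    rw [Mo.red_mul 2 _ (pow_mem (hlres 2 0).1 _) _ (hl1 2).1, hp, (hl1 2).2]
    obtain ⟨m, hm⟩ : ∃ m, q = m + 1 := ⟨q - 1, by have := C.prime.one_le; omega⟩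
    simp only [imgExp, hm, Nat.add_sub_cancel, pow_succ]
    field_simp
  have hθ : theta (redS A M (tB M true)) ≠ 0 := by
    intro h0
    rw [redS_tB] at h0
    refine theta_jS_ne C ?_
    have hjc : ((tS A M true : FS A M) : LaurentSeries (kA A)) * (jS A M : FS A M) = 1 := by
      rw [← MulMemClass.coe_mul, show tS A M true = (jS A M)⁻¹ from rfl,
        inv_mul_cancel₀ (show jS A M ≠ 0 from tS_ne_zero A M false)]
      rfl
    have h := congrArg theta hjc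
    rw [theta_mul, h0, zero_mul, zero_add, ← map_one (algebraMap (kA A) (LaurentSeries (kA A))),
      theta_const] at h
    exact (mul_eq_zero.mp h).resolve_left fun hz => ht0 (Subtype.ext hz)
  obtain ⟨h1, h2, V, u, hu, hV0, hV, hval⟩ := mid_rho C hM haG har hθ (hgG 2)
    (hg ▸ inv_ne_zero ht0)
  refine ⟨yMid M q (tB M true) * g,
    ⟨Mo.GI_iff.mpr fun b => mul_mem (yMid_mem_G C hM haG har b) (hgG b), fun P hP => ?_⟩, h1, h2, ?_⟩
  · obtain ⟨c1, c2⟩ := cusp_bounded C (hM.J_eq ▸ hP)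
    simp only [Finsupp.coe_zero, Pi.zero_apply]
    have e : yMid M q (tB M true) * g =
        (jImg M q 2)⁻¹ * ((jImg M q 0)⁻¹) ^ (q - 1) * jImg M q 1 -
          ((jImg M q 0)⁻¹) ^ q * jImg M q 1 := by
      show (l 2 - l 0) * (l 0 ^ (q - 1) * (l 1)⁻¹) = _
      obtain ⟨m, hm⟩ : ∃ m, q = m + 1 := ⟨q - 1, by have := C.prime.one_le; omega⟩
      simp only [hl, inv_inv, hm, Nat.add_sub_cancel]
      ring
    rw [e]
    exact c1.sub c2
  · rw [hg, mul_assoc (algebraMap (kA A) (FS A M) u)] at hval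
    have hW0 : V * (tS A M true)⁻¹ ^ (q - 1) ≠ 0 :=
      mul_ne_zero hV0 (pow_ne_zero _ (inv_ne_zero ht0))
    refine mid_val C hu hW0 ?_ hval
    rw [Q.ord_mul hV0 (pow_ne_zero _ (inv_ne_zero ht0)), RR.ord_pow,
      show (tS A M true)⁻¹ = jS A M from inv_inv (jS A M), ord_theta_cusp C hQ hV]
    ring

include L hr h11 hrM in
/-- uniformisers at the points off the double points -/
theorem exists_rho (s : Bool) (b : Fin 3) {Q : PS A M} (hQ : Bd Q (tS A M s) 0)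
    (hne : Q ∉ DblSet D) :
    ∃ ρ ∈ Mo.R s, ρ * (Mo.ϖ b)⁻¹ ∈ Mo.G b ∧ Mo.red b (ρ * (Mo.ϖ b)⁻¹) ≠ 0 ∧
      ∃ c₀ : kA A, c₀ ≠ 0 ∧ Val Q
        (Mo.red b (algebraMap Qb (FB (M * q * q)) (Mo.q : Qb) * (ρ ^ Mo.e b)⁻¹)) c₀ := by
  rcases eq_or_ne b 2 with rfl | hb
  swap
  · refine ⟨algebraMap Qb _ (Mo.q : Qb), ⟨Mo.GI_iff.mpr fun b' => (Mo.q_mem_G b').1, fun P _ => by
      simpa using RR.Bd.of_algebraMap (v := P) (Mo.q : Qb)⟩, ?_⟩
    have h := Mo.q_eq b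
    rw [e_side C hM hb, pow_one] at h
    refine ⟨h.1, h.2, 1, one_ne_zero, ?_⟩
    rw [e_side C hM hb, pow_one, mul_inv_cancel₀ ((_root_.map_ne_zero _).mpr Mo.q_ne), Mo.red_one]
    exact Val.one
  cases s
  · obtain ⟨a, ha, har, hθ, hord⟩ := exists_mid_lift C L hr h11 hrM hQ hne
    obtain ⟨h1, h2, V, u, hu, hV0, hV, hval⟩ := mid_rho C hM (BT.mem_GR C ha) har hθ (one_mem _)
      (by rw [Mo.red_one]; exact one_ne_zero)
    simp only [mul_one] at h1 h2 hval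
    rw [Mo.red_one, one_pow, mul_one] at hval
    exact ⟨yMid M q a, ⟨Mo.GI_iff.mpr fun b => yMid_mem_G C hM (BT.mem_GR C ha) har b,
      fun P hP => by simpa using yMid_regular C ha (hM.J_eq ▸ hP)⟩, h1, h2,
      mid_val C hu hV0 (hord V hV) hval⟩
  have hj : Q.ord (jS A M) ≤ 0 := (SS.bd_zero_inv_iff (tS_ne_zero A M false)).mp hQ
  rcases hj.eq_or_lt with h0 | hneg
  swap
  · exact exists_rho_cusp C hM hneg
  have hQf : Bd Q (tS A M false) 0 := (SS.bd_zero_iff (tS_ne_zero A M false)).mpr h0.ge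
  obtain ⟨a, ha, har, hθ, hord⟩ := exists_mid_lift C L hr h11 hrM hQf hne
  obtain ⟨k, hk⟩ := mid_shift C hM ha har
  obtain ⟨hg, e, he⟩ := J_inv_pow C hM k
  have hj0 : jS A M ≠ 0 := tS_ne_zero A M false
  obtain ⟨h1, h2, V, u, hu, hV0, hV, hval⟩ := mid_rho C hM (BT.mem_GR C ha) har hθ hg
    (he ▸ pow_ne_zero _ (inv_ne_zero hj0))
  refine ⟨_, hk, h1, h2, ?_⟩
  rw [mul_assoc (algebraMap (kA A) (FS A M) u), he] at hval
  refine mid_val C hu (mul_ne_zero hV0 (pow_ne_zero _ (pow_ne_zero _ (inv_ne_zero hj0)))) ?_ hval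
  rw [Q.ord_mul hV0 (pow_ne_zero _ (pow_ne_zero _ (inv_ne_zero hj0))), RR.ord_pow, RR.ord_pow,
    Q.ord_inv, h0, hord V hV]
  ring

end FLTAgent.SS2

end
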