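import Fermat.Agent.SS2.Crossing
import Fermat.Agent.SS.Side

/-!
The fibre built from the two sides satisfies the hypotheses of the crossing theorems.
-/

set_option autoImplicit false
set_option linter.unusedSectionVars false

noncomputable section

open ModularCurve AlgebraicCurve IsLocalRing
open FLTAgent.Reduction

namespace FLTAgent.SS2

variable {A : ValuationSubring Qb} {M q : ℕ} [NeZero M] [NeZero q]

/-- `LevelData` for a fibre given by the two sides. -/
def LevelData.ofSide (C : Ctx A M q) (D : SS.Data Qb A (FB (M * q)) (FS A M))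
    (hG : D.G = SS.GS M q A) (hred : D.red = SS.redM M q A) (hJ : D.J = SS.Jfn M q)
    (hJb : D.Jbar = SS.JS M q A)
    (hres : ∀ y ∈ GR A (M * q), redS A (M * q) y ∈ modularFunctionFieldFullC (kA A) M) :
    LevelData D where
  w := SS.atkinW M q
  w_alpha := SS.atkinW_i1 C
  w_beta := SS.atkinW_i2 C
  mem_false x := by rw [hG]; exact Iff.rfl
  red_false x hx := by
    rw [hred]
    exact congrArg Subtype.val (SS.redM_eq (b := false) (r := ⟨_, hres x hx⟩) rfl)
  mem_true x := by rw [hG]; exact Iff.rfl
  red_true x _ := by
    rw [hred]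
    rfl
  J_eq := hJ
  Jbar_eq := hJb

end FLTAgent.SS2
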