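import Fermat.Agent.SS2.FibGen
import Fermat.Agent.RR.Global

/-!
A local generator of the twisted sections at a crossing of the special fibre, from the places of the
generic fibre over the crossing.
-/

set_option autoImplicit false
set_option linter.unusedSectionVars false
set_option linter.unusedVariables false
set_option linter.style.haveILetI false

noncomputable section

open AlgebraicCurve IsLocalRing
open FLTAgent.RR (Bd)
open FLTAgent.Reduction (Val)

namespace FLTAgent.SS2.Fib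

variable {K : Type*} [Field K] [IsAlgClosed K] [CharZero K] {A : ValuationSubring K}
  {F : Type*} [Field F] [Algebra K F] [RR.FnField K F]
  {Fs : Type*} [Field Fs] [Algebra (ResidueField A) Fs] (M : Fib K A F Fs) {n : ℕ}

/-- chart functions have values at the places of the chart -/
theorem exists_place_val {s : Bool} {P : Place K F} (hP : InChart s (P.ord M.J)) (r : M.R s) :
    ∃ v, Val P (r : F) v :=
  Reduction.exists_val (RR.hasRes P) (by simpa [OnChart] using r.2.2 P hP)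

/-- the value at a place of the chart -/
def placeVal {s : Bool} {P : Place K F} (hP : InChart s (P.ord M.J)) : M.R s →+* K where
  toFun r := (M.exists_place_val hP r).choose
  map_one' := (M.exists_place_val hP 1).choose_spec.unique Val.one
  map_mul' x y := (M.exists_place_val hP (x * y)).choose_spec.unique
    ((M.exists_place_val hP x).choose_spec.mul (M.exists_place_val hP y).choose_spec)
  map_zero' := (M.exists_place_val hP 0).choose_spec.unique Val.zero
  map_add' x y := (M.exists_place_val hP (x + y)).choose_spec.unique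
    ((M.exists_place_val hP x).choose_spec.add (M.exists_place_val hP y).choose_spec)

theorem placeVal_spec {s : Bool} {P : Place K F} (hP : InChart s (P.ord M.J)) (r : M.R s) :
    Val P (r : F) (M.placeVal hP r) :=
  (M.exists_place_val hP r).choose_spec

/-- the values of polynomials in a chart function with integral rational coefficients are values of
chart functions -/
theorem exists_mem_R_eval {s : Bool} {P : Place K F} {z : F} (hz : z ∈ M.R s) {vz : K}
    (hv : Val P z vz) (p : Polynomial K) (hp : ∀ i, p.coeff i ∈ M.T ∧ p.coeff i ∈ A) :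
    ∃ r ∈ M.R s, Val P r (p.eval vz) := by
  refine ⟨Polynomial.aeval z p, ?_, hv.aeval p⟩
  rw [Polynomial.aeval_eq_sum_range]
  refine sum_mem fun i _ => ?_
  rw [Algebra.smul_def]
  refine mul_mem ⟨M.GI_iff.mpr fun b => M.const_mem b ⟨_, (hp i).2⟩ (hp i).1, fun Q _ => ?_⟩
    (pow_mem hz i)
  simpa using RR.Bd.of_algebraMap (v := Q) (p.coeff i)

/-- if vanishing spreads over a set of places with a common uniformiser, so do all orders -/
theorem ord_eq_of_orbit (S : Finset (Place K F)) {x : F} (hxΩ : x ∈ M.Ω) (hx0 : x ≠ 0)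
    (hSx : ∀ P ∈ S, P.ord x = 1)
    (horbit : ∀ f ∈ M.Ω, ∀ P ∈ S, ∀ P' ∈ S, 0 < P.ord f → 0 < P'.ord f)
    {f : F} (hf : f ∈ M.Ω) {P P' : Place K F} (hP : P ∈ S) (hP' : P' ∈ S) :
    P.ord f = P'.ord f := by
  suffices h : ∀ P ∈ S, ∀ P' ∈ S, P.ord f ≤ P'.ord f from
    le_antisymm (h P hP P' hP') (h P' hP' P hP)
  intro P hP P' hP'
  rcases eq_or_ne f 0 with rfl | hf0
  · simp
  by_contra hlt
  have h1 := horbit (f * x ^ (-(P'.ord f))) (mul_mem hf (zpow_mem hxΩ _)) P hP P' hP'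
  rw [P.ord_mul hf0 (zpow_ne_zero _ hx0), P'.ord_mul hf0 (zpow_ne_zero _ hx0), P.ord_zpow,
    P'.ord_zpow, hSx P hP, hSx P' hP', mul_one] at h1
  have := h1 (by omega)
  omega

/-- the local generator at a crossing: `S` is the set of places over the crossing, `x` a uniformiser
at all of them -/
theorem exists_generator_crossing (hn : n ≠ 0) (W : M.Triv n) (s : Bool) (b : Fin 3)
    (Q : Place (ResidueField A) Fs) (hQ : InChart s (Q.ord (M.Jbar b)))
    (hfg : (M.I W.D s).FG) {x : F} (hxR : x ∈ M.R s) (hxQ : Val Q (M.red b x) 0)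
    (hxr : ∀ b', M.red b' x ≠ 0)
    (S : Finset (Place K F)) {P₀ : Place K F} (hP₀ : P₀ ∈ S)
    (hSc : ∀ P ∈ S, InChart s (P.ord M.J)) (hSx : ∀ P ∈ S, P.ord x = 1)
    (hother : ∀ P : Place K F, InChart s (P.ord M.J) → 0 < P.ord x → P ∉ S →
      ∃ e ∈ M.R s, ¬ Val Q (M.red b e) 0 ∧ Val P e 0)
    (horbit : ∀ f ∈ M.Ω, ∀ P ∈ S, ∀ P' ∈ S, 0 < P.ord f → 0 < P'.ord f)
    (hcompS : ∀ f ∈ M.Ω, ∀ g ∈ M.Ω, (∀ P ∈ S, Bd P f 0) → (∀ P ∈ S, Bd P g 0) →
      ∀ vf vg, Val P₀ f vf → Val P₀ g vg →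
        ∃ r ∈ M.R s, ∃ vr, Val P₀ r vr ∧ (vf = vr * vg ∨ vg = vr * vf))
    (hfull : ∀ PK : Place K F, InChart s (PK.ord M.J) →
      ∃ m ∈ M.Ω, m ≠ 0 ∧ M.OnChart W.D s m ∧ PK.ord m = -W.D PK)
    (hρ : ∀ b, ∃ ρ : F, M.OnChart 0 s ρ ∧ ρ * (M.ϖ b)⁻¹ ∈ M.G b ∧
      M.red b (ρ * (M.ϖ b)⁻¹) ≠ 0) :
    ∃ g ∈ M.I W.D s,
      (∀ m ∈ M.I W.D s, ∃ e : M.R s, ¬ Val Q (M.red b (e : F)) 0 ∧
        ∃ r : M.R s, (e : F) * m = (r : F) * g) ∧
      ∃ c : ResidueField A, c ≠ 0 ∧ Val Q (M.red b (g ^ n * W.f)) c ∧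
        ∀ b' (Q' : Place (ResidueField A) Fs), InChart s (Q'.ord (M.Jbar b')) →
          M.SamePt s b Q b' Q' → Val Q' (M.red b' (g ^ n * W.f)) c := by
  classical
  haveI := M.ptIdeal_isPrime s b Q hQ
  have hx0 : x ≠ 0 := fun h => hxr b (by rw [h, M.red_zero])
  have hxG := M.GI_iff.mp hxR.1
  have hxΩ : x ∈ M.Ω := M.G_le b x (hxG b)
  have hmΩ : ∀ m : M.I W.D s, (m : F) ∈ M.Ω := fun m => M.G_le b _ (M.GI_iff.mp m.2.1 b)
  have hD : ∀ P ∈ S, W.D P = W.D P₀ := fun P hP => by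
    have h1 := M.ord_eq_of_orbit S hxΩ hx0 hSx horbit (M.G_le b _ (W.f_mem b)) hP hP₀
    rw [← W.ord_f, ← W.ord_f] at h1
    exact mul_left_cancel₀ (by exact_mod_cast hn) h1
  set d := W.D P₀ with hd
  have hbd : ∀ (m : M.I W.D s), ∀ P ∈ S, Bd P ((m : F) * x ^ d) 0 := fun m P hP => by
    have h1 := m.2.2 P (hSc P hP)
    rw [hD P hP] at h1
    have h2 : Bd P (x ^ d) (-d) := by
      rw [RR.bd_iff_ord (zpow_ne_zero _ hx0), P.ord_zpow, hSx P hP]; omega
    simpa using h1.mul h2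
  choose v hv using fun m : M.I W.D s => Reduction.exists_val (RR.hasRes P₀) (hbd m P₀ hP₀)
  let lam : M.I W.D s →+ K := AddMonoidHom.mk' v fun m m' => (hv (m + m')).unique (by
    rw [Submodule.coe_add, add_mul]; exact (hv m).add (hv m'))
  set ev := M.placeVal (hSc P₀ hP₀)
  refine M.exists_generator hn W s b Q hQ hfg ev (x := ⟨x, hxR⟩) hxQ lam ?_ ?_ ?_ hfull hρ
  · intro r m
    refine (hv (r • m)).unique ?_
    rw [show ((r • m : M.I W.D s) : F) = (r : F) * (m : F) from rfl, mul_assoc]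
    exact (M.placeVal_spec _ r).mul (hv m)
  · intro m hm
    rcases eq_or_ne (m : F) 0 with h0 | h0
    · refine ⟨1, fun h => one_ne_zero (Val.one.unique (by rwa [Subring.coe_one, M.red_one] at h)),
        0, ?_⟩
      rw [one_smul, smul_zero]
      exact Subtype.ext h0
    have hpos : ∀ P ∈ S, 1 ≤ P.ord (m : F) + W.D P := fun P hP => by
      have h1 : Val P₀ ((m : F) * x ^ d) 0 := hm ▸ hv m
      have h2 := h1.ord_pos (mul_ne_zero h0 (zpow_ne_zero _ hx0))
      have h3 := horbit _ (mul_mem (hmΩ m) (zpow_mem hxΩ d)) P₀ hP₀ P hP (by omega)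
      rw [P.ord_mul h0 (zpow_ne_zero _ hx0), P.ord_zpow, hSx P hP, mul_one] at h3
      rw [hD P hP]
      omega
    -- the zeros of `x` away from the crossing
    set bad := (RR.finite_ord_ne_zero (K := K) hx0).toFinset.filter
      fun P : Place K F => InChart s (P.ord M.J) ∧ 0 < P.ord x ∧ P ∉ S
    have hexP : ∀ P : bad, ∃ e : M.R s, e ∉ M.ptIdeal s b Q hQ ∧ Val P.1 (e : F) 0 := fun P => by
      obtain ⟨h1, h2, h3⟩ := (Finset.mem_filter.mp P.2).2
      obtain ⟨e, heR, he, hev⟩ := hother P.1 h1 h2 h3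
      exact ⟨⟨e, heR⟩, he, hev⟩
    choose eP heP hePv using hexP
    set E : M.R s := ∏ P : bad, eP P ^ (P.1.ord x).toNat
    have hE : E ∉ M.ptIdeal s b Q hQ := prod_not_mem _ _ _ fun P h =>
      heP P (Ideal.IsPrime.mem_of_pow_mem inferInstance _ h)
    refine ⟨E, hE, ⟨(E : F) * (m : F) * x⁻¹, M.GI_iff.mpr fun b' => ?_, fun P hP => ?_⟩,
      Subtype.ext ?_⟩
    · exact mul_mem (mul_mem (M.GI_iff.mp E.2.1 b') (M.GI_iff.mp m.2.1 b'))
        (M.inv_mem_G b' (hxG b') (hxr b')).1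
    · rw [RR.bd_mul_iff (inv_ne_zero hx0), P.ord_inv]
      have hxP : 0 ≤ P.ord x := by
        have := (RR.bd_iff_ord hx0).mp (hxR.2 P hP)
        simpa using this
      have hEP : Bd P (E : F) 0 := by simpa [OnChart] using E.2.2 P hP
      have hmP := m.2.2 P hP
      rcases hxP.eq_or_lt with h | h
      · simpa [← h] using hEP.mul hmP
      by_cases hPS : P ∈ S
      · have h1 : Bd P (m : F) (W.D P - 1) := by
          rw [RR.bd_iff_ord h0]; have := hpos P hPS; omega
        simpa [hSx P hPS, sub_eq_add_neg] using hEP.mul h1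
      · have hmem : P ∈ bad := Finset.mem_filter.mpr
          ⟨(Set.Finite.mem_toFinset _).mpr h.ne', hP, h, hPS⟩
        have hsplit : E = eP ⟨P, hmem⟩ ^ (P.ord x).toNat *
            ∏ P' ∈ Finset.univ.erase (⟨P, hmem⟩ : bad), eP P' ^ (P'.1.ord x).toNat :=
          (Finset.mul_prod_erase _ _ (Finset.mem_univ (⟨P, hmem⟩ : bad))).symm
        set rest : M.R s :=
          ∏ P' ∈ Finset.univ.erase (⟨P, hmem⟩ : bad), eP P' ^ (P'.1.ord x).toNat
        have h1 : Bd P (eP ⟨P, hmem⟩ : F) (-1) := by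
          simpa [Val] using hePv ⟨P, hmem⟩
        have h2 := ((h1.pow (P.ord x).toNat).mul
          (by simpa [OnChart] using rest.2.2 P hP : Bd P (rest : F) 0)).mul hmP
        rw [hsplit, Subring.coe_mul, SubmonoidClass.coe_pow]
        refine h2.mono ?_
        rw [Int.toNat_of_nonneg h.le]
        omega
    · show (E : F) * (m : F) = x * ((E : F) * (m : F) * x⁻¹)
      field_simp
  · intro m m'
    obtain ⟨r, hrR, vr, hvr, h⟩ := hcompS _ (mul_mem (hmΩ m) (zpow_mem hxΩ d)) _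
      (mul_mem (hmΩ m') (zpow_mem hxΩ d)) (hbd m) (hbd m') _ _ (hv m) (hv m')
    refine ⟨1, fun h => one_ne_zero (Val.one.unique (by rwa [Subring.coe_one, M.red_one] at h)),
      ⟨r, hrR⟩, ?_⟩
    rw [map_one, one_mul, one_mul,
      show ev ⟨r, hrR⟩ = vr from (M.placeVal_spec (hSc P₀ hP₀) ⟨r, hrR⟩).unique hvr]
    exact h

/-- comparability by polynomials in a chart function, as values at one place -/
theorem comp_of_sum {s : Bool} {P : Place K F} (hP : InChart s (P.ord M.J)) {z : F}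
    (hz : z ∈ M.R s) {f g : F} {vf vg : K} (hf : Val P f vf) (hg : Val P g vg) {d : ℕ} {c : ℕ → K}
    (hc : ∀ k, c k ∈ M.T ∧ c k ∈ A)
    (h : Val P (f - (∑ k ∈ Finset.range d, algebraMap K F (c k) * z ^ k) * g) 0 ∨
      Val P (g - (∑ k ∈ Finset.range d, algebraMap K F (c k) * z ^ k) * f) 0) :
    ∃ r ∈ M.R s, ∃ vr, Val P r vr ∧ (vf = vr * vg ∨ vg = vr * vf) := by
  have hr : (∑ k ∈ Finset.range d, algebraMap K F (c k) * z ^ k) ∈ M.R s :=
    sum_mem fun k _ => mul_mem ⟨M.GI_iff.mpr fun b => M.const_mem b ⟨_, (hc k).2⟩ (hc k).1,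
      fun Q _ => by simpa using RR.Bd.of_algebraMap (v := Q) (c k)⟩ (pow_mem hz k)
  obtain ⟨vr, hvr⟩ := M.exists_place_val hP ⟨_, hr⟩
  refine ⟨_, hr, vr, hvr, h.imp (fun h => ?_) (fun h => ?_)⟩
  · exact sub_eq_zero.mp ((hf.sub (hvr.mul hg)).unique h)
  · exact sub_eq_zero.mp ((hg.sub (hvr.mul hf)).unique h)

end FLTAgent.SS2.Fib

end
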