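import Fermat.Agent.SS2.FibSurj

/-!
Bounded sections form free lattices over the constants; for a large bound they generate the chart
modules (Nakayama), and congruent pairs of chart sections lift to bounded sections.
-/

set_option autoImplicit false
set_option linter.unusedSectionVars false
set_option linter.style.haveILetI false
set_option linter.unusedVariables false

noncomputable section

open AlgebraicCurve IsLocalRing
open FLTAgent.RR (Bd Pol)

namespace FLTAgent.SS2.Fib

variable {K : Type*} [Field K] [IsAlgClosed K] [CharZero K] {A : ValuationSubring K}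
  {F : Type*} [Field F] [Algebra K F] [RR.FnField K F]
  {Fs : Type*} [Field Fs] [Algebra (ResidueField A) Fs] (M : Fib K A F Fs) {n : ℕ}

local notation "ι'" => algebraMap K F
local notation "𝕜" => ResidueField A
local notation "kO" => ResidueField M.O

theorem pair_L_fg (D : Divisor K F) (m : ℕ) : ((M.pair D).L m).FG := by
  classical
  obtain ⟨S, hS, hrep⟩ := M.lattice_fg (m • Pol (K := K) M.J + D)
  refine ⟨S, le_antisymm (Submodule.span_le.2 fun x hx =>
    M.mem_pair_L.2 ⟨M.mem_GI.2 (hS x hx).2, (hS x hx).1⟩) fun x hx => ?_⟩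
  obtain ⟨h1, h2⟩ := M.mem_pair_L.1 hx
  obtain ⟨c, hc, rfl⟩ := hrep x h2 (M.mem_GI.1 h1)
  refine sum_mem fun i hi => ?_
  let a : M.O := ⟨⟨c i, (hc i).1⟩, (hc i).2⟩
  rw [show ι' (c i) * i = a • i from (M.smul_O a i).symm]
  exact Submodule.smul_mem _ _ (Submodule.subset_span hi)

/-- a rational independent generating family of a lattice of bounded sections -/
theorem exists_lattice_basis (D : Divisor K F) (m : ℕ) :
    ∃ (d : ℕ) (v : Fin d → F), (∀ i, v i ∈ (M.pair D).L m) ∧ LinearIndependent K v ∧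
      ∀ x ∈ (M.pair D).L m, ∃ c : Fin d → M.O, x = ∑ i, ι' ((c i : M.T) : K) * v i := by
  classical
  haveI := M.isPrincipalIdealRing_O
  set L := (M.pair D).L m
  haveI : Module.Finite M.O L := Module.Finite.iff_fg.2 (M.pair_L_fg D m)
  haveI : Module.IsTorsionFree M.O L := Module.isTorsionFree_iff_smul_eq_zero.2 fun a x hx => by
    rcases eq_or_ne a 0 with ha | ha
    · exact Or.inl ha
    refine Or.inr (Subtype.ext ?_)
    have h := congrArg Subtype.val hx
    rw [Submodule.coe_smul, M.smul_O, Submodule.coe_zero] at h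
    refine (mul_eq_zero.1 h).resolve_left fun h0 => ha ?_
    exact Subtype.ext (Subtype.ext ((map_eq_zero _).1 h0))
  haveI : Module.Free M.O L := Module.free_of_finite_type_torsion_free'
  let bL := Module.finBasis M.O L
  refine ⟨_, fun i => (bL i : F), fun i => (bL i).2, ?_, fun x hx => ⟨fun i => bL.repr ⟨x, hx⟩ i, ?_⟩⟩
  · have hT : LinearIndependent M.T fun i => (bL i : F) :=
      LinearIndependent.iff_fractionRing M.O M.T |>.1
        (bL.linearIndependent.map' L.subtype (Submodule.ker_subtype _))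
    refine M.indep (fun i => (bL i : F)) (fun i => M.mem_Ω_of_GI (M.mem_pair_L.1 (bL i).2).1)
      fun c hc h0 i => ?_
    have := Fintype.linearIndependent_iff.1 hT (fun i => (⟨c i, hc i⟩ : M.T)) (by
      simp only [M.smul_T]
      exact h0) i
    exact congrArg Subtype.val this
  · have h0 : ((∑ i, bL.repr ⟨x, hx⟩ i • bL i : L) : F) = x :=
      congrArg Subtype.val (bL.sum_repr ⟨x, hx⟩)
    simp only [Submodule.coe_sum, Submodule.coe_smul, M.smul_O] at h0
    exact h0.symm

/-- Nakayama: above the stable range `L (m+1) = L m + J L m` -/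
theorem L_succ_le {D : Divisor K F} {n0 m : ℕ} (hsurj : ∀ m, n0 ≤ m → (M.pair D).RL m = (M.pair D).T m)
    (hlin : (M.pair D).T (m + 1) = (M.pair D).T m ⊔ ((M.pair D).T m).map
      ((M.pair D).Jb : M.Esp →ₗ[kO] M.Esp)) (hm : n0 ≤ m) :
    (M.pair D).L (m + 1) ≤ (M.pair D).L m ⊔ ((M.pair D).L m).map
      ((M.mulF : F →ₗ[M.T] F).restrictScalars M.O) := by
  set P := M.pair D with hP
  set N := P.L m ⊔ (P.L m).map ((M.mulF : F →ₗ[M.T] F).restrictScalars M.O)
  have hJL : ∀ v ∈ P.L m, M.J * v ∈ P.L (m + 1) := by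
    rintro v ⟨hv, hv0, hv1⟩
    refine ⟨M.GI.mul_mem M.J_mem_GI hv, M.Vc_mul_Jc false hv0, ?_⟩
    rw [hP, M.pair_symm_pow]
    rw [hP, M.pair_symm_pow] at hv1
    rwa [pow_succ, mul_inv, mul_assoc, ← mul_assoc M.J⁻¹, inv_mul_cancel₀ M.J_ne_zero, one_mul]
  refine Submodule.le_of_le_smul_of_le_jacobson_bot (M.pair_L_fg D (m + 1))
    (maximalIdeal_le_jacobson ⊥) fun x hx => ?_
  have hr : P.r x ∈ P.T (m + 1) := P.RL_le_T _ ⟨x, hx, rfl⟩
  rw [hlin, Submodule.mem_sup] at hr
  obtain ⟨_, ha, _, ⟨y, hy, rfl⟩, hsum⟩ := hr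
  rw [← hsurj m hm] at ha hy
  obtain ⟨u, hu, rfl⟩ := ha
  obtain ⟨v, hv, rfl⟩ := hy
  set w := u + M.J * v
  have hw : w ∈ P.L (m + 1) := add_mem (P.L_mono m.le_succ hu) (hJL v hv)
  have hwN : w ∈ N := add_mem (Submodule.mem_sup_left hu) (Submodule.mem_sup_right ⟨v, hv, rfl⟩)
  have hres : M.resE (x - w) = 0 := by
    rw [M.resE_sub hx.1 hw.1, sub_eq_zero, M.resE_add hu.1 (M.GI.mul_mem M.J_mem_GI hv.1),
      ← M.mulEsp_resE hv.1]
    exact hsum.symm
  obtain ⟨z, hz, hxz⟩ := (M.resE_eq_zero_iff (M.GI.sub_mem hx.1 hw.1)).1 hres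
  have hzL : z ∈ P.L (m + 1) := by
    obtain ⟨-, hd0, hd1⟩ := sub_mem hx hw
    have e : z = (M.qO : M.T)⁻¹ • (x - w) := by
      rw [M.smul_T, hxz, ← mul_assoc]
      push_cast
      rw [show ((M.qO : M.T) : K) = (M.q : K) from rfl]
      have hq := M.q_ne'
      rw [map_natCast] at hq
      simp [hq]
    refine ⟨hz, ?_, ?_⟩
    · rw [e]; exact Submodule.smul_mem _ _ hd0
    · rw [e, map_smul]; exact Submodule.smul_mem _ _ hd1
  rw [show x = w + M.qO • z by rw [M.smul_O, ← sub_eq_iff_eq_add']; exact hxz]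
  exact Submodule.add_mem_sup hwN (Submodule.smul_mem_smul (M.mem_maximal_iff.2 dvd_rfl) hzL)

/-- in the stable range the special fibre is generated in low degree -/
theorem exists_stable (hn : n ≠ 0) (W : M.Twist n) : ∃ n0,
    (∀ m, n0 ≤ m → (M.pair W.D).RL m = (M.pair W.D).T m) ∧
    ∀ m, n0 ≤ m → (M.pair W.D).L (m + 1) ≤ (M.pair W.D).L m ⊔ ((M.pair W.D).L m).map
      ((M.mulF : F →ₗ[M.T] F).restrictScalars M.O) := by
  obtain ⟨n1, hn1⟩ := M.exists_surj hn W
  obtain ⟨m0, hm0⟩ := M.exists_T_gen hn W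
  refine ⟨max n1 m0, fun m hm => hn1 m ((le_max_left _ _).trans hm), fun m hm => ?_⟩
  exact M.L_succ_le (n0 := max n1 m0) (fun m hm => hn1 m ((le_max_left _ _).trans hm))
    (hm0 m ((le_max_right _ _).trans hm)) hm

/-- a finite set generating a chart module -/
theorem exists_generators (hn : n ≠ 0) (W : M.Twist n) (s : Bool) : ∃ S : Finset F,
    (∀ g ∈ S, g ∈ M.I W.D s) ∧ ∀ x ∈ M.I W.D s,
      ∃ c : F → M.R s, (∀ g, ∃ p : Polynomial M.O, (c g : F) = Polynomial.aeval (M.Jc s) p) ∧
        x = ∑ g ∈ S, (c g : F) * g := by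
  classical
  obtain ⟨n0, -, hstep⟩ := M.exists_stable hn W
  set P := M.pair W.D with hP
  -- the chart form of the bounded sections
  let conv : ℕ → F → F := fun m x => if s then (M.J ^ m)⁻¹ * x else x
  obtain ⟨S0, hS0⟩ := M.pair_L_fg W.D n0
  let S := S0.image (conv n0)
  have hconvI : ∀ m, ∀ x ∈ P.L m, conv m x ∈ M.I W.D s := by
    rintro m x ⟨hx, hx0, hx1⟩
    rw [hP, M.pair_symm_pow] at hx1
    cases s
    · exact ⟨hx, hx0.2⟩
    · exact ⟨M.GI.mul_mem (by rw [← inv_pow]; exact pow_mem M.J_inv_mem_GI m) hx, hx1.2⟩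
  let Poly : Submodule M.O F :=
    Submodule.span M.O {y | ∃ i : ℕ, ∃ g ∈ S, y = M.Jc s ^ i * g}
  have hJc : ∀ y ∈ Poly, M.Jc s * y ∈ Poly := by
    intro y hy
    induction hy using Submodule.span_induction with
    | mem y hy =>
      obtain ⟨i, g, hg, rfl⟩ := hy
      exact Submodule.subset_span ⟨i + 1, g, hg, by rw [pow_succ']; ring⟩
    | zero => simp
    | add a b _ _ ha hb => rw [mul_add]; exact add_mem ha hb
    | smul a b _ hb => rw [mul_smul_comm]; exact Submodule.smul_mem _ _ hb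
  have hgrow : ∀ d, ∀ x ∈ P.L (n0 + d), conv (n0 + d) x ∈ Poly := by
    intro d
    induction d with
    | zero =>
      intro x hx
      rw [Nat.add_zero, hP, ← hS0] at hx
      induction hx using Submodule.span_induction with
      | mem y hy => exact Submodule.subset_span ⟨0, conv n0 y, Finset.mem_image_of_mem _ hy, by simp⟩
      | zero => have : conv (n0 + 0) (0 : F) = 0 := by simp [conv]
                rw [this]; exact zero_mem _
      | add a b _ _ ha hb =>
        have : conv (n0 + 0) (a + b) = conv (n0 + 0) a + conv (n0 + 0) b := by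
          simp only [conv]; split_ifs <;> simp [mul_add]
        rw [this]; exact add_mem ha hb
      | smul a b _ hb =>
        have : conv (n0 + 0) (a • b) = a • conv (n0 + 0) b := by
          simp only [conv]; split_ifs <;> simp
        rw [this]; exact Submodule.smul_mem _ _ hb
    | succ d ih =>
      intro x hx
      obtain ⟨u, hu, _, ⟨v, hv, rfl⟩, rfl⟩ := Submodule.mem_sup.1 (hstep (n0 + d) (by omega) hx)
      have e : conv (n0 + (d + 1)) (u + M.J * v) =
          (if s then M.Jc s * conv (n0 + d) u + conv (n0 + d) v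
            else conv (n0 + d) u + M.Jc s * conv (n0 + d) v) := by
        have hJ := M.J_ne_zero
        cases s
        · simp [conv, Jc]
        · simp only [conv, Jc, if_true]
          rw [← add_assoc, pow_succ, mul_inv]
          field_simp
      change conv (n0 + (d + 1)) (u + M.J * v) ∈ Poly
      rw [e]
      split_ifs
      · exact add_mem (hJc _ (ih u hu)) (ih v hv)
      · exact add_mem (ih u hu) (hJc _ (ih v hv))
  refine ⟨S, fun g hg => ?_, fun x hx => ?_⟩
  · obtain ⟨y, hy, rfl⟩ := Finset.mem_image.1 hg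
    exact hconvI n0 y (hS0 ▸ Submodule.subset_span hy)
  have hxP : x ∈ Poly := by
    have hxΩ := M.mem_Ω_of_GI hx.1
    have hJΩ := M.mem_Ω_of_GI M.J_mem_GI
    cases s
    · obtain ⟨m, hm⟩ := M.exists_pow_pair_false (x := x) ⟨hxΩ, hx.2⟩
      have hL : x ∈ P.L m := ⟨hx.1, ⟨hxΩ, hx.2⟩, by rw [hP, M.pair_symm_pow]; exact hm⟩
      have := hgrow m x (P.L_mono (by omega) hL)
      simpa [conv] using this
    · obtain ⟨m, hm⟩ := M.exists_pow_pair_true (x := x) ⟨hxΩ, hx.2⟩
      have hz : M.J ^ (n0 + m) * x ∈ P.L (n0 + m) := by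
        refine ⟨M.GI.mul_mem (pow_mem M.J_mem_GI _) hx.1, ?_, ?_⟩
        · refine ⟨mul_mem (pow_mem hJΩ _) hxΩ, fun Q hQ => ?_⟩
          rw [pow_add, mul_assoc]
          have hb : Bd Q (M.J ^ n0) 0 := by
            rw [RR.bd_iff_ord (pow_ne_zero _ M.J_ne_zero), RR.ord_pow]
            have : (0 : ℤ) ≤ Q.ord M.J := by simpa [InChart] using hQ
            nlinarith
          simpa using hb.mul (hm.2 Q hQ)
        · rw [hP, M.pair_symm_pow, ← mul_assoc, inv_mul_cancel₀ (pow_ne_zero _ M.J_ne_zero), one_mul]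
          exact ⟨hxΩ, hx.2⟩
      have := hgrow m _ hz
      simpa [conv, M.J_ne_zero] using this
  have hRp : ∀ p : Polynomial M.O, Polynomial.aeval (M.Jc s) p ∈ M.R s := fun p => by
    induction p using Polynomial.induction_on' with
    | add p q hp hq => rw [map_add]; exact add_mem hp hq
    | monomial i a =>
      rw [Polynomial.aeval_monomial]
      exact mul_mem (M.const_mem_R s a) (pow_mem (M.Jc_mem_R s) i)
  suffices h : ∃ p : F → Polynomial M.O, x = ∑ g ∈ S, Polynomial.aeval (M.Jc s) (p g) * g by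
    obtain ⟨p, hp⟩ := h
    exact ⟨fun g => ⟨_, hRp (p g)⟩, fun g => ⟨p g, rfl⟩, hp⟩
  clear hx
  induction hxP using Submodule.span_induction with
  | mem y hy =>
    obtain ⟨i, g, hg, rfl⟩ := hy
    refine ⟨fun g' => if g' = g then Polynomial.X ^ i else 0, ?_⟩
    rw [Finset.sum_eq_single g (fun g' _ hne => by simp [hne]) (fun h => absurd hg h)]
    simp
  | zero => exact ⟨0, by simp⟩
  | add a b _ _ ha hb =>
    obtain ⟨p, rfl⟩ := ha
    obtain ⟨q, rfl⟩ := hb
    exact ⟨p + q, by simp [add_mul, Finset.sum_add_distrib]⟩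
  | smul a b _ hb =>
    obtain ⟨p, rfl⟩ := hb
    exact ⟨a • p, by simp [Finset.smul_sum]⟩

theorem fg_of_ne_zero (hn : n ≠ 0) (W : M.Twist n) (s : Bool) : (M.I W.D s).FG := by
  classical
  obtain ⟨S, hS, hrep⟩ := M.exists_generators hn W s
  refine ⟨S, le_antisymm (Submodule.span_le.2 fun g hg => hS g hg) fun x hx => ?_⟩
  obtain ⟨c, -, rfl⟩ := hrep x hx
  exact sum_mem fun g hg => by
    rw [show (c g : F) * g = c g • g from rfl]
    exact Submodule.smul_mem _ _ (Submodule.subset_span hg)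

/-- the trivial twist -/
def trivialTwist : M.Twist 1 where
  D := 0
  f := 1
  degree_D := map_zero _
  f_ne := one_ne_zero
  ord_f P := by rw [Finsupp.zero_apply, mul_zero]; simpa using (RR.ord_algebraMap P (1 : K)).symm
  f_mem b := one_mem _
  red_f b := M.red_one b

theorem isNoetherianRing_R' (s : Bool) : IsNoetherianRing (M.R s) := by
  classical
  haveI := M.isPrincipalIdealRing_O
  let φ : Polynomial M.O →+* M.R s := Polynomial.eval₂RingHom
    ({ toFun := fun a => ⟨ι' ((a : M.T) : K), M.const_mem_R s a⟩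
       map_one' := Subtype.ext (map_one _)
       map_mul' := fun a b => Subtype.ext (map_mul _ _ _)
       map_zero' := Subtype.ext (map_zero _)
       map_add' := fun a b => Subtype.ext (map_add _ _ _) } : M.O →+* M.R s) ⟨M.Jc s, M.Jc_mem_R s⟩
  letI : Algebra (Polynomial M.O) (M.R s) := φ.toAlgebra
  have hval : ∀ p, ((algebraMap (Polynomial M.O) (M.R s) p : M.R s) : F) =
      Polynomial.aeval (M.Jc s) p := by
    intro p
    change ((φ p : M.R s) : F) = _
    induction p using Polynomial.induction_on' with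
    | add p q hp hq => rw [map_add, map_add, Subring.coe_add, hp, hq]
    | monomial i a =>
      rw [Polynomial.aeval_monomial]
      simp only [φ, Polynomial.coe_eval₂RingHom, Polynomial.eval₂_monomial, Subring.coe_mul, SubmonoidClass.coe_pow]
      rfl
  obtain ⟨S, hS, hrep⟩ := M.exists_generators one_ne_zero M.trivialTwist s
  let S' : Finset (M.R s) := S.attach.image fun g => ⟨g.1, hS g.1 g.2⟩
  haveI : Module.Finite (Polynomial M.O) (M.R s) := by
    refine ⟨⟨S', eq_top_iff.2 fun x _ => ?_⟩⟩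
    obtain ⟨c, hc, hx⟩ := hrep (x : F) ⟨x.2.1, x.2.2⟩
    choose p hp using hc
    have : x = ∑ g ∈ S.attach, p g.1 • (⟨g.1, hS g.1 g.2⟩ : M.R s) := by
      refine Subtype.ext ?_
      rw [AddSubmonoidClass.coe_finsetSum, hx, ← Finset.sum_attach]
      refine Finset.sum_congr rfl fun g _ => ?_
      rw [Algebra.smul_def, Subring.coe_mul, hval, ← hp]
    rw [this]
    exact sum_mem fun g hg => Submodule.smul_mem _ _
      (Submodule.subset_span (Finset.mem_image_of_mem _ hg))
  exact isNoetherianRing_iff.2 (isNoetherian_of_tower (Polynomial M.O) inferInstance)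

/-- congruent chart sections lift to a bounded section -/
theorem exists_lift {D : Divisor K F} {m : ℕ} (hsurj : (M.pair D).RL m = (M.pair D).T m) :
    ∀ (j : ℕ) (x y : F), x ∈ M.GI → M.OnChart D false x → y ∈ M.GI →
      M.OnChart D true ((M.J ^ m)⁻¹ * y) → (x - y) * (ι' (M.q : K) ^ j)⁻¹ ∈ M.GI →
      ∃ v ∈ (M.pair D).L m, (v - x) * (ι' (M.q : K) ^ j)⁻¹ ∈ M.GI := by
  intro j
  induction j with
  | zero =>
    intro x y hx _ _ _ _
    exact ⟨0, zero_mem _, by simpa using M.GI.neg_mem hx⟩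
  | succ j ih =>
    intro x y hx hxC hy hyC h
    obtain ⟨v, hv, hvx⟩ := ih x y hx hxC hy hyC (by
      have := M.GI.mul_mem h (M.mem_GI.2 fun b => (M.q_mem_G b).1)
      rwa [pow_succ, mul_inv, ← mul_assoc, mul_assoc _ _ (ι' (M.q : K)), inv_mul_cancel₀ M.q_ne',
        mul_one] at this)
    set Q := ι' (M.q : K) ^ j with hQ
    have hQ0 : Q ≠ 0 := pow_ne_zero _ M.q_ne'
    obtain ⟨hvG, hv0, hv1⟩ := hv
    rw [M.pair_symm_pow] at hv1
    -- `a`, `b`: the two remainders
    set a := (x - v) * Q⁻¹ with ha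
    set b := (y - v) * Q⁻¹ with hb
    have haG : a ∈ M.GI := by
      have := M.GI.neg_mem hvx
      rwa [← neg_mul, neg_sub] at this
    have hab : a - b = ι' (M.q : K) * ((x - y) * (ι' (M.q : K) ^ (j + 1))⁻¹) := by
      rw [ha, hb, pow_succ, mul_inv, hQ]
      have hq := M.q_ne'
      generalize ι' (M.q : K) = t at hq ⊢
      field_simp
      ring
    have hbG : b ∈ M.GI := by
      rw [show b = a - (a - b) by ring, hab]
      exact M.GI.sub_mem haG (M.GI.mul_mem (M.mem_GI.2 fun b => (M.q_mem_G b).1) h)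
    have hQc : Q⁻¹ = ι' (((M.q : K) ^ j)⁻¹) := by rw [hQ, map_inv₀, map_pow]
    have ha0 : M.OnChart D false a := by
      rw [ha, hQc, mul_comm]
      exact M.onChart_smul _ fun P hP => (hxC P hP).sub (hv0.2 P hP)
    have hb1 : M.OnChart D true ((M.J ^ m)⁻¹ * b) := by
      rw [hb, hQc, ← mul_assoc, mul_comm, mul_sub]
      exact M.onChart_smul _ fun P hP => (hyC P hP).sub (hv1.2 P hP)
    have hmem : M.resE a ∈ (M.pair D).T m := by
      have hJb : (M.J ^ m)⁻¹ * b ∈ M.GI :=
        M.GI.mul_mem (by rw [← inv_pow]; exact pow_mem M.J_inv_mem_GI m) hbG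
      refine ⟨⟨a, haG, ⟨M.mem_Ω_of_GI haG, ha0⟩, rfl⟩, (M.J ^ m)⁻¹ * b, hJb,
        ⟨M.mem_Ω_of_GI hJb, hb1⟩, ?_⟩
      have h1 := (M.pair D).r_symm_pow m (x := b) hbG
      rw [M.pair_symm_pow] at h1
      refine h1.trans (congrArg _ ?_)
      change M.resE b = M.resE a
      rw [eq_comm, ← sub_eq_zero, ← M.resE_sub haG hbG, M.resE_eq_zero_iff (M.GI.sub_mem haG hbG)]
      exact ⟨_, h, hab⟩
    rw [← hsurj] at hmem
    obtain ⟨z, hz, hza⟩ := hmem
    obtain ⟨z', hz', hzz⟩ := (M.resE_eq_zero_iff (M.GI.sub_mem hz.1 haG)).1 (by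
      rw [M.resE_sub hz.1 haG, sub_eq_zero]; exact hza)
    refine ⟨v + (M.qO ^ j) • z, add_mem ⟨hvG, hv0, by rw [M.pair_symm_pow]; exact hv1⟩
      (Submodule.smul_mem _ _ hz), ?_⟩
    have e : (v + (M.qO ^ j) • z - x) * (ι' (M.q : K) ^ (j + 1))⁻¹ = z' := by
      rw [M.smul_O, show ((((M.qO ^ j : M.O)) : M.T) : K) = (M.q : K) ^ j by push_cast; rfl, map_pow,
        ← hQ, mul_inv_eq_iff_eq_mul₀ (pow_ne_zero _ M.q_ne'), pow_succ, ← hQ,
        show x = v + Q * a by rw [ha]; field_simp; ring]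
      linear_combination Q * hzz
    rw [e]
    exact hz'

end FLTAgent.SS2.Fib

end
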