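import Fermat.Agent.SS2.KillModel
import Fermat.Agent.SS2.FibPointOff
import Fermat.Agent.SS.Galois
import Fermat.Agent.SS.Chart
import Fermat.Agent.Reduction.Galois
import Fermat.Agent.HeckeJ.Level

/-!
Rational functions of level `Mq` supported on one side and not vanishing at a given point off the
double points, and functions separating such points on the three branches of level `Mq²`.
-/

set_option autoImplicit false
set_option linter.all false
set_option synthInstance.maxHeartbeats 400000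
set_option maxHeartbeats 1000000

noncomputable section

open ModularCurve AlgebraicCurve IsLocalRing
open FLTAgent.RR (Bd)
open FLTAgent.Reduction

namespace FLTAgent.SS2

/-- finitely many conjugates under inertia -/
theorem finite_inertia_orbit (A : ValuationSubring Qb) (N : ℕ) [NeZero N] (x : FB N) :
    (Set.range fun σ : A.inertiaSubgroupIn ℚ => galFn N (σ : Qb ≃ₐ[ℚ] Qb) • x).Finite := by
  obtain ⟨L, hL, hfix⟩ := HeckeJ.hasLevel_fn (N := N) x
  haveI := hL
  refine Set.Finite.of_finite_image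
    (f := fun y : FB N => y) ?_ (fun _ _ _ _ h => h)
  rw [Set.image_id']
  let r : A.inertiaSubgroupIn ℚ → (L →ₐ[ℚ] Qb) := fun σ =>
    ((σ : Qb ≃ₐ[ℚ] Qb) : Qb →ₐ[ℚ] Qb).comp L.val
  have key : ∀ σ τ, r σ = r τ →
      galFn N (σ : Qb ≃ₐ[ℚ] Qb) • x = galFn N (τ : Qb ≃ₐ[ℚ] Qb) • x := fun σ τ h => by
    have h1 := hfix ((τ : Qb ≃ₐ[ℚ] Qb)⁻¹ * σ) fun y hy => by
      rw [AlgEquiv.mul_apply,
        show (σ : Qb ≃ₐ[ℚ] Qb) y = (τ : Qb ≃ₐ[ℚ] Qb) y from DFunLike.congr_fun h ⟨y, hy⟩]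
      exact (τ : Qb ≃ₐ[ℚ] Qb).symm_apply_apply y
    simp only [map_mul, map_inv, mul_smul, inv_smul_eq_iff] at h1
    exact h1
  haveI : Finite (L →ₐ[ℚ] Qb) := inferInstance
  classical
  refine Set.Finite.subset (Set.finite_range fun φ : L →ₐ[ℚ] Qb =>
    if h : ∃ σ, r σ = φ then galFn N (h.choose : Qb ≃ₐ[ℚ] Qb) • x else 0) ?_
  rintro _ ⟨σ, rfl⟩
  refine ⟨r σ, ?_⟩
  have h : ∃ τ, r τ = r σ := ⟨σ, rfl⟩
  simp only [dif_pos h]
  exact key _ _ h.choose_spec

variable {A : ValuationSubring Qb} {M q : ℕ} [NeZero M] [NeZero q]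
variable (C : Ctx A M q)

/-- the point of the other branch: `Q ↦ frobS • Q` -/
abbrev nextPt (Q : PS A M) : PS A M := frobS C • Q

theorem Fr_eq_pow (g : FS A M) : SS.Fr C g = ((frobS C)⁻¹ • g) ^ q := by
  haveI := SS.expChar_kA C
  refine Subtype.ext ?_
  rw [SS.coe_Fr, SubmonoidClass.coe_pow, pow_char_eq q]
  congr 1
  show (g : LaurentSeries (kA A)) = coeffMap _ (coeffMap _ (g : LaurentSeries (kA A)))
  rw [coeffMap_coeffMap, coeffMap_congr (g := RingHom.id (kA A))
      (RingHom.ext fun a => (frobK C).apply_symm_apply a) (g : LaurentSeries (kA A)), coeffMap_id]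

/-- values of `Fr g` are values of `g` at the next point -/
theorem val_Fr_of_val {Q : PS A M} {g : FS A M} {c : kA A} (h : Val (nextPt C Q) g c) :
    Val Q (SS.Fr C g) c := by
  rcases eq_or_ne (g - algebraMap (kA A) (FS A M) c) 0 with h0 | h0
  · rw [sub_eq_zero.mp h0, AlgHom.commutes]; exact Val.const c
  have h1 : 1 ≤ (nextPt C Q).ord (g - algebraMap (kA A) (FS A M) c) :=
    Val.ord_pos (by simpa using h.sub (Val.const c)) h0
  have h2 : Q.ord ((frobS C)⁻¹ • (g - algebraMap (kA A) (FS A M) c)) =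
      (nextPt C Q).ord (g - algebraMap (kA A) (FS A M) c) := by
    have := SemilinearAut.ord_smul (frobS C) Q
      ((frobS C)⁻¹ • (g - algebraMap (kA A) (FS A M) c))
    rw [smul_inv_smul] at this
    exact this.symm
  have h3 : Val Q (SS.Fr C (g - algebraMap (kA A) (FS A M) c)) 0 := by
    refine Val.zero_iff.mpr (Or.inr ?_)
    rw [Fr_eq_pow C, RR.ord_pow, h2]
    have : (1 : ℤ) ≤ q := by exact_mod_cast C.prime.one_le
    nlinarith
  rw [map_sub, AlgHom.commutes] at h3
  simpa using h3.add (Val.const (v := Q) c)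

section Data

variable {D : SS.Data Qb A (FB (M * q)) (FS A M)} (L : LevelData D)
include L

theorem inChart_Jbar_iff (s : Bool) (Q : PS A M) :
    InChart s (Q.ord D.Jbar) ↔ Bd Q (tS A M s) 0 := by
  rw [L.Jbar_eq]
  exact inChart_jS_pow s (Nat.succ_pos q)

include C in
/-- a rational function supported on the side `t` not vanishing at a point off the double points -/
theorem exists_rational_supp
    (hin : ∀ σ ∈ A.inertiaSubgroupIn ℚ,
      SS.Compat D.toCore (galFn (M * q) σ) (RingEquiv.refl (FS A M)))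
    (s t : Bool) {Q : PS A M} (hQ : Bd Q (tS A M s) 0) (hne : ∀ i, D.pt t i ≠ Q) :
    ∃ g ∈ rationalFn A (M * q), (∀ b, g ∈ D.G b) ∧
      (∀ P : PB (M * q), InChart s (P.ord D.J) → Bd P g 0) ∧
      D.red (!t) g = 0 ∧ ¬ Val Q (D.red t g) 0 := by
  classical
  haveI := D.fintype
  haveI := finite_tS C s
  haveI := separable_tS C s
  set T := Finset.univ.filter fun i : D.ι => Bd (D.pt t i) (tS A M s) 0
  have hex : ∀ i : T, ∃ g ∈ regOn (kA A) (tS A M s), Bd (D.pt t i) g (-1) ∧ g ≠ 0 ∧ Q.ord g = 0 :=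
    fun i => exists_separate (transcendental_tS A M s) (Finset.mem_filter.mp i.2).2 hQ (hne i)
  choose g hgR hgv hg0 hgQ using hex
  set a : FS A M := ∏ i : T, g i
  have haR : a ∈ regOn (kA A) (tS A M s) := prod_mem fun i _ => hgR i
  have haQ : ¬ Val Q a 0 := fun h => by
    have := h.ord_pos (Finset.prod_ne_zero_iff.mpr fun i _ => hg0 i)
    rw [RR.ord_prod _ _ _ fun i _ => hg0 i, Finset.sum_eq_zero fun i _ => hgQ i] at this
    omega
  set pair : Bool → FS A M := fun b => if b = t then a else 0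
  have hreg : ∀ b (R : PS A M), InChart s (R.ord D.Jbar) → Bd R (pair b) 0 := fun b R hR => by
    by_cases hb : b = t
    · simp only [pair, if_pos hb]
      exact haR R ((inChart_Jbar_iff L s R).mp hR)
    · simp only [pair, if_neg hb]
      exact RR.Bd.zero
  have hglue : ∀ i, InChart s ((D.pt t i).ord D.Jbar) → ∀ b, Val (D.pt b i) (pair b) 0 := fun i hi b => by
    by_cases hb : b = t
    · subst hb
      simp only [pair, if_pos rfl]
      have hmem : i ∈ T := Finset.mem_filter.mpr ⟨Finset.mem_univ _, (inChart_Jbar_iff L s _).mp hi⟩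
      have hrest : ∏ j ∈ Finset.univ.erase (⟨i, hmem⟩ : T), g j ∈ regOn (kA A) (tS A M s) :=
        prod_mem fun j _ => hgR j
      show Val _ (∏ j : T, g j) 0
      rw [← Finset.mul_prod_erase _ _ (Finset.mem_univ (⟨i, hmem⟩ : T)), Val, map_zero, sub_zero]
      simpa using (hgv ⟨i, hmem⟩).mul (hrest _ ((inChart_Jbar_iff L s _).mp hi))
    · simp only [pair, if_neg hb]
      exact Val.zero
  obtain ⟨x, hx, hxc⟩ : ∃ x : FB (M * q), (∀ b, x ∈ D.G b ∧ D.red b x = pair b) ∧
      ∀ P : PB (M * q), InChart s (P.ord D.J) → Bd P x 0 := by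
    cases s with
    | false =>
      exact D.lift_fin pair (fun b R hR => hreg b R (by simpa [InChart] using hR))
        fun i => ⟨0, hglue i (by simpa [InChart] using (L.fin_Jbar (L.fin_pt t i)))⟩
    | true =>
      obtain ⟨x, hx, hxc⟩ := D.lift_inf pair (fun b R hR => hreg b R (by simpa [InChart] using hR))
        fun i hi => ⟨0, hglue i (by simpa [InChart] using hi t)⟩
      exact ⟨x, hx, fun P hP => hxc P (by simpa [InChart] using hP)⟩
  -- the product of the conjugates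
  set O := (finite_inertia_orbit A (M * q) x).toFinset with hO
  have hOmem : ∀ y, y ∈ O ↔ ∃ σ ∈ A.inertiaSubgroupIn ℚ, galFn (M * q) σ • x = y := fun y => by
    rw [hO, Set.Finite.mem_toFinset]
    exact ⟨fun ⟨σ, h⟩ => ⟨σ, σ.2, h⟩, fun ⟨σ, h, e⟩ => ⟨⟨σ, h⟩, e⟩⟩
  have hconj : ∀ y ∈ O, (∀ b, y ∈ D.G b ∧ D.red b y = pair b) ∧
      ∀ P : PB (M * q), InChart s (P.ord D.J) → Bd P y 0 := by
    intro y hy
    obtain ⟨σ, hσ, rfl⟩ := (hOmem y).mp hy
    have hc := hin σ hσ
    refine ⟨fun b => ⟨hc.mem b x (hx b).1, by rw [hc.red b x (hx b).1]; exact (hx b).2⟩,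
      fun P hP => ?_⟩
    set g := galFn (M * q) σ
    have h1 : InChart s ((g⁻¹ • P).ord D.J) := by
      have := SemilinearAut.ord_smul g (g⁻¹ • P) D.J
      rw [hc.J_eq, smul_inv_smul] at this
      rwa [this] at hP
    have h2 := hxc _ h1
    rw [RR.bd_iff] at h2 ⊢
    refine h2.imp (fun h => by rw [h, smul_zero]) fun h => ?_
    rwa [show P.ord (g • x) = (g⁻¹ • P).ord x by
      conv_lhs => rw [← smul_inv_smul g P, SemilinearAut.ord_smul]]
  refine ⟨∏ y ∈ O, y, ?_, fun b => prod_mem fun y hy => ((hconj y hy).1 b).1, fun P hP => ?_, ?_,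
    ?_⟩
  · intro σ hσ
    rw [Finset.smul_prod']
    refine Finset.prod_bij (fun y _ => galFn (M * q) σ • y) (fun y hy => ?_)
      (fun _ _ _ _ h => smul_left_cancel _ h) (fun y hy => ?_) fun _ _ => rfl
    · obtain ⟨τ, hτ, rfl⟩ := (hOmem y).mp hy
      exact (hOmem _).mpr ⟨σ * τ, mul_mem hσ hτ, by simp only [galFn, map_mul, mul_smul]⟩
    · obtain ⟨τ, hτ, rfl⟩ := (hOmem y).mp hy
      refine ⟨galFn (M * q) (σ⁻¹ * τ) • x, (hOmem _).mpr ⟨_, mul_mem (inv_mem hσ) hτ, rfl⟩, ?_⟩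
      simp only [galFn, map_mul, map_inv, mul_smul, smul_inv_smul]
  · exact Finset.prod_induction _ (fun y => Bd P y 0)
      (fun _ _ h1 h2 => by simpa using h1.mul h2) (by simpa using RR.Bd.of_algebraMap (v := P) (1 : Qb))
      fun y hy => (hconj y hy).2 P hP
  all_goals
    rw [D.toCore.red_prod _ O (fun y => y) fun y hy => ((hconj y hy).1 _).1,
      Finset.prod_congr rfl fun y hy => ((hconj y hy).1 _).2, Finset.prod_const]
  · simp only [pair]
    rw [if_neg (by cases t <;> simp), zero_pow]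
    exact (Finset.card_pos.mpr ⟨x, (hOmem x).mpr ⟨1, one_mem _, by simp only [galFn, map_one, one_smul]⟩⟩).ne'
  · simp only [pair, if_pos rfl]
    intro h
    obtain ⟨v, hv⟩ := val_exists_S C (haR Q hQ)
    have h0 : v ≠ 0 := fun h0 => haQ (h0 ▸ hv)
    exact pow_ne_zero _ h0 ((hv.pow _).unique h)

variable {Mo : Fib Qb A (FB (M * q * q)) (FS A M)} (hM : IsModel C Mo)
include hM

/-- off the double points each branch is separated from the two others -/
theorem exists_eps
    (hin : ∀ σ ∈ A.inertiaSubgroupIn ℚ,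
      SS.Compat D.toCore (galFn (M * q) σ) (RingEquiv.refl (FS A M)))
    (s : Bool) (b : Fin 3) {Q : PS A M} (hQ : Bd Q (tS A M s) 0)
    (hQ' : Bd (nextPt C Q) (tS A M s) 0) (hne : ∀ t i, D.pt t i ≠ Q)
    (hne' : ∀ t i, D.pt t i ≠ nextPt C Q) :
    ∃ ε ∈ Mo.R s, ¬ Val Q (Mo.red b ε) 0 ∧ ∀ b', b' ≠ b → Mo.red b' ε = 0 := by
  have hQb : InChart s (Q.ord (Mo.Jbar b)) := (hM.inChart_iff s b Q).mpr hQ
  obtain ⟨a, ha, haG, hac, hat, haQ⟩ := exists_rational_supp C L hin s false hQ (hne false)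
  obtain ⟨a', ha', haG', hac', hat', haQ'⟩ :=
    exists_rational_supp C L hin s true hQ' (hne' true)
  obtain ⟨c, hc, hcG, hcc, hct, hcQ⟩ := exists_rational_supp C L hin s true hQ (hne true)
  obtain ⟨c', hc', hcG', hcc', hct', hcQ'⟩ :=
    exists_rational_supp C L hin s false hQ' (hne' false)
  simp only [Bool.not_false, Bool.not_true] at hat hat' hct hct'
  have hred : ∀ {g : FB (M * q)}, g ∈ rationalFn A (M * q) → (∀ b, g ∈ D.G b) →
      (Mo.red 0 (heckeAlphaBar Qb (M * q) q g) = D.red false g ∧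
        Mo.red 1 (heckeAlphaBar Qb (M * q) q g) = SS.Fr C (D.red true g) ∧
        Mo.red 2 (heckeAlphaBar Qb (M * q) q g) = D.red false g) ∧
      (Mo.red 0 (heckeBetaBar Qb (M * q) q g) = SS.Fr C (D.red false g) ∧
        Mo.red 1 (heckeBetaBar Qb (M * q) q g) = D.red true g ∧
        Mo.red 2 (heckeBetaBar Qb (M * q) q g) = D.red true g) := by
    intro g hg hG
    have hA := (heckeAlphaBar_rational (A := A) q).mpr hg
    have hB := (heckeBetaBar_rational (A := A) q).mpr hg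
    have ka := kRes_alpha (C := C) L (g := g)
    have kb := kRes_beta (C := C) L (g := g)
    exact ⟨⟨hM.red_eq hA (ka.1 (hG _)).1, hM.red_eq hA (ka.2 (hG _)),
        hM.red_eq hA (ka.1 (hG _)).2⟩,
      hM.red_eq hB (kb.1 (hG _)), hM.red_eq hB (kb.2 (hG _)).1, hM.red_eq hB (kb.2 (hG _)).2⟩
  have hFr : ∀ {g : FB (M * q)} (t : Bool), (∀ b, g ∈ D.G b) →
      ¬ Val (nextPt C Q) (D.red t g) 0 → (∀ P : PB (M * q), InChart s (P.ord D.J) → Bd P g 0) →
      Bd (nextPt C Q) (D.red t g) 0 → ¬ Val Q (SS.Fr C (D.red t g)) 0 := by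
    intro g t hG hg hreg hbd h
    obtain ⟨v, hv⟩ := val_exists_S C hbd
    rw [(val_Fr_of_val C hv).unique h] at hv
    exact hg hv
  obtain ⟨⟨pa0, pa1, pa2⟩, qa0, qa1, qa2⟩ := hred ha haG
  obtain ⟨⟨pc0, pc1, pc2⟩, qc0, qc1, qc2⟩ := hred hc hcG
  obtain ⟨⟨pa0', pa1', pa2'⟩, qa0', qa1', qa2'⟩ := hred ha' haG'
  obtain ⟨⟨pc0', pc1', pc2'⟩, qc0', qc1', qc2'⟩ := hred hc' hcG'
  have hbdR : ∀ {x : FB (M * q * q)} (b' : Fin 3), x ∈ Mo.R s → ∀ {R : PS A M},
      Bd R (tS A M s) 0 → Bd R (Mo.red b' x) 0 := fun {x} b' hx R hR =>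
    Mo.regular s x (Mo.GI_iff.mp hx.1)
      (fun P hP => by simpa using hx.2 P hP) b' R ((hM.inChart_iff s b' R).mpr hR)
  obtain ⟨Ra, -⟩ := hM.alpha_mem_R L ha haG hac
  obtain ⟨-, Rc⟩ := hM.alpha_mem_R L hc hcG hcc
  obtain ⟨Ra', Rb'⟩ := hM.alpha_mem_R L ha' haG' hac'
  obtain ⟨-, Rc'⟩ := hM.alpha_mem_R L hc' hcG' hcc'
  fin_cases b
  · -- `20`: side `false` along both projections
    refine Mo.exists_eps_of_mul hQb Ra Rc' ?_ ?_ fun b' hb' => ?_
    · show ¬ Val Q (Mo.red 0 _) 0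
      rw [pa0]; exact haQ
    · show ¬ Val Q (Mo.red 0 _) 0
      rw [qc0']
      exact hFr false hcG' hcQ' hcc' (by rw [← pc0']; exact hbdR 0 (hM.alpha_mem_R L hc' hcG' hcc').1 hQ')
    · fin_cases b'
      · exact absurd rfl hb'
      · exact Or.inl (by show Mo.red 1 _ = 0; rw [pa1, hat, map_zero])
      · exact Or.inr (by show Mo.red 2 _ = 0; rw [qc2', hct'])
  · -- `02`: side `true` along both projections
    refine Mo.exists_eps_of_mul hQb Ra' Rc ?_ ?_ fun b' hb' => ?_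
    · show ¬ Val Q (Mo.red 1 _) 0
      rw [pa1']
      exact hFr true haG' haQ' hac' (by rw [← qa1']; exact hbdR 1 Rb' hQ')
    · show ¬ Val Q (Mo.red 1 _) 0
      rw [qc1]; exact hcQ
    · fin_cases b'
      · exact Or.inl (by show Mo.red 0 _ = 0; rw [pa0', hat'])
      · exact absurd rfl hb'
      · exact Or.inl (by show Mo.red 2 _ = 0; rw [pa2', hat'])
  · -- `11`: sides `false` along `α`, `true` along `β`
    refine Mo.exists_eps_of_mul hQb Ra Rc ?_ ?_ fun b' hb' => ?_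
    · show ¬ Val Q (Mo.red 2 _) 0
      rw [pa2]; exact haQ
    · show ¬ Val Q (Mo.red 2 _) 0
      rw [qc2]; exact hcQ
    · fin_cases b'
      · exact Or.inr (by show Mo.red 0 _ = 0; rw [qc0, hct, map_zero])
      · exact Or.inl (by show Mo.red 1 _ = 0; rw [pa1, hat, map_zero])
      · exact absurd rfl hb'

end Data

end FLTAgent.SS2

end
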