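import Fermat.Agent.SS2.Rational
import Fermat.Agent.Reduction.Setup

/-!
The field `T` fixed by inertia at a place over `q`, with ring of integers a discrete valuation ring
with algebraically closed residue field, and the `T`-rational functions on `X₀(N)`.
-/

set_option autoImplicit false
set_option linter.unusedSectionVars false

noncomputable section

open ModularCurve AlgebraicCurve IsLocalRing Polynomial

namespace FLTAgent.SS2

open FLTAgent.Reduction (Qb FB)

variable (A : ValuationSubring Qb) (N : ℕ) [NeZero N]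

/-- the constants fixed by inertia -/
def inertiaFixed : IntermediateField ℚ Qb :=
  IntermediateField.fixedField (A.inertiaSubgroupIn ℚ)

variable {A N}

theorem mem_inertiaFixed {x : Qb} :
    x ∈ inertiaFixed A ↔ ∀ σ ∈ A.inertiaSubgroupIn ℚ, σ x = x :=
  IntermediateField.mem_fixedField_iff _ _

variable (A N)

/-- the rational functions -/
def rationalFn : Subfield (FB N) where
  carrier := {x | ∀ σ ∈ A.inertiaSubgroupIn ℚ, galFn N σ • x = x}
  mul_mem' := fun hx hy σ hσ => by rw [smul_mul', hx σ hσ, hy σ hσ]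
  one_mem' := fun σ _ => smul_one _
  add_mem' := fun hx hy σ hσ => by rw [smul_add, hx σ hσ, hy σ hσ]
  zero_mem' := fun σ _ => smul_zero _
  neg_mem' := fun hx σ hσ => by rw [smul_neg, hx σ hσ]
  inv_mem' := fun x hx σ hσ => by rw [smul_inv'', hx σ hσ]

variable {A N}

theorem mem_rationalFn {x : FB N} :
    x ∈ rationalFn A N ↔ ∀ i : ℤ, (x : LaurentSeries Qb).coeff i ∈ inertiaFixed A := by
  constructor
  · intro h i
    rw [mem_inertiaFixed]
    intro σ hσ
    have := congrArg (fun z : FB N => (z : LaurentSeries Qb).coeff i) (h σ hσ)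
    simpa [coe_arithmeticGalois_smul] using this
  · intro h σ hσ
    refine Subtype.ext (HahnSeries.ext (funext fun i => ?_))
    rw [coe_arithmeticGalois_smul, coeffMap_coeff]
    exact mem_inertiaFixed.mp (h i) σ hσ

theorem const_mem_rationalFn {t : Qb} (ht : t ∈ inertiaFixed A) :
    algebraMap Qb (FB N) t ∈ rationalFn A N := by
  rw [mem_rationalFn]
  intro i
  show (algebraMap Qb (LaurentSeries Qb) t).coeff i ∈ _
  rw [algebraMap_laurentSeries_eq_single, HahnSeries.coeff_single]
  split_ifs
  · exact ht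
  · exact zero_mem _

theorem galFn_smul_const (σ : Qb ≃ₐ[ℚ] Qb) (c : Qb) :
    galFn N σ • algebraMap Qb (FB N) c = algebraMap Qb (FB N) (σ c) := by
  refine Subtype.ext ?_
  rw [coe_arithmeticGalois_smul]
  show coeffMap (σ : Qb →+* Qb) (algebraMap Qb (LaurentSeries Qb) c) =
    algebraMap Qb (LaurentSeries Qb) (σ c)
  rw [algebraMap_laurentSeries_eq_single, algebraMap_laurentSeries_eq_single, coeffMap_single]
  rfl

/-- rational functions independent over `T` are independent over `ℚ̄` -/
theorem linearIndependent_rationalFn {ι : Type} [Fintype ι] (v : ι → FB N)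
    (hv : ∀ i, v i ∈ rationalFn A N)
    (h : ∀ c : ι → Qb, (∀ i, c i ∈ inertiaFixed A) →
      ∑ i, algebraMap Qb (FB N) (c i) * v i = 0 → ∀ i, c i = 0) :
    LinearIndependent Qb v := by
  classical
  rw [Fintype.linearIndependent_iff]
  suffices H : ∀ (s : Finset ι) (c : ι → Qb), (∀ i, i ∉ s → c i = 0) →
      ∑ i, algebraMap Qb (FB N) (c i) * v i = 0 → ∀ i, c i = 0 from
    fun c hc => H Finset.univ c (fun i hi => absurd (Finset.mem_univ i) hi)
      (by simpa [Algebra.smul_def] using hc)
  intro s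
  induction s using Finset.induction_on with
  | empty => exact fun c hc _ i => hc i (Finset.notMem_empty i)
  | insert a s ha ih =>
    intro c hc hsum
    by_cases hca : c a = 0
    · refine ih c (fun i hi => ?_) hsum
      by_cases hia : i = a
      · exact hia ▸ hca
      · exact hc i (by simp [hia, hi])
    exfalso
    set d : ι → Qb := fun i => (c a)⁻¹ * c i
    have hdsum : ∑ i, algebraMap Qb (FB N) (d i) * v i = 0 := by
      simp only [d, map_mul, mul_assoc, ← Finset.mul_sum, hsum, mul_zero]
    have hda : d a = 1 := inv_mul_cancel₀ hca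
    have hdT : ∀ i, d i ∈ inertiaFixed A := by
      intro i
      rw [mem_inertiaFixed]
      intro σ hσ
      have h1 : ∑ i, algebraMap Qb (FB N) (σ (d i)) * v i = 0 := by
        have := congrArg (fun z : FB N => galFn N σ • z) hdsum
        simp only [Finset.smul_sum, smul_mul', smul_zero, galFn_smul_const] at this
        convert this using 2 with j
        rw [hv j σ hσ]
      have h2 := ih (fun j => σ (d j) - d j) (fun j hj => ?_) (by
        simp only [map_sub, sub_mul, Finset.sum_sub_distrib, h1, hdsum, sub_zero]) i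
      · exact sub_eq_zero.mp h2
      · by_cases hja : j = a
        · rw [hja, hda, map_one, sub_self]
        · rw [show d j = 0 by simp [d, hc j (by simp [hja, hj])], map_zero, sub_self]
    exact one_ne_zero (hda.symm.trans (h d hdT hdsum a))

theorem exists_zpow_valuation_T {q : ℕ} (hq : q.Prime) (hA : A.LiesOverPrime q) {x : Qb}
    (hx : x ∈ inertiaFixed A) (hx0 : x ≠ 0) :
    ∃ i : ℤ, A.valuation x = A.valuation (q : Qb) ^ i := by
  haveI : FiniteDimensional ℚ (IntermediateField.adjoin ℚ ({x} : Set Qb)) :=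
    IntermediateField.adjoin.finiteDimensional ((AlgebraicClosure.isAlgebraic ℚ).isAlgebraic x).isIntegral
  have hle : IntermediateField.adjoin ℚ ({x} : Set Qb) ≤ inertiaFixed A :=
    IntermediateField.adjoin_simple_le_iff.mpr hx
  exact exists_zpow_valuation hq hA _ (fun σ hσ a ha => mem_inertiaFixed.mp (hle ha) σ hσ)
    (IntermediateField.mem_adjoin_simple_self ℚ x) hx0

/-- every non-zero residue is a root of unity of order prime to `q` -/
theorem exists_pow_eq_one {q : ℕ} (hq : q.Prime) (hA : A.LiesOverPrime q)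
    {r : ResidueField A} (hr : r ≠ 0) : ∃ m : ℕ, 0 < m ∧ ¬ q ∣ m ∧ r ^ m = 1 := by
  haveI := Fact.mk hq
  haveI := Reduction.charP_residue A hq hA
  obtain ⟨a, rfl⟩ := residue_surjective r
  letI : Algebra (ZMod q) (ResidueField A) := ZMod.algebra _ q
  -- the residue is algebraic over the prime field
  obtain ⟨P, hP0, hPa⟩ : ∃ P : ℤ[X], P ≠ 0 ∧ Polynomial.aeval (a : Qb) P = 0 := by
    have := ((AlgebraicClosure.isAlgebraic ℚ).isAlgebraic (a : Qb))
    exact (IsFractionRing.isAlgebraic_iff ℤ ℚ Qb).mpr this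
  have hmap : P.primPart.map (Int.castRingHom (ZMod q)) ≠ 0 := by
    intro h0
    have : (q : ℤ) ∣ P.primPart.content := Polynomial.dvd_content_iff_C_dvd.mpr
      ((Polynomial.C_dvd_iff_dvd_coeff _ _).mpr fun i => by
        rw [← ZMod.intCast_zmod_eq_zero_iff_dvd]
        simpa using congrArg (fun g : (ZMod q)[X] => g.coeff i) h0)
    rw [(Polynomial.isPrimitive_primPart P).content_eq_one] at this
    exact hq.one_lt.ne' (by exact_mod_cast Int.eq_one_of_dvd_one (by positivity) this)
  have halg : IsIntegral (ZMod q) (residue A a) := by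
    refine (isAlgebraic_iff_isIntegral).mp ⟨_, hmap, ?_⟩
    have h1 : Polynomial.aeval a P.primPart = 0 := by
      have h2 : Polynomial.aeval (a : Qb) P.primPart = 0 := by
        rw [P.eq_C_content_mul_primPart, map_mul, Polynomial.aeval_C] at hPa
        exact (mul_eq_zero.mp hPa).resolve_left (by
          simpa using Polynomial.content_eq_zero_iff.not.mpr hP0)
      refine Subtype.ext ?_
      rw [ZeroMemClass.coe_zero, ← h2]
      exact (Polynomial.aeval_algHom_apply ((A.subtype : A →+* Qb).toIntAlgHom) a P.primPart).symm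
    have h3 := Polynomial.hom_eval₂ P.primPart (algebraMap ℤ A) (residue A) a
    rw [← Polynomial.aeval_def, h1, map_zero] at h3
    rw [Polynomial.aeval_def, Polynomial.eval₂_map]
    rw [RingHom.ext_int ((algebraMap (ZMod q) (ResidueField A)).comp (Int.castRingHom (ZMod q)))
      ((residue A).comp (algebraMap ℤ A))]
    exact h3.symm
  haveI : FiniteDimensional (ZMod q) (IntermediateField.adjoin (ZMod q) ({residue A a} : Set (ResidueField A))) :=
    IntermediateField.adjoin.finiteDimensional halg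
  haveI : Finite (IntermediateField.adjoin (ZMod q) ({residue A a} : Set (ResidueField A))) :=
    Module.finite_of_finite (ZMod q)
  set K := IntermediateField.adjoin (ZMod q) ({residue A a} : Set (ResidueField A))
  letI := Fintype.ofFinite K
  set u : K := ⟨residue A a, IntermediateField.mem_adjoin_simple_self _ _⟩
  have hu : u ≠ 0 := fun h => hr (congrArg Subtype.val h)
  refine ⟨Fintype.card K - 1, Nat.sub_pos_of_lt Fintype.one_lt_card, fun hd => ?_,
    congrArg Subtype.val (FiniteField.pow_card_sub_one_eq_one u hu)⟩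
  obtain ⟨n, -, hn⟩ := FiniteField.card K q
  rw [hn] at hd
  have hqn : q ∣ q ^ (n : ℕ) := dvd_pow_self q n.ne_zero
  have h1 : q ∣ 1 := by
    have h := Nat.dvd_sub hqn hd
    rwa [Nat.sub_sub_self (Nat.one_le_pow _ _ hq.pos)] at h
  exact hq.one_lt.ne' (Nat.dvd_one.mp h1)

/-- the residue field of `A ∩ T` is that of `A` -/
theorem exists_residue_T {q : ℕ} (hq : q.Prime) (hA : A.LiesOverPrime q) (a : A) :
    ∃ t : A, (t : Qb) ∈ inertiaFixed A ∧ residue A t = residue A a := by
  rcases eq_or_ne (residue A a) 0 with h0 | h0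
  · exact ⟨0, zero_mem _, by rw [h0, map_zero]⟩
  obtain ⟨m, hm, hqm, hpow⟩ := exists_pow_eq_one hq hA h0
  haveI : NeZero m := ⟨hm.ne'⟩
  haveI : NeZero (m : Qb) := ⟨Nat.cast_ne_zero.mpr hm.ne'⟩
  haveI : NeZero (m : ResidueField A) := ⟨Reduction.natCast_residue_ne_zero A hq hA hqm⟩
  obtain ⟨ζ, hζ⟩ := HasEnoughRootsOfUnity.exists_primitiveRoot Qb m
  have hζA : ζ ∈ A := Reduction.mem_A_of_isIntegral A ((hζ.isIntegral hm).tower_top)
  have hζr : IsPrimitiveRoot (residue A ⟨ζ, hζA⟩) m := by
    have hz : IsPrimitiveRoot (⟨ζ, hζA⟩ : A) m :=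
      IsPrimitiveRoot.of_map_of_injective (f := A.subtype) hζ A.subtype_injective
    exact isRoot_cyclotomic_iff.mp (by
      have h1 := (hz.isRoot_cyclotomic hm).map (f := residue A)
      rwa [Polynomial.map_cyclotomic] at h1)
  obtain ⟨i, -, hi⟩ := hζr.eq_pow_of_pow_eq_one hpow
  refine ⟨⟨ζ, hζA⟩ ^ i, pow_mem ?_ i, by rw [map_pow, hi]⟩
  rw [mem_inertiaFixed]
  intro σ hσ
  obtain ⟨j, hj, hjσ⟩ := hζ.eq_pow_of_pow_eq_one (ξ := σ ζ) (by
    rw [← map_pow, hζ.pow_eq_one, map_one])
  have hres : residue A (⟨ζ, hζA⟩ ^ j) = residue A ⟨ζ, hζA⟩ := by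
    obtain ⟨s, hs, rfl⟩ := Subgroup.mem_map.mp hσ
    have h2 : s • (⟨ζ, hζA⟩ : A) = ⟨ζ, hζA⟩ ^ j := Subtype.ext hjσ.symm
    have h3 := DFunLike.congr_fun (MonoidHom.mem_ker.mp hs) (residue A ⟨ζ, hζA⟩)
    rw [← h2]
    exact h3
  rw [map_pow] at hres
  have hj1 : j = 1 % m := by
    refine hζr.pow_inj hj (Nat.mod_lt _ hm) ?_
    rw [hres, ← pow_eq_pow_mod 1 hζr.pow_eq_one, pow_one]
  calc σ ζ = ζ ^ j := hjσ.symm
    _ = ζ ^ (1 % m) := by rw [hj1]
    _ = ζ ^ 1 := (pow_eq_pow_mod 1 hζ.pow_eq_one).symm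
    _ = ζ := pow_one ζ

end FLTAgent.SS2
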