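import Fermat.Agent.SS2.Hasse
import Fermat.Agent.SS2.Incl
import Fermat.Agent.SS2.Inertia
import Fermat.Agent.Flat.Residual
import Fermat.Agent.Flat.DescentArith
import Fermat.Agent.Flat.Coord
import Fermat.Agent.Alg.Frobenius
import Fermat.Agent.Reduction.Twist

/-!
Towers of lifts: for a regular function `t` on the special fibre of `X₀(M)` there are lifts
`f j` with integral expansions `G j` such that `qExpand q (G (j+1)) ≡ (G j)^q (mod q)`; the
corresponding facts on `X₀(Mq)`.
-/

set_option autoImplicit false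
set_option linter.unusedSectionVars false
set_option linter.style.haveILetI false
set_option synthInstance.maxHeartbeats 400000

noncomputable section

open ModularCurve AlgebraicCurve IsLocalRing
open FLTAgent.RR (Bd KK)
open FLTAgent.Reduction

namespace FLTAgent.SS2

/-! ### series modulo `q` -/

theorem pow_char_series {R : Type*} [CommRing R] (q : ℕ) [NeZero q] [ExpChar R q]
    (y : LaurentSeries R) : y ^ q = qExpand R q (coeffMap (frobenius R q) y) := by
  conv_lhs => rw [← LaurentSeries.single_order_mul_powerSeriesPart y]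
  conv_rhs => rw [← LaurentSeries.single_order_mul_powerSeriesPart y]
  rw [mul_pow, map_mul, map_mul, coeffMap_single, map_one (frobenius R q), qExpand_single,
    HahnSeries.single_pow, one_pow, nsmul_eq_mul, coeffMap_ofPowerSeries, ← map_pow,
    ← ofPowerSeries_expand]
  congr 2
  rw [← PowerSeries.map_expand]
  exact (MvPowerSeries.map_frobenius_expand q (NeZero.ne q)).symm

theorem coeff_natCast_mul {R : Type*} [CommRing R] (c : ℕ) (x : LaurentSeries R) (k : ℤ) :
    ((c : LaurentSeries R) * x).coeff k = (c : R) * x.coeff k := by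
  rw [← map_natCast (HahnSeries.C : R →+* LaurentSeries R) c, HahnSeries.C_apply,
    HahnSeries.coeff_single_zero_mul]

theorem exists_natCast_mul {R : Type*} [CommRing R] [IsDomain R] {c : ℕ} (hc : (c : R) ≠ 0)
    (x : LaurentSeries R) (h : ∀ k, (c : R) ∣ x.coeff k) :
    ∃ y : LaurentSeries R, x = (c : LaurentSeries R) * y := by
  choose y hy using h
  refine ⟨⟨y, x.isPWO_support.mono fun k hk h0 => hk ?_⟩, ?_⟩
  · exact (mul_eq_zero.mp ((hy k).symm.trans h0)).resolve_left hc
  · refine HahnSeries.ext (funext fun k => ?_)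
    rw [coeff_natCast_mul]
    exact hy k

theorem natCast_series_ne {R : Type*} [CommRing R] {c : ℕ} (hc : (c : R) ≠ 0) :
    (c : LaurentSeries R) ≠ 0 := fun h => hc (by
  have h1 := congrArg (fun z : LaurentSeries R => z.coeff 0) h
  rw [← mul_one (c : LaurentSeries R), coeff_natCast_mul] at h1
  simpa using h1)

theorem theta_pow_succ {R : Type*} [CommRing R] (x : LaurentSeries R) :
    ∀ n : ℕ, theta (x ^ (n + 1)) = ((n + 1 : ℕ) : LaurentSeries R) * x ^ n * theta x
  | 0 => by simp
  | n + 1 => by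
    rw [pow_succ, theta_mul, theta_pow_succ x n]
    push_cast
    ring

theorem theta_natCast_mul {R : Type*} [CommRing R] (c : ℕ) (x : LaurentSeries R) :
    theta ((c : LaurentSeries R) * x) = (c : LaurentSeries R) * theta x := by
  rw [← nsmul_eq_mul, map_nsmul, nsmul_eq_mul]

/-! ### integers at `A` -/

variable {A : ValuationSubring Qb} {q : ℕ}

theorem natCast_A_ne (hq : q.Prime) : (q : A) ≠ 0 := fun h => by
  have h1 := congrArg Subtype.val h
  exact hq.ne_zero (Nat.cast_injective (R := Qb) (by simpa using h1))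

/-- `a^q ≡ a` for rational integral `a` -/
theorem rat_pow_q (hq : q.Prime) (hA : A.LiesOverPrime q) {a : A}
    (ha : ∀ σ : Qb ≃ₐ[ℚ] Qb, σ (a : Qb) = a) : (q : A) ∣ a ^ q - a := by
  haveI := Fact.mk hq
  haveI : IsGalois ℚ Qb := Alg.qb_isGalois
  obtain ⟨r, hr⟩ := (InfiniteGalois.mem_range_algebraMap_iff_fixed (k := ℚ) (a : Qb)).mpr ha
  rw [eq_ratCast] at hr
  have hden : r.den.Coprime q :=
    Flat.den_coprime_of_mem hA (hr.symm ▸ a.2 : (r : Qb) ∈ A)
  have hu : IsUnit (r.den : A) := by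
    rw [← IsLocalRing.residue_ne_zero_iff_isUnit, map_natCast]
    haveI := charP_residue A hq hA
    rw [Ne, CharP.cast_eq_zero_iff (kA A) q]
    exact (hq.coprime_iff_not_dvd).mp hden.symm
  have hnd : (r.den : A) * a = (r.num : A) := Subtype.ext (by
    push_cast
    rw [← hr]
    exact_mod_cast (congrArg (fun t : ℚ => (t : Qb)) (Rat.den_mul_eq_num r)))
  have h1 : (q : ℤ) ∣ r.num ^ q * (r.den : ℤ) - r.num * (r.den : ℤ) ^ q := by
    rw [← ZMod.intCast_zmod_eq_zero_iff_dvd]
    push_cast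
    rw [ZMod.pow_card, ZMod.pow_card, sub_self]
  obtain ⟨z, hz⟩ := h1
  have h2 : (r.den : A) ^ (q + 1) * (a ^ q - a) = (q : A) * (z : A) := by
    have := congrArg (fun t : ℤ => (t : A)) hz
    push_cast at this
    rw [← this, ← hnd]
    ring
  obtain ⟨u, hu'⟩ := hu.pow (q + 1)
  refine ⟨((u⁻¹ : Aˣ) : A) * z, ?_⟩
  rw [← hu'] at h2
  rw [mul_left_comm, ← h2, ← mul_assoc, Units.inv_mul, one_mul]

/-- the quotient map to `A/qA` -/
abbrev modQ (A : ValuationSubring Qb) (q : ℕ) : A →+* A ⧸ Ideal.span {(q : A)} :=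
  Ideal.Quotient.mk _

theorem modQ_eq_zero {a : A} : modQ A q a = 0 ↔ (q : A) ∣ a :=
  Ideal.Quotient.eq_zero_iff_dvd _ _

theorem charP_modQ (hq : q.Prime) (hA : A.LiesOverPrime q) :
    CharP (A ⧸ Ideal.span {(q : A)}) q := by
  haveI : Nontrivial (A ⧸ Ideal.span {(q : A)}) := Ideal.Quotient.nontrivial_iff.mpr (by
    rw [Ne, Ideal.span_singleton_eq_top]
    intro hu
    refine (IsLocalRing.residue_ne_zero_iff_isUnit _).mpr hu ?_
    rw [map_natCast, natCast_residue A hA])
  exact (CharP.charP_iff_prime_eq_zero hq).mpr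
    ((map_natCast (modQ A q) q).symm.trans (modQ_eq_zero.mpr dvd_rfl))

/-- the congruence defining a tower -/
theorem tower_congr [NeZero q] (hq : q.Prime) (hA : A.LiesOverPrime q) {d : ℕ}
    (B : Fin d → LaurentSeries A) (hB : ∀ i n, ∀ σ : Qb ≃ₐ[ℚ] Qb,
      σ ((B i).coeff n : Qb) = (B i).coeff n) (y : Fin d → A) :
    ∃ H : LaurentSeries A,
      qExpand A q (∑ i, HahnSeries.C (y i ^ q) * B i) - (∑ i, HahnSeries.C (y i) * B i) ^ q =
        (q : LaurentSeries A) * H := by
  haveI := charP_modQ hq hA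
  haveI : ExpChar (A ⧸ Ideal.span {(q : A)}) q := ExpChar.prime hq
  refine exists_natCast_mul (natCast_A_ne hq) _ fun k => modQ_eq_zero.mp ?_
  set φ := modQ A q
  rw [← coeffMap_coeff φ, map_sub, map_pow, coeffMap_qExpand, pow_char_series]
  rw [show coeffMap φ (∑ i, HahnSeries.C (y i ^ q) * B i) =
    coeffMap (frobenius _ q) (coeffMap φ (∑ i, HahnSeries.C (y i) * B i)) from
      HahnSeries.ext (funext fun n => ?_), sub_self, HahnSeries.coeff_zero]
  rw [coeffMap_coeff, coeffMap_coeff, coeffMap_coeff, frobenius_def]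
  simp only [HahnSeries.coeff_sum, HahnSeries.C_apply, HahnSeries.coeff_single_zero_mul, map_sum,
    map_mul]
  rw [sum_pow_char]
  refine Finset.sum_congr rfl fun i _ => ?_
  rw [map_pow, mul_pow]
  congr 1
  rw [← map_pow, ← sub_eq_zero, ← map_sub, modQ_eq_zero]
  obtain ⟨z, hz⟩ := rat_pow_q hq hA (hB i n)
  exact ⟨-z, by rw [mul_neg, ← hz, neg_sub]⟩

/-- non-units are nilpotent modulo `q` -/
theorem exists_pow_dvd (hq : q.Prime) (hA : A.LiesOverPrime q) {c : A}
    (hc : residue A c = 0) : ∃ n : ℕ, (q : A) ∣ c ^ n := by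
  haveI := Fact.mk hq
  haveI := charP_residue A hq hA
  obtain ⟨f, hf0, hfx⟩ : IsAlgebraic ℤ (c : Qb) :=
    (IsFractionRing.isAlgebraic_iff ℤ ℚ Qb).mpr
      ((AlgebraicClosure.isAlgebraic ℚ).isAlgebraic _)
  set g := f.primPart
  have hg : Polynomial.aeval c g = 0 := by
    rw [f.eq_C_content_mul_primPart, map_mul, Polynomial.aeval_C, mul_eq_zero] at hfx
    rcases hfx with h | h
    · exact absurd (by simpa using h) (mt Polynomial.content_eq_zero_iff.mp hf0)
    · apply A.subtype_injective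
      rw [map_zero, ← h, Polynomial.aeval_def, Polynomial.aeval_def, Polynomial.hom_eval₂]
      congr 1
  have hex : ∃ i, ¬ (q : ℤ) ∣ g.coeff i := by
    by_contra hall
    push Not at hall
    have hu := f.isPrimitive_primPart (q : ℤ) (Polynomial.C_dvd_iff_dvd_coeff _ _ |>.mpr hall)
    rw [Int.isUnit_iff_natAbs_eq, Int.natAbs_natCast] at hu
    exact hq.one_lt.ne' hu
  classical
  set i := Nat.find hex
  have hi : ¬ (q : ℤ) ∣ g.coeff i := Nat.find_spec hex
  have hlow : ∀ j < i, (q : ℤ) ∣ g.coeff j := fun j hj => by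
    by_contra h
    exact Nat.find_min hex hj h
  rw [Polynomial.aeval_eq_sum_range' (show g.natDegree < g.natDegree + 1 + i by omega),
    show g.natDegree + 1 + i = i + (g.natDegree + 1) by omega, Finset.sum_range_add] at hg
  set S := ∑ j ∈ Finset.range i, g.coeff j • c ^ j
  set T := ∑ j ∈ Finset.range (g.natDegree + 1), g.coeff (i + j) • c ^ j
  have hT : IsUnit T := by
    rw [← IsLocalRing.residue_ne_zero_iff_isUnit, map_sum, Finset.sum_eq_single 0]
    · rw [pow_zero, map_zsmul, map_one, zsmul_one, Ne, CharP.intCast_eq_zero_iff (kA A) q]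
      simpa using hi
    · intro j _ hj
      rw [map_zsmul, map_pow, hc, zero_pow hj, smul_zero]
    · simp
  have hST : S + c ^ i * T = 0 := by
    rw [← hg, Finset.mul_sum]
    congr 1
    refine Finset.sum_congr rfl fun j _ => ?_
    rw [pow_add, mul_smul_comm]
  have hS : (q : A) ∣ S := Finset.dvd_sum fun j hj => by
    obtain ⟨e, he⟩ := hlow j (Finset.mem_range.mp hj)
    exact ⟨e • c ^ j, by rw [he, mul_smul, natCast_zsmul, nsmul_eq_mul]⟩
  refine ⟨i, (hT.dvd_mul_right).mp ?_⟩
  rw [eq_neg_of_add_eq_zero_right hST]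
  exact hS.neg_right

/-! ### the tower of lifts -/

variable {M : ℕ} [NeZero M] [NeZero q] (C : Ctx A M q)
include C

theorem exists_tower {t : FS A M} (ht : t ∈ regOn (kA A) (tS A M false)) :
    ∃ (f : ℕ → FB M) (G : ℕ → LaurentSeries A),
      (∀ j, BT A M false (f j) ∧ up A (G j) = (f j : LaurentSeries Qb)) ∧
      red A M (f 1) = t ∧ (∀ j, f j ∈ rationalFn A M) ∧
      ∀ j, ∃ H : LaurentSeries A,
        qExpand A q (G (j + 1)) - G j ^ q = (q : LaurentSeries A) * H := by
  classical
  obtain ⟨b0, hb0, hb0r⟩ := exists_lift C ((BS_iff C).mpr ht)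
  obtain ⟨e, he⟩ := exists_pow_mul_BT C (s := true) (b := b0) hb0
  have hbL := Flat.mem_rr_of_charts e hb0.mem_regOn he.mem_regOn
  set V := riemannRochSpace (e • Flat.poleJ M)
  haveI : FiniteDimensional Qb V :=
    ((Flat.curveLike_B (N := M)).finite_finrank (e • Flat.poleJ M)).1
  obtain ⟨L, hL⟩ := Flat.exists_latBasis_fixed C V
    (fun σ y hy => by
      have h := Flat.gal_mem_rr σ hy
      rwa [show Flat.gal M σ • e • Flat.poleJ M = e • Flat.poleJ M by
        rw [← smul_comm e (Flat.gal M σ) (Flat.poleJ M), Flat.gal_poleJ]] at h)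
    (fun y hy hyG n => Flat.series_mem_of_poleJ C e hy hyG n)
  obtain ⟨c, hc⟩ := (Submodule.mem_span_range_iff_exists_fun Qb).mp (L.span hbL)
  have hcA := L.coord_mem C c (by rw [hc]; exact BT.mem_GR C hb0)
  have hex : ∀ i, ∃ y : A, (y : Qb) ∈ inertiaFixed A ∧
      residue A y ^ q = residue A ⟨c i, hcA i⟩ := fun i => by
    obtain ⟨z, hz⟩ := IsAlgClosed.exists_pow_nat_eq (residue A ⟨c i, hcA i⟩) C.prime.pos
    obtain ⟨y, rfl⟩ := residue_surjective (R := A) z
    obtain ⟨y', hy', hr⟩ := exists_residue_T C.prime C.lies y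
    exact ⟨y', hy', hr ▸ hz⟩
  choose y hyT hy using hex
  have hBT : ∀ i, BT A M false (L.b i) := fun i =>
    BT_of_mem C (Flat.mem_regOn_of_poleJ e (L.mem i)) (L.int i)
  choose B X hB hX hXS using fun i => exists_series_BT C false (hBT i)
  have hBfix : ∀ i n, ∀ σ : Qb ≃ₐ[ℚ] Qb, σ ((B i).coeff n : Qb) = (B i).coeff n := fun i n σ => by
    have h : ((B i).coeff n : Qb) = Flat.cf M n (L.b i) := by
      rw [Flat.cf_apply, ← hB i]
      rfl
    rw [h, ← Flat.cf_gal, hL]
  refine ⟨fun j => ∑ i, ((y i ^ q ^ j : A) : Qb) • L.b i,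
    fun j => ∑ i, HahnSeries.C (y i ^ q ^ j) * B i, fun j => ⟨?_, ?_⟩, ?_,
    fun j => sum_mem fun i _ => ?_, fun j => ?_⟩
  · exact BT_of_mem C (Flat.mem_regOn_of_poleJ e
      (Submodule.sum_mem V fun i _ => V.smul_mem _ (L.mem i)))
      (Flat.red_comb C L.b L.int _).1
  · rw [map_sum, AddSubmonoidClass.coe_finsetSum]
    refine Finset.sum_congr rfl fun i _ => ?_
    rw [map_mul, hB, Algebra.smul_def, MulMemClass.coe_mul, HahnSeries.C_apply, ← coe_cB_A A M]
  · rw [(Flat.red_comb C L.b L.int _).2, pow_one, ← hb0r, ← hc,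
      show (∑ i, c i • L.b i) = ∑ i, ((⟨c i, hcA i⟩ : A) : Qb) • L.b i from rfl,
      (Flat.red_comb C L.b L.int _).2]
    simp only [map_pow, hy]
  · rw [Algebra.smul_def]
    exact mul_mem (const_mem_rationalFn (pow_mem (hyT i) _)) fun σ _ => hL σ i
  · obtain ⟨H, hH⟩ := tower_congr C.prime C.lies B hBfix fun i => y i ^ q ^ j
    exact ⟨H, by simpa only [← pow_mul, ← pow_succ] using hH⟩

/-- `θ` of the reduced difference quotient of two steps of a tower -/
theorem theta_twist {G G' H : LaurentSeries A}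
    (hH : qExpand A q G' - G ^ q = (q : LaurentSeries A) * H) :
    theta (dn A H) = theta (dn A G) ^ q - dn A G ^ (q - 1) * theta (dn A G) := by
  haveI := Fact.mk C.prime
  haveI := charP_residue A C.prime C.lies
  haveI : ExpChar (kA A) q := ExpChar.prime C.prime
  obtain ⟨m, hm⟩ : ∃ m, q = m + 1 := ⟨q - 1, by have := C.prime.one_le; omega⟩
  have h1 : theta H = qExpand A q (theta G') - G ^ (q - 1) * theta G := by
    refine mul_left_cancel₀ (natCast_series_ne (natCast_A_ne (A := A) C.prime)) ?_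
    rw [← theta_natCast_mul, ← hH, map_sub, theta_qExpand,
      show G ^ q = G ^ (m + 1) by rw [← hm], theta_pow_succ, ← hm, show q - 1 = m by omega]
    ring
  have hq0 : ((q : LaurentSeries (kA A))) = 0 := by
    rw [← map_natCast (HahnSeries.C : kA A →+* LaurentSeries (kA A)), CharP.cast_eq_zero, map_zero]
  have h2 := congrArg (dn A) hH
  rw [map_sub, map_pow, map_mul, map_natCast, hq0, zero_mul, coeffMap_qExpand, sub_eq_zero,
    pow_char_eq q] at h2
  have h3 : dn A G' = coeffMap (frobenius (kA A) q) (dn A G) :=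
    (qExpand_injective (R := kA A) q) h2
  rw [dn, theta_coeffMap, h1, map_sub, map_mul, map_pow, coeffMap_qExpand, ← theta_coeffMap,
    ← theta_coeffMap, ← show dn A G' = coeffMap (residue A) G' from rfl, h3, theta_coeffMap,
    ← pow_char_eq]

omit C

/-! ### the coordinates on `X₀(Mq)` -/

/-- a monic relation from `relation_bar` -/
theorem isIntegralElem_jNBar (d : ℕ) [NeZero d] :
    (Polynomial.aeval (R := Qb) (ModFun.jBar d)).toRingHom.IsIntegralElem (ModFun.jNBar d) := by
  classical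
  obtain ⟨c, hc0, hc⟩ := ModFun.relation_bar d
  set n := ModFun.idx d
  refine ⟨∑ m ∈ Finset.range (n + 1), Polynomial.monomial (n - m) (c m), ?_, ?_⟩
  · rw [Finset.sum_range_succ', hc0, add_comm, Nat.sub_zero, Polynomial.monomial_one_right_eq_X_pow]
    exact Polynomial.monic_X_pow_add ((Polynomial.degree_sum_le _ _).trans_lt
      ((Finset.sup_lt_iff (WithBot.bot_lt_coe n)).mpr fun m hm =>
        (Polynomial.degree_monomial_le _ _).trans_lt (by
          rw [Finset.mem_range] at hm
          exact WithBot.coe_lt_coe.mpr (show n - (m + 1) < n by omega))))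
  · rw [Polynomial.eval₂_finsetSum]
    exact (Finset.sum_congr rfl fun m _ => by rw [Polynomial.eval₂_monomial]; rfl).trans hc

theorem isIntegralElem_map {R S T : Type*} [CommRing R] [CommRing S] [CommRing T] {φ : R →+* S}
    (f : S →+* T) {x : S} (h : φ.IsIntegralElem x) : (f.comp φ).IsIntegralElem (f x) := by
  obtain ⟨p, hp, hx⟩ := h
  exact ⟨p, hp, by rw [← Polynomial.hom_eval₂, hx, map_zero]⟩

/-- `x` regular wherever `y` is, if it is integral over polynomials in `y` -/
theorem bd_of_integral {F F' : Type*} [Field F] [Algebra Qb F] [Field F'] [Algebra Qb F']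
    (φ : F' →ₐ[Qb] F) {u : F'} {z : F'}
    (h : (Polynomial.aeval (R := Qb) u).toRingHom.IsIntegralElem z) :
    φ z ∈ regOn Qb (φ u) := by
  refine mem_regOn_of_isIntegral _ (fun p => ?_) (isIntegralElem_map φ.toRingHom h)
  show φ (Polynomial.aeval u p) ∈ _
  rw [← Polynomial.aeval_algHom_apply]
  exact Algebra.adjoin_le (Set.singleton_subset_iff.mpr (self_mem_regOn _))
    (Polynomial.aeval_mem_adjoin_singleton Qb _)

section Level

/-- `j(τ)` on `X₀(Mq)` -/
abbrev j1 (M q : ℕ) [NeZero M] [NeZero q] : FB (M * q) := heckeAlphaBar Qb M q (ModFun.jBar M)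

/-- `j(qτ)` on `X₀(Mq)` -/
abbrev j2 (M q : ℕ) [NeZero M] [NeZero q] : FB (M * q) := heckeBetaBar Qb M q (ModFun.jBar M)

theorem j2_mem_regOn (M q : ℕ) [NeZero M] [NeZero q] : j2 M q ∈ regOn Qb (j1 M q) := by
  have h := bd_of_integral (incl (dvd_mul_left q M)) (isIntegralElem_jNBar q)
  rwa [incl_jBar, show ModFun.jBar (M * q) = j1 M q from
      Subtype.ext (coe_heckeAlphaBar M q (ModFun.jBar M)).symm,
    show incl (dvd_mul_left q M) (ModFun.jNBar q) = j2 M q from Subtype.ext (by
      rw [coe_incl, coe_heckeBetaBar]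
      show coeffEmb Qb (qExpand ℚ q jq) = qExpand Qb q (coeffEmb Qb jq)
      exact coeffMap_qExpand _ q jq)] at h

/-- where `j(τ) j(qτ)` is finite both factors are -/
theorem fin_of_J (w : FB (M * q) →ₐ[Qb] FB (M * q))
    (hw1 : ∀ f, w (heckeAlphaBar Qb M q f) = heckeBetaBar Qb M q f)
    (hw2 : ∀ f, w (heckeBetaBar Qb M q f) = heckeAlphaBar Qb M q f)
    {P : PB (M * q)} (hP : 0 ≤ P.ord (j1 M q * j2 M q)) :
    Bd P (j1 M q) 0 ∧ Bd P (j2 M q) 0 := by
  have h12 := j2_mem_regOn M q
  have hφ : ∀ v : PB (M * q), Bd v (j2 M q) 0 → Bd v (j1 M q) 0 := by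
    have h := bd_of_integral (w.comp (incl (dvd_mul_left q M))) (isIntegralElem_jNBar q)
    rw [AlgHom.comp_apply, AlgHom.comp_apply, incl_jBar, show ModFun.jBar (M * q) = j1 M q from
        Subtype.ext (coe_heckeAlphaBar M q (ModFun.jBar M)).symm, hw1,
      show incl (dvd_mul_left q M) (ModFun.jNBar q) = j2 M q from Subtype.ext (by
        rw [coe_incl, coe_heckeBetaBar]
        show coeffEmb Qb (qExpand ℚ q jq) = qExpand Qb q (coeffEmb Qb jq)
        exact coeffMap_qExpand _ q jq), hw2] at h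
    exact h
  by_cases h : Bd P (j1 M q) 0
  · exact ⟨h, h12 P h⟩
  exfalso
  have h' : ¬ Bd P (j2 M q) 0 := fun h2 => h (hφ P h2)
  obtain ⟨n1, l1⟩ := RR.not_bd_iff.mp h
  obtain ⟨n2, l2⟩ := RR.not_bd_iff.mp h'
  rw [P.ord_mul n1 n2] at hP
  omega

theorem image_regOn (φ : FB M →ₐ[Qb] FB (M * q)) {b : FB M} (hb : BT A M false b) :
    φ b ∈ regOn Qb (φ (ModFun.jBar M)) := by
  refine mem_regOn_of_isIntegral _ (fun p => ?_) (isIntegralElem_map φ.toRingHom hb)
  show φ (phiA A M false p) ∈ _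
  rw [phiA_apply, ← Polynomial.aeval_algHom_apply]
  exact Algebra.adjoin_le (Set.singleton_subset_iff.mpr (self_mem_regOn _))
    (Polynomial.aeval_mem_adjoin_singleton Qb _)

theorem up_alpha {b : FB M} {G : LaurentSeries A} (h : up A G = (b : LaurentSeries Qb)) :
    up A G = (heckeAlphaBar Qb M q b : LaurentSeries Qb) := by
  rw [coe_heckeAlphaBar, h]

theorem up_beta {b : FB M} {G : LaurentSeries A} (h : up A G = (b : LaurentSeries Qb)) :
    up A (qExpand A q G) = (heckeBetaBar Qb M q b : LaurentSeries Qb) := by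
  rw [coe_heckeBetaBar, ← h]
  exact coeffMap_qExpand _ q G

end Level

end FLTAgent.SS2
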