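import Fermat.Agent.SS2.PointValStep
import Fermat.Agent.SS2.CrossingBasic
import Fermat.Agent.Reduction.Norm
import Mathlib.LinearAlgebra.Matrix.Charpoly.LinearMap
import Mathlib.LinearAlgebra.Lagrange

/-!
The elementwise congruence of Kronecker on the chart where `j` is finite: the characteristic
polynomial of `x(qτ)` over the functions of level `M`.
-/

set_option autoImplicit false
set_option linter.unusedSectionVars false
set_option linter.style.haveILetI false
set_option synthInstance.maxHeartbeats 400000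
set_option maxHeartbeats 1000000

noncomputable section

open ModularCurve AlgebraicCurve IsLocalRing Polynomial
open FLTAgent.RR (Bd KK)

namespace FLTAgent.SS2

open FLTAgent.Reduction

namespace PV

/-- a polynomial with values in a subring at many natural numbers has coefficients there -/
theorem coeff_mem_of_eval {F : Type*} [Field F] [CharZero F] (R : Subring F)
    (hQ : ∀ r : ℚ, (r : F) ∈ R) {p : F[X]} {n : ℕ} (hn : p.natDegree < n)
    (h : ∀ i : ℕ, p.eval (i : F) ∈ R) (j : ℕ) : p.coeff j ∈ R := by
  classical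
  set s := Finset.range n
  have hinj : Set.InjOn (fun i : ℕ => (i : F)) s := Nat.cast_injective.injOn
  have hdeg : p.degree < s.card := by
    rw [Finset.card_range]
    exact degree_le_natDegree.trans_lt (WithBot.coe_lt_coe.mpr hn)
  set L := (Polynomial.mapRingHom R.subtype).range
  have hC : ∀ x ∈ R, Polynomial.C x ∈ L := fun x hx => ⟨Polynomial.C ⟨x, hx⟩, by simp⟩
  have hX : (X : F[X]) ∈ L := ⟨X, by simp⟩
  have hp : p ∈ L := by
    rw [Lagrange.eq_interpolate hinj hdeg, Lagrange.interpolate_apply]
    refine sum_mem fun i _ => mul_mem (hC _ (h i)) ?_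
    rw [Lagrange.basis]
    refine prod_mem fun k _ => ?_
    rw [Lagrange.basisDivisor]
    refine mul_mem (hC _ ?_) (sub_mem hX (hC _ (by exact_mod_cast natCast_mem R k)))
    have := hQ (((i : ℚ) - (k : ℚ))⁻¹)
    push_cast at this
    exact this
  obtain ⟨r, hr⟩ := hp
  rw [← hr, Polynomial.coe_mapRingHom, coeff_map]
  exact (r.coeff j).2

variable {M q : ℕ} [NeZero M] [NeZero q]

/-- the characteristic polynomial of `x(qτ)` over the functions of level `M` -/
def betaPoly (M q : ℕ) [NeZero M] [NeZero q] (x : FB M) : (FB M)[X] :=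
  letI := algebraAlong (heckeAlphaBar Qb M q)
  haveI : Module.Finite (FB M) (FB (M * q)) := HeckeJ.finiteAlong (heckeAlphaBar Qb M q)
  (Algebra.leftMulMatrix (Module.finBasis (FB M) (FB (M * q)))
    (heckeBetaBar Qb M q x)).charpoly

theorem betaPoly_monic (x : FB M) : (betaPoly M q x).Monic := Matrix.charpoly_monic _

theorem betaPoly_natDegree (hq : q.Prime) (hqM : ¬ q ∣ M) (x : FB M) :
    (betaPoly M q x).natDegree = q + 1 := by
  letI := algebraAlong (heckeAlphaBar Qb M q)
  haveI : Module.Finite (FB M) (FB (M * q)) := HeckeJ.finiteAlong (heckeAlphaBar Qb M q)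
  rw [betaPoly, Matrix.charpoly_natDegree_eq_dim, Fintype.card_fin]
  exact finrankAlong_alpha hq hqM

theorem betaPoly_root (x : FB M) :
    (betaPoly M q x).eval₂ (heckeAlphaBar Qb M q).toRingHom (heckeBetaBar Qb M q x) = 0 := by
  letI := algebraAlong (heckeAlphaBar Qb M q)
  haveI : Module.Finite (FB M) (FB (M * q)) := HeckeJ.finiteAlong (heckeAlphaBar Qb M q)
  refine Algebra.leftMulMatrix_injective (Module.finBasis (FB M) (FB (M * q))) ?_
  rw [map_zero]
  refine Eq.trans ?_ (Matrix.aeval_self_charpoly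
    (Algebra.leftMulMatrix (Module.finBasis (FB M) (FB (M * q))) (heckeBetaBar Qb M q x)))
  exact (Polynomial.aeval_algHom_apply (Algebra.leftMulMatrix _) _ _).symm

theorem betaPoly_eval (x : FB M) (c : Qb) :
    (betaPoly M q x).eval (cB M c) = normBeta M q (cB M c - x) := by
  letI := algebraAlong (heckeAlphaBar Qb M q)
  haveI : Module.Finite (FB M) (FB (M * q)) := HeckeJ.finiteAlong (heckeAlphaBar Qb M q)
  rw [betaPoly, Matrix.eval_charpoly, normBeta,
    Algebra.norm_eq_matrix_det (Module.finBasis (FB M) (FB (M * q)))]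
  congr 1
  rw [map_sub, map_sub]
  congr 1
  have e : heckeBetaBar Qb M q (cB M c) = algebraMap (FB M) (FB (M * q)) (cB M c) := by
    show heckeBetaBar Qb M q (algebraMap Qb (FB M) c) =
      heckeAlphaBar Qb M q (algebraMap Qb (FB M) c)
    rw [AlgHom.commutes, AlgHom.commutes]
  rw [e, AlgHom.commutes]
  rfl

/-- the series of a function of level `M`, dilated -/
def dil (M q : ℕ) [NeZero M] [NeZero q] : FB M →+* LaurentSeries Qb :=
  (qExpand Qb q).comp (modularFunctionFieldBar M).val.toRingHom

theorem dil_apply (x : FB M) : dil M q x = qExpand Qb q (x : LaurentSeries Qb) := rfl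

/-- the conjugates of `x(qτ)`, after `q ↦ q^q` -/
def rootsPoly (R : Type*) [CommRing R] (q : ℕ) [NeZero q] (u : Rˣ) (g : LaurentSeries R) :
    (LaurentSeries R)[X] :=
  (X - Polynomial.C (qExpand R q (qExpand R q g))) *
    ∏ i : Fin q, (X - Polynomial.C (Reduction.twist (u ^ (i : ℕ)) g))

theorem map_betaPoly (hq : q.Prime) (hqM : ¬ q ∣ M) {u : Qbˣ} (hu : IsPrimitiveRoot u q)
    (x : FB M) :
    (betaPoly M q x).map (dil M q) = rootsPoly Qb q u (x : LaurentSeries Qb) := by
  haveI : Infinite (LaurentSeries Qb) := Infinite.of_injective _ (algebraMap Qb _).injective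
  refine Polynomial.eq_of_infinite_eval_eq _ _ (Set.Infinite.mono ?_
    (Set.infinite_range_of_injective (algebraMap Qb (LaurentSeries Qb)).injective))
  rintro _ ⟨c, rfl⟩
  have hc : ((cB M c : FB M) : LaurentSeries Qb) = algebraMap Qb _ c := rfl
  have hq1 : ∀ n : ℕ, [NeZero n] → qExpand Qb n (algebraMap Qb (LaurentSeries Qb) c) =
      algebraMap Qb _ c := by
    intro n _
    rw [algebraMap_laurentSeries_eq_single, qExpand_single, mul_zero]
  have htw : ∀ v : Qbˣ, Reduction.twist v (algebraMap Qb (LaurentSeries Qb) c) =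
      algebraMap Qb _ c := by
    intro v
    rw [algebraMap_laurentSeries_eq_single, Reduction.twist_single_zero]
  show ((betaPoly M q x).map (dil M q)).eval _ = (rootsPoly Qb q u _).eval _
  have e : algebraMap Qb (LaurentSeries Qb) c = dil M q (cB M c) := by rw [dil_apply, hc, hq1]
  conv_lhs => rw [e]
  rw [eval_map, eval₂_at_apply, betaPoly_eval, dil_apply, qExpand_normBeta hq hqM hu,
    AddSubgroupClass.coe_sub, hc, rootsPoly, eval_mul, eval_prod, eval_sub, eval_X, eval_C,
    map_sub, map_sub, hq1, hq1]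
  refine congrArg _ (Finset.prod_congr rfl fun i _ => ?_)
  rw [eval_sub, eval_X, eval_C, map_sub, htw]

theorem galFn_normBeta (hq : q.Prime) (hqM : ¬ q ∣ M) (σ : Qb ≃ₐ[ℚ] Qb) (f : FB M) :
    galFn M σ • normBeta M q f = normBeta M q (galFn M σ • f) := by
  haveI : NeZero (q : Qb) := ⟨Nat.cast_ne_zero.mpr hq.ne_zero⟩
  obtain ⟨ζ, hζ⟩ := HasEnoughRootsOfUnity.exists_primitiveRoot Qb q
  obtain ⟨u, hu⟩ : ∃ u : Qbˣ, IsPrimitiveRoot u q :=
    ⟨Units.mk0 ζ (hζ.ne_zero hq.ne_zero), IsPrimitiveRoot.coe_units_iff.mp (by simpa using hζ)⟩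
  set g : Qb →+* Qb := (σ : Qb →+* Qb)
  have hu' : IsPrimitiveRoot (Units.map (g : Qb →* Qb) u) q :=
    hu.map_of_injective (Units.map_injective σ.injective)
  refine Subtype.ext (qExpand_injective (R := Qb) (N := q) ?_)
  rw [qExpand_normBeta hq hqM hu', coe_arithmeticGalois_smul, coe_arithmeticGalois_smul,
    ← coeffMap_qExpand, qExpand_normBeta hq hqM hu, map_mul, map_prod, coeffMap_qExpand,
    coeffMap_qExpand]
  refine congrArg _ (Finset.prod_congr rfl fun i _ => ?_)
  rw [Reduction.coeffMap_twist, map_pow]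

variable {A : ValuationSubring Qb} (C : Ctx A M q)
include C

theorem normBeta_regOn {f : FB M} (hf : BT A M false f) :
    normBeta M q f ∈ regOn Qb (tB M false) := by
  intro v hv
  haveI : HasPrincipalDivisors Qb (FB (M * q)) := RR.hasPrincipalDivisors
  letI := algebraAlong (heckeAlphaBar Qb M q)
  haveI := isScalarTower_along (heckeAlphaBar Qb M q)
  haveI := isIntegral_along (heckeAlphaBar Qb M q) (HeckeJ.isIntegralAlong _)
  haveI : FiniteDimensional (FB M) (FB (M * q)) := HeckeJ.finiteAlong (heckeAlphaBar Qb M q)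
  rcases eq_or_ne f 0 with rfl | hf0
  · simp [normBeta, RR.Bd.zero]
  have hb : heckeBetaBar Qb M q f ≠ 0 := (_root_.map_ne_zero _).mpr hf0
  have h := HeckeJ.ord_norm_nonneg (v := v) hb fun w hw => by
    have hj : Bd w (j1 M q) 0 := by
      show Bd w (algebraMap (FB M) (FB (M * q)) (ModFun.jBar M)) 0
      rw [← RR.mem_iff_bd, ← Place.mem_restrict_iff (F := FB M), Place.mem_fiber.mp hw]
      exact RR.mem_iff_bd.mpr hv
    have := (RR.bd_iff_ord hb).mp
      (image_regOn (heckeBetaBar Qb M q) hf w (j2_mem_regOn M q w hj))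
    omega
  rw [normBeta, RR.bd_iff_ord (Algebra.norm_ne_zero_iff.mpr hb), neg_zero]
  exact h

theorem betaPoly_coeff_regOn {x : FB M} (hx : BT A M false x) (j : ℕ) :
    (betaPoly M q x).coeff j ∈ regOn Qb (tB M false) := by
  haveI : CharZero (FB M) := charZero_of_injective_algebraMap (algebraMap Qb (FB M)).injective
  refine coeff_mem_of_eval (regOn Qb (tB M false)).toSubring (fun r => ?_) (n := q + 2) ?_
    (fun i => ?_) j
  · rw [← map_ratCast (algebraMap Qb (FB M)) r]
    exact (regOn Qb (tB M false)).algebraMap_mem _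
  · rw [betaPoly_natDegree C.prime C.not_dvd]
    omega
  · rw [← map_natCast (algebraMap Qb (FB M)) i, betaPoly_eval]
    exact normBeta_regOn C ((BT_const false (natCast_mem A i)).sub hx)

theorem betaPoly_coeff_rational {x : FB M} (hx : x ∈ rationalFn A M) (j : ℕ) :
    (betaPoly M q x).coeff j ∈ rationalFn A M := by
  haveI : CharZero (FB M) := charZero_of_injective_algebraMap (algebraMap Qb (FB M)).injective
  refine coeff_mem_of_eval (rationalFn A M).toSubring
    (fun r => show (r : FB M) ∈ rationalFn A M from SubfieldClass.ratCast_mem _ r)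
    (n := q + 2) ?_ (fun i => ?_) j
  · rw [betaPoly_natDegree C.prime C.not_dvd]
    omega
  · rw [← map_natCast (algebraMap Qb (FB M)) i, betaPoly_eval]
    intro σ hσ
    rw [galFn_normBeta C.prime C.not_dvd]
    congr 1
    rw [smul_sub, galFn_smul_const, map_natCast, hx σ hσ]

theorem betaPoly_red {x : FB M} (hx : BT A M false x) (j : ℕ) :
    (betaPoly M q x).coeff j ∈ GR A M ∧
      red A M ((betaPoly M q x).coeff j) = (kronPoly C (red A M x)).coeff j := by
  classical
  haveI := Fact.mk C.prime
  haveI := charP_residue A C.prime C.lies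
  haveI := SS.expChar_kA C
  obtain ⟨G, -, hG, -⟩ := exists_series_BT C false hx
  haveI : NeZero (q : Qb) := ⟨Nat.cast_ne_zero.mpr C.prime.ne_zero⟩
  obtain ⟨ζ, hζ⟩ := HasEnoughRootsOfUnity.exists_primitiveRoot Qb q
  have hζA : ζ ∈ A := mem_A_of_isIntegral A ⟨X ^ q - 1,
    monic_X_pow_sub_C 1 C.prime.ne_zero, by simp [hζ.pow_eq_one]⟩
  have hζ' : (⟨ζ, hζA⟩ : A) ^ q = 1 := Subtype.ext hζ.pow_eq_one
  set uA : Aˣ := Units.ofPowEqOne ⟨ζ, hζA⟩ q hζ' C.prime.ne_zero with huA
  have hu : IsPrimitiveRoot (Units.map (A.subtype : A →* Qb) uA) q :=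
    IsPrimitiveRoot.coe_units_iff.mp (by simpa [huA] using hζ)
  have hu1 : Units.map (residue A : A →* kA A) uA = 1 := by
    refine Units.ext ?_
    have h1 : (residue A ⟨ζ, hζA⟩ - 1) ^ q = 0 := by
      rw [sub_pow_char, ← map_pow, hζ', map_one, one_pow, sub_self]
    simpa [huA, sub_eq_zero] using eq_zero_of_pow_eq_zero h1
  set P := rootsPoly A q uA G with hP
  have hup : P.map (up A) = (betaPoly M q x).map (dil M q) := by
    rw [map_betaPoly C.prime C.not_dvd hu, hP, rootsPoly, rootsPoly, Polynomial.map_mul,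
      Polynomial.map_prod, Polynomial.map_sub, map_X, map_C, coeffMap_qExpand, coeffMap_qExpand, hG]
    refine congrArg _ (Finset.prod_congr rfl fun i _ => ?_)
    rw [Polynomial.map_sub, map_X, map_C, Reduction.coeffMap_twist, hG, map_pow]
  set H := P.coeff j
  have hupH : up A H = qExpand Qb q (((betaPoly M q x).coeff j : FB M) : LaurentSeries Qb) := by
    rw [← dil_apply, ← coeff_map, hup, coeff_map]
  have hdiv : ∀ k : ℤ, ¬ (q : ℤ) ∣ k → H.coeff k = 0 := fun k hk => Subtype.ext (by
    have h1 := congrArg (fun s : LaurentSeries Qb => s.coeff k) hupH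
    simpa [qExpand_coeff_of_not_dvd q _ hk] using h1)
  have hG' : up A (deflate q H) =
      (((betaPoly M q x).coeff j : FB M) : LaurentSeries Qb) := by
    refine qExpand_injective (R := Qb) (N := q) ?_
    rw [← coeffMap_qExpand, qExpand_deflate q H hdiv, hupH]
  refine ⟨mem_GR_of_series hG', Subtype.ext (qExpand_injective (R := kA A) (N := q) ?_)⟩
  rw [coe_red C (mem_GR_of_series hG'), redS_series hG', ← coeffMap_qExpand,
    qExpand_deflate q H hdiv]
  -- the residual polynomial
  let b : FS A M →+* LaurentSeries (kA A) :=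
    (qExpand (kA A) q).comp (modularFunctionFieldFullC (kA A) M).val.toRingHom
  show dn A H = b ((kronPoly C (red A M x)).coeff j)
  have hxr : ((red A M x : FS A M) : LaurentSeries (kA A)) = dn A G := by
    rw [coe_red C (BT.mem_GR C hx), redS_series hG]
  have hdn : P.map (dn A) = (kronPoly C (red A M x)).map b := by
    rw [hP, rootsPoly, kronPoly, Polynomial.map_mul, Polynomial.map_mul, Polynomial.map_prod,
      Polynomial.map_sub, Polynomial.map_sub, Polynomial.map_sub, Polynomial.map_pow, map_X,
      map_X, map_C, map_C, map_C]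
    congr 1
    · congr 2
      show _ = qExpand (kA A) q ((SS.Fr C (red A M x) : FS A M) : LaurentSeries (kA A))
      rw [SS.coe_Fr, hxr, coeffMap_qExpand, coeffMap_qExpand]
    · have hp : ∀ i : Fin q, Polynomial.map (dn A)
          (X - Polynomial.C (Reduction.twist (uA ^ (i : ℕ)) G)) = X - Polynomial.C (dn A G) := by
        intro i
        rw [Polynomial.map_sub, map_X, map_C, Reduction.coeffMap_twist, map_pow, hu1, one_pow,
          twist_one_apply]
      rw [Finset.prod_congr rfl fun i _ => hp i, Finset.prod_const, Finset.card_univ,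
        Fintype.card_fin]
      haveI : ExpChar (LaurentSeries (kA A)) q :=
        expChar_of_injective_algebraMap (algebraMap (kA A) _).injective q
      rw [sub_pow_expChar, ← Polynomial.C_pow]
      congr 2
      show _ = qExpand (kA A) q ((frobS C • red A M x : FS A M) : LaurentSeries (kA A))
      rw [frobS, coe_fullAut_smul, hxr, pow_char_eq q]
      rfl
  rw [← coeff_map, hdn, coeff_map]

end PV

/-- Kronecker's congruence holds elementwise on the chart where `j` is finite -/
theorem kronChart_false {A : ValuationSubring Qb} {M q : ℕ} [NeZero M] [NeZero q]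
    (C : Ctx A M q) : KronChart C false := fun x hx hr =>
  ⟨PV.betaPoly M q x, PV.betaPoly_monic x, PV.betaPoly_natDegree C.prime C.not_dvd x,
    fun j => ⟨BT_of_mem C (PV.betaPoly_coeff_regOn C hx j) (PV.betaPoly_red C hx j).1,
      PV.betaPoly_coeff_rational C hr j, (PV.betaPoly_red C hx j).2⟩,
    PV.betaPoly_root x⟩

end FLTAgent.SS2

end
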