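import Fermat.Agent.SS2.ModelRegular
import Fermat.Agent.SS2.BranchesLand
import Fermat.Agent.SS2.Fib

/-!
The model of `X₀(Mq²)` at a place over `q` as a fibre with three components.
-/

set_option autoImplicit false
set_option linter.unusedSectionVars false
set_option linter.style.haveILetI false
set_option linter.unusedSimpArgs false
set_option synthInstance.maxHeartbeats 200000
set_option maxHeartbeats 1000000

noncomputable section

open ModularCurve AlgebraicCurve IsLocalRing
open FLTAgent.RR (Bd)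

namespace FLTAgent.SS2

open FLTAgent.Reduction (Qb FB FS Ctx GR tB tS jS kA red redS regOn)

variable {A : ValuationSubring Qb} {M q : ℕ} [NeZero M] [NeZero q] (C : Ctx A M q)

include C

theorem landing_model : Landing C := fun ζ b x hr hx => landing C ζ b x hr hx

/-- bounded rational functions integral on the three branches form a finitely generated module -/
theorem lattice_fg_model (D : Divisor Qb (FB (M * q * q))) : ∃ S : Finset (FB (M * q * q)),
    (∀ x ∈ S, x ∈ riemannRochSpace D ∧ ∀ b, x ∈ GB C b) ∧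
    ∀ x ∈ riemannRochSpace D, (∀ b, x ∈ GB C b) →
      ∃ c : FB (M * q * q) → Qb, (∀ i, c i ∈ TF A ∧ c i ∈ A) ∧
        x = ∑ i ∈ S, algebraMap Qb (FB (M * q * q)) (c i) * i := by
  classical
  haveI := RR.finiteDimensional_rr (K := Qb) D
  obtain ⟨d, v, hspan, hint, hli⟩ := exists_orth_basis (A := A) C.prime C.lies
    (fun _ : Unit => e20 M q) (fun _ x => exists_bdd_repr bddGen_e20 x) (fun _ => 1)
    (fun _ => one_ne_zero) (riemannRochSpace D)
  refine lattice_fg_of_coord C.prime C.lies (riemannRochSpace D) (fun x => ∀ b, x ∈ GB C b)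
    (fun x _ hx => GB_le (hx 0)) v 1 fun x hxV hx => ?_
  rw [← hspan] at hxV
  obtain ⟨a, ha⟩ := (Submodule.mem_span_range_iff_exists_fun Qb).mp hxV
  refine ⟨a, ha.symm, fun i => ?_⟩
  rw [map_one]
  by_contra hcon
  push Not at hcon
  obtain ⟨i₀, -, hmax⟩ := Finset.univ.exists_max_image (fun l => A.valuation (a l))
    ⟨i, Finset.mem_univ i⟩
  have hlt : 1 < A.valuation (a i₀) := hcon.trans_le (hmax i (Finset.mem_univ i))
  have ha0 : a i₀ ≠ 0 := fun h => by
    rw [h, map_zero] at hlt
    exact not_lt_zero hlt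
  have hdiv : ∀ l, a l / a i₀ ∈ A := fun l => by
    rw [← A.valuation_le_one_iff, map_div₀, div_le_one₀ (zero_lt_one.trans hlt)]
    exact hmax l (Finset.mem_univ l)
  have hinv : (a i₀)⁻¹ ∈ A := by
    rw [← A.valuation_le_one_iff, map_inv₀]
    exact inv_le_one_of_one_le₀ hlt.le
  obtain ⟨ζ⟩ := nonempty_PR C
  have hxG : e20 M q x ∈ GG A := (isRes_redB (hx 0) ζ).1
  have hvG : ∀ l, e20 M q (v l) ∈ GG A := fun l => by
    have := hint () l
    rwa [cL_one, one_mul] at this
  have e : cL (a i₀)⁻¹ * e20 M q x = ∑ l, cL (a l / a i₀) * e20 M q (v l) := by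
    rw [← ha, map_sum, Finset.mul_sum]
    refine Finset.sum_congr rfl fun l _ => ?_
    rw [Algebra.smul_def, map_mul, AlgHom.commutes, ← mul_assoc, div_eq_inv_mul, cL_mul]
  have hres : redL A (cL (a i₀)⁻¹ * e20 M q x) = 0 := by
    rw [redL_mul (cL_mem hinv) hxG, redL_cL ⟨_, hinv⟩, show residue A (⟨(a i₀)⁻¹, hinv⟩ : A) = 0 from
      (Reduction.res_eq_zero_iff A _).mpr (by
        show A.valuation ((a i₀)⁻¹) < 1
        rw [map_inv₀]
        exact inv_lt_one_of_one_lt₀ hlt), map_zero, zero_mul]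
  rw [e, redL_sum _ _ fun l _ => mul_mem (cL_mem (hdiv l)) (hvG l)] at hres
  have h0 := Fintype.linearIndependent_iff.mp hli (fun l => residue A (⟨a l / a i₀, hdiv l⟩ : A))
    (funext fun b => by
      rw [Finset.sum_apply, Pi.zero_apply, ← hres]
      refine Finset.sum_congr rfl fun l _ => ?_
      rw [Pi.smul_apply, cL_one, one_mul, redL_mul (cL_mem (hdiv l)) (hvG l), redL_cL ⟨_, hdiv l⟩,
        algebraMap_laurentSeries_eq_single, HahnSeries.single_zero_mul_eq_smul]) i₀
  rw [show (⟨a i₀ / a i₀, hdiv i₀⟩ : A) = 1 from Subtype.ext (div_self ha0), map_one] at h0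
  exact one_ne_zero h0

/-- chart functions restricting to a given regular function -/
theorem lift_model (s : Bool) (b : Fin 3) (φ : FS A M)
    (hφ : ∀ Q : Place (kA A) (FS A M), InChart s (Q.ord (jS A M ^ eJ q b)) → Bd Q φ 0) :
    ∃ x : FB (M * q * q), (∀ b', x ∈ GB C b') ∧
      (∀ P : Place Qb (FB (M * q * q)), InChart s (P.ord (Jprod M q)) → Bd P x 0) ∧
      redB C b x = φ := by
  obtain ⟨x, hx, hxb, hxr, hxP⟩ :=
    exists_branch_lift C s b ((regOn_inChart s (eJ_pos b)).mpr hφ)
  exact ⟨x, fun b' => (hxr b').choose_spec.mem_GB hx, hxP, hxb.redB_eq⟩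

/-- chart functions separating the branches -/
theorem separated_model (s : Bool) (b : Fin 3) :
    ∃ x : FB (M * q * q), (∀ b', x ∈ GB C b') ∧
      (∀ P : Place Qb (FB (M * q * q)), InChart s (P.ord (Jprod M q)) → Bd P x 0) ∧
      redB C b x ≠ 0 ∧ ∀ b', b' ≠ b → redB C b' x = 0 := by
  obtain ⟨x, hx, ⟨r, hr, hxr⟩, hx0, hxP⟩ := exists_branch_sep C s b
  refine ⟨x, fun b' => ?_, hxP, by rwa [hxr.redB_eq], fun b' hb' => (hx0 b' hb').redB_eq⟩
  by_cases h : b' = b
  · exact h ▸ hxr.mem_GB hx
  · exact (hx0 b' h).mem_GB hx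

omit C

/-- the fibre -/
def model (C : Ctx A M q) : Fib Qb A (FB (M * q * q)) (FS A M) where
  T := TF A
  q := q
  q_lt := C.lies
  q_ne := Nat.cast_ne_zero.mpr C.prime.ne_zero
  val_T := val_TF C.prime C.lies
  res_T := res_TF C.prime C.lies
  Ω := rationalFn A (M * q * q)
  const_Ω := fun _ ht => const_mem_rationalFn ht
  indep := fun v hv h => indep_TF v hv h
  G := GB C
  G_le := fun _ _ h => GB_le h
  red := redB C
  red_add := redB_add C
  red_mul := redB_mul C
  red_one := redB_one C
  const_mem := const_mem_GB C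
  red_const := fun b a _ => redB_const C b a
  ϖ := vpi M q
  ϖ_mem := vpi_mem C
  red_ϖ := redB_vpi C
  ϖ_ne := vpi_ne C
  exists_scale := fun b _ hx hx0 => exists_scale_GB C (landing_model C) b hx hx0
  e := eMul q
  e_pos := fun b => by
    fin_cases b
    exacts [Nat.one_pos, Nat.one_pos, Nat.sub_pos_of_lt C.prime.one_lt]
  q_eq := q_eq_GB C (landing_model C)
  J := Jprod M q
  Jbar := fun b => jS A M ^ eJ q b
  J_mem := fun b => (isRes_Jprod C b).mem_GB (Jprod_rational A)
  red_J := fun b => (isRes_Jprod C b).redB_eq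
  transc_J := transcendental_Jprod C.prime
  transc_Jbar := fun b => transcendental_jS_pow (eJ_pos b)
  hasRes := hasRes_FS C
  finite_ord := finite_ord_FS' C
  regular := fun s _ hG hx b Q hQ => regular_redB C s hG hx b Q ((inChart_jS_pow s (eJ_pos b)).mp hQ)
  separated := separated_model C
  lift := lift_model C
  bounded := fun b w hw => bounded_FS C (eJ q b) w hw
  lattice_fg := lattice_fg_model C

@[simp] theorem model_q (C : Ctx A M q) : (model C).q = q := rfl

theorem model_e (C : Ctx A M q) (b : Fin 3) : (model C).e b = if b = 2 then q - 1 else 1 := by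
  fin_cases b <;> rfl

end FLTAgent.SS2
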