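import Fermat.Agent.SS2.PointValZero

/-!
The points of `X₀(Mq²)` over a crossing cut out by a lifted uniformiser of the first copy: their
number, the transitivity of inertia and the comparability of values of rational functions.
-/

set_option autoImplicit false
set_option linter.unusedSectionVars false
set_option linter.style.haveILetI false
set_option synthInstance.maxHeartbeats 400000
set_option maxHeartbeats 1000000

noncomputable section

open ModularCurve AlgebraicCurve IsLocalRing Polynomial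
open FLTAgent.RR (Bd KK)

namespace FLTAgent.SS2

open FLTAgent.Reduction

variable {A : ValuationSubring Qb} {M q : ℕ} [NeZero M] [NeZero q]

namespace PV

theorem gal_i0 (σ : Qb ≃ₐ[ℚ] Qb) (x : FB M) :
    galFn (M * q * q) σ • i0 M q x = i0 M q (galFn M σ • x) :=
  Subtype.ext (by rw [coe_arithmeticGalois_smul, coe_i0, coe_i0, coe_arithmeticGalois_smul])

theorem gal_i2 (σ : Qb ≃ₐ[ℚ] Qb) (x : FB M) :
    galFn (M * q * q) σ • i2 M q x = i2 M q (galFn M σ • x) :=
  Subtype.ext (by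
    rw [coe_arithmeticGalois_smul, coe_i2, coe_i2, coe_arithmeticGalois_smul, coeffMap_qExpand,
      coeffMap_qExpand])

theorem finrankAlong_i0 (hq : q.Prime) (hqM : ¬ q ∣ M) :
    finrankAlong Qb (i0 M q) = q * (q + 1) := by
  have hd : M ∣ M * q * q := (dvd_mul_right M q).trans (dvd_mul_right _ q)
  have he : i0 M q = incl hd :=
    AlgHom.ext fun a => Subtype.ext (by rw [coe_i0, coe_incl])
  rw [he]
  have h := finrankAlong_incl hd
  have hc : M.Coprime q := (hq.coprime_iff_not_dvd.mpr hqM).symm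
  have e2 : dedekindPsi (M * q * q) = dedekindPsi M * (q ^ 2 + q) := by
    rw [mul_assoc M q q, Genus.dedekindPsi_mul (Nat.Coprime.mul_right hc hc), ← sq,
      Genus.dedekindPsi_prime_pow hq two_pos, show 2 - 1 = 1 from rfl, pow_one]
  rw [e2] at h
  refine Nat.eq_of_mul_eq_mul_right (dedekindPsi_pos' M) (h.trans ?_)
  ring

theorem sum_ramification {N N' : ℕ} [NeZero N] [NeZero N'] (φ : FB N →ₐ[Qb] FB N')
    (hφ : φ.toRingHom.IsIntegral) [HasPrincipalDivisors Qb (FB N')] (v : PB N) :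
    ∑ w ∈ Place.fiberAlong φ hφ v, (Place.ramificationIndexAlong φ w : ℤ) =
      finrankAlong Qb φ := by
  letI := algebraAlong φ
  haveI := isScalarTower_along φ
  haveI := isIntegral_along φ hφ
  haveI : FiniteDimensional (FB N) (FB N') := HeckeJ.finiteAlong φ
  exact HeckeJ.sum_ramificationIndex v

/-- the value at a place, zero where there is none -/
def valAt {N : ℕ} [NeZero N] (P : PB N) (x : FB N) : Qb :=
  haveI := Classical.dec (∃ c, Val P x c)
  if h : ∃ c, Val P x c then h.choose else 0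

theorem val_valAt {N : ℕ} [NeZero N] {P : PB N} {x : FB N} (h : Bd P x 0) :
    Val P x (valAt P x) := by
  rw [valAt, dif_pos (val_exists_B h)]
  exact (val_exists_B h).choose_spec

theorem valAt_eq {N : ℕ} [NeZero N] {P : PB N} {x : FB N} {c : Qb} (h : Val P x c) :
    valAt P x = c :=
  (val_valAt h.bd).unique h

theorem valAt_gal {N : ℕ} [NeZero N] {P : PB N} {x : FB N} (hx : x ∈ rationalFn A N)
    {σ : Qb ≃ₐ[ℚ] Qb} (hσ : σ ∈ A.inertiaSubgroupIn ℚ) (h : Bd P x 0) :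
    valAt (galFn N σ • P) x = σ (valAt P x) := by
  refine valAt_eq ?_
  have h1 := Flat.val_gal σ (val_valAt h)
  rwa [show Flat.gal N σ • x = x from hx σ hσ] at h1

theorem valuation_inertia_le {σ : Qb ≃ₐ[ℚ] Qb} (hσ : σ ∈ A.inertiaSubgroupIn ℚ) {c : Qb}
    (h : A.valuation c ≤ 1) : A.valuation (σ c) ≤ 1 :=
  (A.valuation_le_one_iff _).mpr (valuation_inertia hσ ((A.valuation_le_one_iff _).mp h))

/-- a rational function vanishing at a place and not at a given point of the special fibre -/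
theorem exists_rational_kill {ℓ : ℕ} (C : Ctx A M ℓ) {s : Bool} {Q : PS A M}
    (hQ : Bd Q (tS A M s) 0) {P : PB M} (hP : Bd P (tB M s) 0) (hne : rP C P ≠ Q) :
    ∃ e : FB M, BT A M s e ∧ e ∈ rationalFn A M ∧
      (∃ c, c ≠ 0 ∧ Val Q (red A M e) c) ∧ Val P e 0 := by
  classical
  -- `α x - β` vanishes at `P` and not at `Q`
  obtain ⟨x, α, β, hx, hxr, hval, hQval⟩ : ∃ (x : FB M) (α β : A), BT A M s x ∧
      x ∈ rationalFn A M ∧ Val P (cB M (α : Qb) * x - cB M (β : Qb)) 0 ∧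
      ∃ v, Val Q (red A M x) v ∧ residue A α * v - residue A β ≠ 0 := by
    obtain ⟨d, hd⟩ := val_exists_B hP
    by_cases hdA : d ∈ A
    · haveI := finite_tS C s
      haveI := separable_tS C s
      have hPfin : Bd (rP C P) (tS A M s) 0 := (fin_rP_iff C).mpr ⟨d, hdA, hd⟩
      obtain ⟨g, hg, hg1, hg0, hg2⟩ :=
        exists_separate (transcendental_tS A M s) hPfin hQ hne
      obtain ⟨x, hx, hxr, hxg⟩ := exists_rational_lift C ((BS_iff C).mpr hg)
      obtain ⟨c, hc⟩ := val_exists_B (hx.mem_regOn P hd.bd)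
      obtain ⟨hcA, hv⟩ := val_rP C hx hd hdA hc
      rw [hxg] at hv
      have hc0 : residue A ⟨c, hcA⟩ = 0 := hv.unique (by rwa [Val, map_zero, sub_zero])
      obtain ⟨v, hv'⟩ := val_exists_S C (hg Q hQ)
      refine ⟨x, 1, ⟨c, hcA⟩, hx, hxr, ?_, v, hxg ▸ hv', ?_⟩
      · simpa using hc.sub (Val.const (v := P) c)
      · rw [map_one, one_mul, hc0, sub_zero]
        intro h0
        have := (h0 ▸ hv').ord_pos hg0
        omega
    · have hd0 : d ≠ 0 := fun h => hdA (h ▸ A.zero_mem)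
      have hinv : A.valuation d⁻¹ < 1 := by
        rw [map_inv₀, inv_lt_one_iff₀]
        exact Or.inr (lt_of_not_ge fun hle => hdA ((A.valuation_le_one_iff d).mp hle))
      obtain ⟨v, hv⟩ := val_exists_S C hQ
      refine ⟨tB M s, ⟨d⁻¹, (A.valuation_le_one_iff _).mp hinv.le⟩, 1, BT_tB s,
        tB_mem_rationalFn A M s, ?_, v, by rwa [red_tB C], ?_⟩
      · have := ((Val.const (v := P) d⁻¹).mul hd).sub (Val.one (v := P))
        simpa [inv_mul_cancel₀ hd0] using this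
      · rw [(res_eq_zero_iff A _).mpr hinv, zero_mul, map_one, zero_sub]
        exact neg_ne_zero.mpr one_ne_zero
  obtain ⟨v, hv, hne0⟩ := hQval
  -- the conjugate pairs
  set O : Finset (Qb × Qb) :=
    (((minpoly ℚ (α : Qb)).aroots Qb).toFinset ×ˢ ((minpoly ℚ (β : Qb)).aroots Qb).toFinset).filter
      (fun p => ∃ σ ∈ A.inertiaSubgroupIn ℚ, p = (σ (α : Qb), σ (β : Qb)))
  have hroot : ∀ (σ : Qb ≃ₐ[ℚ] Qb) (y : Qb), σ y ∈ ((minpoly ℚ y).aroots Qb).toFinset := by
    intro σ y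
    rw [Multiset.mem_toFinset, Polynomial.mem_aroots]
    refine ⟨minpoly.ne_zero ((AlgebraicClosure.isAlgebraic ℚ).isAlgebraic y).isIntegral, ?_⟩
    have h := (Polynomial.aeval_algHom_apply σ.toAlgHom y (minpoly ℚ y)).trans
      (by rw [minpoly.aeval, map_zero])
    exact h
  have hO : ∀ σ ∈ A.inertiaSubgroupIn ℚ, (σ (α : Qb), σ (β : Qb)) ∈ O := fun σ hσ =>
    Finset.mem_filter.mpr ⟨Finset.mem_product.mpr ⟨hroot σ _, hroot σ _⟩, σ, hσ, rfl⟩
  have hmem : ∀ p ∈ O, ∃ σ ∈ A.inertiaSubgroupIn ℚ, p = (σ (α : Qb), σ (β : Qb)) :=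
    fun p hp => (Finset.mem_filter.mp hp).2
  have hres : ∀ p ∈ O, ∃ (a b : A), ((a : Qb), (b : Qb)) = p ∧ residue A a = residue A α ∧
      residue A b = residue A β := by
    intro p hp
    obtain ⟨σ, hσ, rfl⟩ := hmem p hp
    obtain ⟨h1, h1'⟩ := Flat.inertia_res hσ α.2
    obtain ⟨h2, h2'⟩ := Flat.inertia_res hσ β.2
    exact ⟨⟨_, h1⟩, ⟨_, h2⟩, rfl, h1', h2'⟩
  set F : Qb × Qb → FB M := fun p => cB M p.1 * x - cB M p.2
  have hFBT : ∀ p ∈ O, BT A M s (F p) ∧
      Val Q (red A M (F p)) (residue A α * v - residue A β) := by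
    intro p hp
    obtain ⟨a, b, rfl, ha, hb⟩ := hres p hp
    have hm := (BT_const (A := A) (N := M) s a.2).mul hx
    refine ⟨hm.sub (BT_const s b.2), ?_⟩
    rw [red_sub C (BT.mem_GR C hm) (cB_mem b.2), red_mul C (cB_mem a.2) (BT.mem_GR C hx),
      red_cB C a, red_cB C b, ← ha, ← hb]
    exact ((Val.const (v := Q) (residue A a)).mul hv).sub (Val.const _)
  have hkey : ∀ S ⊆ O, BT A M s (∏ p ∈ S, F p) ∧
      Val Q (red A M (∏ p ∈ S, F p)) ((residue A α * v - residue A β) ^ S.card) := by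
    intro S hS
    induction S using Finset.induction with
    | empty => exact ⟨BT_one s, by simpa [red_one C] using Val.one (v := Q)⟩
    | insert p S hp ih =>
      obtain ⟨h1, h2⟩ := hFBT p (hS (Finset.mem_insert_self _ _))
      obtain ⟨h3, h4⟩ := ih fun y hy => hS (Finset.mem_insert_of_mem hy)
      rw [Finset.prod_insert hp, Finset.card_insert_of_notMem hp, pow_succ']
      refine ⟨h1.mul h3, ?_⟩
      rw [red_mul C (BT.mem_GR C h1) (BT.mem_GR C h3)]
      exact h2.mul h4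
  obtain ⟨he, hev⟩ := hkey O subset_rfl
  refine ⟨∏ p ∈ O, F p, he, fun σ hσ => ?_, ⟨_, pow_ne_zero _ hne0, hev⟩, ?_⟩
  · rw [Finset.smul_prod']
    refine Finset.prod_bij (fun p _ => (σ p.1, σ p.2)) (fun p hp => ?_) (fun p _ p' _ h => ?_)
      (fun p hp => ?_) (fun p _ => ?_)
    · obtain ⟨τ, hτ, rfl⟩ := hmem p hp
      exact hO (σ * τ) (mul_mem hσ hτ)
    · exact Prod.ext (σ.injective (congrArg Prod.fst h)) (σ.injective (congrArg Prod.snd h))
    · obtain ⟨τ, hτ, rfl⟩ := hmem p hp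
      exact ⟨(σ.symm (τ (α : Qb)), σ.symm (τ (β : Qb))), hO (σ⁻¹ * τ) (mul_mem (inv_mem hσ) hτ),
        Prod.ext (σ.apply_symm_apply _) (σ.apply_symm_apply _)⟩
    · simp only [F, smul_sub, smul_mul', galFn_smul_const, hxr σ hσ]
  · have h1 : ((α : Qb), (β : Qb)) ∈ O := hO 1 (one_mem _)
    rw [← Finset.mul_prod_erase O F h1]
    obtain ⟨c, hc⟩ := val_exists_B
      ((hkey (O.erase ((α : Qb), (β : Qb))) (Finset.erase_subset _ _)).1.mem_regOn P hP)
    have h2 := hval.mul hc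
    rwa [zero_mul] at h2

/-- a rational function of valuation `1/d` at at most `d` places permuted by inertia separates
them and makes them one orbit -/
theorem orbit_full {ℓ : ℕ} (hℓ : ℓ.Prime) (hA : A.LiesOverPrime ℓ) {N : ℕ} [NeZero N] {d : ℕ}
    (hd : 0 < d) {S : Finset (PB N)} (hcard : S.card ≤ d)
    (hsmul : ∀ P ∈ S, ∀ σ ∈ A.inertiaSubgroupIn ℚ, galFn N σ • P ∈ S) {z : FB N}
    (hz : z ∈ rationalFn A N)
    (hv : ∀ P ∈ S, ∃ Z : A, Val P z (Z : Qb) ∧ A.valuation (Z : Qb) ^ d = A.valuation (ℓ : Qb))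
    (hne : S.Nonempty) :
    S.card = d ∧ Set.InjOn (fun P => valAt P z) S ∧
      ∀ P ∈ S, ∀ P' ∈ S, ∃ σ ∈ A.inertiaSubgroupIn ℚ, galFn N σ • P = P' := by
  classical
  have hzv : ∀ P ∈ S, A.valuation (valAt P z) ^ d = A.valuation (ℓ : Qb) := fun P hP => by
    obtain ⟨Z, h1, h2⟩ := hv P hP
    rw [show valAt P z = (Z : Qb) from valAt_eq h1]
    exact h2
  have hzgal : ∀ P ∈ S, ∀ σ ∈ A.inertiaSubgroupIn ℚ, valAt (galFn N σ • P) z = σ (valAt P z) :=
    fun P hP σ hσ => valAt_gal hz hσ (hv P hP).choose_spec.1.bd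
  have key : ∀ P ∈ S, ∃ O : Finset (PB N), O ⊆ S ∧ d ≤ O.card ∧
      d ≤ (O.image fun P => valAt P z).card ∧
      ∀ P' ∈ O, ∃ σ ∈ A.inertiaSubgroupIn ℚ, galFn N σ • P = P' := by
    intro P hP
    set O := S.filter fun P' => ∃ σ ∈ A.inertiaSubgroupIn ℚ, galFn N σ • P = P' with hO
    have h : d ≤ (O.image fun P => valAt P z).card := by
      refine SS2.card_le hℓ hA hd (hzv P hP) _ (fun σ hσ y hy => ?_) ?_
      · obtain ⟨P', hP', rfl⟩ := Finset.mem_image.mp hy
        obtain ⟨hP'S, τ, hτ, rfl⟩ := Finset.mem_filter.mp hP'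
        exact Finset.mem_image.mpr ⟨galFn N σ • galFn N τ • P,
          Finset.mem_filter.mpr ⟨hsmul _ hP'S σ hσ, σ * τ, mul_mem hσ hτ,
            by simp only [galFn, map_mul, mul_smul]⟩, hzgal _ hP'S σ hσ⟩
      · exact Finset.mem_image.mpr ⟨P, Finset.mem_filter.mpr
          ⟨hP, 1, one_mem _, by simp only [galFn, map_one, one_smul]⟩, rfl⟩
    exact ⟨O, Finset.filter_subset _ _, h.trans Finset.card_image_le, h,
      fun P' hP' => (Finset.mem_filter.mp hP').2⟩
  obtain ⟨Pb, hPb⟩ := hne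
  obtain ⟨O, hOS, hOc, hOi, -⟩ := key Pb hPb
  have hcS : S.card = d := le_antisymm hcard (hOc.trans (Finset.card_le_card hOS))
  refine ⟨hcS, ?_, fun P hP P' hP' => ?_⟩
  · rw [← Finset.card_image_iff]
    exact le_antisymm Finset.card_image_le
      (hcS.le.trans (hOi.trans (Finset.card_le_card (Finset.image_subset_image hOS))))
  · obtain ⟨O', hO'S, hO'c, -, hO'⟩ := key P hP
    have hsub := Finset.eq_of_subset_of_card_le hO'S (hcS.le.trans hO'c)
    exact hO' P' (hsub.symm ▸ hP')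

end PV

/-- The points over a crossing cut out by the first copy of the lifted uniformiser. -/
structure CrossPoints {C : Ctx A M q} {s : Bool} {Q : PS A M} (D : CrossLifts C s Q) where
  /-- the zero of the lift over the crossing -/
  P0 : PB M
  /-- the points above it -/
  S : Finset (PB (M * q * q))
  nonempty : S.Nonempty
  rP_P0 : rP C P0 = Q
  ord_P0 : P0.ord D.a = 1
  unique_P0 : ∀ P, rP C P = Q → P ≠ P0 → P.ord D.a = 0
  mem_S : ∀ P, P ∈ S ↔ P.restrictAlong (i0 M q) (HeckeJ.isIntegralAlong _) = P0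
  card_S : S.card = q * (q + 1)
  ord_one : ∀ P ∈ S, P.ord (i0 M q D.a) = 1
  smul_mem : ∀ P ∈ S, ∀ σ ∈ A.inertiaSubgroupIn ℚ, galFn (M * q * q) σ • P ∈ S
  transitive : ∀ P ∈ S, ∀ P' ∈ S, ∃ σ ∈ A.inertiaSubgroupIn ℚ, galFn (M * q * q) σ • P = P'
  val_i : ∀ P ∈ S, ∀ (s' : Bool), Bd Q (tS A M s') 0 → ∀ y : FB M, BT A M s' y → ∃ c0 c1 c2 : A,
    (Val P (i0 M q y) (c0 : Qb) ∧ Val Q (red A M y) (residue A c0)) ∧
    (Val P (i1 M q y) (c1 : Qb) ∧ Val (frobS C • Q) (red A M y) (residue A c1)) ∧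
    (Val P (i2 M q y) (c2 : Qb) ∧ Val Q (red A M y) (residue A c2))
  val_z : ∀ P ∈ S, ∃ Z : A, Val P (i2 M q D.a) (Z : Qb) ∧
    A.valuation (Z : Qb) ^ (q * (q + 1)) = A.valuation (q : Qb)
  comparable : ∀ z ∈ rationalFn A (M * q * q),
    (∀ P ∈ S, ∃ Z : A, Val P z (Z : Qb) ∧
      A.valuation (Z : Qb) ^ (q * (q + 1)) = A.valuation (q : Qb)) →
    ∀ f ∈ rationalFn A (M * q * q), ∀ g ∈ rationalFn A (M * q * q),
    (∀ P ∈ S, Bd P f 0) → (∀ P ∈ S, Bd P g 0) →
    ∃ c : ℕ → Qb, (∀ k, c k ∈ inertiaFixed A ∧ c k ∈ A) ∧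
      ((∀ P ∈ S, Val P (f - (∑ k ∈ Finset.range (q * (q + 1)),
          algebraMap Qb (FB (M * q * q)) (c k) * z ^ k) * g) 0) ∨
       (∀ P ∈ S, Val P (g - (∑ k ∈ Finset.range (q * (q + 1)),
          algebraMap Qb (FB (M * q * q)) (c k) * z ^ k) * f) 0))

variable {C : Ctx A M q} {s : Bool} {Q : PS A M} {D : CrossLifts C s Q}

/-- the points over a crossing exist -/
theorem exists_crossPoints (hK : KronChart C s) (D : CrossLifts C s Q) :
    Nonempty (CrossPoints D) := by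
  classical
  haveI : HasPrincipalDivisors Qb (FB (M * q * q)) := RR.hasPrincipalDivisors
  obtain ⟨P0, hP0, hord, huniq, hfix⟩ := D.exists_base
  have hi0 : (i0 M q).toRingHom.IsIntegral := HeckeJ.isIntegralAlong _
  set S := Place.fiberAlong (i0 M q) hi0 P0 with hS
  have hmem : ∀ P, P ∈ S ↔ P.restrictAlong (i0 M q) hi0 = P0 := fun P => Place.mem_fiberAlong
  set d := q * (q + 1) with hd
  have hdpos : 0 < d := Nat.mul_pos C.prime.pos (Nat.succ_pos q)
  have hsum := PV.sum_ramification (i0 M q) hi0 P0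
  rw [PV.finrankAlong_i0 C.prime C.not_dvd, ← hd] at hsum
  have ha : Val P0 D.a 0 := val_zero_of_ord_pos (by rw [hord]; exact one_pos)
  have hZ : ∀ P ∈ S, ∃ Z : A, Val P (i2 M q D.a) (Z : Qb) ∧
      A.valuation (Z : Qb) ^ d = A.valuation (q : Qb) := by
    intro P hP
    have e := (hmem P).mp hP
    exact D.valuations hK hi0 (e ▸ hP0) (e ▸ hfix) (e ▸ ha)
  have hsmul : ∀ P ∈ S, ∀ σ ∈ A.inertiaSubgroupIn ℚ, galFn (M * q * q) σ • P ∈ S := by
    intro P hP σ hσ
    rw [hmem, HeckeJ.restrictAlong_smul (i0 M q) hi0 (g := galFn M σ) (fun x => PV.gal_i0 σ x),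
      (hmem P).mp hP, hfix σ hσ]
  have hzrat : i2 M q D.a ∈ rationalFn A (M * q * q) := fun σ hσ => by
    rw [PV.gal_i2, D.rat_a σ hσ]
  -- the indices of ramification
  have he1 : ∀ P ∈ S, (1 : ℤ) ≤ Place.ramificationIndexAlong (i0 M q) P := fun P _ => by
    letI := algebraAlong (i0 M q)
    haveI := isIntegral_along (i0 M q) hi0
    exact_mod_cast P.ramificationIndex_pos (F := FB M)
  have hcard : (S.card : ℤ) ≤ d := by
    rw [← hsum, ← hS, Finset.card_eq_sum_ones, Nat.cast_sum, Nat.cast_one]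
    exact Finset.sum_le_sum he1
  have hne : S.Nonempty := by
    by_contra h
    rw [Finset.not_nonempty_iff_eq_empty] at h
    rw [← hS, h, Finset.sum_empty] at hsum
    omega
  obtain ⟨Pb, hPb⟩ := hne
  obtain ⟨hcardS, -, horb⟩ := PV.orbit_full C.prime C.lies hdpos (by exact_mod_cast hcard) hsmul
    hzrat hZ ⟨Pb, hPb⟩
  have heq : ∀ P ∈ S, (Place.ramificationIndexAlong (i0 M q) P : ℤ) = 1 := by
    have h : ∑ P ∈ S, (1 : ℤ) = ∑ P ∈ S, (Place.ramificationIndexAlong (i0 M q) P : ℤ) := by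
      rw [hS, hsum, ← hS, Finset.sum_const, hcardS, nsmul_eq_mul, mul_one]
    exact fun P hP => ((Finset.sum_eq_sum_iff_of_le he1).mp h P hP).symm
  refine ⟨⟨P0, S, ⟨Pb, hPb⟩, hP0, hord, huniq, hmem, hcardS, fun P hP => ?_, hsmul, horb,
    fun P hP s' hQs y hy => ?_, hZ, fun z hzr hzv' f hf g hg hfb hgb => ?_⟩⟩
  · rw [P.ord_restrictAlong (i0 M q) hi0, (hmem P).mp hP, hord, heq P hP, one_mul]
  · have e := (hmem P).mp hP
    have hi1 : (i1 M q).toRingHom.IsIntegral := HeckeJ.isIntegralAlong _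
    have hi2 : (i2 M q).toRingHom.IsIntegral := HeckeJ.isIntegralAlong _
    have hR := PV.next_place C (w := P) (PV.pair01 hK) hi0 (e ▸ hP0) D.fin D.fixed hi1
    have hQ2 := PV.next_place C (w := P) (PV.pair12 hK) hi1 hR (PV.fin_frobS C D.fin)
      (congrArg (frobS C • ·) D.fixed) hi2
    rw [D.fixed] at hQ2
    obtain ⟨c0, h0, h0'⟩ := PV.exists_val_chart C (e ▸ hP0) hQs hy
    obtain ⟨c1, h1, h1'⟩ := PV.exists_val_chart C hR (PV.fin_frobS C hQs) hy
    obtain ⟨c2, h2, h2'⟩ := PV.exists_val_chart C hQ2 hQs hy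
    exact ⟨c0, c1, c2, ⟨(PV.val_restrict_iff _ hi0).mp h0, h0'⟩,
      ⟨(PV.val_restrict_iff _ hi1).mp h1, h1'⟩, ⟨(PV.val_restrict_iff _ hi2).mp h2, h2'⟩⟩
  -- comparability
  · obtain ⟨-, hinj, -⟩ := PV.orbit_full C.prime C.lies hdpos hcardS.le hsmul hzr hzv' ⟨Pb, hPb⟩
    set Zv := fun P => PV.valAt P z
    have hbdz : ∀ P ∈ S, Bd P z 0 := fun P hP => (hzv' P hP).choose_spec.1.bd
    have hzv : ∀ P ∈ S, A.valuation (Zv P) ^ d = A.valuation (q : Qb) := fun P hP => by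
      obtain ⟨Z, h1, h2⟩ := hzv' P hP
      rw [show Zv P = (Z : Qb) from PV.valAt_eq h1]
      exact h2
    have hzgal : ∀ P ∈ S, ∀ σ ∈ A.inertiaSubgroupIn ℚ,
        Zv (galFn (M * q * q) σ • P) = σ (Zv P) :=
      fun P hP σ hσ => PV.valAt_gal hzr hσ (hbdz P hP)
    set fv := fun P => PV.valAt P f
    set gv := fun P => PV.valAt P g
    have hvanish : ∀ (u : FB (M * q * q)), u ∈ rationalFn A (M * q * q) → (∀ P ∈ S, Bd P u 0) →
        PV.valAt Pb u = 0 → ∀ P ∈ S, PV.valAt P u = 0 := by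
      intro u hu hub h0 P hP
      obtain ⟨σ, hσ, rfl⟩ := horb Pb hPb P hP
      rw [PV.valAt_gal hu hσ (hub Pb hPb), h0, map_zero]
    have hval : ∀ (c : ℕ → Qb) (u w : FB (M * q * q)), (∀ P ∈ S, Bd P u 0) →
        (∀ P ∈ S, Bd P w 0) →
        (∀ P ∈ S, PV.valAt P u = (∑ k ∈ Finset.range d, c k * Zv P ^ k) * PV.valAt P w) →
        ∀ P ∈ S, Val P (u - (∑ k ∈ Finset.range d,
          algebraMap Qb (FB (M * q * q)) (c k) * z ^ k) * w) 0 := by
      intro c u w hub hwb h P hP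
      have h1 := (PV.val_valAt (hub P hP)).sub
        ((PV.val_sum (Finset.range d) _ _ fun k _ => (Val.const (v := P) (c k)).mul
          ((PV.val_valAt (hbdz P hP)).pow k)).mul (PV.val_valAt (hwb P hP)))
      rwa [show PV.valAt P u - (∑ k ∈ Finset.range d, c k * Zv P ^ k) * PV.valAt P w = 0 from
        sub_eq_zero.mpr (h P hP)] at h1
    -- a quotient of values of valuation at most one
    have key : ∀ u ∈ rationalFn A (M * q * q), ∀ w ∈ rationalFn A (M * q * q),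
        (∀ P ∈ S, Bd P u 0) → (∀ P ∈ S, Bd P w 0) → PV.valAt Pb w ≠ 0 →
        A.valuation (PV.valAt Pb u) ≤ A.valuation (PV.valAt Pb w) →
        ∃ c : ℕ → Qb, (∀ k, c k ∈ inertiaFixed A ∧ c k ∈ A) ∧
          ∀ P ∈ S, PV.valAt P u = (∑ k ∈ Finset.range d, c k * Zv P ^ k) * PV.valAt P w := by
      intro u hu w hw hub hwb hw0 hle
      have hwne : ∀ P ∈ S, PV.valAt P w ≠ 0 := by
        intro P hP h0
        obtain ⟨σ, hσ, rfl⟩ := horb Pb hPb P hP
        rw [PV.valAt_gal hw hσ (hwb Pb hPb), map_eq_zero] at h0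
        exact hw0 h0
      obtain ⟨c, hc, hcw⟩ := exists_coords (A := A)
        (fun i : S => PV.valAt (i : PB (M * q * q)) u / PV.valAt (i : PB (M * q * q)) w)
        (fun i : S => Zv i) (fun i j hij => Subtype.ext (hinj i.2 j.2 hij))
        (fun σ hσ i => ⟨⟨_, hsmul _ i.2 σ hσ⟩, (hzgal _ i.2 σ hσ).symm, by
          show σ (_ / _) = _ / _
          rw [map_div₀, PV.valAt_gal hu hσ (hub _ i.2), PV.valAt_gal hw hσ (hwb _ i.2)]⟩)
      simp only [Fintype.card_coe, hcardS] at hcw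
      have hA1 : ∑ k ∈ Finset.range d, c k * Zv Pb ^ k ∈ A := by
        rw [← hcw ⟨Pb, hPb⟩, ← A.valuation_le_one_iff, map_div₀]
        exact (div_le_one₀ (zero_lt_iff.mpr ((_root_.map_ne_zero _).mpr hw0))).mpr hle
      refine ⟨fun k => if k < d then c k else 0, fun k => ?_, fun P hP => ?_⟩
      · show (if k < d then c k else 0) ∈ inertiaFixed A ∧ (if k < d then c k else 0) ∈ A
        split_ifs with h
        · exact ⟨hc k, coeff_mem C.prime C.lies hdpos (hzv Pb hPb) hc hA1 h⟩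
        · exact ⟨zero_mem _, A.zero_mem⟩
      · have hs : ∑ k ∈ Finset.range d, (if k < d then c k else 0) * Zv P ^ k =
            ∑ k ∈ Finset.range d, c k * Zv P ^ k :=
          Finset.sum_congr rfl fun k hk => by rw [if_pos (Finset.mem_range.mp hk)]
        show _ = (∑ k ∈ Finset.range d, (if k < d then c k else 0) * Zv P ^ k) * _
        rw [hs, ← hcw ⟨P, hP⟩, div_mul_cancel₀ _ (hwne P hP)]
    rcases eq_or_ne (PV.valAt Pb g) 0 with hg0 | hg0
    · refine ⟨0, fun _ => ⟨zero_mem _, A.zero_mem⟩, Or.inr (hval 0 g f hgb hfb fun P hP => ?_)⟩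
      rw [hvanish g hg hgb hg0 P hP]
      simp
    rcases le_total (A.valuation (PV.valAt Pb f)) (A.valuation (PV.valAt Pb g)) with h | h
    · obtain ⟨c, hc, he⟩ := key f hf g hg hfb hgb hg0 h
      exact ⟨c, hc, Or.inl (hval c f g hfb hgb he)⟩
    · rcases eq_or_ne (PV.valAt Pb f) 0 with hf0 | hf0
      · rw [hf0, map_zero, le_zero_iff, map_eq_zero] at h
        exact absurd h hg0
      obtain ⟨c, hc, he⟩ := key g hg f hf hgb hfb hf0 h
      exact ⟨c, hc, Or.inr (hval c g f hgb hfb he)⟩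

namespace CrossPoints

variable (E : CrossPoints D)

/-- a rational function vanishing at one of the points vanishes at all -/
theorem vanish {f : FB (M * q * q)} (hf : f ∈ rationalFn A (M * q * q)) {P P' : PB (M * q * q)}
    (hP : P ∈ E.S) (hP' : P' ∈ E.S) (h : Val P f 0) : Val P' f 0 := by
  obtain ⟨σ, hσ, rfl⟩ := E.transitive P hP P' hP'
  have h1 := Flat.val_gal σ h
  rwa [show Flat.gal (M * q * q) σ • f = f from hf σ hσ, map_zero] at h1

/-- rational functions have one order at all the points -/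
theorem ord_eq {f : FB (M * q * q)} (hf : f ∈ rationalFn A (M * q * q))
    {P P' : PB (M * q * q)} (hP : P ∈ E.S) (hP' : P' ∈ E.S) : P'.ord f = P.ord f := by
  obtain ⟨σ, hσ, rfl⟩ := E.transitive P hP P' hP'
  have h1 := SemilinearAut.ord_smul (galFn (M * q * q) σ) P f
  rwa [hf σ hσ] at h1

/-- the other zeros of the first copy in the chart are killed away from the crossing -/
theorem kill_other {P : PB (M * q * q)} (hP : P ∉ E.S)
    (hfin : Bd P (i0 M q (tB M s)) 0) (hzero : 0 < P.ord (i0 M q D.a)) :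
    ∃ e : FB M, BT A M s e ∧ e ∈ rationalFn A M ∧
      (∃ c, c ≠ 0 ∧ Val Q (red A M e) c) ∧ Val P (i0 M q e) 0 := by
  have hi0 : (i0 M q).toRingHom.IsIntegral := HeckeJ.isIntegralAlong _
  set P' := P.restrictAlong (i0 M q) hi0
  have hne : P' ≠ E.P0 := fun h => hP ((E.mem_S P).mpr h)
  have hrP : rP C P' ≠ Q := by
    intro h
    have h0 := E.unique_P0 P' h hne
    rw [P.ord_restrictAlong (i0 M q) hi0, h0, mul_zero] at hzero
    exact lt_irrefl _ hzero
  obtain ⟨e, h1, h2, h3, h4⟩ := PV.exists_rational_kill C D.fin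
    ((PV.bd_restrict_iff _ hi0 0 (Or.inl rfl)).mpr hfin) hrP
  exact ⟨e, h1, h2, h3, (PV.val_restrict_iff _ hi0).mp h4⟩

include E in
/-- the lift moved to any chart containing the crossing -/
theorem exists_chart_lift {s' : Bool} (hQ : Bd Q (tS A M s') 0) :
    ∃ a' : FB M, BT A M s' a' ∧ a' ∈ rationalFn A M ∧ Q.ord (red A M a') = 1 ∧
      (∀ P ∈ E.S, P.ord (i0 M q a') = 1) ∧
      (∀ P ∈ E.S, ∃ Z : A, Val P (i2 M q a') (Z : Qb) ∧
        A.valuation (Z : Qb) ^ (q * (q + 1)) = A.valuation (q : Qb)) ∧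
      ∀ P : PB (M * q * q), P ∉ E.S → Bd P (i0 M q (tB M s')) 0 → 0 < P.ord (i0 M q a') →
        ∃ e : FB M, BT A M s' e ∧ e ∈ rationalFn A M ∧
          (∃ c, c ≠ 0 ∧ Val Q (red A M e) c) ∧ Val P (i0 M q e) 0 := by
  rcases Bool.eq_or_eq_not s' s with rfl | hs
  · exact ⟨D.a, D.bt_a, D.rat_a, D.ord_a, E.ord_one, E.val_z, fun P => E.kill_other⟩
  subst hs
  obtain ⟨k, hk⟩ := exists_pow_mul_BT C (s := !s) (b := D.a) (by rw [Bool.not_not]; exact D.bt_a)
  obtain ⟨v, hv⟩ := val_exists_S C hQ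
  obtain ⟨v', hv'⟩ := val_exists_S C D.fin
  have hv0 : v ≠ 0 := fun h0 => by
    have h1 := (hv'.mul hv)
    rw [tS_not, mul_inv_cancel₀ (tS_ne_zero A M s), h0, mul_zero] at h1
    exact one_ne_zero (Val.one.unique h1)
  obtain ⟨ht0, htord⟩ := hv.ord_eq_zero hv0
  set t := tB M (!s)
  have hredt : red A M t = tS A M (!s) := red_tB C _
  have htk : t ^ k ≠ 0 := pow_ne_zero _ (tB_ne_zero M _)
  have ha0 : D.a ≠ 0 := D.UG_a.ne_zero C
  have hval : ∀ P ∈ E.S, ∃ c0 c2 : A, A.valuation (c2 : Qb) = 1 ∧ (c0 : Qb) ≠ 0 ∧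
      Val P (i0 M q t) (c0 : Qb) ∧ Val P (i2 M q t) (c2 : Qb) := by
    intro P hP
    obtain ⟨c0, c1, c2, h0, -, h2⟩ := E.val_i P hP (!s) hQ t (BT_tB _)
    rw [hredt] at h0 h2
    refine ⟨c0, c2, (res_ne_zero_iff A c2).mp fun h => hv0 (h ▸ hv.unique h2.2), fun h => ?_,
      h0.1, h2.1⟩
    rw [show c0 = 0 from Subtype.ext h, map_zero] at h0
    exact hv0 (hv.unique h0.2)
  refine ⟨t ^ k * D.a, hk, mul_mem (pow_mem (tB_mem_rationalFn A M _) k) D.rat_a, ?_,
    fun P hP => ?_, fun P hP => ?_, fun P hP hfin hzero => ?_⟩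
  · rw [red_mul C (pow_mem (tB_mem _) k) (BT.mem_GR C D.bt_a), red_pow C (tB_mem _), hredt,
      Q.ord_mul (pow_ne_zero _ ht0) D.UG_a.2, RR.ord_pow, htord, D.ord_a, mul_zero, zero_add]
  · obtain ⟨c0, c2, -, hc0, h0, -⟩ := hval P hP
    rw [map_mul, map_pow, P.ord_mul (pow_ne_zero _ (h0.ord_eq_zero hc0).1)
      ((_root_.map_ne_zero _).mpr ha0), RR.ord_pow, (h0.ord_eq_zero hc0).2, E.ord_one P hP, mul_zero,
      zero_add]
  · obtain ⟨c0, c2, hc2, -, -, h2⟩ := hval P hP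
    obtain ⟨Z, hZ, hZv⟩ := E.val_z P hP
    refine ⟨c2 ^ k * Z, ?_, ?_⟩
    · rw [map_mul, map_pow]
      push_cast
      exact (h2.pow k).mul hZ
    · push_cast
      rw [map_mul, map_pow, hc2, one_pow, one_mul]
      exact hZv
  · have hi0 : (i0 M q).toRingHom.IsIntegral := HeckeJ.isIntegralAlong _
    set P' := P.restrictAlong (i0 M q) hi0
    have hne : P' ≠ E.P0 := fun h => hP ((E.mem_S P).mpr h)
    have hfin' : Bd P' t 0 := (PV.bd_restrict_iff _ hi0 0 (Or.inl rfl)).mpr hfin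
    have hrP : rP C P' ≠ Q := by
      intro h
      obtain ⟨c, hc, hcr⟩ := PV.exists_val_chart C h hQ (BT_tB (!s))
      have hc0 : (c : Qb) ≠ 0 := fun h0 => by
        rw [hredt, show c = 0 from Subtype.ext h0, map_zero] at hcr
        exact hv0 (hv.unique hcr)
      rw [P.ord_restrictAlong (i0 M q) hi0, P'.ord_mul htk ha0, RR.ord_pow,
        (hc.ord_eq_zero hc0).2, E.unique_P0 P' h hne, mul_zero, zero_add, mul_zero] at hzero
      exact lt_irrefl _ hzero
    obtain ⟨e, h1, h2, h3, h4⟩ := PV.exists_rational_kill C hQ hfin' hrP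
    exact ⟨e, h1, h2, h3, (PV.val_restrict_iff _ hi0).mp h4⟩

end CrossPoints

end FLTAgent.SS2

end
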