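import Fermat.Agent.SS2.KillLifts
import Fermat.Agent.SS2.KillRho
import Fermat.Agent.SS2.KillSupp
import Fermat.Agent.SS2.FibPoint
import Fermat.Agent.SS2.FibPointOff
import Fermat.Agent.SS2.FibTriv
import Fermat.Agent.SS2.KronChart
import Fermat.Agent.SS2.PointVal
import Fermat.Agent.SS2.ModelFib

/-!
The points of the three branches fall into singletons and triples, and near each of them the
twisted sections have a generator.
-/

set_option autoImplicit false
set_option linter.all false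
set_option synthInstance.maxHeartbeats 400000
set_option maxHeartbeats 1000000

noncomputable section

open ModularCurve AlgebraicCurve IsLocalRing
open FLTAgent.RR (Bd KK)
open FLTAgent.Reduction

namespace FLTAgent.SS2

variable {A : ValuationSubring Qb} {M q : ℕ} [NeZero M] [NeZero q] (C : Ctx A M q)
include C

/-- the concrete fibre is given by the three expansions -/
theorem isModel_model : IsModel C (model C) where
  q_eq := rfl
  mem_T _ := Iff.rfl
  mem_Ω _ := Iff.rfl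
  of_res b x r hx h := ⟨IsRes.mem_GB h hx, IsRes.redB_eq h⟩
  res b x hx := isRes_redB hx
  J_eq := rfl
  Jbar_eq b := ⟨eJ q b, eJ_pos b, rfl⟩
  e_eq := model_e C

/-- a place with finite values of the three images of the coordinate lies in the chart -/
theorem inChart_of_bd {s : Bool} {P : Place Qb (FB (M * q * q))}
    (h : ∀ k, Bd P (img M q k (tB M s)) 0) : InChart s (P.ord (Jprod M q)) := by
  cases s
  · refine (inChart_false_Jprod C.prime).mpr ((bd_jImg_iff C.prime 0).mp ?_)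
    rw [← img_jBar]
    exact h 0
  · refine (inChart_true_Jprod C.prime).mpr fun k => ?_
    have h1 : Bd P (img M q k (ModFun.jBar M)⁻¹) 0 := h k
    rw [map_inv₀, img_jBar, RR.bd_iff_ord (inv_ne_zero (jImg_ne_zero k)), P.ord_inv] at h1
    omega

/-- at a point fixed by the square of Frobenius the first image takes the same values on all
branches -/
theorem val_imgRes_zero {Q : PS A M} (hfix : frobS C • frobS C • Q = Q) (b : Fin 3) {g : FS A M}
    {c : kA A} (h : Val Q g c) : Val Q (imgRes C b 0 g) c := by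
  fin_cases b
  · exact h
  · exact PV.val_Fr C (PV.val_Fr C (hfix.symm ▸ h))
  · exact h

theorem imgRes_ne_zero (b k : Fin 3) {g : FS A M} (h : g ≠ 0) : imgRes C b k g ≠ 0 := by
  fin_cases b <;> fin_cases k <;>
    simp only [imgRes] <;> simp [h]

variable {Mo : Fib Qb A (FB (M * q * q)) (FS A M)} (hM : IsModel C Mo)
include hM

/-- images of chart functions of level `M` -/
theorem img_mem_R {s : Bool} {a : FB M} (ha : BT A M s a) (har : a ∈ rationalFn A M) (k : Fin 3) :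
    img M q k a ∈ Mo.R s ∧ ∀ b, Mo.red b (img M q k a) = imgRes C b k (red A M a) := by
  have h : ∀ b, KRes C b (img M q k a) (imgRes C b k (red A M a)) :=
    fun b => isRes_img C (BT.mem_GR C ha) b k
  exact ⟨hM.mem_R (img_rational har k) (fun b => ⟨_, h b⟩)
      fun P hP => img_regOn k ha P (bd_img_of_inChart C.prime hP k),
    fun b => hM.red_eq (img_rational har k) (h b)⟩

/-- sections of exact order on a chart -/
theorem exists_full_chart {n : ℕ} (hn : n ≠ 0) (W : Mo.Triv n) (s : Bool) :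
    ∀ PK : Place Qb (FB (M * q * q)), InChart s (PK.ord Mo.J) →
      ∃ m ∈ Mo.Ω, m ≠ 0 ∧ Mo.OnChart W.D s m ∧ PK.ord m = -W.D PK := by
  intro PK hPK
  have hf : W.f ∈ rationalFn A (M * q * q) := (hM.mem_Ω _).mp (Mo.G_le 0 _ (W.f_mem 0))
  obtain ⟨m, hm, hm0, hmc, hmo⟩ := exists_full (Jprod_rational A) (transcendental_Jprod C.prime)
    W.D (galois_fixed_of_ord hn hf W.ord_f) s PK (hM.J_eq ▸ hPK)
  exact ⟨m, (hM.mem_Ω m).mpr hm, hm0, fun P hP => hmc P (hM.J_eq ▸ hP), hmo⟩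

/-- the sections of a trivialised divisor are finitely generated -/
theorem fg_triv {n : ℕ} (hn : n ≠ 0) (W : Mo.Triv n) (s : Bool) : (Mo.I W.D s).FG := by
  obtain ⟨P, hP⟩ := Mo.exists_chart_place s
  obtain ⟨m, hm, hm0, hmc, -⟩ := exists_full_chart C hM hn W.inv s P hP
  obtain ⟨m', hm', hne, -⟩ := Mo.exists_integral_section hm hmc
  exact Mo.fg_of_section hm' (hne hm0)

variable {D : SS.Data Qb A (FB (M * q)) (FS A M)} (L : LevelData D)
  (hin : ∀ σ ∈ A.inertiaSubgroupIn ℚ,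
    SS.Compat D.toCore (galFn (M * q) σ) (RingEquiv.refl (FS A M)))
  {r : ℕ} (hr : r.Prime) (h11 : r % 12 = 11) (hrM : r ∣ M)
include L hr h11 hrM

/-- the generator at a double point -/
theorem exists_gen_double {n : ℕ} (hn : n ≠ 0) (W : Mo.Triv n) (s : Bool) (b : Fin 3) {Q : PS A M}
    (hQ : Bd Q (tS A M s) 0) (hQD : Q ∈ DblSet D) :
    ∃ g ∈ Mo.I W.D s, ∃ c : kA A, c ≠ 0 ∧ ∀ b' (Q' : PS A M),
      InChart s (Q'.ord (Mo.Jbar b')) → Mo.SamePt s b Q b' Q' →
        Val Q' (Mo.red b' (g ^ n * W.f)) c := by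
  obtain ⟨CL⟩ := exists_crossLifts C L hr h11 hrM hQD
  obtain ⟨E⟩ := exists_crossPoints (kronChart_false C) CL
  have hfix := frobS_frobS C L hr h11 hrM hQD
  obtain ⟨a', ha', har', hord, hone, hZ, hkill⟩ := E.exists_chart_lift hQ
  have ht0 : red A M a' ≠ 0 := fun h => by rw [h, Place.ord_zero] at hord; omega
  obtain ⟨hxR, hxred⟩ := img_mem_R C hM ha' har' 0
  obtain ⟨hzR, -⟩ := img_mem_R C hM ha' har' 2
  obtain ⟨P₀, hP₀⟩ := E.nonempty
  have hSc : ∀ P ∈ E.S, InChart s (P.ord Mo.J) := fun P hP => by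
    obtain ⟨c0, c1, c2, h0, h1, h2⟩ := E.val_i P hP s hQ (tB M s) (BT_tB s)
    rw [hM.J_eq]
    refine inChart_of_bd C fun k => ?_
    fin_cases k
    exacts [h0.1.bd, h1.1.bd, h2.1.bd]
  have hother : ∀ P : Place Qb (FB (M * q * q)), InChart s (P.ord Mo.J) →
      0 < P.ord (img M q 0 a') → P ∉ E.S →
        ∃ e ∈ Mo.R s, ¬ Val Q (Mo.red b e) 0 ∧ Val P e 0 := by
    intro P hP hpos hPS
    obtain ⟨e, he, her, ⟨v, hv0, hv⟩, heP⟩ := hkill P hPS
      (bd_img_of_inChart C.prime (hM.J_eq ▸ hP) 0) hpos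
    obtain ⟨heR, hered⟩ := img_mem_R C hM he her 0
    refine ⟨img M q 0 e, heR, fun h => ?_, heP⟩
    rw [hered] at h
    exact hv0 ((val_imgRes_zero C hfix b hv).unique h)
  have horbit : ∀ f ∈ Mo.Ω, ∀ P ∈ E.S, ∀ P' ∈ E.S, 0 < P.ord f → 0 < P'.ord f := by
    intro f hf P hP P' hP' hpos
    have hf0 : f ≠ 0 := fun h => by rw [h, Place.ord_zero] at hpos; omega
    have := (E.vanish ((hM.mem_Ω f).mp hf) hP hP' (val_zero_of_ord_pos hpos)).ord_pos hf0
    omega
  have hcompS : ∀ f ∈ Mo.Ω, ∀ g ∈ Mo.Ω, (∀ P ∈ E.S, Bd P f 0) → (∀ P ∈ E.S, Bd P g 0) →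
      ∀ vf vg, Val P₀ f vf → Val P₀ g vg →
        ∃ r ∈ Mo.R s, ∃ vr, Val P₀ r vr ∧ (vf = vr * vg ∨ vg = vr * vf) := by
    intro f hf g hg hfS hgS vf vg hvf hvg
    obtain ⟨cs, hcs, h⟩ := E.comparable (img M q 2 a') (img_rational har' 2) hZ f
      ((hM.mem_Ω f).mp hf) g ((hM.mem_Ω g).mp hg) hfS hgS
    exact Mo.comp_of_sum (hSc P₀ hP₀) hzR hvf hvg (fun k => ⟨(hM.mem_T _).mpr (hcs k).1, (hcs k).2⟩)
      (h.imp (fun h => h P₀ hP₀) fun h => h P₀ hP₀)
  obtain ⟨g, hg, -, c, hc, -, hval⟩ := Mo.exists_generator_crossing hn W s b Q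
    ((hM.inChart_iff s b Q).mpr hQ) (fg_triv C hM hn W s) hxR
    (by rw [hxred]; exact val_imgRes_zero C hfix b (val_zero_of_ord_pos (by omega)))
    (fun b' => by rw [hxred]; exact imgRes_ne_zero C b' 0 ht0)
    E.S hP₀ hSc hone hother horbit hcompS (exists_full_chart C hM hn W s) (exists_rho_chart C hM s)
  exact ⟨g, hg, c, hc, hval⟩

include hin

/-- off the double points each branch is separated from the others -/
theorem exists_eps_off (s : Bool) (b : Fin 3) {Q : PS A M} (hQ : Bd Q (tS A M s) 0)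
    (hQD : Q ∉ DblSet D) :
    ∃ ε ∈ Mo.R s, ¬ Val Q (Mo.red b ε) 0 ∧ ∀ b', b' ≠ b → Mo.red b' ε = 0 :=
  exists_eps C L hM hin s b hQ (PV.fin_frobS C hQ)
    (fun t i => (ne_pt_of_not_mem C L hr h11 hrM hQD t i).1)
    fun t i => (ne_pt_of_not_mem C L hr h11 hrM hQD t i).2

/-- the generators at all points -/
theorem exists_unit_gen {n : ℕ} (hn : n ≠ 0) (W : Mo.Triv n) (s : Bool) (b : Fin 3)
    (Q : PS A M) (hQ : InChart s (Q.ord (Mo.Jbar b))) :
    ∃ g ∈ Mo.I W.D s, ∃ c : kA A, c ≠ 0 ∧ ∀ b' (Q' : PS A M),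
      InChart s (Q'.ord (Mo.Jbar b')) → Mo.SamePt s b Q b' Q' →
        Val Q' (Mo.red b' (g ^ n * W.f)) c := by
  have hQs : Bd Q (tS A M s) 0 := (hM.inChart_iff s b Q).mp hQ
  by_cases hQD : Q ∈ DblSet D
  · exact exists_gen_double C hM L hr h11 hrM hn W s b hQs hQD
  haveI := finite_tS C s
  haveI := separable_tS C s
  obtain ⟨ε, hεR, hεQ, hε0⟩ := exists_eps_off C hM L hin hr h11 hrM s b hQs hQD
  obtain ⟨ρ, hρR, hρG, hρr, c₀, hc₀, hq⟩ := exists_rho C hM L hr h11 hrM s b hQs hQD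
  obtain ⟨g, hg, -, c, hc, -, hval⟩ := Mo.exists_generator_off s b (transcendental_tS A M s)
    (hM.inChart_iff s b) hn W hQ (fg_triv C hM hn W s) hεR hεQ hε0 hρR hρG hρr hc₀ hq
    (exists_full_chart C hM hn W s) (exists_rho_chart C hM s)
  exact ⟨g, hg, c, hc, hval⟩

/-- the generators at all points, of a twist -/
theorem exists_gen {n : ℕ} (hn : n ≠ 0) (W : Mo.Twist n) (s : Bool) (b : Fin 3) (Q : PS A M)
    (hQ : InChart s (Q.ord (Mo.Jbar b))) :
    ∃ g ∈ Mo.I W.D s, ∃ c : kA A, c ≠ 0 ∧ ∀ b' (Q' : PS A M),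
      InChart s (Q'.ord (Mo.Jbar b')) → Mo.SamePt s b Q b' Q' →
        ∃ ζ, Val Q' (Mo.red b' g) ζ ∧ ζ ^ n = c := by
  obtain ⟨g, hg, c, hc, hval⟩ := exists_unit_gen C hM L hin hr h11 hrM hn W.toTriv s b Q hQ
  exact ⟨g, hg, c, hc, fun b' Q' hQ' hs =>
    Mo.exists_root_val hn W (Mo.GI_iff.mp hg.1 b') (hval b' Q' hQ' hs)⟩

/-- the classes of points with one maximal ideal -/
theorem classify (s : Bool) (b : Fin 3) (Q : PS A M) (hQ : InChart s (Q.ord (Mo.Jbar b))) :
    (∀ b' (Q' : PS A M), InChart s (Q'.ord (Mo.Jbar b')) →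
        Mo.SamePt s b Q b' Q' → b' = b ∧ Q' = Q) ∨
      ((∀ b', InChart s (Q.ord (Mo.Jbar b'))) ∧ (∀ b' b'', Mo.SamePt s b' Q b'' Q) ∧
        ∀ b' (Q' : PS A M), InChart s (Q'.ord (Mo.Jbar b')) →
          Mo.SamePt s b Q b' Q' → Q' = Q) := by
  have hQs : Bd Q (tS A M s) 0 := (hM.inChart_iff s b Q).mp hQ
  haveI := finite_tS C s
  haveI := separable_tS C s
  have ht := transcendental_tS A M s
  by_cases hQD : Q ∈ DblSet D
  · right
    have hd := samePt_double C L hr h11 hrM hM hQD hQs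
    refine ⟨fun b' => (hM.inChart_iff s b' Q).mpr hQs, hd, fun b' Q' hQ' h => ?_⟩
    exact Fib.SamePt.eq_of_same Mo s b' ht (hM.inChart_iff s b') ((hM.inChart_iff s b' Q).mpr hQs) hQ'
      fun x hx => (hd b' b x hx).trans (h x hx)
  · left
    obtain ⟨ε, hεR, hεQ, hε0⟩ := exists_eps_off C hM L hin hr h11 hrM s b hQs hQD
    exact fun b' Q' hQ' h =>
      (Mo.samePt_off_iff s b ht (hM.inChart_iff s b) hQ hεR hεQ hε0 hQ').mp h

end FLTAgent.SS2

end
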