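import Fermat.Agent.SS2.ModelFib
import Fermat.Agent.SS2.Kill

/-!
The norms along the two degeneracy maps from level `M q²` to level `M q`, read on the branches.
-/

set_option autoImplicit false
set_option linter.unusedSectionVars false
set_option linter.style.haveILetI false
set_option linter.unusedSimpArgs false
set_option synthInstance.maxHeartbeats 200000
set_option maxHeartbeats 1000000

noncomputable section

open ModularCurve AlgebraicCurve IsLocalRing
open FLTAgent.RR (Bd)

namespace FLTAgent.SS2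

open FLTAgent.Reduction (Qb FB FS Ctx GR tB tS jS kA red redS regOn)

/-- norms commute with compatible automorphisms -/
theorem normAlong_equiv {F F' : Type*} [Field F] [Field F'] [Algebra Qb F] [Algebra Qb F']
    (φ : F →ₐ[Qb] F') (e : F ≃+* F) (e' : F' ≃+* F') (h : ∀ a, φ (e a) = e' (φ a)) (x : F') :
    normAlong φ (e' x) = e (normAlong φ x) := by
  letI := algebraAlong φ
  show Algebra.norm F (e' x) = e (Algebra.norm F x)
  rw [Algebra.norm_eq_of_equiv_equiv e e' (RingHom.ext fun a => h a) x, e.apply_symm_apply]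

variable {A : ValuationSubring Qb} {M q : ℕ} [NeZero M] [NeZero q]

local notation "α" => heckeAlphaBar Qb (M * q) q
local notation "β" => heckeBetaBar Qb (M * q) q

variable (M q) in
/-- the two degeneracy maps -/
def degMap : Bool → (FB (M * q) →ₐ[Qb] FB (M * q * q))
  | false => heckeAlphaBar Qb (M * q) q
  | true => heckeBetaBar Qb (M * q) q

variable (M q) in
/-- the norm along a degeneracy map, pulled back -/
def normN (t : Bool) : FB (M * q * q) →* FB (M * q * q) :=
  ((degMap M q t : FB (M * q) →* FB (M * q * q))).comp (normAlong (degMap M q t))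

theorem normN_apply (t : Bool) (x : FB (M * q * q)) :
    normN M q t x = degMap M q t (normAlong (degMap M q t) x) := rfl

theorem degMap_galois (t : Bool) (σ : Qb ≃ₐ[ℚ] Qb) (a : FB (M * q)) :
    degMap M q t (galFn (M * q) σ • a) = galFn (M * q * q) σ • degMap M q t a := by
  cases t
  · exact Subtype.ext (by
      show ((α (galFn (M * q) σ • a) : FB (M * q * q)) : LS) =
        ((galFn (M * q * q) σ • α a : FB (M * q * q)) : LS)
      rw [coe_heckeAlphaBar, coe_arithmeticGalois_smul, coe_arithmeticGalois_smul,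
        coe_heckeAlphaBar])
  · exact Subtype.ext (by
      show ((β (galFn (M * q) σ • a) : FB (M * q * q)) : LS) =
        ((galFn (M * q * q) σ • β a : FB (M * q * q)) : LS)
      rw [coe_heckeBetaBar, coe_arithmeticGalois_smul, coe_arithmeticGalois_smul,
        coe_heckeBetaBar, ModFun.coeffMap_qExpand])

/-- norms of rational functions are rational -/
theorem normN_rational (t : Bool) {x : FB (M * q * q)} (hx : x ∈ rationalFn A (M * q * q)) :
    normN M q t x ∈ rationalFn A (M * q * q) := by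
  intro σ hσ
  rw [normN_apply, ← degMap_galois]
  congr 1
  have h := normAlong_equiv (degMap M q t)
    (MulSemiringAction.toRingEquiv _ (FB (M * q)) (galFn (M * q) σ))
    (MulSemiringAction.toRingEquiv _ (FB (M * q * q)) (galFn (M * q * q) σ))
    (fun a => degMap_galois t σ a) x
  rw [show MulSemiringAction.toRingEquiv _ (FB (M * q * q)) (galFn (M * q * q) σ) x = x from
    hx σ hσ] at h
  exact h.symm

variable (C : Ctx A M q)
include C

theorem finrankAlong_degMap : ∀ t, finrankAlong Qb (degMap M q t) = q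
  | false => finrankAlong_alpha_q C.prime C.not_dvd
  | true => finrankAlong_beta_q C.prime C.not_dvd

theorem normN_map (t : Bool) (a : FB (M * q)) :
    normN M q t (degMap M q t a) = degMap M q t a ^ q := by
  rw [normN_apply, normAlong_map, finrankAlong_degMap C, map_pow]

/-- residues pulled back along `α` -/
theorem isRes_alpha_false {y : FB (M * q)} {R : FS A M} (h : SS.IsRed A false y R) :
    IsRes C 0 (α y) R ∧ IsRes C 2 (α y) R := by
  have hy : (y : LS) ∈ GG A := (coe_mem_GG_iff y).mpr h.1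
  have hy' : redL A (y : LS) = (R : LaurentSeries (kA A)) :=
    (redL_coe ((coe_mem_GG_iff y).mp hy)).trans h.2
  refine ⟨fun ζ => ?_, fun ζ => ?_⟩
  · show e20 M q (α y) ∈ GG A ∧ redL A (e20 M q (α y)) = _
    rw [e20_apply, coe_heckeAlphaBar]
    exact ⟨hy, hy'⟩
  · show e11 M q C.prime C.not_dvd ζ (α y) ∈ GG A ∧
      redL A (e11 M q C.prime C.not_dvd ζ (α y)) = _
    obtain ⟨u, hu, hu1⟩ := PR.exists_unit C ζ
    rw [e11_comp_alpha, ← hu, ← hy']
    exact twist_mem_of_residue_one u hu1 hy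

theorem isRes_alpha_true {y : FB (M * q)} {R : FS A M} (h : SS.IsRed A true y R) :
    IsRes C 1 (α y) (SS.Fr C R) := fun ζ => by
  show e02 M q C.prime C.not_dvd (α y) ∈ GG A ∧
    redL A (e02 M q C.prime C.not_dvd (α y)) = _
  have hy : ((SS.side M q true y : FB (M * q)) : LS) ∈ GG A := (coe_mem_GG_iff _).mpr h.1
  obtain ⟨h1, h2⟩ := qExpand_mem q hy
  rw [e02_comp_alpha, s2_eq C]
  exact ⟨h1, by rw [h2, redL_coe ((coe_mem_GG_iff _).mp hy), h.2, SS.coe_Fr]⟩

/-- residues pulled back along `β` -/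
theorem isRes_beta_true {y : FB (M * q)} {R : FS A M} (h : SS.IsRed A true y R) :
    IsRes C 1 (β y) R ∧ IsRes C 2 (β y) R := by
  have hy : ((SS.side M q true y : FB (M * q)) : LS) ∈ GG A := (coe_mem_GG_iff _).mpr h.1
  have hy' : redL A ((SS.side M q true y : FB (M * q)) : LS) = (R : LaurentSeries (kA A)) :=
    (redL_coe ((coe_mem_GG_iff _).mp hy)).trans h.2
  refine ⟨fun ζ => ?_, fun ζ => ?_⟩
  · show e02 M q C.prime C.not_dvd (β y) ∈ GG A ∧ redL A (e02 M q C.prime C.not_dvd (β y)) = _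
    rw [e02_comp_beta, s2_eq C]
    exact ⟨hy, hy'⟩
  · show e11 M q C.prime C.not_dvd ζ (β y) ∈ GG A ∧
      redL A (e11 M q C.prime C.not_dvd ζ (β y)) = _
    rw [e11_comp_beta, s2_eq C]
    exact ⟨hy, hy'⟩

theorem isRes_beta_false {y : FB (M * q)} {R : FS A M} (h : SS.IsRed A false y R) :
    IsRes C 0 (β y) (SS.Fr C R) := fun ζ => by
  show e20 M q (β y) ∈ GG A ∧ redL A (e20 M q (β y)) = _
  have hy : (y : LS) ∈ GG A := (coe_mem_GG_iff y).mpr h.1
  obtain ⟨h1, h2⟩ := qExpand_mem q hy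
  rw [e20_comp_beta]
  refine ⟨h1, ?_⟩
  rw [h2, redL_coe ((coe_mem_GG_iff y).mp hy), SS.coe_Fr]
  exact congrArg _ h.2

/-- residues of the norms on the two branches through the separable side -/
theorem isRes_normN_side (t : Bool) {x : FB (M * q * q)} {r : Fin 3 → FS A M}
    (h : IsRes C (Fib.side t) x (r (Fib.side t))) (h2 : IsRes C 2 x (r 2)) :
    IsRes C (Fib.side t) (normN M q t x) (r (Fib.side t) * r 2 ^ (q - 1)) ∧
      IsRes C 2 (normN M q t x) (r (Fib.side t) * r 2 ^ (q - 1)) := by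
  cases t
  · exact isRes_alpha_false C (isRed_normAlpha_false C h h2)
  · exact isRes_beta_true C (isRed_normBeta_true C h h2)

theorem isRes_normN_other (t : Bool) {x : FB (M * q * q)} {r : Fin 3 → FS A M}
    (h : IsRes C (Fib.side (!t)) x (r (Fib.side (!t)))) :
    IsRes C (Fib.side (!t)) (normN M q t x) (r (Fib.side (!t)) ^ q) := by
  cases t
  · obtain ⟨R, hR, hR'⟩ := isRed_normAlpha_true C h
    exact (isRes_alpha_true C hR).congr_res hR'
  · obtain ⟨R, hR, hR'⟩ := isRed_normBeta_false C h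
    exact (isRes_beta_false C hR).congr_res hR'

theorem pB_side (t : Bool) (ζ : PR q) : pB q ζ (Fib.side t) = (q : Qb) := by
  cases t <;> rfl

/-- exponents on the separable side -/
theorem series_normN_side (t : Bool) {x : FB (M * q * q)} {i k : ℤ}
    (h : ∀ ζ, cL (pB q ζ (Fib.side t) ^ (-i)) *
          eB M q C.prime C.not_dvd ζ (Fib.side t) x ∈ GG A ∧
      redL A (cL (pB q ζ (Fib.side t) ^ (-i)) *
          eB M q C.prime C.not_dvd ζ (Fib.side t) x) ≠ 0)
    (h2 : ∀ ζ, cL (pB q ζ 2 ^ (-k)) * eB M q C.prime C.not_dvd ζ 2 x ∈ GG A ∧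
      redL A (cL (pB q ζ 2 ^ (-k)) * eB M q C.prime C.not_dvd ζ 2 x) ≠ 0) (ζ : PR q) :
    cL (pB q ζ (Fib.side t) ^ (-(i + k))) *
        eB M q C.prime C.not_dvd ζ (Fib.side t) (normN M q t x) ∈ GG A ∧
      redL A (cL (pB q ζ (Fib.side t) ^ (-(i + k))) *
        eB M q C.prime C.not_dvd ζ (Fib.side t) (normN M q t x)) ≠ 0 := by
  have hc : (q : Qb) ^ (-i) * ∏ z : PR q, (1 - (z : Qb)) ^ (-k) = (q : Qb) ^ (-(i + k)) := by
    rw [Finset.prod_zpow, prod_one_sub C, ← zpow_add₀ (Nat.cast_ne_zero.mpr C.prime.ne_zero),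
      neg_add]
  rw [pB_side C]
  cases t
  · obtain ⟨h1, h1'⟩ := red_norm_alpha_side1 C x ((q : Qb) ^ (-i))
      (fun z => (1 - (z : Qb)) ^ (-k)) (h ζ).1 (fun z => (h2 z).1)
    rw [hc] at h1 h1'
    show cL _ * e20 M q (α _) ∈ GG A ∧ redL A (cL _ * e20 M q (α _)) ≠ 0
    rw [e20_apply, coe_heckeAlphaBar]
    refine ⟨h1, ?_⟩
    show redL A (cL _ * ((normAlong α x : FB (M * q)) : LS)) ≠ 0
    rw [h1']
    exact mul_ne_zero (h ζ).2 (Finset.prod_ne_zero_iff.mpr fun z _ => (h2 z).2)
  · obtain ⟨h1, h1'⟩ := red_norm_beta_side2 C x ((q : Qb) ^ (-i))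
      (fun z => (1 - (z : Qb)) ^ (-k)) (h ζ).1 (fun z => (h2 z).1)
    rw [hc] at h1 h1'
    show cL _ * e02 M q C.prime C.not_dvd (β _) ∈ GG A ∧
      redL A (cL _ * e02 M q C.prime C.not_dvd (β _)) ≠ 0
    rw [e02_comp_beta]
    refine ⟨h1, ?_⟩
    show redL A (cL _ * s2 M q C.prime C.not_dvd (normAlong β x)) ≠ 0
    rw [h1']
    exact mul_ne_zero (h ζ).2 (Finset.prod_ne_zero_iff.mpr fun z _ => (h2 z).2)

/-- exponents on the inseparable side -/
theorem series_normN_other (t : Bool) {x : FB (M * q * q)} {i : ℤ} (ζ : PR q)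
    (h : cL (pB q ζ (Fib.side (!t)) ^ (-i)) *
          eB M q C.prime C.not_dvd ζ (Fib.side (!t)) x ∈ GG A ∧
      redL A (cL (pB q ζ (Fib.side (!t)) ^ (-i)) *
          eB M q C.prime C.not_dvd ζ (Fib.side (!t)) x) ≠ 0) :
    cL (pB q ζ (Fib.side (!t)) ^ (-((q : ℤ) * i))) *
        eB M q C.prime C.not_dvd ζ (Fib.side (!t)) (normN M q t x) ∈ GG A ∧
      redL A (cL (pB q ζ (Fib.side (!t)) ^ (-((q : ℤ) * i))) *
        eB M q C.prime C.not_dvd ζ (Fib.side (!t)) (normN M q t x)) ≠ 0 := by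
  rw [pB_side C] at h ⊢
  have hc : ((q : Qb) ^ (-i)) ^ q = (q : Qb) ^ (-((q : ℤ) * i)) := by
    rw [← zpow_natCast ((q : Qb) ^ (-i)) q, ← zpow_mul]
    congr 1
    ring
  cases t
  · obtain ⟨h1, h1'⟩ := red_norm_alpha_side2 C x ((q : Qb) ^ (-i)) h.1
    rw [hc] at h1 h1'
    obtain ⟨h3, h4⟩ := qExpand_mem q h1
    show cL _ * e02 M q C.prime C.not_dvd (α _) ∈ GG A ∧
      redL A (cL _ * e02 M q C.prime C.not_dvd (α _)) ≠ 0
    rw [e02_comp_alpha, ← qExpand_cL_mul]
    refine ⟨h3, ?_⟩
    show redL A (qExpand Qb q (cL _ * s2 M q C.prime C.not_dvd (normAlong α x))) ≠ 0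
    rw [h4, h1']
    exact pow_ne_zero _ h.2
  · obtain ⟨h1, h1'⟩ := red_norm_beta_side1 C x ((q : Qb) ^ (-i)) h.1
    rw [hc] at h1 h1'
    obtain ⟨h3, h4⟩ := qExpand_mem q h1
    show cL _ * e20 M q (β _) ∈ GG A ∧ redL A (cL _ * e20 M q (β _)) ≠ 0
    rw [e20_comp_beta, ← qExpand_cL_mul]
    refine ⟨h3, ?_⟩
    show redL A (qExpand Qb q (cL _ * ((normAlong β x : FB (M * q)) : LS))) ≠ 0
    rw [h4, h1']
    exact pow_ne_zero _ h.2

/-- the norms of chart functions, moved onto the chart -/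
theorem regular_normN (t : Bool) (s : Bool) {x : FB (M * q * q)}
    (hx : ∀ P : Place Qb (FB (M * q * q)), InChart s (P.ord (Jprod M q)) → Bd P x 0) :
    ∃ U : FB (M * q * q), U ∈ rationalFn A (M * q * q) ∧ (∀ b, IsRes C b U 1) ∧
      (∀ P : Place Qb (FB (M * q * q)), InChart s (P.ord (Jprod M q)) → Bd P U 0) ∧
      ∀ P : Place Qb (FB (M * q * q)), InChart s (P.ord (Jprod M q)) →
        Bd P (U * normN M q t x) 0 := by
  obtain ⟨u, hur, huG, hured, hureg, hux⟩ := exists_unit_move C s hx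
  have hU : ∀ b, IsRes C b (img M q 1 u ^ q) 1 := fun b =>
    (((isRes_img C huG b 1).congr_res (show imgRes C b 1 (red A M u) = 1 by
      fin_cases b <;> simp [imgRes, hured])).pow q).congr_res (one_pow q)
  refine ⟨img M q 1 u ^ q, pow_mem (img_rational hur 1) q, hU, fun P hP => ?_, fun P hP => ?_⟩
  · simpa using (map_regOn (img M q 1) hureg P (bd_img_of_inChart C.prime hP 1)).pow q
  obtain ⟨a, ha, b, hb⟩ : ∃ a : FB (M * q), degMap M q t a = img M q 1 u ∧
      ∃ b : FB (M * q), degMap M q t b = img M q 1 (tB M s) := by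
    cases t
    · exact ⟨heckeBetaBar Qb M q u, rfl, heckeBetaBar Qb M q (tB M s), rfl⟩
    · exact ⟨heckeAlphaBar Qb M q u, beta_alpha u, heckeAlphaBar Qb M q (tB M s), beta_alpha _⟩
  have hreg : normN M q t (img M q 1 u * x) ∈ regOn Qb (img M q 1 (tB M s)) := by
    rw [normN_apply, ← hb]
    refine map_regOn _ (regOn_normAlong _ ?_)
    rw [hb]
    exact hux
  rw [← ha, ← normN_map C, ← map_mul, ha]
  exact hreg P (bd_img_of_inChart C.prime hP 1)

omit C

/-- the norms of the model -/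
def modelNorms (C : Ctx A M q) : Fib.Norms (model C) where
  N := normN M q
  mem := fun t _ hx => normN_rational t hx
  ne_zero := fun t x hx => by
    rw [normN_apply]
    exact (_root_.map_ne_zero _).mpr (normAlong_ne_zero _ hx)
  const := fun t c _ => by
    rw [show algebraMap Qb (FB (M * q * q)) c = degMap M q t (algebraMap Qb (FB (M * q)) c) from
      ((degMap M q t).commutes c).symm, normN_map C, AlgHom.commutes]
    rfl
  red_side := fun t x hx hx2 => by
    obtain ⟨h1, h2⟩ := isRes_normN_side C t (r := fun b => redB C b x) (isRes_redB hx) (isRes_redB hx2)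
    have hr := normN_rational t (GB_le hx)
    exact ⟨h1.mem_GB hr, h2.mem_GB hr, h1.redB_eq, h2.redB_eq⟩
  red_other := fun t x hx => by
    have h := isRes_normN_other C t (r := fun b => redB C b x) (isRes_redB hx)
    exact ⟨h.mem_GB (normN_rational t (GB_le hx)), h.redB_eq⟩
  exp_side := fun t x i k hi hk => by
    have h := fun ζ => series_of_hasExp C hi.1 hi.2 ζ
    obtain ⟨ζ⟩ := nonempty_PR C
    obtain ⟨h1, h2⟩ := series_normN_side C t (fun ζ => (h ζ).2)
      (fun ζ => (series_of_hasExp C hk.1 hk.2 ζ).2) ζ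
    exact hasExp_of_series C (landing_model C) (normN_rational t (h ζ).1) h1 h2
  exp_other := fun t x i hi => by
    obtain ⟨ζ⟩ := nonempty_PR C
    have h := series_of_hasExp C hi.1 hi.2 ζ
    obtain ⟨h1, h2⟩ := series_normN_other C t ζ h.2
    exact hasExp_of_series C (landing_model C) (normN_rational t h.1) h1 h2
  regular := fun t s x hx => by
    have hG : ∀ b, x ∈ GB C b := (model C).GI_iff.mp hx.1
    obtain ⟨U, hUr, hU1, hUP, hUN⟩ := regular_normN C t s
      fun P hP => by simpa using hx.2 P hP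
    have hres := fun b => isRes_redB (hG b)
    have hNG : ∀ b, normN M q t x ∈ GB C b := fun b => by
      have hr := normN_rational t (GB_le (hG 0))
      obtain ⟨h1, h2⟩ := isRes_normN_side C t (r := fun b => redB C b x) (hres _) (hres 2)
      rcases Fib.side_or b t with rfl | rfl | rfl
      exacts [h1.mem_GB hr, (isRes_normN_other C t (r := fun b => redB C b x) (hres _)).mem_GB hr,
        h2.mem_GB hr]
    refine ⟨U, ⟨(model C).GI_iff.mpr fun b => (hU1 b).mem_GB hUr, fun P hP => by simpa using hUP P hP⟩,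
      ⟨(model C).GI_iff.mpr fun b => mul_mem ((hU1 b).mem_GB hUr) (hNG b),
        fun P hP => by simpa using hUN P hP⟩, 1, one_ne_zero, fun b => ?_⟩
    rw [map_one]
    exact (hU1 b).redB_eq

end FLTAgent.SS2
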