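import Fermat.Agent.SS2.KillTop
import Fermat.Agent.SS2.KillLocal
import Fermat.Agent.SS2.ModelNorms
import Fermat.Agent.SS2.CrossingSide
import Fermat.Agent.SS.FibreData
import Fermat.Agent.SS.FibreGalois
import Fermat.Agent.SS.Repr

/-!
At a level with a prime factor `r ≡ 11 (mod 12)`: a rational class whose trivialisation has norms
equal to constants times `n`-th powers is killed by `(q + 1)(q - 1)(q² - 1)`.
-/

set_option autoImplicit false
set_option linter.all false
set_option synthInstance.maxHeartbeats 400000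
set_option maxHeartbeats 1000000

noncomputable section

open ModularCurve AlgebraicCurve IsLocalRing
open FLTAgent.Reduction

namespace FLTAgent.SS2

/-- a rational function that is a constant times an `n`-th power is a rational constant times the
`n`-th power of a rational function -/
theorem exists_rational_root {A : ValuationSubring Qb} {N n : ℕ} [NeZero N] (hn : n ≠ 0) {x G : FB N}
    {lam : Qb} (hx : x ∈ rationalFn A N) (hG : G ≠ 0) (hlam : lam ≠ 0)
    (h : x = algebraMap Qb (FB N) lam * G ^ n) :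
    ∃ G₁ ∈ rationalFn A N, ∃ lam₁ ∈ inertiaFixed A, lam₁ ≠ 0 ∧ G₁ ≠ 0 ∧
      x = algebraMap Qb (FB N) lam₁ * G₁ ^ n := by
  have hl := lead_ne_zero hG
  set G₁ := algebraMap Qb (FB N) (lead N G)⁻¹ * G
  have hG₁ : G₁ ≠ 0 := mul_ne_zero ((_root_.map_ne_zero _).mpr (inv_ne_zero hl)) hG
  have hlead : lead N G₁ = 1 := by rw [lead_mul, lead_const, inv_mul_cancel₀ hl]
  set lam₁ := lam * lead N G ^ n
  have hlam₁ : lam₁ ≠ 0 := mul_ne_zero hlam (pow_ne_zero _ hl)
  have hc : algebraMap Qb (FB N) lam₁ ≠ 0 := (_root_.map_ne_zero _).mpr hlam₁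
  have hx₁ : x = algebraMap Qb (FB N) lam₁ * G₁ ^ n := by
    rw [h, mul_pow, ← map_pow, ← mul_assoc, ← map_mul]
    congr 2
    rw [inv_pow, mul_inv_cancel_right₀ (pow_ne_zero _ hl)]
  have hpow : ∀ m : ℕ, lead N (G₁ ^ m) = 1 := fun m => by
    induction m with
    | zero => rw [pow_zero, ← map_one (algebraMap Qb (FB N)), lead_const]
    | succ m ih => rw [pow_succ, lead_mul, ih, hlead, one_mul]
  have hleadx : lead N x = lam₁ := by rw [hx₁, lead_mul, lead_const, hpow, mul_one]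
  have hfix : ∀ σ ∈ A.inertiaSubgroupIn ℚ, σ lam₁ = lam₁ := fun σ hσ => by
    rw [← hleadx, ← lead_smul, hx σ hσ]
  refine ⟨G₁, fun σ hσ => ?_, lam₁, mem_inertiaFixed.mpr hfix, hlam₁, hG₁, hx₁⟩
  have h1 := hx σ hσ
  rw [hx₁, smul_mul', smul_pow', galFn_smul_const, hfix σ hσ] at h1
  have h2 := mul_left_cancel₀ hc h1
  refine eq_of_ord_lead (fun h0 => hG₁ ((smul_eq_zero_iff_eq _).mp h0)) hG₁ (fun v => ?_)
    (by rw [lead_smul, hlead, map_one])
  have h3 := congrArg v.ord h2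
  rw [RR.ord_pow, RR.ord_pow] at h3
  exact mul_left_cancel₀ (Nat.cast_ne_zero.mpr hn) h3

variable {A : ValuationSubring Qb} {M q : ℕ} [NeZero M] [NeZero q] (C : Ctx A M q)
include C

/-- residues on the first side lie in the special fibre of level `M` -/
theorem redS_mem_fullC {y : FB (M * q)} (hy : y ∈ GR A (M * q)) :
    redS A (M * q) y ∈ modularFunctionFieldFullC (kA A) M := by
  obtain ⟨-, h⟩ := SS.isRed_redM C (b := false) (y := y) hy
  exact (show redS A (M * q) y = _ from h) ▸ SetLike.coe_mem _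

/-- the level `Mq` data -/
def levelData : LevelData (SS.fibreData C) :=
  LevelData.ofSide C (SS.fibreData C) rfl rfl rfl rfl fun _ hy => redS_mem_fullC C hy

/-- the class is killed -/
theorem kill_rat {r : ℕ} (hr : r.Prime) (h11 : r % 12 = 11) (hrM : r ∣ M) {n : ℕ}
    (R : RatClass (M * q * q) n A) (hnq : Nat.Coprime n q) (hn0 : n ≠ 0)
    (ha : ∃ (G : Fld (M * q)) (lam : Qb), G ≠ 0 ∧ lam ≠ 0 ∧
      normAlong (heckeAlphaBar Qb (M * q) q) R.f = algebraMap Qb (Fld (M * q)) lam * G ^ n)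
    (hb : ∃ (G : Fld (M * q)) (lam : Qb), G ≠ 0 ∧ lam ≠ 0 ∧
      normAlong (heckeBetaBar Qb (M * q) q) R.f = algebraMap Qb (Fld (M * q)) lam * G ^ n) :
    ((q + 1) * (q - 1) * (q ^ 2 - 1)) • R.cls = 0 := by
  haveI := Fact.mk C.prime
  haveI := charP_residue A C.prime C.lies
  have hM := isModel_model C
  have L := levelData C
  have hin : ∀ σ ∈ A.inertiaSubgroupIn ℚ,
      SS.Compat (SS.fibreData C).toCore (galFn (M * q) σ) (RingEquiv.refl (FS A M)) :=
    fun σ hσ => SS.compat_inertia C σ hσ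
  have hn : (n : kA A) ≠ 0 := natCast_residue_ne_zero A C.prime C.lies fun hd =>
    Nat.Prime.not_coprime_iff_dvd.mpr ⟨q, C.prime, hd, dvd_refl q⟩ hnq
  have hf : R.f ∈ rationalFn A (M * q * q) := fun σ hσ => R.f_fixed σ (R.inertia σ hσ)
  have hnorm : ∀ d : Bool, ∃ G ∈ (model C).Ω, ∃ lam ∈ (model C).T, lam ≠ 0 ∧ G ≠ 0 ∧
      (modelNorms C).N d R.f = algebraMap Qb (FB (M * q * q)) lam * G ^ n := by
    intro d
    obtain ⟨G, lam, hG, hlam, h⟩ : ∃ (G : FB (M * q)) (lam : Qb), G ≠ 0 ∧ lam ≠ 0 ∧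
        normAlong (degMap M q d) R.f = algebraMap Qb (FB (M * q)) lam * G ^ n := by
      cases d
      exacts [ha, hb]
    have h' : normN M q d R.f = algebraMap Qb (FB (M * q * q)) lam * degMap M q d G ^ n := by
      rw [normN_apply, h, map_mul, map_pow, AlgHom.commutes]
    obtain ⟨G₁, hG₁, lam₁, hlam₁, hne, hne', he⟩ := exists_rational_root hn0 (normN_rational d hf)
      ((_root_.map_ne_zero _).mpr hG) hlam h'
    exact ⟨G₁, (hM.mem_Ω G₁).mpr hG₁, lam₁, (hM.mem_T lam₁).mpr hlam₁, hne, hne', he⟩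
  obtain ⟨x, hx0, hx⟩ := (modelNorms C).kill (t := fun s => tS A M s)
    (htr := fun s => transcendental_tS A M s) (hfd := fun s => finite_tS C s)
    (hsep := fun s => separable_tS C s) (hchart := fun s b Q => hM.inChart_iff s b Q) (p := q)
    (SS.arch C.prime C.lies) hn C.prime.two_le hnq.symm (model_e C)
    (fun W s b Q hQ => exists_gen C hM L hin hr h11 hrM hn0 W s b Q hQ)
    (fun s b Q hQ => classify C hM L hin hr h11 hrM s b Q hQ)
    (Divisor.mem_degZero.mp R.degree_D) ((hM.mem_Ω _).mpr hf) R.f_ne R.ord_f hnorm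
  set c := (q + 1) * (q - 1) * (q ^ 2 - 1)
  rw [RatClass.cls, show c • Pic0.mk ⟨R.D, R.degree_D⟩ =
    Pic0.mk (c • (⟨R.D, R.degree_D⟩ : Divisor.degZero (K := Qb) (F := Fld (M * q * q)))) from
      (map_nsmul (QuotientAddGroup.mk' _) c _).symm, pic0_mk_eq_zero_iff]
  refine ⟨x, hx0, fun P => ?_⟩
  rw [AddSubgroupClass.coe_nsmul, Finsupp.smul_apply, nsmul_eq_mul]
  exact hx P

omit C in
/-- the statement at a level with a prime factor `r ≡ 11 (mod 12)` -/
theorem coreKill {q : ℕ} [NeZero q] (hq : q.Prime) (A : ValuationSubring Qb)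
    (hA : A.LiesOverPrime q) : CoreKill A q := by
  intro M _ r hr h11 hrM hqM
  have h2 := hq.two_le
  refine ⟨(q + 1) * (q - 1) * (q ^ 2 - 1),
    Nat.mul_pos (Nat.mul_pos (by omega) (by omega)) ?_, fun n R hn hn0 ha hb =>
      kill_rat ⟨hq, hqM, hA⟩ hr h11 hrM R hn hn0 ha hb⟩
  have : 4 ≤ q ^ 2 := by nlinarith
  omega

end FLTAgent.SS2

end
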