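import Fermat.Agent.Attach.Integers

/-!
A larger coefficient ring receiving a given finite `ℤ`-algebra.
-/

set_option autoImplicit false
set_option linter.style.haveILetI false
set_option linter.unusedSectionVars false

noncomputable section

open IsLocalRing

namespace FLTAgent.SS2

theorem exists_coeffRing (O : Type) [CommRing O] [IsDomain O] [IsDiscreteValuationRing O]
    [IsAdicComplete (maximalIdeal O) O] [Finite (ResidueField O)] [CharZero O]
    {R : Type} [CommRing R] [Module.Finite ℤ R]
    (g : R →+* AlgebraicClosure (FractionRing O)) :
    ∃ (O' : Type) (_ : CommRing O') (_ : IsDomain O') (_ : IsDiscreteValuationRing O')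
      (_ : IsAdicComplete (maximalIdeal O') O')
      (_ : Finite (ResidueField O')) (_ : CharZero O')
      (_ : Algebra O O') (_ : Module.Finite O O') (_ : IsLocalHom (algebraMap O O')),
    Function.Injective (algebraMap O O') ∧
    ∃ f : R →+* O', (∀ r x, g r = algebraMap O _ x → f r = algebraMap O O' x) ∧
      ∀ r, f r = 0 → g r = 0 := by
  classical
  obtain ⟨k, gen, hgen⟩ := Module.Finite.exists_fin (R := ℤ) (M := R)
  let L : IntermediateField (FractionRing O) (AlgebraicClosure (FractionRing O)) :=
    IntermediateField.adjoin (FractionRing O) (Set.range fun i => g (gen i))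
  haveI : FiniteDimensional (FractionRing O) L :=
    IntermediateField.finiteDimensional_adjoin fun x _ => Algebra.IsIntegral.isIntegral x
  have hmem : ∀ t : R, g t ∈ L := by
    intro t
    have ht : t ∈ Submodule.span ℤ (Set.range gen) := by rw [hgen]; trivial
    induction ht using Submodule.span_induction with
    | mem x hx =>
      obtain ⟨i, rfl⟩ := hx
      exact IntermediateField.subset_adjoin _ _ ⟨i, rfl⟩
    | zero => rw [map_zero]; exact L.zero_mem
    | add x y _ _ hx hy => rw [map_add]; exact L.add_mem hx hy
    | smul z x _ hx => rw [map_zsmul]; exact zsmul_mem hx z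
  let O' := integralClosure O L
  haveI := Attach.closure_finite O L
  haveI : CharZero O' := Attach.closure_charZero O L
  haveI := Attach.closure_isLocalRing O L
  haveI := Attach.closure_isLocalHom O L
  haveI := Attach.closure_isDVR O L
  haveI : IsAdicComplete (maximalIdeal O') O' :=
    IsLocalRing.isAdicComplete_of_module_finite (𝒪 := O)
  haveI : Finite (ResidueField O') :=
    IsLocalRing.ResidueField.finite_of_finite (R := O) inferInstance
  haveI : Algebra.IsIntegral ℤ R := Algebra.IsIntegral.of_finite ℤ R
  have hmem' : ∀ t : R, g.codRestrict L hmem t ∈ integralClosure O L := fun t =>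
    (map_isIntegral_int (g.codRestrict L hmem) (Algebra.IsIntegral.isIntegral t)).tower_top
  let f : R →+* O' := (g.codRestrict L hmem).codRestrict (integralClosure O L) hmem'
  refine ⟨O', inferInstance, inferInstance, inferInstance, inferInstance, inferInstance,
    inferInstance, inferInstance, inferInstance, inferInstance, Attach.closure_injective O L, f,
    fun r x h => ?_, fun r h => ?_⟩
  · apply Subtype.ext
    apply Subtype.ext
    change g r = ((algebraMap O L x : L) : AlgebraicClosure (FractionRing O))
    rw [h]
    rfl
  · exact congrArg (fun z : O' => ((z : L) : AlgebraicClosure (FractionRing O))) h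

end FLTAgent.SS2

end
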