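import Fermat.Agent.Attach.Dichotomy
import Fermat.Agent.Attach.TraceTools
import Fermat.Agent.Chebotarev.Density

/-!
A quadratic relation which holds at Frobenius elements holds everywhere; a group of unipotent two
by two matrices fixes a common vector.
-/

set_option autoImplicit false
set_option linter.style.haveILetI false
set_option linter.unusedSectionVars false

noncomputable section

open IsLocalRing
open scoped Matrix

namespace FLTAgent.SS2

open FLTAgent.Attach (modPow powerTrace)

local notation "GalQ" => AlgebraicClosure ℚ ≃ₐ[ℚ] AlgebraicClosure ℚ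

theorem quadratic_pow {R A : Type*} [CommRing R] [Ring A] [Algebra R A] {f : A} {a c : R}
    (h : f * f - a • f + c • 1 = 0) (k : ℕ) :
    f ^ k * f ^ k - powerTrace a c k • f ^ k + c ^ k • 1 = 0 := by
  set g : A := a • 1 - f with hg
  have hfg : f * g = c • 1 := by
    rw [hg, mul_sub, mul_smul_comm, mul_one]
    rw [← sub_eq_zero, ← neg_eq_zero, ← h]
    abel
  have hgf : g * f = c • 1 := by
    rw [hg, sub_mul, smul_mul_assoc, one_mul]
    rw [← sub_eq_zero, ← neg_eq_zero, ← h]
    abel
  have hcomm : Commute g f := hgf.trans hfg.symm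
  have hsum : ∀ j, powerTrace a c j • (1 : A) = f ^ j + g ^ j := by
    intro j
    induction j using Nat.twoStepInduction with
    | zero => simp [powerTrace, two_smul]
    | one => simp [powerTrace, hg]
    | more j h1 h2 =>
      have e1 : a • (1 : A) = f + g := by rw [hg]; abel
      have e2 : c • (1 : A) = g * f := hgf.symm
      rw [powerTrace, sub_smul, mul_smul, mul_smul, h1, h2]
      have s1 : a • (f ^ (j + 1) + g ^ (j + 1)) = (f + g) * (f ^ (j + 1) + g ^ (j + 1)) := by
        rw [← e1, smul_mul_assoc, one_mul]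
      have s2 : c • (f ^ j + g ^ j) = (g * f) * (f ^ j + g ^ j) := by
        rw [← e2, smul_mul_assoc, one_mul]
      rw [s1, s2, pow_succ' f (j + 1), pow_succ' g (j + 1)]
      have h3 : g * f * f ^ j = g * f ^ (j + 1) := by rw [mul_assoc, ← pow_succ']
      have h4 : g * f * g ^ j = f * g ^ (j + 1) := by
        rw [hcomm.eq, mul_assoc, ← pow_succ']
      simp only [add_mul, mul_add, h3, h4]
      abel
  have hck : c ^ k • (1 : A) = g ^ k * f ^ k := by
    rw [← hcomm.mul_pow, hgf, smul_pow, one_pow]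
  rw [show powerTrace a c k • f ^ k = (powerTrace a c k • (1 : A)) * f ^ k by
    rw [smul_mul_assoc, one_mul], hsum, hck, add_mul]
  abel

theorem trace_pow_fin_two {R : Type} [CommRing R] (M : Deform.Mt R) :
    ∀ k, (M ^ k).trace = powerTrace M.trace M.det k
  | 0 => by simp [powerTrace, Matrix.trace_one]
  | 1 => by simp [powerTrace]
  | k + 2 => by
    have hq : M ^ (k + 2) = M.trace • M ^ (k + 1) - M.det • M ^ k := by
      rw [pow_succ' M (k + 1), pow_succ' M k, ← mul_assoc, Attach.sq_fin_two, sub_mul,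
        smul_mul_assoc, smul_mul_assoc, one_mul]
    rw [hq, Matrix.trace_sub, Matrix.trace_smul, Matrix.trace_smul, trace_pow_fin_two M k,
      trace_pow_fin_two M (k + 1), powerTrace, smul_eq_mul, smul_eq_mul]

theorem trace_det_toMatrix {A : Type} [CommRing A] [Nontrivial A] {V : Type} [AddCommGroup V]
    [Module A V] [Module.Free A V] [Module.Finite A V] (b : Module.Basis (Fin 2) A V)
    {f : Module.End A V} {a c : A}
    (h : LinearMap.charpoly f = Polynomial.X ^ 2 - Polynomial.C a * Polynomial.X + Polynomial.C c) :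
    (LinearMap.toMatrix b b f).trace = a ∧ (LinearMap.toMatrix b b f).det = c := by
  rw [← LinearMap.charpoly_toMatrix f b, Matrix.charpoly_fin_two] at h
  have h1 := congrArg (fun P => Polynomial.coeff P 1) h
  have h0 := congrArg (fun P => Polynomial.coeff P 0) h
  simp [Polynomial.coeff_X_pow, Polynomial.coeff_C] at h1 h0
  exact ⟨h1, by rw [← h0, LinearMap.det_toMatrix]⟩

section Transfer

variable {O : Type} [CommRing O] [IsDomain O] [IsDiscreteValuationRing O]
  [IsAdicComplete (maximalIdeal O) O] [CharZero O]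

theorem pow_apply_of_mul {r : GalQ → Deform.Mt O} (h1 : r 1 = 1)
    (hmul : ∀ σ τ, r (σ * τ) = r σ * r τ) (τ : GalQ) (k : ℕ) : r (τ ^ k) = r τ ^ k := by
  induction k with
  | zero => simpa using h1
  | succ k ih => rw [pow_succ, hmul, ih, pow_succ]

/-- a quadratic relation at Frobenius elements holds everywhere -/
theorem quadratic_transfer (S : Finset ℕ) (r R : GalQ → Deform.Mt O)
    (h1 : r 1 = 1) (hmul : ∀ σ τ, r (σ * τ) = r σ * r τ) (hc : Deform.MatCont r)
    (h1' : R 1 = 1) (hmul' : ∀ σ τ, R (σ * τ) = R σ * R τ) (hc' : Deform.MatCont R)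
    (h : ∀ ℓ : ℕ, ℓ.Prime → ℓ ∉ S →
      ∀ A : ValuationSubring (AlgebraicClosure ℚ), A.LiesOverPrime ℓ →
        ∀ τ : GalQ, A.IsFrobeniusAt τ ℓ →
          r τ * r τ - (R τ).trace • r τ + (R τ).det • 1 = 0)
    (σ : GalQ) : r σ * r σ - (R σ).trace • r σ + (R σ).det • 1 = 0 := by
  refine Matrix.ext fun i j => Attach.eq_zero_of_forall_mem_pow fun n => ?_
  obtain ⟨L1, hL1, hr⟩ := hc n
  obtain ⟨L2, hL2, hR⟩ := hc' n
  haveI := hL1; haveI := hL2
  obtain ⟨ℓ, A, τ, k, hℓ, hℓS, hA, hτ, hagree⟩ :=
    FLTAgent.Chebotarev.exists_frobenius_pow (L1 ⊔ L2) σ S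
  set g : GalQ := σ⁻¹ * τ ^ k with hg
  have hfix : ∀ y ∈ L1 ⊔ L2, g y = y := fun y hy => by
    rw [hg, AlgEquiv.mul_apply, hagree y hy]
    exact σ.symm_apply_apply y
  have hτk : τ ^ k = σ * g := by rw [hg, mul_inv_cancel_left]
  let q : O →+* O ⧸ (maximalIdeal O ^ n) := modPow n
  have hr' : q.mapMatrix (r τ ^ k) = q.mapMatrix (r σ) := by
    rw [← pow_apply_of_mul h1 hmul, hτk, hmul, map_mul,
      Attach.map_eq_one_of_cont (hr g fun y hy => hfix y (le_sup_left (a := L1) hy)), mul_one]
  have hR' : q.mapMatrix (R τ ^ k) = q.mapMatrix (R σ) := by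
    rw [← pow_apply_of_mul h1' hmul', hτk, hmul', map_mul,
      Attach.map_eq_one_of_cont (hR g fun y hy => hfix y (le_sup_right (a := L1) hy)), mul_one]
  have hk := quadratic_pow (h ℓ hℓ hℓS A hA τ hτ) k
  rw [← trace_pow_fin_two, ← Matrix.det_pow] at hk
  have htr : ∀ M : Deform.Mt O, q M.trace = (q.mapMatrix M).trace := fun M => by
    simp [Matrix.trace]
  have hsmul : ∀ (c : O) (M : Deform.Mt O), q.mapMatrix (c • M) = q c • q.mapMatrix M :=
    fun c M => by ext i j; simp
  have e := congrArg q.mapMatrix hk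
  simp only [map_add, map_sub, map_mul, hsmul, map_one, map_zero, htr, RingHom.map_det, hr',
    hR'] at e
  rw [← htr, ← RingHom.map_det, ← map_mul, ← hsmul, ← map_one q.mapMatrix, ← hsmul, ← map_sub,
    ← map_add] at e
  rw [← Ideal.Quotient.eq_zero_iff_mem]
  exact congrFun (congrFun e i) j

end Transfer

/-! ### a common fixed vector -/

variable {O : Type} [CommRing O] [IsDomain O]

theorem trace_eq_zero_of_sq_zero {U : Deform.Mt O} (h : U * U = 0) : U.trace = 0 := by
  have hd : U.det = 0 := by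
    have := congrArg Matrix.det h
    rwa [Matrix.det_mul, Matrix.det_zero, mul_self_eq_zero] at this
  have h' := Attach.sq_fin_two U
  rw [h, hd, zero_smul, sub_zero, eq_comm, smul_eq_zero] at h'
  rcases h' with h' | h'
  · exact h'
  · rw [h', Matrix.trace_zero]

theorem exists_common_fixed {G : Type*} [Group G] (H : Subgroup G) (r : G → Deform.Mt O)
    (hmul : ∀ σ τ, r (σ * τ) = r σ * r τ)
    (hu : ∀ σ ∈ H, (r σ - 1) * (r σ - 1) = 0) :
    ∃ y : Fin 2 → O, y ≠ 0 ∧ ∀ σ ∈ H, r σ *ᵥ y = y := by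
  by_cases hall : ∀ σ ∈ H, r σ = 1
  · exact ⟨![1, 0], fun h => one_ne_zero (α := O) (congrFun h 0), fun σ hσ => by
      rw [hall σ hσ, Matrix.one_mulVec]⟩
  push Not at hall
  obtain ⟨g, hg, hg1⟩ := hall
  set U := r g - 1 with hU
  have hU2 : U * U = 0 := hu g hg
  have hUt := trace_eq_zero_of_sq_zero hU2
  obtain ⟨j, hj⟩ : ∃ j, (fun i => U i j) ≠ 0 := by
    by_contra hcon
    push Not at hcon
    exact sub_ne_zero.2 hg1 (Matrix.ext fun i j => congrFun (hcon j) i)
  refine ⟨_, hj, fun σ hσ => ?_⟩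
  set y : Fin 2 → O := fun i => U i j with hy
  set V := r σ - 1 with hV
  have hV2 : V * V = 0 := hu σ hσ
  have hW2 := hu (g * σ) (H.mul_mem hg hσ)
  have hW : r (g * σ) - 1 = U + V + U * V := by
    rw [hmul, hU, hV, mul_sub, sub_mul, one_mul, mul_one]
    abel
  have hUV : (U * V).trace = 0 := by
    have := trace_eq_zero_of_sq_zero hW2
    rw [hW, Matrix.trace_add, Matrix.trace_add, hUt, trace_eq_zero_of_sq_zero hV2, zero_add,
      zero_add] at this
    exact this
  have hcr := Attach.cross_of_sq_zero hU2 hUV hUt j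
  rw [Attach.cross, sub_eq_zero] at hcr
  set a := V *ᵥ y with ha
  have hpar : ∀ i k, y i * a k = a i * y k := by
    intro i k
    fin_cases i <;> fin_cases k <;> simp only [Fin.zero_eta, Fin.mk_one]
    · ring
    · linear_combination -hcr
    · linear_combination hcr
    · ring
  have hVa : V *ᵥ a = 0 := by rw [ha, Matrix.mulVec_mulVec, hV2, Matrix.zero_mulVec]
  have hzero : a = 0 := by
    funext i
    have h1 : y i • a = a i • y := funext fun k => hpar i k
    have h2 := congrArg (V *ᵥ ·) h1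
    simp only [Matrix.mulVec_smul, hVa, smul_zero, ← ha] at h2
    exact mul_self_eq_zero.1 (congrFun h2 i).symm
  rw [ha, hV, Matrix.sub_mulVec, Matrix.one_mulVec, sub_eq_zero] at hzero
  exact hzero

end FLTAgent.SS2

end
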