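import Fermat.Agent.Common.InertiaConj
import Fermat.Prelude.Def_FLTPrelim_Ramification

/-!
A number field fixed by the inertia group at a place over `q` is unramified there: `q` is a
uniformiser.
-/

set_option autoImplicit false

noncomputable section

namespace FLTAgent.SS2

open FLTAgent.Common
open scoped Pointwise NumberField

variable {A : ValuationSubring QBar} {q : ℕ}

/-- inertia elements at finite level lift to the inertia group of `A` -/
theorem exists_inertia_lift (hq : q.Prime) (hA : A.LiesOverPrime q)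
    (K : IntermediateField ℚ QBar) [NumberField K] [IsGalois ℚ K]
    (P : Ideal (𝓞 K)) [P.IsMaximal] (hP : ∀ a : 𝓞 K, a ∈ P ↔ ((a : K) : QBar) ∈ A.nonunits)
    (τ : Gal(K/ℚ)) (hτ : ∀ a : 𝓞 K, galRestrict ℤ ℚ K (𝓞 K) τ a - a ∈ P) :
    ∃ ρ ∈ A.inertiaSubgroupIn ℚ, ∀ x : K, ρ (x : QBar) = (τ x : QBar) := by
  classical
  have := isGalois_qbar
  let H : Subgroup GalQ := K.fixingSubgroup
  have hclosed : IsClosed (H : Set GalQ) :=
    Subgroup.isClosed_of_isOpen H K.fixingSubgroup_isOpen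
  have hKfix : K.fixingSubgroup = H := rfl
  letI : MulSemiringAction Gal(K/ℚ) (𝓞 K) := IsIntegralClosure.MulSemiringAction ℤ ℚ K (𝓞 K)
  have hτsmul : ∀ a : 𝓞 K, ((τ • a : 𝓞 K) : K) = τ (a : K) := fun a =>
    algebraMap_galRestrict_apply ℤ τ a
  replace hτ : τ ∈ P.inertia Gal(K/ℚ) := fun a => hτ a
  -- the tower `𝓞 K → ZBar`
  letI : Algebra (𝓞 K) ZBar := RingHom.toAlgebra
    { toFun := fun a => ⟨((a : K) : QBar),
        (NumberField.RingOfIntegers.isIntegral_coe a).map (K.val.restrictScalars ℤ)⟩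
      map_one' := Subtype.ext (by simp)
      map_mul' := fun a b => Subtype.ext (by simp)
      map_zero' := Subtype.ext (by simp)
      map_add' := fun a b => Subtype.ext (by simp) }
  have hcoe : ∀ a : 𝓞 K, ((algebraMap (𝓞 K) ZBar a : ZBar) : QBar) = ((a : K) : QBar) :=
    fun a => rfl
  have hinj : Function.Injective (algebraMap (𝓞 K) ZBar) := fun a b h => by
    have := congrArg Subtype.val h
    rw [hcoe, hcoe] at this
    exact NumberField.RingOfIntegers.coe_injective (Subtype.ext this)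
  have hint : Algebra.IsIntegral (𝓞 K) ZBar := by
    refine ⟨fun b => ?_⟩
    obtain ⟨g, hg, hgb⟩ := b.2
    refine ⟨g.map (algebraMap ℤ (𝓞 K)), hg.map _, ?_⟩
    rw [Polynomial.eval₂_map, RingHom.ext_int ((algebraMap (𝓞 K) ZBar).comp (algebraMap ℤ (𝓞 K)))
      (algebraMap ℤ ZBar)]
    apply Subtype.ext
    rw [← Polynomial.aeval_def, ← Subalgebra.coe_val, ← Polynomial.aeval_algHom_apply]
    simpa [Polynomial.aeval_def] using hgb
  let Q : Ideal ZBar := centre A
  have hQprime : Q.IsPrime := centre_isPrime A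
  have hQP : Q.under (𝓞 K) = P := by
    ext a
    rw [Ideal.mem_comap, mem_centre, hcoe]
    exact (hP a).symm
  have hQlies : Q.LiesOver P := ⟨hQP.symm⟩
  have hQP' : Q.comap (algebraMap (𝓞 K) ZBar) = P := hQP
  obtain ⟨σ, hσ⟩ := AlgEquiv.restrictNormalHom_surjective (F := ℚ) (E := QBar) (K₁ := K) τ
  have hσK : ∀ x : K, σ (x : QBar) = (τ x : QBar) := fun x => by
    rw [← hσ]
    exact (AlgEquiv.restrictNormal_commutes σ K x).symm
  have hσA : ∀ a : 𝓞 K, σ • algebraMap (𝓞 K) ZBar a = algebraMap (𝓞 K) ZBar (τ • a) :=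
    fun a => Subtype.ext (by
      show σ ((a : K) : QBar) = (((τ • a : 𝓞 K) : K) : QBar)
      rw [hσK, hτsmul])
  have hσQ : (σ • Q).under (𝓞 K) = P := by
    ext a
    rw [Ideal.mem_comap, Ideal.mem_pointwise_smul_iff_inv_smul_mem]
    have e : σ⁻¹ • algebraMap (𝓞 K) ZBar a = algebraMap (𝓞 K) ZBar (τ⁻¹ • a) := by
      rw [inv_smul_eq_iff, hσA, smul_inv_smul]
    rw [e, ← Ideal.mem_comap, hQP']
    have h1 : τ⁻¹ • a - a ∈ P := inv_mem hτ a
    exact ⟨fun h => by simpa using sub_mem h h1, fun h => by simpa using add_mem h1 h⟩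
  -- profinite setup
  letI : SMulCommClass H (𝓞 K) ZBar := by
    refine ⟨fun h a b => ?_⟩
    rw [Algebra.smul_def, Algebra.smul_def, smul_mul']
    congr 1
    apply Subtype.ext
    exact (IntermediateField.mem_fixingSubgroup_iff K (h : GalQ)).mp (by rw [hKfix]; exact h.2)
      _ (a : K).2
  have : Algebra.IsInvariant (𝓞 K) ZBar H := by
    refine ⟨fun b hb => ?_⟩
    have hbK : (b : QBar) ∈ K := by
      rw [← InfiniteGalois.fixedField_fixingSubgroup K, IntermediateField.mem_fixedField_iff]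
      exact fun u hu => congrArg Subtype.val (hb ⟨u, hu⟩)
    refine ⟨⟨⟨(b : QBar), hbK⟩, ?_⟩, rfl⟩
    exact (isIntegral_algHom_iff (K.val.restrictScalars ℤ) Subtype.val_injective).mp b.2
  letI : TopologicalSpace ZBar := ⊥
  haveI : DiscreteTopology ZBar := ⟨rfl⟩
  haveI : ContinuousSMul H ZBar := by
    rw [continuousSMul_iff_stabilizer_isOpen]
    intro b
    have h1 := stabilizer_isOpen_of_isIntegral (K := ℚ) (L := QBar) (b : QBar)
    have : (MulAction.stabilizer H b : Set H)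
        = (fun h : H => (h : GalQ)) ⁻¹' (MulAction.stabilizer GalQ (b : QBar) : Set GalQ) := by
      ext h
      exact Subtype.ext_iff
    rw [this]
    exact h1.preimage continuous_subtype_val
  haveI : CompactSpace H := isCompact_iff_compactSpace.mp hclosed.isCompact
  haveI : TotallyDisconnectedSpace GalQ := by
    haveI := krullTopology_isTotallySeparated (K := ℚ) (L := QBar)
    infer_instance
  haveI : (σ • Q).IsPrime := inferInstance
  obtain ⟨h, hh⟩ := Algebra.IsInvariant.exists_smul_of_under_eq_of_profinite (A := 𝓞 K) (G := H)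
    (σ • Q) Q (by rw [hσQ]; exact hQP.symm)
  set g : GalQ := (h : GalQ) * σ with hg
  have hgQ : g • Q = Q := by rw [hg, mul_smul]; exact hh.symm
  have hgA : ∀ a : 𝓞 K, g • algebraMap (𝓞 K) ZBar a = algebraMap (𝓞 K) ZBar (τ • a) := fun a => by
    rw [hg, mul_smul, hσA, Algebra.algebraMap_eq_smul_one]
    show h • ((τ • a) • (1 : ZBar)) = _
    rw [smul_comm, smul_one]
  let e : ZBar ≃+* ZBar := MulSemiringAction.toRingEquiv GalQ ZBar g
  let e₁ : (ZBar ⧸ Q) ≃+* (ZBar ⧸ Q) := Ideal.quotientEquiv Q Q e (by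
    conv_lhs => rw [← hgQ]
    rfl)
  let ψ : (ZBar ⧸ Q) ≃ₐ[𝓞 K ⧸ P] (ZBar ⧸ Q) :=
    AlgEquiv.ofRingEquiv (f := e₁) (fun a => by
      obtain ⟨a, rfl⟩ := Ideal.Quotient.mk_surjective a
      show Ideal.Quotient.mk Q (g • algebraMap (𝓞 K) ZBar a)
        = Ideal.Quotient.mk Q (algebraMap (𝓞 K) ZBar a)
      rw [Ideal.Quotient.mk_eq_mk_iff_sub_mem, hgA, ← map_sub, ← Ideal.mem_comap, hQP']
      exact hτ a)
  obtain ⟨k, hk⟩ := Ideal.Quotient.stabilizerHom_surjective_of_profinite P Q ψ (G := H)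
  set ρ : GalQ := ((k : H) : GalQ)⁻¹ * g with hρdef
  have hkQ : ((k : H) : GalQ) • Q = Q := k.2
  have hρ : ∀ b : ZBar, ρ • b - b ∈ Q := by
    intro b
    have h1 : Ideal.Quotient.mk Q (((k : H) : GalQ) • b) = Ideal.Quotient.mk Q (g • b) := by
      have := DFunLike.congr_fun hk (Ideal.Quotient.mk Q b)
      exact this
    rw [Ideal.Quotient.mk_eq_mk_iff_sub_mem] at h1
    have h2 : ((k : H) : GalQ)⁻¹ • (g • b - ((k : H) : GalQ) • b) ∈ Q := by
      rw [← neg_sub, smul_neg]
      refine neg_mem ?_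
      rw [← Ideal.mem_pointwise_smul_iff_inv_smul_mem, hkQ]
      exact h1
    rwa [smul_sub, inv_smul_smul, ← mul_smul] at h2
  have hρI : ρ ∈ A.inertiaSubgroupIn ℚ :=
    mem_inertia_of_integral hq hA (fun b => mem_centre.mp (hρ b))
  refine ⟨ρ, hρI, fun x => ?_⟩
  have hfix : ∀ u : H, ∀ z : K, (u : GalQ) (z : QBar) = z := fun u z =>
    (IntermediateField.mem_fixingSubgroup_iff K (u : GalQ)).mp u.2 _ z.2
  rw [hρdef, hg]
  show ((k : H) : GalQ)⁻¹ ((h : GalQ) (σ (x : QBar))) = _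
  rw [hσK, hfix, show ((k : H) : GalQ)⁻¹ = (((k : H)⁻¹ : H) : GalQ) from rfl, hfix]

theorem integral_mem (A : ValuationSubring QBar) {x : QBar} (hx : IsIntegral ℤ x) : x ∈ A := by
  have h : x ∈ (integralClosure (Subring.closure (∅ : Set QBar)) QBar).toSubring :=
    (IsIntegral.tower_top hx : IsIntegral (Subring.closure (∅ : Set QBar)) x)
  rw [← iInf_valuationSubring_superset, Subring.mem_iInf] at h
  exact h ⟨A, Set.empty_subset _⟩

theorem dvd_of_valuation_natCast_lt (hq : q.Prime) (hA : A.LiesOverPrime q) {z : ℕ}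
    (hz : A.valuation (z : QBar) < 1) : q ∣ z := by
  by_contra hd
  obtain ⟨u, v, huv⟩ := Int.isCoprime_iff_nat_coprime.mpr
    (show ((q : ℤ).natAbs).Coprime ((z : ℤ).natAbs) by simpa using hq.coprime_iff_not_dvd.mpr hd)
  have huv' : (u : QBar) * (q : QBar) + (v : QBar) * (z : QBar) = 1 := by
    exact_mod_cast congrArg (fun t : ℤ => (t : QBar)) huv
  have h1 : A.valuation (1 : QBar) < 1 := by
    rw [← huv']
    refine lt_of_le_of_lt (Valuation.map_add _ _ _) (max_lt ?_ ?_) <;> rw [map_mul]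
    · exact mul_lt_one_of_nonneg_of_lt_one_right
        ((A.valuation_le_one_iff _).mpr (intCast_mem _ _)) zero_le hA
    · exact mul_lt_one_of_nonneg_of_lt_one_right
        ((A.valuation_le_one_iff _).mpr (intCast_mem _ _)) zero_le hz
  simp at h1

set_option maxHeartbeats 1000000 in
/-- unramifiedness: a cofactor of the prime in `(q)` -/
theorem exists_cofactor (hq : q.Prime) (hA : A.LiesOverPrime q)
    (L : IntermediateField ℚ QBar) [FiniteDimensional ℚ L]
    (hL : ∀ σ ∈ A.inertiaSubgroupIn ℚ, ∀ a ∈ L, σ a = a) :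
    ∃ c : 𝓞 L, A.valuation ((c : L) : QBar) = 1 ∧
      ∀ a : 𝓞 L, A.valuation ((a : L) : QBar) < 1 → ∃ a' : 𝓞 L, c * a = (q : 𝓞 L) * a' := by
  classical
  have := isGalois_qbar
  let M : IntermediateField ℚ QBar := IntermediateField.normalClosure ℚ L QBar
  have hLM : L ≤ M := IntermediateField.le_normalClosure L
  haveI : Normal ℚ QBar := IsGalois.to_normal
  haveI : FiniteDimensional ℚ M := normalClosure.is_finiteDimensional ℚ L QBar
  haveI : NumberField L := { to_finiteDimensional := inferInstance }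
  haveI : NumberField M := { to_finiteDimensional := inferInstance }
  haveI : Normal ℚ M := normalClosure.normal ℚ L QBar
  haveI : IsGalois ℚ M := {}
  letI : Algebra L M := (IntermediateField.inclusion hLM).toRingHom.toAlgebra
  haveI : IsScalarTower ℚ L M := IsScalarTower.of_algebraMap_eq fun x =>
    ((IntermediateField.inclusion hLM).commutes x).symm
  haveI : IsGalois L M := IsGalois.tower_top_of_isGalois ℚ L M
  let φ : 𝓞 M →+* ZBar :=
    { toFun := fun a => ⟨((a : M) : QBar),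
        (NumberField.RingOfIntegers.isIntegral_coe a).map (M.val.restrictScalars ℤ)⟩
      map_one' := Subtype.ext (by simp)
      map_mul' := fun a b => Subtype.ext (by simp)
      map_zero' := Subtype.ext (by simp)
      map_add' := fun a b => Subtype.ext (by simp) }
  let P : Ideal (𝓞 M) := (centre A).comap φ
  haveI := centre_isPrime A
  haveI hPprime : P.IsPrime := Ideal.IsPrime.comap φ
  have hP : ∀ a : 𝓞 M, a ∈ P ↔ ((a : M) : QBar) ∈ A.nonunits := fun a => Iff.rfl
  have hqP : (q : 𝓞 M) ∈ P := by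
    rw [hP]
    simpa [ValuationSubring.LiesOverPrime] using hA
  haveI hPmax : P.IsMaximal := hPprime.isMaximal fun hb => by
    rw [hb, Ideal.mem_bot] at hqP
    exact (Nat.cast_ne_zero.mpr hq.ne_zero) hqP
  set pL : Ideal (𝓞 L) := P.under (𝓞 L) with hpLdef
  haveI : pL.IsPrime := Ideal.IsPrime.under _ P
  have hpLmem : ∀ a : 𝓞 L, a ∈ pL ↔ A.valuation ((a : L) : QBar) < 1 := fun a => by
    rw [hpLdef, Ideal.mem_comap, hP]
    exact Iff.trans (A.mem_nonunits_iff) Iff.rfl
  have hqL : (q : 𝓞 L) ∈ pL := by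
    rw [hpLdef, Ideal.mem_comap, map_natCast]
    exact hqP
  have hpL0 : pL ≠ ⊥ := fun hb => by
    rw [hb, Ideal.mem_bot] at hqL
    exact (Nat.cast_ne_zero.mpr hq.ne_zero) hqL
  haveI : pL.IsMaximal := (inferInstance : pL.IsPrime).isMaximal hpL0
  letI : MulSemiringAction Gal(M/ℚ) (𝓞 M) := IsIntegralClosure.MulSemiringAction ℤ ℚ M (𝓞 M)
  letI : MulSemiringAction Gal(M/L) (𝓞 M) :=
    IsIntegralClosure.MulSemiringAction (𝓞 L) L M (𝓞 M)
  haveI := IsGaloisGroup.of_isFractionRing Gal(M/ℚ) ℤ (𝓞 M) ℚ M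
  haveI := IsGaloisGroup.of_isFractionRing Gal(M/L) (𝓞 L) (𝓞 M) L M
  have hlift : ∀ τ : Gal(M/ℚ), τ ∈ P.inertia Gal(M/ℚ) → ∀ x : L,
      τ (algebraMap L M x) = algebraMap L M x := by
    intro τ hτ x
    obtain ⟨ρ, hρ, hρτ⟩ := exists_inertia_lift hq hA M P hP τ fun a => hτ a
    refine Subtype.ext ?_
    rw [← hρτ]
    exact hL ρ hρ _ x.2
  have hsmul : ∀ (τ : Gal(M/L)) (a : 𝓞 M), (τ.restrictScalars ℚ) • a = τ • a := fun τ a => by
    refine NumberField.RingOfIntegers.coe_injective ?_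
    exact (algebraMap_galRestrict_apply ℤ (τ.restrictScalars ℚ) a).trans
      (algebraMap_galRestrict_apply (𝓞 L) τ a).symm
  have hcard : Nat.card (P.inertia Gal(M/L)) = Nat.card (P.inertia Gal(M/ℚ)) := by
    refine Nat.card_congr (Equiv.ofBijective
      (fun τ => ⟨(τ : Gal(M/L)).restrictScalars ℚ, fun a => ?_⟩) ⟨?_, ?_⟩)
    · rw [hsmul]
      exact τ.2 a
    · intro τ τ' h
      refine Subtype.ext (AlgEquiv.ext fun x => ?_)
      exact DFunLike.congr_fun (congrArg Subtype.val h) x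
    · rintro ⟨τ, hτ⟩
      let τ' : Gal(M/L) := AlgEquiv.ofRingEquiv (f := τ.toRingEquiv) (hlift τ hτ)
      have hτ' : τ'.restrictScalars ℚ = τ := AlgEquiv.ext fun x => rfl
      refine ⟨⟨τ', fun a => ?_⟩, Subtype.ext hτ'⟩
      rw [← hsmul, hτ']
      exact hτ a
  haveI : Finite (𝓞 L ⧸ pL) := Ideal.finiteQuotientOfFreeOfNeBot pL hpL0
  haveI : (P.under ℤ).IsPrime := Ideal.IsPrime.under ℤ P
  rw [Ideal.card_inertia_eq_ramificationIdxIn (G := Gal(M/ℚ)) (P.under ℤ) P,
    Ideal.card_inertia_eq_ramificationIdxIn (G := Gal(M/L)) pL P,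
    Ideal.ramificationIdxIn_eq_ramificationIdx (P.under ℤ) P Gal(M/ℚ),
    Ideal.ramificationIdxIn_eq_ramificationIdx pL P Gal(M/L)] at hcard
  haveI : P.LiesOver pL := ⟨rfl⟩
  have htower := Ideal.ramificationIdx_tower (R := ℤ) pL P
  rw [← hcard] at htower
  have hone : pL.ramificationIdx ℤ = 1 :=
    (Nat.eq_of_mul_eq_mul_right (Ideal.ramificationIdx_pos P (𝓞 L)) (by rw [one_mul, ← htower]))
  have hspan : Ideal.span {(q : ℤ)} = pL.under ℤ := by
    have hmax : (Ideal.span {(q : ℤ)}).IsMaximal :=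
      PrincipalIdealRing.isMaximal_of_irreducible (Nat.prime_iff_prime_int.mp hq).irreducible
    refine hmax.eq_of_le (Ideal.IsPrime.under ℤ pL).ne_top ?_
    rw [Ideal.span_singleton_le_iff_mem, Ideal.mem_comap, map_natCast]
    exact hqL
  haveI : pL.LiesOver (Ideal.span {(q : ℤ)}) := ⟨hspan⟩
  set I : Ideal (𝓞 L) := Ideal.span {(q : 𝓞 L)} with hI
  have hmap : (Ideal.span {(q : ℤ)}).map (algebraMap ℤ (𝓞 L)) = I := by
    rw [Ideal.map_span, Set.image_singleton, map_natCast]
  have hI0 : I ≠ ⊥ := by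
    rw [hI, Ne, Ideal.span_singleton_eq_bot]
    exact Nat.cast_ne_zero.mpr hq.ne_zero
  rw [Ideal.IsDedekindDomain.ramificationIdx_eq_multiplicity (Ideal.span {(q : ℤ)}) pL
    (by rwa [hmap]), hmap] at hone
  obtain ⟨J, hJ⟩ : pL ∣ I := Ideal.dvd_iff_le.mpr (by rwa [hI, Ideal.span_singleton_le_iff_mem])
  have hnle : ¬ J ≤ pL := fun hle => by
    have h2 : pL ^ 2 ∣ I := by
      rw [hJ, sq]
      exact mul_dvd_mul_left pL (Ideal.dvd_iff_le.mpr hle)
    have hfin : FiniteMultiplicity pL I :=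
      FiniteMultiplicity.of_prime_left (Ideal.prime_of_isPrime hpL0 inferInstance) hI0
    have := hfin.le_multiplicity_of_pow_dvd h2
    omega
  obtain ⟨c, hcJ, hcP⟩ := SetLike.not_le_iff_exists.mp hnle
  refine ⟨c, le_antisymm ?_ (not_lt.mp fun hlt => hcP ((hpLmem c).mpr hlt)), fun a ha => ?_⟩
  · exact (A.valuation_le_one_iff _).mpr (integral_mem A
      ((NumberField.RingOfIntegers.isIntegral_coe c).map (L.val.restrictScalars ℤ)))
  · have hmem : c * a ∈ I := by
      rw [hJ, mul_comm c a]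
      exact Ideal.mul_mem_mul ((hpLmem a).mpr ha) hcJ
    exact Ideal.mem_span_singleton.mp hmem

/-- values of the valuation on an inertia-fixed number field are powers of that of `q` -/
theorem exists_zpow_valuation (hq : q.Prime) (hA : A.LiesOverPrime q)
    (L : IntermediateField ℚ QBar) [FiniteDimensional ℚ L]
    (hL : ∀ σ ∈ A.inertiaSubgroupIn ℚ, ∀ a ∈ L, σ a = a) {x : QBar} (hx : x ∈ L) (hx0 : x ≠ 0) :
    ∃ k : ℤ, A.valuation x = A.valuation (q : QBar) ^ k := by
  classical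
  haveI : NumberField L := { to_finiteDimensional := inferInstance }
  obtain ⟨c, hc, hcof⟩ := exists_cofactor hq hA L hL
  let v : 𝓞 L → _ := fun a => A.valuation ((a : L) : QBar)
  have hint : ∀ a : 𝓞 L, ((a : L) : QBar) ∈ A := fun a => integral_mem A
    ((NumberField.RingOfIntegers.isIntegral_coe a).map (L.val.restrictScalars ℤ))
  have hq0 : (q : QBar) ≠ 0 := Nat.cast_ne_zero.mpr hq.ne_zero
  have key : ∀ z : ℕ, z ≠ 0 → ∀ a : 𝓞 L, (∃ w ∈ A, (z : QBar) = ((a : L) : QBar) * w) →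
      ∃ j : ℕ, A.valuation ((a : L) : QBar) = A.valuation (q : QBar) ^ j := by
    intro z
    induction z using Nat.strong_induction_on with
    | _ z ih =>
      intro hz a hw
      obtain ⟨w, hw, hzw⟩ := hw
      rcases lt_or_eq_of_le ((A.valuation_le_one_iff _).mpr (hint a)) with hlt | heq
      · obtain ⟨a', ha'⟩ := hcof a hlt
        have hzlt : A.valuation (z : QBar) < 1 := by
          rw [hzw, map_mul]
          exact mul_lt_one_of_nonneg_of_lt_one_left zero_le hlt ((A.valuation_le_one_iff _).mpr hw)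
        obtain ⟨z₁, rfl⟩ := dvd_of_valuation_natCast_lt hq hA hzlt
        have hz1 : z₁ ≠ 0 := fun h => hz (by simp [h])
        have ha'' : ((c : L) : QBar) * ((a : L) : QBar) = (q : QBar) * ((a' : L) : QBar) := by
          have := congrArg (fun t : 𝓞 L => ((t : L) : QBar)) ha'
          simpa using this
        have hc0 : ((c : L) : QBar) ≠ 0 := fun h => by rw [h, map_zero] at hc; exact zero_ne_one hc
        obtain ⟨j, hj⟩ := ih z₁ (lt_mul_of_one_lt_left (Nat.pos_of_ne_zero hz1) hq.one_lt) hz1 a'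
          ⟨w * ((c : L) : QBar)⁻¹, mul_mem hw ((A.valuation_le_one_iff _).mp (by
            rw [map_inv₀, hc, inv_one])), by
            refine mul_left_cancel₀ hq0 ?_
            rw [← mul_assoc, ← ha'']
            push_cast at hzw
            rw [hzw]
            field_simp⟩
        refine ⟨j + 1, ?_⟩
        have := congrArg A.valuation ha''
        rw [map_mul, map_mul, hc, one_mul, hj] at this
        rw [this, pow_succ']
      · exact ⟨0, by rw [heq, pow_zero]⟩
  have key' : ∀ a : 𝓞 L, a ≠ 0 →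
      ∃ j : ℕ, A.valuation ((a : L) : QBar) = A.valuation (q : QBar) ^ j := by
    intro a ha
    obtain ⟨b, hb⟩ := Ideal.mem_span_singleton.mp (Ideal.absNorm_mem (Ideal.span {a}))
    refine key (Ideal.absNorm (Ideal.span {a})) ?_ a ⟨((b : L) : QBar), hint b, ?_⟩
    · rw [Ne, Ideal.absNorm_eq_zero_iff, Ideal.span_singleton_eq_bot]
      exact ha
    · have := congrArg (fun t : 𝓞 L => ((t : L) : QBar)) hb
      simpa using this
  obtain ⟨a, b, hb, hab⟩ := IsFractionRing.div_surjective (A := 𝓞 L) (⟨x, hx⟩ : L)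
  have hxab : x = ((a : L) : QBar) / ((b : L) : QBar) := by
    have := congrArg (fun t : L => (t : QBar)) hab
    simpa using this.symm
  have ha0 : a ≠ 0 := fun h => hx0 (by rw [hxab, h]; simp)
  obtain ⟨i, hi⟩ := key' a ha0
  obtain ⟨j, hj⟩ := key' b (nonZeroDivisors.ne_zero hb)
  refine ⟨(i : ℤ) - j, ?_⟩
  rw [hxab, map_div₀, hi, hj, zpow_sub₀ ((map_ne_zero _).mpr hq0), zpow_natCast, zpow_natCast]

/-- `q` generates the maximal ideal of `A ∩ L` -/
theorem exists_eq_q_mul (hq : q.Prime) (hA : A.LiesOverPrime q)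
    (L : IntermediateField ℚ QBar) [FiniteDimensional ℚ L]
    (hL : ∀ σ ∈ A.inertiaSubgroupIn ℚ, ∀ a ∈ L, σ a = a) {x : QBar} (hx : x ∈ L)
    (hlt : A.valuation x < 1) :
    ∃ y ∈ L, y ∈ A ∧ x = q * y := by
  have hq0 : (q : QBar) ≠ 0 := Nat.cast_ne_zero.mpr hq.ne_zero
  refine ⟨x / q, div_mem hx (natCast_mem L q), ?_, by field_simp⟩
  rcases eq_or_ne x 0 with rfl | hx0
  · simp
  obtain ⟨k, hk⟩ := exists_zpow_valuation hq hA L hL hx hx0
  rw [← A.valuation_le_one_iff, map_div₀, div_le_one₀ (zero_lt_iff.mpr ((map_ne_zero _).mpr hq0)),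
    hk]
  have hvq : A.valuation (q : QBar) < 1 := hA
  have hk1 : (1 : ℤ) ≤ k := by
    by_contra hle
    rw [hk] at hlt
    exact absurd hlt (not_lt.mpr (one_le_zpow_of_nonpos₀ (zero_lt_iff.mpr ((map_ne_zero _).mpr hq0))
      hvq.le (by omega)))
  exact (zpow_le_zpow_right_of_le_one₀ (zero_lt_iff.mpr ((map_ne_zero _).mpr hq0)) hvq.le hk1).trans
    (by rw [zpow_one])

end FLTAgent.SS2

end
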