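import Fermat.Agent.HeckeJ.API
import Fermat.Agent.SS2.Incl
import Fermat.Agent.SS2.Unramified

/-!
A class in the torsion of `J₀(N)` fixed by inertia at `A` has a divisor and a trivialisation
rational over a number field unramified at `A`.
-/

set_option autoImplicit false

noncomputable section

open ModularCurve AlgebraicCurve

namespace FLTAgent.SS2

local notation "Kb" => AlgebraicClosure ℚ

/-- the Galois action on functions -/
abbrev galFn (N : ℕ) (σ : Kb ≃ₐ[ℚ] Kb) : SemilinearAut Kb (Fld N) :=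
  arithmeticGalois (modularFunctionFieldFull N) σ

/-- a rational representative of an `n`-torsion class fixed by inertia at `A` -/
structure RatClass (N : ℕ) [NeZero N] (n : ℕ) (A : ValuationSubring Kb) where
  /-- the field of rationality -/
  L : IntermediateField ℚ Kb
  finite : FiniteDimensional ℚ L
  inertia : ∀ σ ∈ A.inertiaSubgroupIn ℚ, ∀ a ∈ L, σ a = a
  /-- the divisor -/
  D : Divisor Kb (Fld N)
  degree_D : D ∈ Divisor.degZero (K := Kb) (F := Fld N)
  D_fixed : ∀ σ : Kb ≃ₐ[ℚ] Kb, (∀ a ∈ L, σ a = a) → galFn N σ • D = D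
  /-- the trivialisation -/
  f : Fld N
  f_ne : f ≠ 0
  ord_f : ∀ P : Place Kb (Fld N), (n : ℤ) * D P = P.ord f
  f_fixed : ∀ σ : Kb ≃ₐ[ℚ] Kb, (∀ a ∈ L, σ a = a) → galFn N σ • f = f
  coeff_mem : ∀ i : ℤ, (f : LaurentSeries Kb).coeff i ∈ L

variable {N : ℕ} [NeZero N] {n : ℕ} {A : ValuationSubring Kb}

/-- the class represented -/
def RatClass.cls (R : RatClass N n A) : JZero N := Pic0.mk ⟨R.D, R.degree_D⟩

theorem pic0_mk_eq_zero_iff (D : Divisor.degZero (K := Kb) (F := Fld N)) :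
    Pic0.mk D = 0 ↔ Divisor.IsPrincipal (D : Divisor Kb (Fld N)) := by
  show QuotientAddGroup.mk D = (0 : _ ⧸ _) ↔ _
  rw [QuotientAddGroup.eq_zero_iff, AddSubgroup.mem_addSubgroupOf, Divisor.mem_principal]

theorem RatClass.nsmul_cls (R : RatClass N n A) : n • R.cls = 0 := by
  have : n • R.cls = Pic0.mk (n • (⟨R.D, R.degree_D⟩ : Divisor.degZero (K := Kb) (F := Fld N))) :=
    (map_nsmul (QuotientAddGroup.mk' _) n _).symm
  rw [this, pic0_mk_eq_zero_iff]
  refine ⟨R.f, R.f_ne, fun P => ?_⟩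
  rw [← R.ord_f P, AddSubgroupClass.coe_nsmul, Finsupp.smul_apply, nsmul_eq_mul]

theorem RatClass.smul_cls' (R : RatClass N n A) {σ : Kb ≃ₐ[ℚ] Kb}
    (hσ : ∀ a ∈ R.L, σ a = a) : σ • R.cls = R.cls := by
  rw [RatClass.cls, galois_smul_pic0_def, SemilinearAut.pic0_smul_mk]
  exact congrArg Pic0.mk (Subtype.ext (R.D_fixed σ hσ))

theorem RatClass.smul_cls (R : RatClass N n A) {σ : Kb ≃ₐ[ℚ] Kb}
    (hσ : σ ∈ A.inertiaSubgroupIn ℚ) : σ • R.cls = R.cls :=
  R.smul_cls' (R.inertia σ hσ)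

/-! ### normalised functions -/

/-- leading coefficient of the expansion at infinity -/
def lead (N : ℕ) [NeZero N] (x : Fld N) : Kb := HahnSeries.leadingCoeff (x : LaurentSeries Kb)

theorem lead_ne_zero {x : Fld N} (hx : x ≠ 0) : lead N x ≠ 0 := by
  rw [lead, Ne, HahnSeries.leadingCoeff_eq_zero]
  simpa using hx

theorem lead_mul (x y : Fld N) : lead N (x * y) = lead N x * lead N y := by
  simp [lead, HahnSeries.leadingCoeff_mul]

theorem lead_const (c : Kb) : lead N (algebraMap Kb (Fld N) c) = c := by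
  show HahnSeries.leadingCoeff (algebraMap Kb (LaurentSeries Kb) c) = c
  rw [algebraMap_laurentSeries_eq_single, HahnSeries.leadingCoeff_of_single]

theorem lead_smul (σ : Kb ≃ₐ[ℚ] Kb) (x : Fld N) : lead N (galFn N σ • x) = σ (lead N x) := by
  rcases eq_or_ne x 0 with rfl | hx
  · rw [smul_zero]
    simp [lead]
  have hx' : (x : LaurentSeries Kb) ≠ 0 := by simpa using hx
  rw [lead, lead, coe_arithmeticGalois_smul]
  have hy : coeffMap (σ : Kb →+* Kb) (x : LaurentSeries Kb) ≠ 0 := fun h => hx' (by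
    refine HahnSeries.ext (funext fun k => σ.injective ?_)
    rw [HahnSeries.coeff_zero, map_zero]
    have := congrArg (fun z : LaurentSeries Kb => z.coeff k) h
    simpa using this)
  rw [HahnSeries.leadingCoeff_eq, HahnSeries.leadingCoeff_eq]
  have hord : (coeffMap (σ : Kb →+* Kb) (x : LaurentSeries Kb)).order
      = (x : LaurentSeries Kb).order := by
    refine le_antisymm (HahnSeries.order_le_of_coeff_ne_zero ?_)
      (HahnSeries.order_le_of_coeff_ne_zero ?_)
    · rw [coeffMap_coeff]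
      exact (map_ne_zero _).mpr (by
        rw [← HahnSeries.leadingCoeff_eq]; exact HahnSeries.leadingCoeff_ne_zero.mpr hx')
    · have := HahnSeries.leadingCoeff_ne_zero.mpr hy
      rw [HahnSeries.leadingCoeff_eq, coeffMap_coeff] at this
      exact fun h => this (by rw [h, map_zero])
  rw [hord, coeffMap_coeff]
  rfl

theorem exists_const_of_ord {h : Fld N} (h0 : ∀ v : Place Kb (Fld N), v.ord h = 0) :
    ∃ c : Kb, h = algebraMap Kb (Fld N) c := by
  rcases RR.exists_const_or_transcendental (K := Kb) h with ⟨c, hc⟩ | htr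
  · exact ⟨c, hc.symm⟩
  · exfalso
    have h1 := RR.sum_ord_poles (K := Kb) htr ∅ fun v => by simp [h0 v]
    haveI := RR.finiteDimensional_adjoin (K := Kb) htr
    have h2 : 0 < RR.ndeg Kb h := Module.finrank_pos
    simp at h1
    omega

theorem eq_of_ord_lead {f g : Fld N} (hf : f ≠ 0) (hg : g ≠ 0)
    (hord : ∀ v : Place Kb (Fld N), v.ord f = v.ord g) (hl : lead N f = lead N g) : f = g := by
  obtain ⟨c, hc⟩ := exists_const_of_ord (h := f * g⁻¹) fun v => by
    rw [v.ord_mul hf (inv_ne_zero hg), v.ord_inv, hord v, add_neg_cancel]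
  have hfc : f = algebraMap Kb (Fld N) c * g := by rw [← hc, inv_mul_cancel_right₀ hg]
  have h1 : c * lead N g = lead N g := by
    rw [← hl]
    conv_rhs => rw [hfc, lead_mul, lead_const]
    rw [hl]
  rw [hfc, show c = 1 from (mul_eq_right₀ (lead_ne_zero hg)).mp h1, map_one, one_mul]

theorem exists_normalised {D : Divisor Kb (Fld N)} (hD : D.IsPrincipal) :
    ∃ f : Fld N, f ≠ 0 ∧ (∀ v, D v = v.ord f) ∧ lead N f = 1 := by
  obtain ⟨f, hf, hfD⟩ := hD
  have hl := lead_ne_zero hf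
  have hc : algebraMap Kb (Fld N) (lead N f)⁻¹ ≠ 0 := (map_ne_zero _).mpr (inv_ne_zero hl)
  refine ⟨algebraMap Kb (Fld N) (lead N f)⁻¹ * f, mul_ne_zero hc hf, fun v => ?_, ?_⟩
  · rw [v.ord_mul hc hf, RR.ord_algebraMap, zero_add, hfD]
  · rw [lead_mul, lead_const, inv_mul_cancel₀ hl]

theorem ord_galFn (σ : Kb ≃ₐ[ℚ] Kb) (v : Place Kb (Fld N)) (x : Fld N) :
    v.ord (galFn N σ • x) = ((galFn N σ)⁻¹ • v).ord x := by
  conv_lhs => rw [show v = galFn N σ • ((galFn N σ)⁻¹ • v) from (smul_inv_smul _ v).symm]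
  exact SemilinearAut.ord_smul _ _ _

/-! ### the averaging -/

theorem exists_rat_divisor (L : IntermediateField ℚ Kb) (D₀ : Divisor Kb (Fld N))
    (h : ∀ σ : Kb ≃ₐ[ℚ] Kb, (∀ a ∈ L, σ a = a) → (galFn N σ • D₀ - D₀).IsPrincipal) :
    ∃ S : Fld N, S ≠ 0 ∧ ∀ σ : Kb ≃ₐ[ℚ] Kb, (∀ a ∈ L, σ a = a) →
      ∀ v : Place Kb (Fld N), (galFn N σ • D₀) v + v.ord (galFn N σ • S) = D₀ v + v.ord S := by
  classical
  let G := L.fixingSubgroup
  have hG : ∀ {σ : Kb ≃ₐ[ℚ] Kb}, σ ∈ G ↔ ∀ a ∈ L, σ a = a :=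
    @fun σ => IntermediateField.mem_fixingSubgroup_iff L σ
  obtain ⟨M, hM, hMfix⟩ := HeckeJ.hasLevel_divisor (N := N) D₀
  haveI := hM
  choose hfun hne hdiv hlead using fun σ : G => exists_normalised (h σ (hG.mp σ.2))
  -- cocycle
  have hcoc : ∀ σ τ : G, hfun (σ * τ) = hfun σ * galFn N σ • hfun τ := by
    intro σ τ
    have hne2 : galFn N σ • hfun τ ≠ 0 := fun h0 =>
      hne τ ((smul_eq_zero_iff_eq _).mp h0)
    refine eq_of_ord_lead (hne _) (mul_ne_zero (hne σ) hne2) (fun v => ?_) ?_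
    · rw [v.ord_mul (hne σ) hne2, ord_galFn, ← hdiv, ← hdiv, ← hdiv, Finsupp.sub_apply,
        Finsupp.sub_apply, Finsupp.sub_apply, ← SemilinearAut.divisor_smul_apply,
        ← SemilinearAut.divisor_smul_apply, ← mul_smul, ← map_mul]
      simp only [Subgroup.coe_mul]
      ring
    · rw [hlead, lead_mul, lead_smul, hlead, hlead, map_one, mul_one]
  let U : Subgroup G := M.fixingSubgroup.subgroupOf G
  have hU : ∀ σ : G, σ ∈ U → hfun σ = 1 := by
    intro σ hσ
    have hD : galFn N σ • D₀ = D₀ :=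
      hMfix _ ((IntermediateField.mem_fixingSubgroup_iff M (σ : Kb ≃ₐ[ℚ] Kb)).mp hσ)
    refine eq_of_ord_lead (hne _) one_ne_zero (fun v => ?_) ?_
    · rw [← hdiv, hD, sub_self, Finsupp.zero_apply, Place.ord_one]
    · rw [hlead]
      simp [lead]
  have hUM : ∀ σ : G, σ ∈ U → ∀ a : M, (σ : Kb ≃ₐ[ℚ] Kb) (a : Kb) = a := fun σ hσ a =>
    (IntermediateField.mem_fixingSubgroup_iff M (σ : Kb ≃ₐ[ℚ] Kb)).mp hσ a a.2
  have hwell : ∀ σ τ : G, σ⁻¹ * τ ∈ U → hfun σ = hfun τ := by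
    intro σ τ hστ
    have := hcoc σ (σ⁻¹ * τ)
    rw [mul_inv_cancel_left, hU _ hστ, smul_one, mul_one] at this
    exact this.symm
  have hwellM : ∀ σ τ : G, σ⁻¹ * τ ∈ U → ∀ a : M,
      (σ : Kb ≃ₐ[ℚ] Kb) (a : Kb) = (τ : Kb ≃ₐ[ℚ] Kb) (a : Kb) := by
    intro σ τ hστ a
    have := hUM _ hστ a
    apply_fun (σ : Kb ≃ₐ[ℚ] Kb) at this
    rw [← this]
    simp
  -- the finitely many characters
  let res : G ⧸ U → (M →ₐ[ℚ] Kb) := fun x => ((x.out : Kb ≃ₐ[ℚ] Kb) : Kb →ₐ[ℚ] Kb).comp M.val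
  have hres : Function.Injective res := by
    intro x y hxy
    rw [← QuotientGroup.out_eq' x, ← QuotientGroup.out_eq' y, QuotientGroup.eq,
      Subgroup.mem_subgroupOf, IntermediateField.mem_fixingSubgroup_iff]
    intro a ha
    have h2 := DFunLike.congr_fun hxy (⟨a, ha⟩ : M)
    change (x.out : Kb ≃ₐ[ℚ] Kb) a = (y.out : Kb ≃ₐ[ℚ] Kb) a at h2
    simp only [Subgroup.coe_mul, Subgroup.coe_inv, AlgEquiv.mul_apply, ← h2]
    exact (x.out : Kb ≃ₐ[ℚ] Kb).symm_apply_apply a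
  haveI : Finite (G ⧸ U) := Finite.of_injective res hres
  haveI : Fintype (G ⧸ U) := Fintype.ofFinite _
  let χ : G ⧸ U → (M →* Fld N) := fun x =>
    ((algebraMap Kb (Fld N)).comp (res x).toRingHom).toMonoidHom
  have hχ : Function.Injective χ := fun x y hxy => hres (AlgHom.ext fun a => by
    exact (algebraMap Kb (Fld N)).injective (DFunLike.congr_fun hxy a))
  obtain ⟨a, ha⟩ : ∃ a : M,
      ∑ x : G ⧸ U, hfun x.out * algebraMap Kb (Fld N) (res x a) ≠ 0 := by
    by_contra hcon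
    push Not at hcon
    have hsum : ∑ x : G ⧸ U, hfun x.out • ⇑(χ x) = 0 := by
      funext a
      rw [Finset.sum_apply]
      exact hcon a
    exact hne _ (Fintype.linearIndependent_iff.mp
      ((linearIndependent_monoidHom M (Fld N)).comp χ hχ) _ hsum (QuotientGroup.mk 1))
  refine ⟨_, ha, fun σ₀ hσ₀ v => ?_⟩
  set S := ∑ x : G ⧸ U, hfun x.out * algebraMap Kb (Fld N) (res x a) with hS
  let σ : G := ⟨σ₀, hG.mpr hσ₀⟩
  have hact : hfun σ * galFn N σ₀ • S = S := by
    rw [hS, Finset.smul_sum, Finset.mul_sum]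
    refine Fintype.sum_equiv (MulAction.toPerm σ) _ _ fun x => ?_
    have hmem : (σ * x.out)⁻¹ * (σ • x).out ∈ U := by
      rw [← QuotientGroup.eq, QuotientGroup.out_eq', ← smul_eq_mul,
        ← MulAction.Quotient.smul_mk, QuotientGroup.out_eq']
    rw [MulAction.toPerm_apply, smul_mul', ← mul_assoc, ← hcoc σ, hwell _ _ hmem,
      SemilinearAut.smul_algebraMap]
    refine congrArg (_ * algebraMap Kb (Fld N) ·) ?_
    exact hwellM _ _ hmem a
  have hne2 : galFn N σ₀ • S ≠ 0 := fun h0 => ha ((smul_eq_zero_iff_eq _).mp h0)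
  conv_rhs => rw [← hact, v.ord_mul (hne σ) hne2, ← hdiv, Finsupp.sub_apply]
  ring

/-- the rational representative -/
theorem exists_ratClass (y : JZero N) (hy : n • y = 0)
    (hfix : ∀ σ ∈ A.inertiaSubgroupIn ℚ, σ • y = y) : ∃ R : RatClass N n A, R.cls = y := by
  classical
  haveI := Common.isGalois_qbar
  let H : Subgroup (Kb ≃ₐ[ℚ] Kb) := MulAction.stabilizer _ y
  obtain ⟨L₀, hL₀, hL₀y⟩ := HeckeJ.exists_level N y
  haveI := hL₀
  have hle : L₀.fixingSubgroup ≤ H := fun σ hσ =>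
    hL₀y σ ((IntermediateField.mem_fixingSubgroup_iff L₀ σ).mp hσ)
  have hopen : IsOpen (H : Set (Kb ≃ₐ[ℚ] Kb)) :=
    Subgroup.isOpen_mono hle L₀.fixingSubgroup_isOpen
  have hclosed : IsClosed (H : Set (Kb ≃ₐ[ℚ] Kb)) := Subgroup.isClosed_of_isOpen H hopen
  set L := IntermediateField.fixedField H with hL
  have hLfix : L.fixingSubgroup = H :=
    InfiniteGalois.fixingSubgroup_fixedField (⟨H, hclosed⟩ : ClosedSubgroup _)
  have hLfin : FiniteDimensional ℚ L :=
    (InfiniteGalois.isOpen_iff_finite L).mp (by rw [hLfix]; exact hopen)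
  have hstab : ∀ {σ : Kb ≃ₐ[ℚ] Kb}, (∀ a ∈ L, σ a = a) → σ • y = y := fun {σ} hσ => by
    have : σ ∈ H := hLfix ▸ (IntermediateField.mem_fixingSubgroup_iff L σ).mpr hσ
    exact this
  have hinL : ∀ σ ∈ A.inertiaSubgroupIn ℚ, ∀ a ∈ L, σ a = a := fun σ hσ => by
    have : σ ∈ L.fixingSubgroup := hLfix.symm ▸ (show σ ∈ H from hfix σ hσ)
    exact (IntermediateField.mem_fixingSubgroup_iff L σ).mp this
  obtain ⟨⟨D₀, hD₀⟩, rfl⟩ := Pic0.mk_surjective y
  obtain ⟨S, hS, hSinv⟩ := exists_rat_divisor (N := N) L D₀ fun σ hσ => by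
    have h1 : σ • Pic0.mk ⟨D₀, hD₀⟩ - Pic0.mk ⟨D₀, hD₀⟩ = 0 := sub_eq_zero.mpr (hstab hσ)
    rw [galois_smul_pic0_def, SemilinearAut.pic0_smul_mk] at h1
    exact (pic0_mk_eq_zero_iff _).mp h1
  haveI := HeckeJ.hasPrincipalDivisors_bar N
  obtain ⟨E, hE, hE0⟩ :=
    HasPrincipalDivisors.exists_divisor (K := Kb) (F := Fld N) S hS
  have hEp : E.IsPrincipal := ⟨S, hS, hE⟩
  have hdeg : D₀ + E ∈ Divisor.degZero (K := Kb) (F := Fld N) :=
    add_mem hD₀ (Divisor.mem_degZero.mpr hE0)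
  have hcls : Pic0.mk ⟨D₀ + E, hdeg⟩ = Pic0.mk ⟨D₀, hD₀⟩ := by
    rw [show (⟨D₀ + E, hdeg⟩ : Divisor.degZero (K := Kb) (F := Fld N)) =
      ⟨D₀, hD₀⟩ + ⟨E, Divisor.mem_degZero.mpr hE0⟩ from rfl, Pic0.mk_add,
      (pic0_mk_eq_zero_iff ⟨E, Divisor.mem_degZero.mpr hE0⟩).mpr hEp, add_zero]
  have hDfix : ∀ σ : Kb ≃ₐ[ℚ] Kb, (∀ a ∈ L, σ a = a) → galFn N σ • (D₀ + E) = D₀ + E := by
    intro σ hσ
    refine Finsupp.ext fun v => ?_
    rw [smul_add, Finsupp.add_apply, Finsupp.add_apply, SemilinearAut.divisor_smul_apply _ E, hE,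
      hE, ← ord_galFn]
    exact hSinv σ hσ v
  obtain ⟨f, hf, hfD, hfl⟩ := exists_normalised (D := n • (D₀ + E)) (by
    have h2 : n • Pic0.mk ⟨D₀ + E, hdeg⟩ = 0 := by rw [hcls, hy]
    rw [show n • Pic0.mk ⟨D₀ + E, hdeg⟩ =
      Pic0.mk (n • (⟨D₀ + E, hdeg⟩ : Divisor.degZero (K := Kb) (F := Fld N))) from
        (map_nsmul (QuotientAddGroup.mk' _) n _).symm, pic0_mk_eq_zero_iff] at h2
    exact h2)
  have hord : ∀ v : Place Kb (Fld N), (n : ℤ) * (D₀ + E) v = v.ord f := fun v => by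
    rw [← hfD, Finsupp.smul_apply, nsmul_eq_mul]
  have hffix : ∀ σ : Kb ≃ₐ[ℚ] Kb, (∀ a ∈ L, σ a = a) → galFn N σ • f = f := fun σ hσ =>
    eq_of_ord_lead (fun h0 => hf ((smul_eq_zero_iff_eq _).mp h0)) hf (fun v => by
      rw [ord_galFn, ← hord, ← hord, ← SemilinearAut.divisor_smul_apply, hDfix σ hσ])
      (by rw [lead_smul, hfl, map_one])
  refine ⟨⟨L, hLfin, hinL, D₀ + E, hdeg, hDfix, f, hf, hord, hffix, fun i => ?_⟩, hcls⟩
  rw [← InfiniteGalois.fixedField_fixingSubgroup L, IntermediateField.mem_fixedField_iff]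
  intro σ hσ
  have h3 := congrArg (fun z : Fld N => (z : LaurentSeries Kb).coeff i)
    (hffix σ ((IntermediateField.mem_fixingSubgroup_iff L σ).mp hσ))
  simp only [coe_arithmeticGalois_smul, coeffMap_coeff] at h3
  exact h3

/-- pushing forward a pull-back multiplies by the degree -/
theorem pushforward_pullback {N' : ℕ} [NeZero N'] [HasPrincipalDivisors Kb (Fld N')]
    (φ : Fld N →ₐ[Kb] Fld N') (hφ : φ.toRingHom.IsIntegral) (D : Divisor Kb (Fld N)) :
    Divisor.pushforwardAlong φ hφ (Divisor.pullbackAlong φ hφ D) =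
      (finrankAlong Kb φ : ℤ) • D := by
  induction D using Finsupp.induction with
  | zero => simp
  | single_add v m D _ _ ih =>
    rw [map_add, map_add, ih, smul_add]
    congr 1
    set P := Divisor.pullbackAlong φ hφ (Finsupp.single v m) with hP
    have hsupp : ∀ w, w.restrictAlong φ hφ ≠ v → P w = 0 := fun w hw => by
      rw [hP, Divisor.pullbackAlong_apply, Finsupp.single_eq_of_ne hw, mul_zero]
    set P' := Divisor.pushforwardAlong φ hφ P with hP'
    have hsupp' : ∀ u, u ≠ v → P' u = 0 := by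
      intro u hu
      rw [hP', ← P.sum_single, map_finsuppSum, Finsupp.sum, Finsupp.finset_sum_apply]
      refine Finset.sum_eq_zero fun w hw => ?_
      rw [Divisor.pushforwardAlong_single, Finsupp.single_eq_of_ne]
      intro h1
      subst h1
      exact (Finsupp.mem_support_iff.mp hw) (hsupp w hu)
    have hsingle : P' = Finsupp.single v (P' v) := Finsupp.ext fun u => by
      rcases eq_or_ne u v with rfl | hu
      · rw [Finsupp.single_eq_same]
      · rw [hsupp' u hu, Finsupp.single_eq_of_ne hu]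
    have hd : Divisor.degree P' = (finrankAlong Kb φ : ℤ) * m := by
      rw [hP', Divisor.degree_pushforwardAlong, hP,
        Divisor.degree_pullbackAlong φ hφ (HeckeJ.fundamentalIdentityAlong φ hφ),
        Divisor.degree_single, RR.deg_eq_one, Nat.cast_one, mul_one]
    rw [hsingle, Divisor.degree_single, RR.deg_eq_one, Nat.cast_one, mul_one] at hd
    rw [hsingle, hd, Finsupp.smul_single, smul_eq_mul]

theorem intertwines_incl {N' : ℕ} [NeZero N'] (h : N ∣ N') (σ : Kb ≃ₐ[ℚ] Kb) :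
    SemilinearAut.IntertwinesAlong (incl h).toRingHom (galFn N σ) (galFn N' σ) := fun x => by
  refine Subtype.ext ?_
  show _ = ((incl h (galFn N σ • x) : Fld N') : LaurentSeries Kb)
  rw [coe_incl, coe_arithmeticGalois_smul, coe_arithmeticGalois_smul]
  exact congrArg _ (coe_incl h x)

/-- raise the level: same field, pulled back divisor, same expansion -/
theorem RatClass.exists_incl (R : RatClass N n A) {N' : ℕ} [NeZero N'] (h : N ∣ N') :
    ∃ R' : RatClass N' n A, R'.L = R.L ∧ R'.f = incl h R.f ∧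
      ∀ c : ℕ, c • R'.cls = 0 → (c * finrankAlong Kb (incl h)) • R.cls = 0 := by
  haveI := HeckeJ.hasPrincipalDivisors_bar N'
  have hint := HeckeJ.isIntegralAlong (incl h)
  have hFI := HeckeJ.fundamentalIdentityAlong (incl h) hint
  set D' := Divisor.pullbackAlong (incl h) hint R.D with hD'
  refine ⟨⟨R.L, R.finite, R.inertia, D', Divisor.pullbackAlong_mem_degZero _ hint hFI R.degree_D,
    fun σ hσ => ?_, incl h R.f, (map_ne_zero _).mpr R.f_ne, fun P => ?_, fun σ hσ => ?_,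
    fun i => ?_⟩, rfl, rfl, fun c hc => ?_⟩
  · rw [hD', ← HeckeJ.pullbackAlong_smul (incl h) hint (intertwines_incl h σ), R.D_fixed σ hσ]
  · rw [hD', Divisor.pullbackAlong_apply, Place.ord_restrictAlong (incl h) hint, ← R.ord_f]
    ring
  · refine Subtype.ext ?_
    rw [coe_arithmeticGalois_smul, coe_incl, ← coe_arithmeticGalois_smul, R.f_fixed σ hσ]
  · rw [coe_incl]
    exact R.coeff_mem i
  · rw [RatClass.cls, show c • Pic0.mk ⟨D', _⟩ = Pic0.mk (c • (⟨D', _⟩ :
      Divisor.degZero (K := Kb) (F := Fld N'))) from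
        (map_nsmul (QuotientAddGroup.mk' _) c _).symm, pic0_mk_eq_zero_iff] at hc
    rw [RatClass.cls, show (c * finrankAlong Kb (incl h)) • Pic0.mk ⟨R.D, R.degree_D⟩ =
      Pic0.mk ((c * finrankAlong Kb (incl h)) • (⟨R.D, R.degree_D⟩ :
        Divisor.degZero (K := Kb) (F := Fld N))) from
        (map_nsmul (QuotientAddGroup.mk' _) _ _).symm, pic0_mk_eq_zero_iff]
    have hp := Divisor.isPrincipal_pushforwardAlong (incl h) hint (HeckeJ.finiteAlong _)
      (HeckeJ.normFormulaAlong _ _) hc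
    change (Divisor.pushforwardAlong (incl h) hint (c • D')).IsPrincipal at hp
    rw [map_nsmul, hD', pushforward_pullback] at hp
    rw [AddSubgroupClass.coe_nsmul, mul_nsmul]
    rw [natCast_zsmul, smul_comm] at hp
    exact hp

end FLTAgent.SS2

end
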