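import Fermat.Agent.SS2.KeyDef
import Fermat.Agent.SS2.KillCore

/-!
The key statement at a prime whose square exactly divides the level: torsion fixed by inertia and
killed by both pushforwards is killed by a fixed positive integer.
-/

set_option autoImplicit false

noncomputable section

open ModularCurve AlgebraicCurve

namespace FLTAgent.SS2

local notation "Kb" => AlgebraicClosure ℚ

theorem exists_kill {M q : ℕ} [NeZero M] [NeZero q] (hq : q.Prime) (hqM : ¬ q ∣ M)
    (A : ValuationSubring Kb) (hA : A.LiesOverPrime q) :
    ∃ c : ℕ, 0 < c ∧ ∀ (n : ℕ) (y : JZero (M * q * q)), Nat.Coprime n q → n • y = 0 →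
      (∀ σ ∈ A.inertiaSubgroupIn ℚ, σ • y = y) → KilledByPush (M * q) q y → c • y = 0 :=
  exists_kill_of_core hq hqM A (coreKill hq A hA)

end FLTAgent.SS2
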