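import Fermat.Agent.Attach.Tate
import Mathlib

/-!
Vectors of the Tate module and the torsion points they give through additive characters modulo
`p ^ k`.
-/

set_option autoImplicit false
set_option linter.style.haveILetI false
set_option linter.unusedSectionVars false

noncomputable section

open IsLocalRing ModularCurve
open scoped Matrix

namespace FLTAgent.SS2

open FLTAgent.Attach (HeckeLattice)

local notation "GalQ" => AlgebraicClosure ℚ ≃ₐ[ℚ] AlgebraicClosure ℚ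

/-- characters with values in `ZMod n` separate the points of a group killed by `n` -/
theorem exists_zmod_char {A : Type} [AddCommGroup A] {n : ℕ} (hn : 0 < n)
    (h : ∀ a : A, n • a = 0) {a : A} (ha : a ≠ 0) : ∃ ψ : A →+ ZMod n, ψ a ≠ 0 := by
  obtain ⟨χ, hχ⟩ := CharacterModule.exists_character_apply_ne_zero_of_ne_zero ha
  have hn' : (n : ℚ) ≠ 0 := Nat.cast_ne_zero.2 hn.ne'
  let φ : ℤ →+ AddCircle (1 : ℚ) := zmultiplesHom _ (((n : ℚ)⁻¹ : ℚ) : AddCircle (1 : ℚ))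
  have hφ : ∀ m : ℤ, φ m = (((m : ℚ) / n : ℚ) : AddCircle (1 : ℚ)) := fun m => by
    simp only [φ, zmultiplesHom_apply, ← AddCircle.coe_zsmul, zsmul_eq_mul, div_eq_mul_inv]
  have hker : ∀ m : ℤ, φ m = 0 ↔ (m : ZMod n) = 0 := fun m => by
    rw [hφ, AddCircle.coe_eq_zero_iff, ZMod.intCast_zmod_eq_zero_iff_dvd]
    simp only [zsmul_eq_mul, mul_one]
    constructor
    · rintro ⟨j, hj⟩
      rw [eq_div_iff hn'] at hj
      exact ⟨j, by rw [mul_comm]; exact_mod_cast hj.symm⟩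
    · rintro ⟨j, rfl⟩
      exact ⟨j, by push_cast; field_simp⟩
  let ι : ZMod n →+ AddCircle (1 : ℚ) := ZMod.lift n ⟨φ, (hker n).2 (by simp)⟩
  have hι : Function.Injective ι := (ZMod.lift_injective _).2 fun m hm => (hker m).1 hm
  have hsurj : ∀ b, ∃ z, ι z = χ b := by
    intro b
    obtain ⟨r, hr⟩ := QuotientAddGroup.mk_surjective (χ b)
    have h0 : ((((n : ℤ) • r : ℚ)) : AddCircle (1 : ℚ)) = 0 := by
      rw [AddCircle.coe_zsmul, natCast_zsmul]
      exact (congrArg (n • ·) hr).trans (by rw [← map_nsmul, h b, map_zero])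
    obtain ⟨j, hj⟩ := AddCircle.coe_eq_zero_iff _ |>.1 h0
    simp only [zsmul_eq_mul, mul_one, Int.cast_natCast] at hj
    refine ⟨(j : ZMod n), ?_⟩
    rw [show ι (j : ZMod n) = φ j from ZMod.lift_coe _ _ _, hφ, ← hr, hj, mul_div_cancel_left₀ _ hn']
  choose ψ hψ using hsurj
  refine ⟨AddMonoidHom.mk' ψ fun x y => hι (by rw [map_add, hψ, hψ, hψ, map_add]), fun h0 => hχ ?_⟩
  rw [← hψ a, show ψ a = 0 from h0, map_zero]

variable {N : ℕ} [NeZero N] (D : HeckeLattice N)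

theorem mat_entry {R : Type} [CommRing R] (u : Module.End ℤ D.Lam) (i j : D.Idx) :
    (D.mat u : Matrix D.Idx D.Idx R) i j =
      (((Module.Free.chooseBasis ℤ D.Lam).repr (u (Module.Free.chooseBasis ℤ D.Lam j)) i : ℤ) : R) := by
  classical
  simp [HeckeLattice.mat, LinearMap.toMatrixAlgEquiv_apply]

/-- the coordinates modulo `n` of an image -/
theorem coord_apply {n : ℕ} (u : Module.End ℤ D.Lam) (v : D.Lam) (i : D.Idx) :
    (((Module.Free.chooseBasis ℤ D.Lam).repr (u v) i : ℤ) : ZMod n) =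
      ((D.mat u : Matrix D.Idx D.Idx (ZMod n)) *ᵥ
        fun j => (((Module.Free.chooseBasis ℤ D.Lam).repr v j : ℤ) : ZMod n)) i := by
  classical
  rw [← LinearMap.toMatrix_mulVec_repr (Module.Free.chooseBasis ℤ D.Lam)
    (Module.Free.chooseBasis ℤ D.Lam) u v]
  simp [Matrix.mulVec, dotProduct, mat_entry D, LinearMap.toMatrix_apply]

/-- torsion points with the same coordinates agree -/
theorem tors_eq_of_coord {n : ℕ} (hn : 0 < n) {v w : D.Lam}
    (h : ∀ i, (((Module.Free.chooseBasis ℤ D.Lam).repr v i : ℤ) : ZMod n) =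
      (((Module.Free.chooseBasis ℤ D.Lam).repr w i : ℤ) : ZMod n)) :
    D.tors n v = D.tors n w := by
  classical
  let b := Module.Free.chooseBasis ℤ D.Lam
  have hd : ∀ i, (n : ℤ) ∣ b.repr (v - w) i := fun i => by
    rw [← ZMod.intCast_zmod_eq_zero_iff_dvd, map_sub, Finsupp.sub_apply, Int.cast_sub, h i, sub_self]
  choose c hc using hd
  refine (D.tors_eq_iff hn v w).2 ⟨b.equivFun.symm c, b.equivFun.injective ?_⟩
  rw [map_zsmul, LinearEquiv.apply_symm_apply]
  funext i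
  rw [Module.Basis.equivFun_apply, Pi.smul_apply, smul_eq_mul, ← hc]

theorem coord_of_tors_eq_zero {n : ℕ} (hn : 0 < n) {v : D.Lam} (h : D.tors n v = 0) (i : D.Idx) :
    (((Module.Free.chooseBasis ℤ D.Lam).repr v i : ℤ) : ZMod n) = 0 := by
  obtain ⟨w, rfl⟩ := (D.tors_eq_zero_iff n hn v).1 h
  simp

/-- an additive map sees integer matrices linearly -/
theorem mulVec_char {O : Type} [CommRing O] {n : ℕ} (ψ : O →+ ZMod n) (u : Module.End ℤ D.Lam)
    (x : D.Idx → O) (i : D.Idx) :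
    ((D.mat u : Matrix D.Idx D.Idx (ZMod n)) *ᵥ fun j => ψ (x j)) i =
      ψ (((D.mat u : Matrix D.Idx D.Idx O) *ᵥ x) i) := by
  simp only [Matrix.mulVec, dotProduct, map_sum]
  refine Finset.sum_congr rfl fun j _ => ?_
  rw [mat_entry D, mat_entry D, ← zsmul_eq_mul, ← zsmul_eq_mul, map_zsmul]

theorem tors_liftP_le {p : ℕ} (hp : p.Prime) (k j : ℕ) (σ : GalQ) (v : D.Lam) :
    D.tors (p ^ k) (D.liftP hp (k + j) σ v) = σ • D.tors (p ^ k) v := by
  rw [← D.tors_mul (p ^ k) (p ^ j) (pow_pos hp.pos k) (pow_pos hp.pos j), ← pow_add,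
    D.tors_liftP hp, ← D.tors_mul (p ^ k) (p ^ j) (pow_pos hp.pos k) (pow_pos hp.pos j), ← pow_add]
  exact (map_nsmul (DistribSMul.toAddMonoidHom _ σ) (p ^ j) _).symm

variable {O : Type} [CommRing O] [IsDomain O] [IsDiscreteValuationRing O]
  [IsAdicComplete (maximalIdeal O) O] [CharZero O] {p : ℕ} (hp : p.Prime)
  (hpO : (p : O) ∈ maximalIdeal O)

theorem exists_pow_le {a : O} (ha : a ≠ 0) : ∃ j, maximalIdeal O ^ j ≤ Ideal.span {a} := by
  obtain ⟨ϖ, hϖ⟩ := IsDiscreteValuationRing.exists_irreducible O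
  obtain ⟨j, u, rfl⟩ := IsDiscreteValuationRing.eq_unit_mul_pow_irreducible ha hϖ
  refine ⟨j, le_of_eq ?_⟩
  rw [hϖ.maximalIdeal_eq, Ideal.span_singleton_pow,
    Ideal.span_singleton_mul_left_unit u.isUnit]

include hp hpO in
/-- A vector of the eigen part fixed by a group, killed by `c` on all the points it gives,
vanishes. -/
theorem eq_zero_of_fixed_kill (H : Subgroup GalQ) {c : ℕ} (hc : 0 < c) (T : Module.End ℤ D.Lam)
    (x : D.Idx → O)
    (hfix : ∀ σ ∈ H, D.galMat hp hpO σ *ᵥ ((D.mat T : Matrix D.Idx D.Idx O) *ᵥ x) =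
      (D.mat T : Matrix D.Idx D.Idx O) *ᵥ x)
    (hkill : ∀ (k : ℕ) (v : D.Lam), (∀ σ ∈ H, σ • D.tors (p ^ k) (T v) = D.tors (p ^ k) (T v)) →
      c • D.tors (p ^ k) (T v) = 0) :
    (D.mat T : Matrix D.Idx D.Idx O) *ᵥ x = 0 := by
  classical
  set x' := (D.mat T : Matrix D.Idx D.Idx O) *ᵥ x with hx'
  funext i
  refine (mul_eq_zero.1 (?_ : (c : O) * x' i = 0)).resolve_left (Nat.cast_ne_zero.2 hc.ne')
  refine Attach.eq_zero_of_forall_mem_pow fun k => ?_
  set I := Ideal.span {(p : O) ^ k} with hI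
  suffices (c : O) * x' i ∈ I by
    have hle : I ≤ maximalIdeal O ^ k := by
      rw [hI, Ideal.span_singleton_le_iff_mem]; exact Ideal.pow_mem_pow hpO k
    exact hle this
  by_contra hcon
  have hn : 0 < p ^ k := pow_pos hp.pos k
  obtain ⟨ψ₀, hψ₀⟩ := exists_zmod_char (A := O ⧸ I) hn (fun a => by
    obtain ⟨a, rfl⟩ := Ideal.Quotient.mk_surjective a
    rw [← map_nsmul, Ideal.Quotient.eq_zero_iff_mem, nsmul_eq_mul, Nat.cast_pow]
    exact Ideal.mul_mem_right _ _ (Ideal.mem_span_singleton_self _))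
    (a := Ideal.Quotient.mk I ((c : O) * x' i)) (by rwa [Ne, Ideal.Quotient.eq_zero_iff_mem])
  let ψ : O →+ ZMod (p ^ k) := ψ₀.comp (Ideal.Quotient.mk I).toAddMonoidHom
  have hψ : ∀ a b : O, a - b ∈ I → ψ a = ψ b := fun a b hab =>
    congrArg ψ₀ ((Ideal.Quotient.mk_eq_mk_iff_sub_mem a b).2 hab)
  haveI : NeZero (p ^ k) := ⟨hn.ne'⟩
  let b := Module.Free.chooseBasis ℤ D.Lam
  let v : D.Lam := b.equivFun.symm fun j => ((ψ (x j)).val : ℤ)
  have hv : ∀ j, ((b.repr v j : ℤ) : ZMod (p ^ k)) = ψ (x j) := fun j => by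
    rw [← Module.Basis.equivFun_apply, LinearEquiv.apply_symm_apply, Int.cast_natCast,
      ZMod.natCast_zmod_val]
  have hTv : ∀ j, ((b.repr (T v) j : ℤ) : ZMod (p ^ k)) = ψ (x' j) := fun j => by
    rw [coord_apply, hx', ← mulVec_char D ψ]
    exact congrArg (fun w => ((D.mat T : Matrix D.Idx D.Idx (ZMod (p ^ k))) *ᵥ w) j) (funext hv)
  have hpk : (p : O) ^ k ≠ 0 := pow_ne_zero k (Nat.cast_ne_zero.2 hp.ne_zero)
  obtain ⟨j, hj⟩ := exists_pow_le hpk
  have hfix' : ∀ σ ∈ H, σ • D.tors (p ^ k) (T v) = D.tors (p ^ k) (T v) := by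
    intro σ hσ
    rw [← tors_liftP_le D hp k j σ]
    refine tors_eq_of_coord D hn fun l => ?_
    rw [coord_apply]
    rw [show (fun m => (((Module.Free.chooseBasis ℤ D.Lam).repr (T v) m : ℤ) : ZMod (p ^ k))) =
      fun m => ψ (x' m) from funext hTv, mulVec_char D ψ, hTv l]
    refine hψ _ _ ?_
    have h := congrFun (hfix σ hσ) l
    rw [← h, Matrix.mulVec, dotProduct, Matrix.mulVec, dotProduct, ← Finset.sum_sub_distrib]
    refine I.sum_mem fun a _ => ?_
    rw [← sub_mul]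
    refine I.mul_mem_right _ ?_
    rw [← neg_sub]
    exact I.neg_mem (hj (Ideal.pow_le_pow_right (Nat.le_add_left j k)
      (D.galMat_spec hp hpO σ (k + j) l a)))
  have h0 := hkill k v hfix'
  rw [← map_nsmul] at h0
  have h1 := coord_of_tors_eq_zero D hn h0 i
  rw [map_nsmul, Finsupp.smul_apply, nsmul_eq_mul, Int.cast_mul, Int.cast_natCast, hTv,
    ← nsmul_eq_mul, ← map_nsmul, nsmul_eq_mul] at h1
  exact hψ₀ h1

end FLTAgent.SS2

end
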