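import Fermat.Agent.SS2.Delta
import Fermat.Agent.Reduction.Compat

/-!
The operator `θ` on the special fibre of `X₀(M)` at a good prime `q`: for a uniformiser `t` at a
finite point, `(θt)^(6(q-1))` is a function with order opposite to that of the Hasse polynomial.
-/

set_option autoImplicit false
set_option linter.unusedSectionVars false
set_option synthInstance.maxHeartbeats 100000
set_option maxHeartbeats 1000000

noncomputable section

open ModularCurve AlgebraicCurve IsLocalRing
open FLTAgent.RR (Bd KK)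
open FLTAgent.Reduction

namespace FLTAgent.SS2

/-- Over `j = 0` all ramification is `3`, over `1728` it is `2`, elsewhere none. -/
def NoEll (M : ℕ) [NeZero M] : Prop :=
  ∀ (P : PB M) (c : Qb), Val P (ModFun.jBar M) c →
    6 * (P.ord (ModFun.jBar M - cB M c) - 1) =
      4 * P.ord (ModFun.jBar M) + 3 * P.ord (ModFun.jBar M - cB M 1728)

variable {A : ValuationSubring Qb} {N q : ℕ} [NeZero N]

theorem theta_const {K : Type*} [Field K] (c : K) :
    theta (algebraMap K (LaurentSeries K) c) = 0 := by
  rw [algebraMap_laurentSeries_eq_single, theta_single]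
  simp

/-- `θ` as a derivation of the function field into Laurent series -/
def thetaDer (N : ℕ) [NeZero N] : Derivation Qb (FB N) (LaurentSeries Qb) where
  toFun f := theta (f : LaurentSeries Qb)
  map_add' f g := by rw [AddMemClass.coe_add, map_add]
  map_smul' c f := by
    have hc : ((c • f : FB N) : LaurentSeries Qb) = HahnSeries.single 0 c * (f : LaurentSeries Qb) := by
      rw [Algebra.smul_def, MulMemClass.coe_mul, coe_cB N c]
    simp only [RingHom.id_apply]
    rw [hc]
    ext k
    simp only [coeff_theta, HahnSeries.coeff_single_zero_mul, HahnSeries.coeff_smul, smul_eq_mul]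
    ring
  map_one_eq_zero' := by
    show theta ((1 : FB N) : LaurentSeries Qb) = 0
    rw [OneMemClass.coe_one, ← map_one (algebraMap Qb (LaurentSeries Qb)), theta_const]
  leibniz' f g := by
    show theta ((f * g : FB N) : LaurentSeries Qb) =
      (f : LaurentSeries Qb) * theta (g : LaurentSeries Qb) + (g : LaurentSeries Qb) * theta (f : LaurentSeries Qb)
    rw [MulMemClass.coe_mul, theta_mul]
    ring

theorem theta_der {x : FB N} (hx : Transcendental Qb x) (f : FB N) :
    theta (f : LaurentSeries Qb) =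
      ((RR.der hx f : FB N) : LaurentSeries Qb) * theta (x : LaurentSeries Qb) := by
  haveI : IsScalarTower Qb (FB N) (LaurentSeries Qb) :=
    ⟨fun c g z => by
      have hc : ((c • g : FB N) : LaurentSeries Qb) =
          HahnSeries.single 0 c * (g : LaurentSeries Qb) := by
        rw [Algebra.smul_def, MulMemClass.coe_mul, coe_cB N c]
      show ((c • g : FB N) : LaurentSeries Qb) * z = c • ((g : LaurentSeries Qb) * z)
      rw [hc, mul_assoc]
      ext k
      simp only [HahnSeries.coeff_single_zero_mul, HahnSeries.coeff_smul, smul_eq_mul]⟩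
  have h := congrArg (thetaDer N).liftKaehlerDifferential (RR.der_smul hx f)
  rw [map_smul, Derivation.liftKaehlerDifferential_comp_D,
    Derivation.liftKaehlerDifferential_comp_D] at h
  exact h.symm

/-- `θ` commutes with reduction: the quotient rule. -/
theorem theta_redS_quot {y : FB N} {G H : LaurentSeries A} (hH : dn A H ≠ 0)
    (h : (y : LaurentSeries Qb) * up A H = up A G) :
    theta (redS A N y) * dn A H ^ 2 = dn A (theta G * H - G * theta H) ∧
      theta (y : LaurentSeries Qb) * up A H ^ 2 = up A (theta G * H - G * theta H) := by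
  have hr : redS A N y * dn A H = dn A G := by rw [redS_eq hH h, div_mul_cancel₀ _ hH]
  refine ⟨?_, ?_⟩
  · have h1 := congrArg theta hr
    rw [theta_mul] at h1
    simp only [map_sub, map_mul, dn, ← theta_coeffMap]
    rw [← show dn A G = coeffMap (residue A) G from rfl, ← hr, theta_mul]
    ring
  · simp only [map_sub, map_mul, up, ← theta_coeffMap]
    rw [← show up A G = coeffMap A.subtype G from rfl, ← h, theta_mul]
    ring

theorem up_injective (A : ValuationSubring Qb) : Function.Injective (up A) := fun x y h =>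
  HahnSeries.ext (funext fun k => A.subtype_injective (by
    simpa using congrArg (fun z : LaurentSeries Qb => z.coeff k) h))

theorem theta_redS {x y b : FB N} (hx : x ∈ GR A N) (hy : y ∈ GR A N) (hb : b ∈ GR A N)
    (h : theta (y : LaurentSeries Qb) = (b : LaurentSeries Qb) * theta (x : LaurentSeries Qb)) :
    theta (redS A N y) = redS A N b * theta (redS A N x) := by
  obtain ⟨G, H, hH, hy'⟩ := hy
  obtain ⟨G', H', hH', hx'⟩ := hx
  obtain ⟨G'', H'', hH'', hb'⟩ := hb
  obtain ⟨h1, h1'⟩ := theta_redS_quot hH hy'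
  obtain ⟨h2, h2'⟩ := theta_redS_quot hH' hx'
  set dy := theta G * H - G * theta H
  set dx := theta G' * H' - G' * theta H'
  have key : dy * H'' * H' ^ 2 = G'' * dx * H ^ 2 := up_injective A (by
    simp only [map_mul, map_pow]
    rw [← h1', ← h2', ← hb', h]
    ring)
  have key' := congrArg (dn A) key
  simp only [map_mul, map_pow] at key'
  rw [← h1, ← h2, show dn A G'' = redS A N b * dn A H'' by
    rw [redS_eq hH'' hb', div_mul_cancel₀ _ hH'']] at key'
  have hne : dn A H ^ 2 * dn A H'' * dn A H' ^ 2 ≠ 0 := by positivity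
  exact mul_right_cancel₀ hne (by linear_combination key')

theorem transcendental_of_theta_ne {x : FB N} (h : theta (x : LaurentSeries Qb) ≠ 0) :
    Transcendental Qb x := by
  intro halg
  obtain ⟨c, rfl⟩ : x ∈ (algebraMap Qb (FB N)).range :=
    minpoly.mem_range_of_degree_eq_one Qb x
      (IsAlgClosed.degree_eq_one_of_irreducible Qb (minpoly.irreducible halg.isIntegral))
  exact h (theta_const c)

/-- The derivative `b = dy/dx` reduces to `θy/θx`. -/
theorem exists_deriv {x y : FB N} (hx : x ∈ GR A N) (hy : y ∈ GR A N)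
    (hθ : theta (redS A N x) ≠ 0) :
    ∃ (hxt : Transcendental Qb x), RR.der hxt y ∈ GR A N ∧
      theta (redS A N y) = redS A N (RR.der hxt y) * theta (redS A N x) := by
  obtain ⟨G', H', hH', hx'⟩ := id hx
  obtain ⟨G, H, hH, hy'⟩ := id hy
  obtain ⟨h2, h2'⟩ := theta_redS_quot hH' hx'
  obtain ⟨-, h1'⟩ := theta_redS_quot hH hy'
  set dy := theta G * H - G * theta H
  set dx := theta G' * H' - G' * theta H'
  have hdx : dn A dx ≠ 0 := by rw [← h2]; exact mul_ne_zero hθ (pow_ne_zero _ hH')
  have hne : theta (x : LaurentSeries Qb) ≠ 0 := fun h0 => hdx (by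
    rw [h0, zero_mul, eq_comm] at h2'
    rw [(map_eq_zero_iff (up A) (up_injective A)).mp h2', map_zero])
  have hxt := transcendental_of_theta_ne hne
  have h := theta_der hxt y
  have hbG : RR.der hxt y ∈ GR A N := by
    refine ⟨dy * H' ^ 2, dx * H ^ 2, ?_, ?_⟩
    · rw [map_mul, map_pow]
      exact mul_ne_zero hdx (pow_ne_zero _ hH)
    · simp only [map_mul, map_pow]
      rw [← h2', ← h1', h]
      ring
  exact ⟨hxt, hbG, theta_redS hx hy hbG h⟩

variable (C : Ctx A N q)
include C

theorem theta_jS_ne : theta ((jS A N : FS A N) : LaurentSeries (kA A)) ≠ 0 := by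
  intro h
  have h1 := congrArg (fun z : LaurentSeries (kA A) => z.coeff (-1)) h
  simp only [coeff_theta, HahnSeries.coeff_zero] at h1
  rw [show ((jS A N : FS A N) : LaurentSeries (kA A)) = jqModC (kA A) from rfl] at h1
  have h2 := coeff_jqModC_pow_self (kA A) 1
  rw [pow_one, Nat.cast_one] at h2
  simp [h2] at h1

/-- A regular uniformiser whose `θ` does not vanish. -/
theorem exists_unif_theta {Q : PS A N} (hQ : Bd Q (tS A N false) 0) :
    ∃ t : FS A N, t ∈ regOn (kA A) (tS A N false) ∧ Q.ord t = 1 ∧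
      theta (t : LaurentSeries (kA A)) ≠ 0 := by
  haveI := finite_tS C false
  haveI := separable_tS C false
  obtain ⟨t, ht, ht0, ht1⟩ := Reduction.exists_unif (transcendental_tS A N false) hQ
  by_cases h : theta (t : LaurentSeries (kA A)) = 0
  swap
  · exact ⟨t, ht, ht1, h⟩
  obtain ⟨c, hc⟩ := val_exists_S C hQ
  set u : FS A N := 1 + tS A N false - algebraMap (kA A) (FS A N) c
  have hu : Val Q u 1 := by
    have := ((Val.one (v := Q)).add hc).sub (Val.const c)
    simpa using this
  obtain ⟨hu0, hu1⟩ := hu.ord_eq_zero one_ne_zero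
  have hut : theta ((t * u : FS A N) : LaurentSeries (kA A)) =
      (t : LaurentSeries (kA A)) * theta ((jS A N : FS A N) : LaurentSeries (kA A)) := by
    have hcoe : ((u : FS A N) : LaurentSeries (kA A)) =
        1 + ((jS A N : FS A N) : LaurentSeries (kA A)) - algebraMap (kA A) _ c := rfl
    rw [MulMemClass.coe_mul, theta_mul, h, zero_mul, zero_add, hcoe, map_sub, map_add,
      theta_const, ← map_one (algebraMap (kA A) (LaurentSeries (kA A))), theta_const, zero_add,
      sub_zero]
  refine ⟨t * u, mul_mem ht (sub_mem (add_mem (one_mem _) (self_mem_regOn _))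
    (Subalgebra.algebraMap_mem _ c)), by rw [Q.ord_mul ht0 hu0, ht1, hu1, add_zero], ?_⟩
  rw [hut]
  exact mul_ne_zero (fun h0 => ht0 (Subtype.ext (by simpa using h0))) (theta_jS_ne C)

theorem compat_of_UG {y : FB N} (hy : UG A N y) (Q : PS A N) :
    Finsupp.mapDomain (rP C) (dv y) Q = Q.ord (red A N y) :=
  sub_eq_zero.mp (defect_eq_zero C hy Q)

/-- A lift of a uniformiser takes each value exactly once over the point. -/
theorem ord_lift {Q : PS A N} (hQ : Bd Q (tS A N false) 0) {a : FB N} {t : FS A N}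
    (ha : BT A N false a) (har : red A N a = t) (ht1 : Q.ord t = 1) {P : PB N} (hP : rP C P = Q)
    {c : Qb} (hc : Val P a c) : P.ord (a - cB N c) = 1 := by
  classical
  have ht0 : t ≠ 0 := fun h => by simp [h] at ht1
  have haG := BT.mem_GR C ha
  obtain ⟨d, hdA, hd⟩ := (fin_rP_iff C).mp (hP ▸ hQ : Bd (rP C P) (tS A N false) 0)
  obtain ⟨hcA, hcv⟩ := val_rP C ha hd hdA hc
  rw [hP, har] at hcv
  have hc0 : residue A ⟨c, hcA⟩ = 0 := hcv.unique (val_zero_of_ord_pos (by omega))
  have hred : red A N (a - cB N c) = t := by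
    rw [red_sub C haG (cB_mem hcA), red_cB C ⟨c, hcA⟩, hc0, map_zero, sub_zero, har]
  have hU' : UG A N (a - cB N c) := ⟨sub_mem haG (cB_mem hcA), by rw [hred]; exact ht0⟩
  have hne := hU'.ne_zero C
  have hpos : 1 ≤ P.ord (a - cB N c) :=
    Val.ord_pos (by simpa using hc.sub (Val.const c)) hne
  have hsum := compat_of_UG C hU' Q
  rw [hred, ht1, mapDomain_apply_eq_sum (rP C) (dv (a - cB N c)) Q
    ((dv (a - cB N c)).support) subset_rfl] at hsum
  have hPs : P ∈ (dv (a - cB N c)).support.filter (fun P => rP C P = Q) := by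
    rw [Finset.mem_filter, Finsupp.mem_support_iff, dv_apply]
    exact ⟨by omega, hP⟩
  have hle := Finset.single_le_sum (f := fun P => dv (a - cB N c) P) (fun P' hP' => ?_) hPs
  · rw [hsum, dv_apply] at hle
    omega
  · obtain ⟨d', -, hd'⟩ :=
      (fin_rP_iff C).mp ((Finset.mem_filter.mp hP').2 ▸ hQ : Bd (rP C P') (tS A N false) 0)
    rw [dv_apply]
    have := (RR.bd_iff_ord hne).mp
      (((ha.mem_regOn P' hd'.bd)).sub (RR.Bd.of_algebraMap c))
    simpa using this

/-- `θj/θt` and its order. -/
theorem exists_ratio (hN : NoEll N) {Q : PS A N} (hQ : Bd Q (tS A N false) 0) {t : FS A N}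
    (ht : t ∈ regOn (kA A) (tS A N false)) (ht1 : Q.ord t = 1)
    (hθ : theta (t : LaurentSeries (kA A)) ≠ 0) :
    ∃ β : FS A N, β ≠ 0 ∧
      theta ((jS A N : FS A N) : LaurentSeries (kA A)) =
        (β : LaurentSeries (kA A)) * theta (t : LaurentSeries (kA A)) ∧
      6 * Q.ord β = 4 * Q.ord (jS A N) + 3 * Q.ord (jS A N - 1728) := by
  classical
  haveI := finite_tS C false
  have ht0 : t ≠ 0 := fun h => by simp [h] at ht1
  obtain ⟨a, ha, har⟩ := exists_lift C ((BS_iff C).mpr ht)
  have haG := BT.mem_GR C ha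
  have haU : UG A N a := ⟨haG, by rw [har]; exact ht0⟩
  have has : redS A N a = (t : LaurentSeries (kA A)) := by rw [← coe_red C haG, har]
  obtain ⟨hat, hbG, hb⟩ := exists_deriv (x := a) (y := tB N false) haG (tB_mem false)
    (by rwa [has])
  set b := RR.der hat (tB N false)
  rw [redS_tB, has, ← coe_red C hbG] at hb
  have hb0 : red A N b ≠ 0 := fun h0 => by
    rw [h0, ZeroMemClass.coe_zero, zero_mul] at hb
    exact theta_jS_ne C hb
  refine ⟨red A N b, hb0, hb, ?_⟩
  -- the pieces on the generic fibre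
  have hU : UG A N b := ⟨hbG, hb0⟩
  have h1728 : UG A N (tB N false - cB N 1728) ∧
      red A N (tB N false - cB N 1728) = tS A N false - 1728 := by
    have h := UG_sub_const C false (c := 1728)
      (by simpa using (natCast_mem A 1728 : ((1728 : ℕ) : Qb) ∈ A))
    refine ⟨h.1, h.2.trans ?_⟩
    congr 1
    rw [show (⟨1728, _⟩ : A) = ((1728 : ℕ) : A) from Subtype.ext (Nat.cast_ofNat).symm, map_natCast, map_natCast]
    norm_num
  -- fibrewise
  have hfib : ∀ P : PB N, rP C P = Q →
      6 * P.ord b = 4 * P.ord (tB N false) + 3 * P.ord (tB N false - cB N 1728) := by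
    intro P hP
    obtain ⟨d, hdA, hd⟩ := (fin_rP_iff C).mp (hP ▸ hQ : Bd (rP C P) (tS A N false) 0)
    obtain ⟨c, hc⟩ := val_exists_B (ha.mem_regOn P hd.bd)
    have hord : P.ord (a - cB N c) = 1 := ord_lift C hQ ha har ht1 hP hc
    have hb' : P.ord b = P.ord (tB N false - cB N d) - 1 := by
      have htc : Transcendental Qb (tB N false) := transcendental_tB N false
      have hy : 0 < P.ord (tB N false - cB N d) := by
        have hne : tB N false - cB N d ≠ 0 := fun h0 => htc (by
          rw [sub_eq_zero.mp h0]; exact isAlgebraic_algebraMap _)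
        have := Val.ord_pos (x := tB N false - cB N d) (by simpa using hd.sub (Val.const d)) hne
        omega
      have e := RR.ordDifferential_D_of_zero htc hy
      rw [← RR.der_smul hat (tB N false), RR.ordDifferential_smul_D hat
          (fun h0 => hU.ne_zero C h0) P,
        RR.ordDifferential_D_of_zero hat (show 0 < P.ord (a - algebraMap Qb (FB N) c) by
          rw [show P.ord (a - algebraMap Qb (FB N) c) = 1 from hord]; omega),
        show P.ord (a - algebraMap Qb (FB N) c) = 1 from hord] at e
      change P.ord b + (1 - 1) = _ at e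
      simpa using e
    rw [hb']
    exact hN P d hd
  have hj := compat_of_UG C (UG_tB C false) Q
  have hk := compat_of_UG C h1728.1 Q
  have hl := compat_of_UG C hU Q
  rw [red_tB C] at hj
  rw [h1728.2] at hk
  change 6 * Q.ord (red A N b) = 4 * Q.ord (tS A N false) + 3 * Q.ord (tS A N false - 1728)
  rw [← hj, ← hk, ← hl]
  set S := (dv b).support ∪ (dv (tB N false)).support ∪ (dv (tB N false - cB N 1728)).support
  rw [mapDomain_apply_eq_sum (rP C) (dv b) Q S (Finset.subset_union_left.trans Finset.subset_union_left),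
    mapDomain_apply_eq_sum (rP C) (dv (tB N false)) Q S
      (Finset.subset_union_right.trans Finset.subset_union_left),
    mapDomain_apply_eq_sum (rP C) (dv (tB N false - cB N 1728)) Q S Finset.subset_union_right,
    Finset.mul_sum, Finset.mul_sum, Finset.mul_sum, ← Finset.sum_add_distrib]
  refine Finset.sum_congr rfl fun P hP => ?_
  rw [dv_apply, dv_apply, dv_apply]
  exact hfib P (Finset.mem_filter.mp hP).2

omit C in
theorem aeval_ne_zero {P : Polynomial (kA A)} (hP : P ≠ 0) :
    Polynomial.aeval (jS A N) P ≠ 0 :=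
  fun h => hP (transcendental_iff.mp (transcendental_jS A N) P h)

/-- `(θt)^(6(q-1))` is a function of order `-ord P(j)`. -/
theorem exists_theta_pow (hN : NoEll N) {P : Polynomial (kA A)} (hP0 : P ≠ 0)
    (hP : Polynomial.aeval (jqModC (kA A)) P * deltaC (kA A) ^ (q - 1) = 1)
    {Q : PS A N} (hQ : Bd Q (tS A N false) 0) {t : FS A N}
    (ht : t ∈ regOn (kA A) (tS A N false)) (ht1 : Q.ord t = 1)
    (hθ : theta (t : LaurentSeries (kA A)) ≠ 0) :
    ∃ r : FS A N, r ≠ 0 ∧
      (r : LaurentSeries (kA A)) = theta (t : LaurentSeries (kA A)) ^ (6 * (q - 1)) ∧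
      Q.ord r = -Q.ord (Polynomial.aeval (jS A N) P) := by
  obtain ⟨β, hβ0, hβ, hord⟩ := exists_ratio C hN hQ ht ht1 hθ
  have hj0 : jS A N ≠ 0 := tS_ne_zero A N false
  have hk0 : jS A N - 1728 ≠ 0 := fun h => (transcendental_jS A N) (by
    rw [sub_eq_zero.mp h, show (1728 : FS A N) = algebraMap (kA A) (FS A N) 1728 from
      (map_ofNat _ _).symm]
    exact isAlgebraic_algebraMap _)
  set Pj := Polynomial.aeval (jS A N) P with hPj
  have hP0' : Pj ≠ 0 := aeval_ne_zero (N := N) hP0
  set B := jS A N ^ 4 * (jS A N - 1728) ^ 3 / β ^ 6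
  have hB : B ≠ 0 := div_ne_zero (mul_ne_zero (pow_ne_zero _ hj0) (pow_ne_zero _ hk0))
    (pow_ne_zero _ hβ0)
  refine ⟨B ^ (q - 1) / Pj, div_ne_zero (pow_ne_zero _ hB) hP0', ?_, ?_⟩
  · have hPc : ((Pj : FS A N) : LaurentSeries (kA A)) = Polynomial.aeval (jqModC (kA A)) P :=
      (Polynomial.aeval_algHom_apply (modularFunctionFieldFullC (kA A) N).val (jS A N) P).symm
    have hjc : ((jS A N : FS A N) : LaurentSeries (kA A)) = jqModC (kA A) := rfl
    have h6 := theta_jqModC_pow_six (kA A)
    rw [← hjc, hβ, mul_pow] at h6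
    have hβ6 : ((β : FS A N) : LaurentSeries (kA A)) ^ 6 ≠ 0 :=
      pow_ne_zero _ (fun h => hβ0 (Subtype.ext (by simpa using h)))
    have hdiv : theta (t : LaurentSeries (kA A)) ^ 6 =
        ((jS A N : FS A N) : LaurentSeries (kA A)) ^ 4 *
          (((jS A N : FS A N) : LaurentSeries (kA A)) - 1728) ^ 3 * deltaC (kA A) /
            ((β : FS A N) : LaurentSeries (kA A)) ^ 6 := by
      rw [eq_div_iff hβ6, ← h6, mul_comm]
    rw [pow_mul, hdiv, mul_div_right_comm, mul_pow, eq_inv_of_mul_eq_one_left
      (by rw [mul_comm]; exact hP : deltaC (kA A) ^ (q - 1) * Polynomial.aeval (jqModC (kA A)) P = 1),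
      ← hPc]
    simp only [B, div_eq_mul_inv]
    push_cast
    rfl
  · have hB' : Q.ord B = 0 := by
      simp only [B, div_eq_mul_inv]
      rw [Q.ord_mul (mul_ne_zero (pow_ne_zero _ hj0) (pow_ne_zero _ hk0))
        (inv_ne_zero (pow_ne_zero _ hβ0)), Q.ord_mul (pow_ne_zero _ hj0) (pow_ne_zero _ hk0),
        Q.ord_inv, RR.ord_pow, RR.ord_pow, RR.ord_pow]
      push_cast
      omega
    rw [div_eq_mul_inv, Q.ord_mul (pow_ne_zero _ hB) (inv_ne_zero hP0'), Q.ord_inv, RR.ord_pow,
      hB', mul_zero, zero_add]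

/-- derivative of a regular function with respect to a uniformiser is regular -/
theorem exists_dt {Q : PS A N} (hQ : Bd Q (tS A N false) 0) {t z : FS A N}
    (ht : t ∈ regOn (kA A) (tS A N false)) (ht1 : Q.ord t = 1)
    (hθ : theta (t : LaurentSeries (kA A)) ≠ 0) (hz : z ∈ regOn (kA A) (tS A N false)) :
    ∃ w : FS A N, Bd Q w 0 ∧
      theta (z : LaurentSeries (kA A)) = (w : LaurentSeries (kA A)) * theta (t : LaurentSeries (kA A)) := by
  classical
  have ht0 : t ≠ 0 := fun h => by simp [h] at ht1
  obtain ⟨a, ha, har⟩ := exists_lift C ((BS_iff C).mpr ht)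
  obtain ⟨y, hy, hyr⟩ := exists_lift C ((BS_iff C).mpr hz)
  have haG := BT.mem_GR C ha
  have hyG := BT.mem_GR C hy
  have has : redS A N a = (t : LaurentSeries (kA A)) := by rw [← coe_red C haG, har]
  obtain ⟨hat, hbG, hb⟩ := exists_deriv (x := a) (y := y) haG hyG (by rwa [has])
  set b := RR.der hat y
  rw [← coe_red C hyG, hyr, has, ← coe_red C hbG] at hb
  refine ⟨red A N b, ?_, hb⟩
  by_cases hb0 : red A N b = 0
  · rw [hb0]; exact RR.Bd.zero
  have hU : UG A N b := ⟨hbG, hb0⟩
  rw [RR.bd_iff_ord hb0, ← compat_of_UG C hU Q,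
    mapDomain_apply_eq_sum (rP C) (dv b) Q (dv b).support subset_rfl]
  simp only [neg_zero]
  refine Finset.sum_nonneg fun P hP => ?_
  have hPQ := (Finset.mem_filter.mp hP).2
  obtain ⟨d, -, hd⟩ := (fin_rP_iff C).mp (hPQ ▸ hQ : Bd (rP C P) (tS A N false) 0)
  obtain ⟨c, hc⟩ := val_exists_B (ha.mem_regOn P hd.bd)
  have hord := ord_lift C hQ ha har ht1 hPQ hc
  have htt : Transcendental Qb (a - cB N c) :=
    RR.transcendental_of_ord_ne_zero (v := P) (by omega)
  have hreg := RR.der_regular P hord y (hy.mem_regOn P hd.bd)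
  have hch := RR.der_chain hat htt y
  rw [RR.der_sub, RR.der_self, RR.der_const, sub_zero, mul_one] at hch
  rw [dv_apply]
  have := (RR.bd_iff_ord (hU.ne_zero C)).mp (show Bd P (RR.der hat y) 0 by rw [hch]; exact hreg)
  simpa using this

end FLTAgent.SS2
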