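import Fermat.Agent.Genus.Export
import Fermat.Agent.RR.API
import Fermat.Agent.SS2.Hasse

/-!
Levels with a prime factor `r ≡ 11 mod 12`: no elliptic points.
-/

set_option autoImplicit false

noncomputable section

open ModularCurve AlgebraicCurve

namespace FLTAgent.SS2

open FLTAgent.Genus (FN Qbar)
open FLTAgent.ModFun (jBar)

variable {N r : ℕ} [NeZero N]

theorem nuTwo_eq_zero (hr : r.Prime) (h11 : r % 12 = 11) (hrN : r ∣ N) : nuTwo N = 0 := by
  haveI : Fact r.Prime := ⟨hr⟩
  haveI : IsEmpty {x : ZMod N // x ^ 2 + 1 = 0} := ⟨fun ⟨x, hx⟩ => by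
    have h := congrArg (ZMod.castHom hrN (ZMod r)) hx
    rw [map_add, map_pow, map_one, map_zero] at h
    have h4 := ZMod.mod_four_ne_three_of_sq_eq_neg_one (p := r)
      (y := ZMod.castHom hrN (ZMod r) x) (eq_neg_of_add_eq_zero_left h)
    omega⟩
  rw [nuTwo, Nat.card_of_isEmpty]

theorem nuThree_eq_zero (hr : r.Prime) (h11 : r % 12 = 11) (hrN : r ∣ N) : nuThree N = 0 := by
  haveI : Fact r.Prime := ⟨hr⟩
  haveI : IsEmpty {x : ZMod N // x ^ 2 + x + 1 = 0} := ⟨fun ⟨x, hx⟩ => by
    have h := congrArg (ZMod.castHom hrN (ZMod r)) hx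
    rw [map_add, map_add, map_pow, map_one, map_zero] at h
    set y := ZMod.castHom hrN (ZMod r) x
    have h3 : (3 : ZMod r) ≠ 0 := by
      rw [show (3 : ZMod r) = ((3 : ℕ) : ZMod r) from rfl, Ne, ZMod.natCast_eq_zero_iff]
      intro hd
      have := Nat.le_of_dvd (by norm_num) hd
      omega
    have hy3 : y ^ 3 = 1 := by linear_combination (y - 1) * h
    have hy0 : y ≠ 0 := fun h0 => by rw [h0] at hy3; simp at hy3
    have hy1 : y ≠ 1 := fun h1 => h3 (by rw [h1] at h; linear_combination h)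
    have hord : orderOf y = 3 := orderOf_eq_prime hy3 hy1
    have hdvd := ZMod.orderOf_dvd_card_sub_one hy0
    rw [hord] at hdvd
    omega⟩
  rw [nuThree, Nat.card_of_isEmpty]

open FLTAgent.Genus in
/-- the ramification over a special value divides `k` -/
theorem ord_dvd_of_fibre (N : ℕ) [NeZero N] (τ₀ : UpperHalfPlane) (c : Qbar)
    (hc : embC c = ModFun.jFun τ₀) {k : ℕ} (hk0 : 0 < k)
    (hk : analyticOrderAt (fun z => ModFun.jFun (UpperHalfPlane.ofComplex z) - ModFun.jFun τ₀)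
      (τ₀ : ℂ) = k)
    (γ : Matrix.SpecialLinearGroup (Fin 2) ℤ) (hfix : γ • τ₀ = τ₀)
    (hγk : ∀ i : CosetSpace N, γ ^ k • i = i) (hp : k.Prime)
    (hu : orderOf ((cden γ τ₀ * cden γ τ₀)⁻¹ : ℂ) = k)
    (w : Place Qbar (FN N)) (hw : 0 < w.ord (jBar N - algebraMap Qbar (FN N) c)) :
    w.ord (jBar N - algebraMap Qbar (FN N) c) ∣ k := by
  set C := interiorChart N τ₀ with hC
  have han : AnalyticAt ℂ (fun z => ModFun.jFun (UpperHalfPlane.ofComplex z) - ModFun.jFun τ₀) τ₀ :=
    ((analyticOnNhd_ofComplex ModFun.mdiff_jFun) _ τ₀.im_pos).sub analyticAt_const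
  have hU : ∀ i, C.sigma i (jBar N - algebraMap Qbar (FN N) c) = germOf _ han.meromorphicAt := by
    intro i
    rw [map_sub, AlgHom.commutes]
    show @id (MeroGerm (τ₀ : ℂ)) ((interiorChart N τ₀).sigma i (jBar N))
      - algebraMap ℂ (MeroGerm (τ₀ : ℂ)) (embC c) = _
    rw [sigma_jBar_interior, hc, algebraMap_eq_germOf, sub_eq_add_neg]
    simp only [id_eq]
    rfl
  have hUv : vlog (ordVal C.pt) (germOf _ han.meromorphicAt) = k := by
    rw [vlog, log_ordVal_germOf]
    show (meromorphicOrderAt _ (τ₀ : ℂ)).untop₀ = _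
    rw [AnalyticAt.meromorphicOrderAt_eq han]
    show (WithTop.map _ (analyticOrderAt _ (τ₀ : ℂ))).untop₀ = _
    rw [hk]
    rfl
  have hsym := interior_sym (N := N) hfix
  obtain ⟨s, hs, -, -, hall⟩ := fibre (K := Qbar) (transcendental_sub_const N c) (ordVal C.pt)
    (fun d hd => ordVal_algebraMap_qbar hd) C.sigma C.sigma_injective
    (by rw [card_cosetSpace, ndeg_sub_const]) hU hUv hk0
    (MulAction.orbitRel (Subgroup.zpowers γ) (CosetSpace N))
    (fun i i' h x => hsym.val_orbit h x)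
    (fun i x _ => by
      erw [card_class]
      rcases hp.eq_one_or_self_of_dvd _ (minimalPeriod_dvd hγk i) with h1 | h1
      · have hi : γ • i = i := Function.minimalPeriod_eq_one_iff_isFixedPt.mp h1
        have := hsym.dvd_vlog hi x
        rw [h1, Nat.cast_one, one_mul, ← hu]
        exact this
      · rw [h1]
        exact dvd_mul_right _ _)
  obtain ⟨i, hi⟩ := hall w ((hs w).mpr hw)
  obtain ⟨π, hπ⟩ := IsDiscreteValuationRing.exists_irreducible w.toValuationSubring
  have h1 := hi π (by simpa using hπ.ne_zero)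
  rw [w.ord_coe_irreducible hπ, mul_one] at h1
  exact Dvd.intro _ h1

theorem eq_of_sum_eq_card {ι : Type*} {s : Finset ι} {e : ι → ℤ} {k : ℤ}
    (hle : ∀ i ∈ s, e i ≤ k) (hsum : ∑ i ∈ s, e i = s.card * k) : ∀ i ∈ s, e i = k := by
  refine (Finset.sum_eq_sum_iff_of_le hle).mp ?_
  rw [hsum, Finset.sum_const, nsmul_eq_mul]

open FLTAgent.Genus in
/-- `j` is exactly triply ramified over `0` -/
theorem ord_jBar_zero (hr : r.Prime) (h11 : r % 12 = 11) (hrN : r ∣ N) (w : Place Qbar (FN N))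
    (hw : 0 < w.ord (jBar N)) : w.ord (jBar N) = 3 := by
  have hρ3 : (UpperHalfPlane.ρ : ℂ) ^ 3 = 1 := by
    have := UpperHalfPlane.ρ_sq
    linear_combination ((UpperHalfPlane.ρ : ℂ) - 1) * this
  have hne : (UpperHalfPlane.ρ : ℂ) ≠ 1 := by
    intro h
    have := congrArg Complex.im h
    simp [UpperHalfPlane.ρ] at this
  have hdvd : ∀ v : Place Qbar (FN N), 0 < v.ord (jBar N - algebraMap Qbar (FN N) 0) →
      v.ord (jBar N - algebraMap Qbar (FN N) 0) ∣ (3 : ℕ) := by
    refine ord_dvd_of_fibre N UpperHalfPlane.ρ 0 (by rw [map_zero, ModFun.jFun_rho]) (k := 3)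
      (by norm_num) (by
        have := ModFun.analyticOrderAt_jFun_sub_rho 1
        rw [one_smul] at this
        simpa [ModFun.jFun_rho] using this)
      (ModularGroup.S * ModularGroup.T) ST_smul_rho (ST_cube_smul N) Nat.prime_three ?_
    rw [← sq, cden_ST]
    have : ((UpperHalfPlane.ρ : ℂ) ^ 2)⁻¹ = UpperHalfPlane.ρ := by
      refine inv_eq_of_mul_eq_one_right ?_
      rw [← pow_succ, hρ3]
    rw [this]
    exact orderOf_eq_prime hρ3 hne
  obtain ⟨s, hs, hc⟩ := fibre_zero N
  rw [nuThree_eq_zero hr h11 hrN, mul_zero, add_zero] at hc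
  have hsum := RR.sum_ord_sub_const (ModFun.transcendental_jBar N) 0 s hs
  rw [ModFun.ndeg_jBar, card_cosetSpace, ← hc] at hsum
  have hu : jBar N - algebraMap Qbar (FN N) 0 = jBar N :=
    (congrArg (jBar N - ·) (map_zero (algebraMap Qbar (FN N)))).trans (sub_zero _)
  have := eq_of_sum_eq_card (s := s) (k := 3)
    (e := fun v => v.ord (jBar N - algebraMap Qbar (FN N) 0))
    (fun v hv => by exact_mod_cast Int.le_of_dvd (by norm_num) (hdvd v ((hs v).mp hv)))
    (hsum.trans (by push_cast; ring)) w ((hs w).mpr (hu.symm ▸ hw))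
  exact (congrArg w.ord hu.symm).trans this

open FLTAgent.Genus in
/-- `j` is exactly doubly ramified over `1728` -/
theorem ord_jBar_1728 (hr : r.Prime) (h11 : r % 12 = 11) (hrN : r ∣ N) (w : Place Qbar (FN N))
    (hw : 0 < w.ord (jBar N - algebraMap Qbar (FN N) 1728)) :
    w.ord (jBar N - algebraMap Qbar (FN N) 1728) = 2 := by
  have hdvd : ∀ v : Place Qbar (FN N), 0 < v.ord (jBar N - algebraMap Qbar (FN N) 1728) →
      v.ord (jBar N - algebraMap Qbar (FN N) 1728) ∣ (2 : ℕ) := by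
    refine ord_dvd_of_fibre N UpperHalfPlane.I 1728 (by rw [map_ofNat, ModFun.jFun_I]) (k := 2)
      (by norm_num) (by
        have := ModFun.analyticOrderAt_jFun_sub_I 1
        rw [one_smul] at this
        simpa [ModFun.jFun_I] using this)
      ModularGroup.S S_smul_I (S_sq_smul N) Nat.prime_two ?_
    rw [← sq, cden_S]
    simp [orderOf_neg_one, ringChar.eq_zero]
  obtain ⟨s, hs, hc⟩ := fibre_1728 N
  rw [nuTwo_eq_zero hr h11 hrN, add_zero] at hc
  have hsum := RR.sum_ord_sub_const (ModFun.transcendental_jBar N) 1728 s hs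
  rw [ModFun.ndeg_jBar, card_cosetSpace, ← hc] at hsum
  exact eq_of_sum_eq_card (s := s) (k := 2)
    (fun v hv => by exact_mod_cast Int.le_of_dvd (by norm_num) (hdvd v ((hs v).mp hv)))
    (by rw [hsum]; push_cast; ring) w ((hs w).mpr hw)

theorem cuspCount_mul_prime {M q : ℕ} (hq : q.Prime) (hqM : ¬ q ∣ M) :
    cuspCount (M * q) = 2 * cuspCount M := by
  have hcop : M.Coprime q := (hq.coprime_iff_not_dvd.mpr hqM).symm
  have hqc : q.Coprime M := hcop.symm
  rw [cuspCount, Nat.divisors_mul, Finset.mul_def, Finset.sum_image hcop.mul_injOn_divisors,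
    Finset.sum_product, cuspCount, Finset.mul_sum]
  refine Finset.sum_congr rfl fun d hd => ?_
  obtain ⟨hdM, -⟩ := Nat.mem_divisors.mp hd
  obtain ⟨e, rfl⟩ := hdM
  have hd0 : 0 < d := Nat.pos_of_mem_divisors hd
  have hqd : q.Coprime d := hqc.coprime_mul_right_right
  have hqe : q.Coprime e := hqc.coprime_mul_left_right
  rw [hq.divisors, Finset.sum_pair hq.one_lt.ne, two_mul]
  rw [show d * e * q / (d * q) = e by
      rw [show d * e * q = e * (d * q) by ring]
      exact Nat.mul_div_cancel _ (Nat.mul_pos hd0 hq.pos),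
    show d * e * q / (d * 1) = e * q by
      rw [mul_one, mul_assoc]
      exact Nat.mul_div_cancel_left _ hd0,
    Nat.mul_div_cancel_left _ hd0, mul_one,
    Nat.Coprime.gcd_mul_right_cancel d hqe, Nat.Coprime.gcd_mul_right_cancel_right e hqd]

open FLTAgent.Genus in
/-- `12 (g(Mq) - 2 g(M) + 1) = (q - 1) ψ(M)` -/
theorem genus_diff {M q : ℕ} [NeZero M] [NeZero q] (hr : r.Prime) (h11 : r % 12 = 11) (hrM : r ∣ M)
    (hq : q.Prime) (hqM : ¬ q ∣ M) :
    12 * ((genusFF Qbar (FN (M * q)) : ℤ) - 2 * genusFF Qbar (FN M) + 1) =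
      ((q : ℤ) - 1) * dedekindPsi M := by
  haveI : HasCanonicalDivisor (K := Qbar) (F := FN M) := RR.hasCanonicalDivisor
  haveI : HasCanonicalDivisor (K := Qbar) (F := FN (M * q)) := RR.hasCanonicalDivisor
  have e1 := Genus.genusFF_eq (N := M)
  have e2 := Genus.genusFF_eq (N := M * q)
  have hψq : dedekindPsi q = q + 1 := by
    have := Genus.dedekindPsi_prime_pow hq Nat.one_pos
    simpa [pow_one] using this
  rw [genusFormula, nuTwo_eq_zero hr h11 hrM, nuThree_eq_zero hr h11 hrM] at e1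
  rw [genusFormula, nuTwo_eq_zero hr h11 (hrM.mul_right q),
    nuThree_eq_zero hr h11 (hrM.mul_right q), cuspCount_mul_prime hq hqM,
    Genus.dedekindPsi_mul ((hq.coprime_iff_not_dvd.mpr hqM).symm), hψq] at e2
  push_cast at e1 e2
  have : ((12 * ((genusFF Qbar (FN (M * q)) : ℤ) - 2 * genusFF Qbar (FN M) + 1) : ℤ) : ℚ) =
      ((((q : ℤ) - 1) * dedekindPsi M : ℤ) : ℚ) := by
    push_cast
    rw [e1, e2]
    ring
  exact_mod_cast this

open FLTAgent.Genus in
/-- no elliptic points: the condition used on the special fibre -/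
theorem noEll {M : ℕ} [NeZero M] (hr : r.Prime) (h11 : r % 12 = 11) (hrM : r ∣ M) : NoEll M := by
  intro P c hc
  have hj := ModFun.transcendental_jBar M
  have hne : ∀ a : Qbar, jBar M - algebraMap Qbar (FN M) a ≠ 0 := fun a h =>
    hj (sub_eq_zero.mp h ▸ isAlgebraic_algebraMap a)
  have h0 : ∀ a : Qbar, a ≠ c → P.ord (jBar M - algebraMap Qbar (FN M) a) = 0 := fun a ha =>
    ((hc.sub (Reduction.Val.const a)).ord_eq_zero (sub_ne_zero.mpr (Ne.symm ha))).2
  have hpos : 1 ≤ P.ord (jBar M - algebraMap Qbar (FN M) c) := by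
    have := hc.sub (Reduction.Val.const (v := P) c)
    rw [sub_self] at this
    exact this.ord_pos (hne c)
  have hmap : jBar M - algebraMap Qbar (FN M) 0 = jBar M :=
    (congrArg (jBar M - ·) (map_zero (algebraMap Qbar (FN M)))).trans (sub_zero _)
  show 6 * (P.ord (jBar M - algebraMap Qbar (FN M) c) - 1) =
    4 * P.ord (jBar M) + 3 * P.ord (jBar M - algebraMap Qbar (FN M) 1728)
  rcases eq_or_ne c 0 with rfl | hc0
  · rw [hmap] at hpos ⊢
    rw [ord_jBar_zero hr h11 hrM P (by omega), h0 1728 (by norm_num)]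
    norm_num
  have hj0 : P.ord (jBar M) = 0 := by
    have h := h0 0 (Ne.symm hc0)
    rwa [hmap] at h
  rcases eq_or_ne c 1728 with rfl | hc1
  · rw [ord_jBar_1728 hr h11 hrM P (by omega), hj0]
    norm_num
  obtain ⟨s, hs, hcard⟩ := fibre_generic M c hc0 hc1
  have hsum := RR.sum_ord_sub_const hj c s hs
  rw [ModFun.ndeg_jBar, card_cosetSpace, ← hcard] at hsum
  have h1 : ∀ w ∈ s, (1 : ℤ) ≤ w.ord (jBar M - algebraMap Qbar (FN M) c) :=
    fun w hw => (hs w).mp hw
  have heq := (Finset.sum_eq_sum_iff_of_le h1).mp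
    (by rw [hsum, Finset.sum_const, nsmul_eq_mul, mul_one]) P ((hs P).mpr (by omega))
  rw [← heq, h0 1728 (Ne.symm hc1), hj0]
  norm_num

end FLTAgent.SS2

end
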