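import Fermat.Agent.SS2.KeyDef
import Fermat.Agent.SS2.Elliptic
import Fermat.Agent.SS2.Incl
import Mathlib.NumberTheory.LSeries.PrimesInAP

/-!
Reduction of the key statement at a prime whose square divides the level to a level without
elliptic points, for rational classes whose norms are constants times `n`-th powers.
-/

set_option autoImplicit false
set_option linter.unusedSectionVars false
set_option synthInstance.maxHeartbeats 100000

noncomputable section

open ModularCurve AlgebraicCurve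

namespace FLTAgent.SS2

local notation "Kb" => AlgebraicClosure ℚ

/-- a trivialisation of `n D` has norm a constant times an `n`-th power when the pushforward of `D`
is principal -/
theorem exists_norm_eq_pow {a b n : ℕ} [NeZero a] [NeZero b] (φ : Fld a →ₐ[Kb] Fld b)
    {D : Divisor Kb (Fld b)} {f : Fld b} (hf : f ≠ 0) (hord : ∀ P, (n : ℤ) * D P = P.ord f)
    (hD : (Divisor.pushforwardAlong φ (HeckeJ.isIntegralAlong φ) D).IsPrincipal) :
    ∃ (G : Fld a) (lam : Kb), G ≠ 0 ∧ lam ≠ 0 ∧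
      normAlong φ f = algebraMap Kb (Fld a) lam * G ^ n := by
  obtain ⟨G, hG, hGD⟩ := hD
  have hN0 : normAlong φ f ≠ 0 := by
    letI := algebraAlong φ
    haveI : Module.Finite (Fld a) (Fld b) := HeckeJ.finiteAlong φ
    exact Algebra.norm_ne_zero_iff.mpr hf
  have hord' : ∀ w : Place Kb (Fld b), (n • D) w = w.ord f := fun w => by
    rw [Finsupp.smul_apply, nsmul_eq_mul, ← hord]
  have h1 : ∀ v : Place Kb (Fld a),
      (Divisor.pushforwardAlong φ (HeckeJ.isIntegralAlong φ) (n • D)) v = v.ord (normAlong φ f) :=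
    HeckeJ.normFormulaAlong φ (HeckeJ.finiteAlong φ) f hf _ hord'
  obtain ⟨c, hc⟩ := exists_const_of_ord (h := normAlong φ f * (G ^ n)⁻¹) fun v => by
    rw [v.ord_mul hN0 (inv_ne_zero (pow_ne_zero _ hG)), v.ord_inv, RR.ord_pow, ← h1, map_nsmul,
      Finsupp.smul_apply, nsmul_eq_mul, hGD]
    ring
  refine ⟨G, c, hG, fun h0 => ?_, by rw [← hc, inv_mul_cancel_right₀ (pow_ne_zero _ hG)]⟩
  rw [h0, map_zero, mul_eq_zero] at hc
  exact hc.elim hN0 (inv_ne_zero (pow_ne_zero _ hG))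

/-- norms of functions pulled back along adding a prime to the level, levels up to equality -/
theorem norm_incl {a r q a' : ℕ} [NeZero a] [NeZero r] [NeZero q] [NeZero a'] (ha : a' = a * r)
    (hr : r.Prime) (hrq : ¬ r ∣ a * q) (h : a * q ∣ a' * q) (f : Fld (a * q)) :
    normAlong (heckeAlphaBar Kb a' q) (incl h f) =
        incl (ha ▸ dvd_mul_right a r) (normAlong (heckeAlphaBar Kb a q) f) ∧
      normAlong (heckeBetaBar Kb a' q) (incl h f) =
        incl (ha ▸ dvd_mul_right a r) (normAlong (heckeBetaBar Kb a q) f) := by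
  subst ha
  exact ⟨normAlong_alpha_incl hr hrq h f, normAlong_beta_incl hr hrq h f⟩

/-- the statement at a level with a prime factor `r ≡ 11 (mod 12)`, so without elliptic points -/
def CoreKill (A : ValuationSubring Kb) (q : ℕ) [NeZero q] : Prop :=
  ∀ (M : ℕ) [NeZero M] (r : ℕ), r.Prime → r % 12 = 11 → r ∣ M → ¬ q ∣ M → ∃ c : ℕ, 0 < c ∧
    ∀ (n : ℕ) (R : RatClass (M * q * q) n A), Nat.Coprime n q → n ≠ 0 →
      (∃ (G : Fld (M * q)) (lam : Kb), G ≠ 0 ∧ lam ≠ 0 ∧
        normAlong (heckeAlphaBar Kb (M * q) q) R.f = algebraMap Kb (Fld (M * q)) lam * G ^ n) →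
      (∃ (G : Fld (M * q)) (lam : Kb), G ≠ 0 ∧ lam ≠ 0 ∧
        normAlong (heckeBetaBar Kb (M * q) q) R.f = algebraMap Kb (Fld (M * q)) lam * G ^ n) →
      c • R.cls = 0

theorem exists_kill_of_core {M q : ℕ} [NeZero M] [NeZero q] (hq : q.Prime) (hqM : ¬ q ∣ M)
    (A : ValuationSubring Kb) (hcore : CoreKill A q) :
    ∃ c : ℕ, 0 < c ∧ ∀ (n : ℕ) (y : JZero (M * q * q)), Nat.Coprime n q → n • y = 0 →
      (∀ σ ∈ A.inertiaSubgroupIn ℚ, σ • y = y) → KilledByPush (M * q) q y → c • y = 0 := by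
  obtain ⟨r, hrgt, hr, hr11⟩ := Nat.forall_exists_prime_gt_and_eq_mod (q := 12) (a := 11)
    (IsUnit.of_mul_eq_one 11 (by decide)) (M * q)
  have hr12 : r % 12 = 11 := by
    have := congrArg ZMod.val hr11
    rwa [ZMod.val_natCast] at this
  haveI : NeZero r := ⟨hr.ne_zero⟩
  have hMq : 0 < M * q := Nat.pos_of_ne_zero (NeZero.ne _)
  have hrMq : ¬ r ∣ M * q := fun h => by
    have := Nat.le_of_dvd hMq h
    omega
  have hqr : ¬ q ∣ M * r := fun h => ((Nat.Prime.dvd_mul hq).mp h).elim hqM fun h' =>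
    hrMq ((Nat.prime_dvd_prime_iff_eq hq hr).mp h' ▸ dvd_mul_left q M)
  obtain ⟨c, hc, hkill⟩ := hcore (M * r) r hr hr12 (dvd_mul_left r M) hqr
  have hdeg : ∀ (h : M * q * q ∣ M * r * q * q), finrankAlong Kb (incl h) = r + 1 := fun h => by
    have hcop : (M * q * q).Coprime r := (hr.coprime_iff_not_dvd.mpr fun hd =>
      ((Nat.Prime.dvd_mul hr).mp hd).elim hrMq fun h' => hrMq (h'.trans (dvd_mul_left q M))).symm
    have h1 := finrankAlong_incl h
    have h2 : dedekindPsi r = r + 1 := by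
      have := Genus.dedekindPsi_prime_pow hr Nat.one_pos
      simpa [pow_one] using this
    rw [show dedekindPsi (M * r * q * q) = dedekindPsi (M * q * q) * dedekindPsi r by
      rw [show M * r * q * q = (M * q * q) * r by ring]; exact Genus.dedekindPsi_mul hcop, h2,
      mul_comm (dedekindPsi _)] at h1
    exact Nat.eq_of_mul_eq_mul_right (dedekindPsi_pos' _) h1
  refine ⟨c * (r + 1), Nat.mul_pos hc (Nat.succ_pos r), fun n y hn hy hfix hpush => ?_⟩
  rcases eq_or_ne n 0 with rfl | hn0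
  · exact absurd ((Nat.coprime_zero_left q).mp hn) hq.ne_one
  obtain ⟨R, rfl⟩ := exists_ratClass (n := n) y hy hfix
  obtain ⟨hpa, hpb⟩ := hpush (HeckeJ.isIntegralAlong _) (HeckeJ.isIntegralAlong _)
    ⟨R.D, R.degree_D⟩ rfl
  have h : M * q * q ∣ M * r * q * q := ⟨r, by ring⟩
  obtain ⟨R', -, hRf, hback⟩ := R.exists_incl h
  rw [← hdeg h]
  refine hback c (hkill n R' hn hn0 ?_ ?_)
  all_goals
    obtain ⟨ha, hb⟩ := norm_incl (show M * r * q = M * q * r by ring) hr
      (fun hd => ((Nat.Prime.dvd_mul hr).mp hd).elim hrMq fun h' => hrMq (h'.trans (dvd_mul_left q M)))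
      h R.f
  · obtain ⟨G, lam, hG, hlam, hN⟩ := exists_norm_eq_pow _ R.f_ne R.ord_f hpa
    refine ⟨incl (⟨r, by ring⟩ : M * q ∣ M * r * q) G, lam, (_root_.map_ne_zero _).mpr hG, hlam, ?_⟩
    rw [hRf, ha, hN, map_mul, map_pow, AlgHom.commutes]
  · obtain ⟨G, lam, hG, hlam, hN⟩ := exists_norm_eq_pow _ R.f_ne R.ord_f hpb
    refine ⟨incl (⟨r, by ring⟩ : M * q ∣ M * r * q) G, lam, (_root_.map_ne_zero _).mpr hG, hlam, ?_⟩
    rw [hRf, hb, hN, map_mul, map_pow, AlgHom.commutes]

end FLTAgent.SS2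

end
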