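import Fermat.Agent.SS2.Hasse

/-!
The zeros of a polynomial in `j` on the special fibre of `X₀(M)`.
-/

set_option autoImplicit false
set_option linter.unusedSectionVars false
set_option synthInstance.maxHeartbeats 100000

noncomputable section

open ModularCurve AlgebraicCurve IsLocalRing
open FLTAgent.RR (Bd KK)
open FLTAgent.Reduction

namespace FLTAgent.SS2

variable {A : ValuationSubring Qb} {N q : ℕ} [NeZero N] (C : Ctx A N q)
include C

theorem fin_of_zero_sub {γ : kA A} {Q : PS A N}
    (h : 0 < Q.ord (tS A N false - algebraMap (kA A) (FS A N) γ)) : Bd Q (tS A N false) 0 := by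
  have := (val_zero_of_ord_pos h).add (Val.const (v := Q) γ)
  rw [sub_add_cancel] at this
  exact this.bd

set_option maxHeartbeats 1000000 in
/-- a non-zero polynomial in `j` has `deg · ψ` zeros on the special fibre -/
theorem exists_zeros_poly : ∀ {P : Polynomial (kA A)}, P.Monic →
    ∃ Z : Finset (PS A N),
      (∀ Q, Q ∈ Z ↔ Bd Q (tS A N false) 0 ∧ 0 < Q.ord (Polynomial.aeval (jS A N) P)) ∧
      ∑ Q ∈ Z, Q.ord (Polynomial.aeval (jS A N) P) = (P.natDegree : ℤ) * dedekindPsi N := by
  classical
  suffices H : ∀ (n : ℕ) (P : Polynomial (kA A)), P.Monic → P.natDegree = n →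
      ∃ Z : Finset (PS A N),
        (∀ Q, Q ∈ Z ↔ Bd Q (tS A N false) 0 ∧ 0 < Q.ord (Polynomial.aeval (jS A N) P)) ∧
        ∑ Q ∈ Z, Q.ord (Polynomial.aeval (jS A N) P) = (P.natDegree : ℤ) * dedekindPsi N from
    fun {P} hP => H _ P hP rfl
  intro n
  induction n with
  | zero =>
    intro P hP hd
    rw [hP.natDegree_eq_zero.mp hd]
    exact ⟨∅, fun Q => by simp, by simp⟩
  | succ n ih =>
    intro P hP hd
    obtain ⟨γ, hγ⟩ := IsAlgClosed.exists_root P (by
      rw [Polynomial.degree_eq_natDegree hP.ne_zero, hd]; exact_mod_cast Nat.succ_ne_zero n)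
    obtain ⟨R, rfl⟩ := Polynomial.dvd_iff_isRoot.mpr hγ
    have hR : R.Monic := (Polynomial.monic_X_sub_C γ).of_mul_monic_left hP
    rw [(Polynomial.monic_X_sub_C γ).natDegree_mul hR, Polynomial.natDegree_X_sub_C] at hd
    obtain ⟨Z, hZ, hZs⟩ := ih R hR (by omega)
    obtain ⟨S, hS, hSs⟩ := exists_zeros_S C false γ
    set u := tS A N false - algebraMap (kA A) (FS A N) γ
    have hu : Polynomial.aeval (jS A N) (Polynomial.X - Polynomial.C γ) = u := by simp [u, tS]
    have hu0 : u ≠ 0 := hu ▸ aeval_ne_zero (N := N) (Polynomial.X_sub_C_ne_zero γ)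
    have hR0 : Polynomial.aeval (jS A N) R ≠ 0 := aeval_ne_zero (N := N) hR.ne_zero
    have hord : ∀ Q : PS A N, Q.ord (Polynomial.aeval (jS A N) ((Polynomial.X - Polynomial.C γ) * R)) =
        Q.ord u + Q.ord (Polynomial.aeval (jS A N) R) := fun Q => by
      rw [map_mul, hu, Q.ord_mul hu0 hR0]
    have hnn : ∀ Q : PS A N, Bd Q (tS A N false) 0 →
        0 ≤ Q.ord u ∧ 0 ≤ Q.ord (Polynomial.aeval (jS A N) R) := by
      intro Q hQ
      obtain ⟨c, hc⟩ := val_exists_S C hQ
      have h1 := (RR.bd_iff_ord hu0).mp (hc.sub (Val.const γ)).bd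
      have h2 := (RR.bd_iff_ord hR0).mp (hc.aeval R).bd
      exact ⟨by simpa using h1, by simpa using h2⟩
    refine ⟨S ∪ Z, fun Q => ?_, ?_⟩
    · rw [Finset.mem_union, hS, hZ, hord]
      constructor
      · rintro (h | ⟨h, h'⟩)
        · exact ⟨fin_of_zero_sub C h, by have := hnn Q (fin_of_zero_sub C h); omega⟩
        · exact ⟨h, by have := hnn Q h; omega⟩
      · rintro ⟨h, h'⟩
        have := hnn Q h
        by_cases h1 : 0 < Q.ord u
        · exact Or.inl h1
        · exact Or.inr ⟨h, by omega⟩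
    · rw [Finset.sum_congr rfl fun Q _ => hord Q, Finset.sum_add_distrib,
        ← Finset.sum_subset (s₁ := S) Finset.subset_union_left (f := fun Q => Q.ord u) ?_,
        ← Finset.sum_subset (s₁ := Z) Finset.subset_union_right
          (f := fun Q => Q.ord (Polynomial.aeval (jS A N) R)) ?_, hSs, hZs,
        (Polynomial.monic_X_sub_C γ).natDegree_mul hR, Polynomial.natDegree_X_sub_C]
      · push_cast; ring
      · intro Q hQ hQ'
        rcases Finset.mem_union.mp hQ with h | h
        · have hf := fin_of_zero_sub C ((hS Q).mp h)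
          have := hnn Q hf
          by_contra hne
          exact hQ' ((hZ Q).mpr ⟨hf, by omega⟩)
        · exact absurd h hQ'
      · intro Q hQ hQ'
        rcases Finset.mem_union.mp hQ with h | h
        · exact absurd h hQ'
        · have := hnn Q ((hZ Q).mp h).1
          by_contra hne
          exact hQ' ((hS Q).mpr (by omega))

end FLTAgent.SS2
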