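import Fermat.Agent.SS2.CrossingBasic
import Fermat.Agent.SS2.HasseCount
import Fermat.Agent.SS2.Elliptic
import Fermat.Agent.SS.Surj
import Fermat.Agent.HeckeJ.Galois

/-!
The double points of the fibre of `X₀(Mq)` at a prime `q ∤ M`: their number, and their description
as the zeros of the Hasse polynomial in `j`.
-/

set_option autoImplicit false
set_option linter.unusedSectionVars false
set_option linter.style.haveILetI false
set_option synthInstance.maxHeartbeats 400000

noncomputable section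

open ModularCurve AlgebraicCurve IsLocalRing
open FLTAgent.RR (Bd KK)
open FLTAgent.Reduction

namespace FLTAgent.SS2

variable {A : ValuationSubring Qb} {M q : ℕ} [NeZero M] [NeZero q]

/-- What is used about the fibre: the first component is given by expansions at `∞`, the second
one by their transforms under an automorphism exchanging `j(τ)` and `j(qτ)`. -/
structure LevelData (D : SS.Data Qb A (FB (M * q)) (FS A M)) where
  /-- the Atkin–Lehner automorphism -/
  w : FB (M * q) →ₐ[Qb] FB (M * q)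
  w_alpha : ∀ f, w (heckeAlphaBar Qb M q f) = heckeBetaBar Qb M q f
  w_beta : ∀ f, w (heckeBetaBar Qb M q f) = heckeAlphaBar Qb M q f
  mem_false : ∀ x : FB (M * q), x ∈ D.G false ↔ x ∈ GR A (M * q)
  red_false : ∀ x ∈ GR A (M * q), (D.red false x : LaurentSeries (kA A)) = redS A (M * q) x
  mem_true : ∀ x : FB (M * q), x ∈ D.G true ↔ w x ∈ GR A (M * q)
  red_true : ∀ x : FB (M * q), w x ∈ GR A (M * q) → D.red true x = D.red false (w x)
  J_eq : D.J = j1 M q * j2 M q
  Jbar_eq : D.Jbar = jS A M ^ (q + 1)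

variable {D : SS.Data Qb A (FB (M * q)) (FS A M)}

/-- regular where `J` is finite -/
def FinReg (D : SS.Data Qb A (FB (M * q)) (FS A M)) (x : FB (M * q)) : Prop :=
  ∀ P : PB (M * q), 0 ≤ P.ord D.J → Bd P x 0

theorem FinReg.sub {x y : FB (M * q)} (hx : FinReg D x) (hy : FinReg D y) : FinReg D (x - y) :=
  fun P hP => (hx P hP).sub (hy P hP)

theorem FinReg.mul {x y : FB (M * q)} (hx : FinReg D x) (hy : FinReg D y) : FinReg D (x * y) :=
  fun P hP => by simpa using (hx P hP).mul (hy P hP)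

theorem FinReg.const (c : Qb) : FinReg D (cB (M * q) c) :=
  fun _ _ => RR.Bd.of_algebraMap c

theorem FinReg.pow {x : FB (M * q)} (hx : FinReg D x) : ∀ n : ℕ, FinReg D (x ^ n)
  | 0 => by simpa using FinReg.const (D := D) 1
  | n + 1 => by rw [pow_succ]; exact (FinReg.pow hx n).mul hx

namespace LevelData

variable (L : LevelData D)
include L

theorem mem_series_false {x : FB (M * q)} {G : LaurentSeries A}
    (h : up A G = (x : LaurentSeries Qb)) :
    x ∈ D.G false ∧ (D.red false x : LaurentSeries (kA A)) = dn A G :=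
  ⟨(L.mem_false x).mpr (mem_GR_of_series h), by
    rw [L.red_false x (mem_GR_of_series h), redS_series h]⟩

theorem mem_series_true {x : FB (M * q)} {G : LaurentSeries A}
    (h : up A G = (L.w x : LaurentSeries Qb)) :
    x ∈ D.G true ∧ (D.red true x : LaurentSeries (kA A)) = dn A G :=
  ⟨(L.mem_true x).mpr (mem_GR_of_series h), by
    rw [L.red_true x (mem_GR_of_series h), L.red_false _ (mem_GR_of_series h), redS_series h]⟩

theorem finReg_alpha {b : FB M} (hb : BT A M false b) : FinReg D (heckeAlphaBar Qb M q b) :=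
  fun P hP => image_regOn (heckeAlphaBar Qb M q) hb P
    (fin_of_J L.w L.w_alpha L.w_beta (L.J_eq ▸ hP)).1

theorem finReg_beta {b : FB M} (hb : BT A M false b) : FinReg D (heckeBetaBar Qb M q b) :=
  fun P hP => image_regOn (heckeBetaBar Qb M q) hb P
    (fin_of_J L.w L.w_alpha L.w_beta (L.J_eq ▸ hP)).2

theorem ord_Jbar (Q : PS A M) : Q.ord D.Jbar = ((q : ℤ) + 1) * Q.ord (tS A M false) := by
  rw [L.Jbar_eq, RR.ord_pow]
  push_cast
  rfl

theorem fin_Jbar {Q : PS A M} (hQ : Bd Q (tS A M false) 0) : 0 ≤ Q.ord D.Jbar := by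
  rw [L.ord_Jbar]
  have := (RR.bd_iff_ord (tS_ne_zero A M false)).mp hQ
  nlinarith

theorem fin_pt (b : Bool) (s : D.ι) : Bd (D.pt b s) (tS A M false) 0 := by
  rw [RR.bd_iff_ord (tS_ne_zero A M false)]
  have h := (RR.bd_iff_ord D.toCore.Jbar_ne_zero).mp (D.pt_fin b s)
  rw [L.ord_Jbar] at h
  nlinarith

end LevelData

/-- integral finite regular functions restrict to regular functions -/
theorem bd_red {x : FB (M * q)} (hx : ∀ b, x ∈ D.G b) (hfin : FinReg D x) (b : Bool)
    {Q : PS A M} (hQ : 0 ≤ Q.ord D.Jbar) : Bd Q (D.red b x) 0 := by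
  set R := D.toCore.trivialRep 1
  obtain ⟨m, hm⟩ := R.exists_L_of_onFin (x := x) (fun P hP => by
    rw [D.toCore.trivialRep_E]; exact hfin P hP)
  rw [D.toCore.trivialRep_L] at hm
  have := (SS.mem_target.mp (D.pole_bound m x hm hx b)) Q
  rwa [max_eq_right (by omega), mul_zero] at this

theorem LevelData.red_regOn (L : LevelData D) {x : FB (M * q)} (hx : ∀ b, x ∈ D.G b)
    (hfin : FinReg D x) (b : Bool) : D.red b x ∈ regOn (kA A) (tS A M false) :=
  fun _ hQ => bd_red hx hfin b (L.fin_Jbar hQ)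

/-- values on the two branches of a double point agree -/
theorem glue_zero {x : FB (M * q)} (hx : ∀ b, x ∈ D.G b) (hfin : FinReg D x) (b : Bool)
    (h0 : D.red b x = 0) (s : D.ι) (b' : Bool) : Val (D.pt b' s) (D.red b' x) 0 := by
  set R := D.toCore.trivialRep 1
  obtain ⟨m, hm⟩ := R.exists_L_of_onFin (x := x) (fun P hP => by
    rw [D.toCore.trivialRep_E]; exact hfin P hP)
  rw [D.toCore.trivialRep_L] at hm
  obtain ⟨c, hc⟩ := D.glue m x hm hx s
  have h := hc b
  rw [h0] at h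
  have hc0 : c = 0 := h.unique Val.zero
  rw [← hc0]
  exact hc b'

/-- The data attached to a regular function `t`: `h = Z₁/q` on the first component. -/
structure TwistQuot (D : SS.Data Qb A (FB (M * q)) (FS A M)) (t : FS A M) where
  /-- `f₂(qτ) - f₁(τ)^q` -/
  Z1 : FB (M * q)
  /-- `f₁(τ) - f₀(qτ)^q` -/
  Z2 : FB (M * q)
  /-- `Z₁/q` -/
  h : FB (M * q)
  q_mul : cB (M * q) (q : Qb) * h = Z1
  h_mem : h ∈ D.G false
  theta_h : theta (D.red false h : LaurentSeries (kA A)) =
    theta (t : LaurentSeries (kA A)) ^ q -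
      (t : LaurentSeries (kA A)) ^ (q - 1) * theta (t : LaurentSeries (kA A))
  Z1_mem : ∀ b, Z1 ∈ D.G b
  Z2_mem : ∀ b, Z2 ∈ D.G b
  u_mem : ∀ b, h * Z2 ∈ D.G b
  red_false_Z1 : D.red false Z1 = 0
  red_true_Z2 : D.red true Z2 = 0
  h_fin : FinReg D h
  Z1_fin : FinReg D Z1
  Z2_fin : FinReg D Z2
  Z2_T : Z2 ∈ rationalFn A (M * q)
  /-- residue of `f₀(qτ)` -/
  g : FS A M
  g_reg : g ∈ regOn (kA A) (tS A M false)
  red_false_Z2 : D.red false Z2 = t - g ^ q
  /-- residue of `f₂` -/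
  t1 : FS A M
  t1_qExpand : qExpand (kA A) q (t1 : LaurentSeries (kA A)) = (t : LaurentSeries (kA A)) ^ q
  /-- residue of `f₁(qτ)` -/
  g1 : FS A M
  g1_reg : g1 ∈ regOn (kA A) (tS A M false)
  red_true_Z1 : D.red true Z1 = t1 - g1 ^ q

theorem exists_twistQuot_of_tower (C : Ctx A M q) (L : LevelData D) {t : FS A M}
    (f : ℕ → FB M) (G : ℕ → LaurentSeries A)
    (hf : ∀ j, BT A M false (f j) ∧ up A (G j) = (f j : LaurentSeries Qb))
    (hft : red A M (f 1) = t) (hrat : ∀ j, f j ∈ rationalFn A M)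
    (hstep : ∀ j, j < 2 → ∃ H : LaurentSeries A,
      qExpand A q (G (j + 1)) - G j ^ q = (q : LaurentSeries A) * H) :
    ∃ T : TwistQuot D t,
      T.Z1 = heckeBetaBar Qb M q (f 2) - heckeAlphaBar Qb M q (f 1) ^ q ∧
      T.Z2 = heckeAlphaBar Qb M q (f 1) - heckeBetaBar Qb M q (f 0) ^ q := by
  classical
  obtain ⟨H0, hH0⟩ := hstep 0 two_pos
  obtain ⟨H1, hH1⟩ := hstep 1 one_lt_two
  set i1 := heckeAlphaBar Qb M q
  set i2 := heckeBetaBar Qb M q
  have ha : ∀ j, up A (G j) = (i1 (f j) : LaurentSeries Qb) := fun j => up_alpha (hf j).2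
  have hb : ∀ j, up A (qExpand A q (G j)) = (i2 (f j) : LaurentSeries Qb) :=
    fun j => up_beta (hf j).2
  have hq0 : (q : Qb) ≠ 0 := Nat.cast_ne_zero.mpr C.prime.ne_zero
  have hqk : ((q : LaurentSeries (kA A))) = 0 := by
    rw [← map_natCast (HahnSeries.C : kA A →+* LaurentSeries (kA A)), natCast_residue A C.lies,
      map_zero]
  have hred : ∀ j, (red A M (f j) : LaurentSeries (kA A)) = dn A (G j) := fun j => by
    rw [coe_red C (BT.mem_GR C (hf j).1), redS_series (hf j).2]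
  -- the two elements
  set Z1 := i2 (f 2) - i1 (f 1) ^ q
  set Z2 := i1 (f 1) - i2 (f 0) ^ q
  have hwZ1 : L.w Z1 = i1 (f 2) - i2 (f 1) ^ q := by
    simp only [Z1, i1, i2, map_sub, map_pow, L.w_alpha, L.w_beta]
  have hwZ2 : L.w Z2 = i2 (f 1) - i1 (f 0) ^ q := by
    simp only [Z2, i1, i2, map_sub, map_pow, L.w_alpha, L.w_beta]
  have eZ1 : up A ((q : LaurentSeries A) * H1) = (Z1 : LaurentSeries Qb) := by
    rw [← hH1, map_sub, map_pow, hb, ha]
    rfl
  have eZ2' : up A ((q : LaurentSeries A) * H0) = (L.w Z2 : LaurentSeries Qb) := by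
    rw [← hH0, map_sub, map_pow, hb, ha, hwZ2]
    rfl
  have eZ1' : up A (G 2 - qExpand A q (G 1) ^ q) = (L.w Z1 : LaurentSeries Qb) := by
    rw [map_sub, map_pow, hb, ha, hwZ1]
    rfl
  have eZ2 : up A (G 1 - qExpand A q (G 0) ^ q) = (Z2 : LaurentSeries Qb) := by
    rw [map_sub, map_pow, hb, ha]
    rfl
  -- division by q
  have hdiv : ∀ {x : FB (M * q)} {H : LaurentSeries A},
      up A ((q : LaurentSeries A) * H) = (x : LaurentSeries Qb) →
        up A H = ((cB (M * q) (q : Qb)⁻¹ * x : FB (M * q)) : LaurentSeries Qb) := by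
    intro x H hx
    rw [MulMemClass.coe_mul, ← hx, map_mul, map_natCast, coe_cB, ← mul_assoc,
      ← map_natCast (HahnSeries.C : Qb →+* LaurentSeries Qb), ← HahnSeries.C_apply, ← map_mul,
      inv_mul_cancel₀ hq0, map_one, one_mul]
  set h := cB (M * q) (q : Qb)⁻¹ * Z1
  have eh := hdiv eZ1
  have hw_u : L.w (h * Z2) = L.w Z1 * (cB (M * q) (q : Qb)⁻¹ * L.w Z2) := by
    simp only [h, map_mul, AlgHom.commutes]
    ring
  have hZ2f : FinReg D Z2 := (L.finReg_alpha (hf 1).1).sub ((L.finReg_beta (hf 0).1).pow q)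
  have hZ1f : FinReg D Z1 := (L.finReg_beta (hf 2).1).sub ((L.finReg_alpha (hf 1).1).pow q)
  have hcoe_true : ∀ {j : ℕ}, i2 (f j) ∈ D.G true := fun {j} =>
    (L.mem_series_true (G := G j) (by simp only [i2, L.w_beta]; exact ha j)).1
  have hi2 : ∀ (j : ℕ) (b : Bool), i2 (f j) ∈ D.G b := fun j b => by
    cases b
    · exact (L.mem_series_false (hb j)).1
    · exact hcoe_true
  have hg : ∀ j : ℕ, (D.red false (i2 (f j)) : LaurentSeries (kA A)) =
      qExpand (kA A) q (dn A (G j)) := fun j => by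
    rw [(L.mem_series_false (hb j)).2]
    exact coeffMap_qExpand _ q _
  refine ⟨{
    Z1 := Z1
    Z2 := Z2
    h := h
    q_mul := ?_
    h_mem := (L.mem_series_false eh).1
    theta_h := ?_
    Z1_mem := fun b => by
      cases b
      · exact (L.mem_series_false eZ1).1
      · exact (L.mem_series_true eZ1').1
    Z2_mem := fun b => by
      cases b
      · exact (L.mem_series_false eZ2).1
      · exact (L.mem_series_true eZ2').1
    u_mem := fun b => by
      cases b
      · exact mul_mem (L.mem_series_false eh).1 (L.mem_series_false eZ2).1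
      · rw [L.mem_true, hw_u]
        exact mul_mem (mem_GR_of_series eZ1') (mem_GR_of_series (hdiv eZ2'))
    red_false_Z1 := ?_
    red_true_Z2 := ?_
    h_fin := (FinReg.const _).mul hZ1f
    Z1_fin := hZ1f
    Z2_fin := hZ2f
    Z2_T := sub_mem (fun σ hσ => (HeckeJ.intertwines_heckeAlphaBar M q σ (f 1)).trans
        (congrArg i1 (hrat 1 σ hσ)))
      (pow_mem (show i2 (f 0) ∈ rationalFn A (M * q) from fun σ hσ =>
        (HeckeJ.intertwines_heckeBetaBar M q σ (f 0)).trans (congrArg i2 (hrat 0 σ hσ))) q)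
    g := D.red false (i2 (f 0))
    g_reg := L.red_regOn (hi2 0) (L.finReg_beta (hf 0).1) false
    red_false_Z2 := ?_
    t1 := red A M (f 2)
    t1_qExpand := ?_
    g1 := D.red false (i2 (f 1))
    g1_reg := L.red_regOn (hi2 1) (L.finReg_beta (hf 1).1) false
    red_true_Z1 := ?_ }, rfl, rfl⟩
  · simp only [h]
    rw [← mul_assoc, ← map_mul, mul_inv_cancel₀ hq0, map_one, one_mul]
  · rw [(L.mem_series_false eh).2, theta_twist C hH1, ← hred 1, hft]
  · refine Subtype.ext ?_
    rw [(L.mem_series_false eZ1).2, map_mul, map_natCast, hqk, zero_mul]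
    rfl
  · refine Subtype.ext ?_
    rw [(L.mem_series_true eZ2').2, map_mul, map_natCast, hqk, zero_mul]
    rfl
  · refine Subtype.ext ?_
    rw [(L.mem_series_false eZ2).2, AddSubgroupClass.coe_sub, SubmonoidClass.coe_pow, hg, ← hft,
      hred 1, map_sub, map_pow, coeffMap_qExpand]
  · haveI := Fact.mk C.prime
    haveI := charP_residue A C.prime C.lies
    have h2 := congrArg (dn A) hH1
    rw [map_sub, map_pow, map_mul, map_natCast, hqk, zero_mul, coeffMap_qExpand, sub_eq_zero] at h2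
    rw [← hft, hred 1, hred 2]
    exact h2
  · refine Subtype.ext ?_
    rw [(L.mem_series_true eZ1').2, AddSubgroupClass.coe_sub, SubmonoidClass.coe_pow, hg,
      hred 2, map_sub, map_pow, coeffMap_qExpand]

theorem exists_twistQuot (C : Ctx A M q) (L : LevelData D) {t : FS A M}
    (ht : t ∈ regOn (kA A) (tS A M false)) : Nonempty (TwistQuot D t) := by
  obtain ⟨f, G, hf, hft, hrat, hstep⟩ := exists_tower C ht
  obtain ⟨T, -⟩ := exists_twistQuot_of_tower C L f G hf hft hrat fun j _ => hstep j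
  exact ⟨T⟩

theorem exists_div_q (C : Ctx A M q) (L : LevelData D) {x : FB (M * q)} (hx : x ∈ D.G true)
    (h0 : D.red true x = 0) : ∃ n : ℕ, cB (M * q) (q : Qb)⁻¹ * x ^ n ∈ D.G true := by
  obtain ⟨c, hc, z, hz, rfl⟩ := D.toCore.exists_small true hx h0
  obtain ⟨n, e, he⟩ := exists_pow_dvd C.prime C.lies (SS.Core.residue_eq_zero hc)
  refine ⟨n, ?_⟩
  have hq0 : (q : Qb) ≠ 0 := Nat.cast_ne_zero.mpr C.prime.ne_zero
  have hce : ((c : A) : Qb) ^ n = (q : Qb) * (e : Qb) := by
    rw [← SubmonoidClass.coe_pow, he]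
    rfl
  rw [mul_pow, ← mul_assoc, ← map_pow, ← map_mul, hce, ← mul_assoc, inv_mul_cancel₀ hq0, one_mul]
  exact mul_mem (D.const_mem true e) (pow_mem hz n)

/-- a power of `θt` as a derivative -/
theorem exists_V (C : Ctx A M q) {Q : PS A M} (hQ : Bd Q (tS A M false) 0) {t z u h : FS A M}
    (ht : t ∈ regOn (kA A) (tS A M false)) (ht1 : Q.ord t = 1)
    (hθ : theta (t : LaurentSeries (kA A)) ≠ 0) (hz : z ∈ regOn (kA A) (tS A M false))
    (hu : u ∈ regOn (kA A) (tS A M false)) (hu0 : u ≠ 0) (hzu : z = h * u)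
    (hh : theta (h : LaurentSeries (kA A)) = theta (t : LaurentSeries (kA A)) ^ q -
      (t : LaurentSeries (kA A)) ^ (q - 1) * theta (t : LaurentSeries (kA A))) :
    ∃ w1 w2 : FS A M, Bd Q w1 0 ∧ Bd Q w2 0 ∧
      theta (u : LaurentSeries (kA A)) =
        (w2 : LaurentSeries (kA A)) * theta (t : LaurentSeries (kA A)) ∧
      (((w1 * u - z * w2) / u ^ 2 + t ^ (q - 1) : FS A M) : LaurentSeries (kA A)) =
        theta (t : LaurentSeries (kA A)) ^ (q - 1) := by
  obtain ⟨w1, hw1, e1⟩ := exists_dt C hQ ht ht1 hθ hz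
  obtain ⟨w2, hw2, e2⟩ := exists_dt C hQ ht ht1 hθ hu
  refine ⟨w1, w2, hw1, hw2, e2, ?_⟩
  have hu' : (u : LaurentSeries (kA A)) ≠ 0 := fun h0 => hu0 (Subtype.ext h0)
  have h1 := congrArg (fun x : FS A M => theta (x : LaurentSeries (kA A))) hzu
  simp only [MulMemClass.coe_mul, theta_mul, e1, e2, hh] at h1
  have hθq : theta (t : LaurentSeries (kA A)) ^ q =
      theta (t : LaurentSeries (kA A)) ^ (q - 1) * theta (t : LaurentSeries (kA A)) := by
    rw [← pow_succ]
    congr 1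
    have := C.prime.one_le
    omega
  rw [hθq] at h1
  push_cast
  have hz' : (z : LaurentSeries (kA A)) = (h : LaurentSeries (kA A)) * u := by
    rw [hzu]; rfl
  rw [hz', ← eq_sub_iff_add_eq, div_eq_iff (pow_ne_zero 2 hu')]
  refine mul_left_cancel₀ hθ ?_
  linear_combination (u : LaurentSeries (kA A)) * h1

/-- the order of the Hasse polynomial against that of the power of `θt` -/
theorem ord_hasse (C : Ctx A M q) (hN : NoEll M) {P : Polynomial (kA A)} (hP0 : P ≠ 0)
    (hP : Polynomial.aeval (jqModC (kA A)) P * deltaC (kA A) ^ (q - 1) = 1)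
    {Q : PS A M} (hQ : Bd Q (tS A M false) 0) {t V : FS A M}
    (ht : t ∈ regOn (kA A) (tS A M false)) (ht1 : Q.ord t = 1)
    (hθ : theta (t : LaurentSeries (kA A)) ≠ 0)
    (hV : (V : LaurentSeries (kA A)) = theta (t : LaurentSeries (kA A)) ^ (q - 1)) :
    V ≠ 0 ∧ Q.ord (Polynomial.aeval (jS A M) P) = -(6 * Q.ord V) := by
  obtain ⟨r, hr0, hr, hrord⟩ := exists_theta_pow C hN hP0 hP hQ ht ht1 hθ
  have e : r = V ^ 6 := Subtype.ext (by
    rw [SubmonoidClass.coe_pow, hV, hr, ← pow_mul, mul_comm])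
  subst e
  refine ⟨fun h => hr0 (by rw [h, zero_pow (by norm_num)]), ?_⟩
  rw [RR.ord_pow] at hrord
  push_cast at hrord
  omega

theorem ord_aeval_nonneg (C : Ctx A M q) {P : Polynomial (kA A)} (hP0 : P ≠ 0) {Q : PS A M}
    (hQ : Bd Q (tS A M false) 0) : 0 ≤ Q.ord (Polynomial.aeval (jS A M) P) := by
  obtain ⟨c, hc⟩ := val_exists_S C hQ
  simpa using (RR.bd_iff_ord (aeval_ne_zero (N := M) hP0)).mp (hc.aeval P).bd

theorem theta_pow_q (C : Ctx A M q) (g : LaurentSeries (kA A)) : theta (g ^ q) = 0 := by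
  obtain ⟨m, hm⟩ : ∃ m, q = m + 1 := ⟨q - 1, by have := C.prime.one_le; omega⟩
  conv_lhs => rw [hm]
  rw [theta_pow_succ, ← hm, ← map_natCast (HahnSeries.C : kA A →+* LaurentSeries (kA A)),
    natCast_residue A C.lies, map_zero, zero_mul, zero_mul]

/-- away from the double points `θt` is finite and non-zero -/
theorem off_double (C : Ctx A M q) (L : LevelData D) (hN : NoEll M) {P : Polynomial (kA A)}
    (hP0 : P ≠ 0) (hP : Polynomial.aeval (jqModC (kA A)) P * deltaC (kA A) ^ (q - 1) = 1)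
    {Q : PS A M} (hQ : Bd Q (tS A M false) 0) (hne : ∀ s, D.pt false s ≠ Q) {t : FS A M}
    (ht : t ∈ regOn (kA A) (tS A M false)) (ht1 : Q.ord t = 1)
    (hθ : theta (t : LaurentSeries (kA A)) ≠ 0) :
    Q.ord (Polynomial.aeval (jS A M) P) = 0 ∧
      ∃ V : FS A M, (V : LaurentSeries (kA A)) = theta (t : LaurentSeries (kA A)) ^ (q - 1) ∧
        V ≠ 0 ∧ Q.ord V = 0 := by
  classical
  haveI := D.fintype
  haveI := finite_tS C false
  haveI := separable_tS C false
  obtain ⟨T⟩ := exists_twistQuot C L ht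
  -- a function vanishing at the double points and not at `Q`
  choose φ hφr hφv hφ0 hφQ using fun s =>
    exists_separate (transcendental_tS A M false) (L.fin_pt false s) hQ (hne s)
  set g := ∏ s, φ s
  have hgr : g ∈ regOn (kA A) (tS A M false) := Subalgebra.prod_mem _ fun s _ => hφr s
  have hg0 : g ≠ 0 := Finset.prod_ne_zero_iff.mpr fun s _ => hφ0 s
  have hgv : ∀ s, Val (D.pt false s) g 0 := fun s => by
    rw [show g = φ s * ∏ s' ∈ Finset.univ.erase s, φ s' from
      (Finset.mul_prod_erase _ _ (Finset.mem_univ s)).symm]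
    obtain ⟨c, hc⟩ := Reduction.exists_val (D.hasRes (D.pt false s))
      ((Subalgebra.prod_mem _ fun s' _ => hφr s' : ∏ s' ∈ Finset.univ.erase s, φ s' ∈
        regOn (kA A) (tS A M false)) _ (L.fin_pt false s))
    simpa using (show Val (D.pt false s) (φ s) 0 by simpa [Val] using hφv s).mul hc
  have hgQ : Q.ord g = 0 := by
    have hval : ∀ s, ∃ c, c ≠ 0 ∧ Val Q (φ s) c := fun s => by
      obtain ⟨c, hc⟩ := Reduction.exists_val (D.hasRes Q) (hφr s Q hQ)
      refine ⟨c, fun h => ?_, hc⟩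
      subst h
      have := hc.ord_pos (hφ0 s)
      have := hφQ s
      omega
    choose c hc0 hc using hval
    exact ((SS.val_prod Finset.univ fun s _ => hc s).ord_eq_zero
      (Finset.prod_ne_zero_iff.mpr fun s _ => hc0 s)).2
  obtain ⟨x, hx, hxf⟩ := D.lift_fin (fun b => if b then 0 else g)
    (fun b v hv => by
      cases b
      · refine hgr v ?_
        rw [RR.bd_iff_ord (tS_ne_zero A M false)]
        rw [L.ord_Jbar] at hv
        nlinarith
      · exact RR.Bd.zero)
    (fun s => ⟨0, fun b => by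
      cases b
      · exact hgv s
      · exact Val.zero⟩)
  obtain ⟨n, hn⟩ := exists_div_q C L (hx true).1 (by simpa using (hx true).2)
  have hy : ∀ b, T.h * x ^ n ∈ D.G b := fun b => by
    cases b
    · exact mul_mem T.h_mem (pow_mem (hx false).1 n)
    · have e : T.h = cB (M * q) (q : Qb)⁻¹ * T.Z1 := by
        rw [← T.q_mul, ← mul_assoc, ← map_mul,
          inv_mul_cancel₀ (Nat.cast_ne_zero.mpr C.prime.ne_zero), map_one, one_mul]
      rw [e, mul_comm (cB (M * q) _) T.Z1, mul_assoc]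
      exact mul_mem (T.Z1_mem true) hn
  have hz := L.red_regOn hy (T.h_fin.mul (FinReg.pow hxf n)) false
  rw [D.red_mul false _ T.h_mem _ (pow_mem (hx false).1 n), D.toCore.red_pow false (hx false).1,
    show D.red false x = g by simpa using (hx false).2] at hz
  obtain ⟨w1, w2, hw1, hw2, -, hV⟩ := exists_V C hQ ht ht1 hθ hz (Subalgebra.pow_mem _ hgr n)
    (pow_ne_zero n hg0) rfl T.theta_h
  obtain ⟨hV0, hord⟩ := ord_hasse C hN hP0 hP hQ ht ht1 hθ hV
  have hun : Q.ord (g ^ n) = 0 := by rw [RR.ord_pow, hgQ, mul_zero]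
  have hu2 : Bd Q ((g ^ n) ^ 2)⁻¹ 0 := by
    rw [RR.bd_iff_ord (inv_ne_zero (pow_ne_zero _ (pow_ne_zero _ hg0))), Q.ord_inv, RR.ord_pow, hun]
    simp
  have hnum : Bd Q (w1 * g ^ n - D.red false T.h * g ^ n * w2) 0 := by
    have h1 := hw1.mul ((Subalgebra.pow_mem _ hgr n) Q hQ)
    have h2 := (hz Q hQ).mul hw2
    simpa using h1.sub (by simpa using h2)
  have hVb : Bd Q ((w1 * g ^ n - D.red false T.h * g ^ n * w2) / (g ^ n) ^ 2 + t ^ (q - 1)) 0 := by
    refine RR.Bd.add ?_ (Subalgebra.pow_mem _ ht _ Q hQ)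
    simpa [div_eq_mul_inv] using hnum.mul hu2
  have h1 := (RR.bd_iff_ord hV0).mp hVb
  have h2 := ord_aeval_nonneg C hP0 hQ
  exact ⟨by omega, _, hV, hV0, by omega⟩

/-- at a double point the Hasse polynomial vanishes at most twelvefold, and then `h` has a pole -/
theorem at_double (C : Ctx A M q) (L : LevelData D) (hN : NoEll M) {P : Polynomial (kA A)}
    (hP0 : P ≠ 0) (hP : Polynomial.aeval (jqModC (kA A)) P * deltaC (kA A) ^ (q - 1) = 1)
    (s : D.ι) {t : FS A M}
    (ht : t ∈ regOn (kA A) (tS A M false)) (ht1 : (D.pt false s).ord t = 1)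
    (hθ : theta (t : LaurentSeries (kA A)) ≠ 0) (T : TwistQuot D t) :
    (D.pt false s).ord (Polynomial.aeval (jS A M) P) ≤ 12 ∧
      (D.pt false s).ord (D.red false T.Z2) = 1 ∧
      ((D.pt false s).ord (Polynomial.aeval (jS A M) P) = 12 →
        ∃ c, c ≠ 0 ∧ ∀ b, Val (D.pt b s) (D.red b (T.h * T.Z2)) c) := by
  set Q := D.pt false s
  have hQ := L.fin_pt false s
  have ht0 : t ≠ 0 := fun h => by simp [h] at ht1
  have h0 := glue_zero T.Z2_mem T.Z2_fin true T.red_true_Z2 s false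
  rw [T.red_false_Z2] at h0
  -- `g(Q) = 0`
  have htv : Val Q t 0 := val_zero_of_ord_pos (by omega)
  obtain ⟨cg, hcg⟩ := Reduction.exists_val (D.hasRes Q) (T.g_reg Q hQ)
  have hcg0 : cg = 0 := by
    have h1 := h0.unique (htv.sub (hcg.pow q))
    rw [zero_sub, eq_comm, neg_eq_zero] at h1
    exact eq_zero_of_pow_eq_zero h1
  rw [hcg0] at hcg
  have hgq : Bd Q (T.g ^ q) (-2) := by
    rcases eq_or_ne T.g 0 with h | h
    · rw [h, zero_pow C.prime.ne_zero]; exact RR.Bd.zero
    rw [RR.bd_iff_ord (pow_ne_zero _ h), RR.ord_pow]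
    have h1 := hcg.ord_pos h
    have h2 : (2 : ℤ) ≤ (q : ℤ) := by exact_mod_cast C.prime.two_le
    nlinarith
  set u := D.red false T.Z2
  have hu0 : u ≠ 0 := fun h => by
    rw [show u = t - T.g ^ q from T.red_false_Z2, sub_eq_zero] at h
    rw [← h, RR.bd_iff_ord ht0, ht1] at hgq
    omega
  have hu1 : Q.ord u = 1 := by
    have hb : Bd Q u (-1) := by
      show Bd Q (D.red false T.Z2) (-1)
      rw [T.red_false_Z2]
      exact ((RR.bd_iff_ord ht0).mpr (by omega)).sub (hgq.mono (by norm_num))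
    have hle := (RR.bd_iff_ord hu0).mp hb
    by_contra hne
    have h2 : Bd Q u (-2) := (RR.bd_iff_ord hu0).mpr (by omega)
    have ht2 : Bd Q (u + T.g ^ q) (-2) := h2.add hgq
    rw [show u + T.g ^ q = t from by rw [show u = t - T.g ^ q from T.red_false_Z2, sub_add_cancel],
      RR.bd_iff_ord ht0, ht1] at ht2
    omega
  have hz := L.red_regOn T.u_mem (T.h_fin.mul T.Z2_fin) false
  rw [D.red_mul false _ T.h_mem _ (T.Z2_mem false)] at hz
  have hu : u ∈ regOn (kA A) (tS A M false) := L.red_regOn T.Z2_mem T.Z2_fin false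
  obtain ⟨w1, w2, hw1, hw2, hw2θ, hV⟩ := exists_V C hQ ht ht1 hθ hz hu hu0 rfl T.theta_h
  obtain ⟨hV0, hord⟩ := ord_hasse C hN hP0 hP hQ ht ht1 hθ hV
  have hu2 : Bd Q (u ^ 2)⁻¹ 2 := by
    rw [RR.bd_iff_ord (inv_ne_zero (pow_ne_zero _ hu0)), Q.ord_inv, RR.ord_pow, hu1]
    norm_num
  -- the bound for a given bound on the numerator
  have key : ∀ e : ℤ, -2 ≤ e → Bd Q (w1 * u - D.red false T.h * u * w2) e →
      Q.ord (Polynomial.aeval (jS A M) P) ≤ 6 * (e + 2) := by
    intro e he hnum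
    have hVb : Bd Q ((w1 * u - D.red false T.h * u * w2) / u ^ 2 + t ^ (q - 1)) (e + 2) := by
      refine RR.Bd.add ?_ ((Subalgebra.pow_mem _ ht _ Q hQ).mono (by omega))
      rw [div_eq_mul_inv]
      exact hnum.mul hu2
    have := (RR.bd_iff_ord hV0).mp hVb
    change Q.ord (Polynomial.aeval (jS A M) P) =
      -(6 * Q.ord ((w1 * u - D.red false T.h * u * w2) / u ^ 2 + t ^ (q - 1))) at hord
    change -(e + 2) ≤ Q.ord ((w1 * u - D.red false T.h * u * w2) / u ^ 2 + t ^ (q - 1)) at this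
    omega
  refine ⟨?_, hu1, fun h12 => ?_⟩
  · refine key 0 (by norm_num) ?_
    simpa using ((hw1.mul (hu Q hQ)).sub ((hz Q hQ).mul hw2))
  obtain ⟨c, hc⟩ : ∃ c, ∀ b, Val (D.pt b s) (D.red b (T.h * T.Z2)) c := by
    set R := D.toCore.trivialRep 1
    obtain ⟨m, hm⟩ := R.exists_L_of_onFin (x := T.h * T.Z2) (fun P hP => by
      rw [D.toCore.trivialRep_E]; exact (T.h_fin.mul T.Z2_fin) P hP)
    rw [D.toCore.trivialRep_L] at hm
    exact D.glue m _ hm T.u_mem s
  refine ⟨c, fun hc0 => ?_, hc⟩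
  have h1 := hc false
  rw [D.red_mul false _ T.h_mem _ (T.Z2_mem false), hc0] at h1
  have := key (-1) (by norm_num) (by
    refine RR.Bd.sub ?_ ?_
    · simpa using hw1.mul ((RR.bd_iff_ord hu0).mpr (by omega) : Bd Q u (-1))
    · have hz1 : Bd Q (D.red false T.h * u) (-1) := by simpa [Val] using h1
      simpa using hz1.mul hw2)
  omega

/-- the number of double points -/
theorem card_double (C : Ctx A M q) (L : LevelData D) {r : ℕ} (hr : r.Prime) (h11 : r % 12 = 11)
    (hrM : r ∣ M) : 12 * (Nat.card D.ι : ℤ) = ((q : ℤ) - 1) * dedekindPsi M := by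
  classical
  obtain ⟨m0, hm0⟩ := D.exists_count
  obtain ⟨d0, -, hd0⟩ := Flat.exists_highDeg C
  have hψ := Reduction.dedekindPsi_pos C
  have htarget : ∀ m : ℕ, SS.target (k := kA A) D.Jbar m =
      riemannRochSpace ((m * (q + 1)) • Flat.rDiv C (Flat.poleJ M)) := fun m => by
    ext x
    rw [SS.mem_target, mem_riemannRochSpace_iff]
    refine forall_congr' fun Q => ?_
    rw [RR.bd_iff, L.ord_Jbar, Finsupp.smul_apply, Flat.rDiv_poleJ_apply, nsmul_eq_mul]
    have e : (m : ℤ) * max (-(((q : ℤ) + 1) * Q.ord (tS A M false))) 0 =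
        ((m * (q + 1) : ℕ) : ℤ) * max 0 (-Q.ord (tS A M false)) := by
      rcases le_total 0 (-Q.ord (tS A M false)) with h | h
      · rw [max_eq_left (by nlinarith), max_eq_right h]; push_cast; ring
      · rw [max_eq_right (by nlinarith), max_eq_left h]; simp
    rw [e]
  set m := m0 + d0
  have key : ∀ k : ℕ, m ≤ k →
      (k : ℤ) * RR.ndeg Qb D.J + 1 - genusFF Qb (FB (M * q)) + Nat.card D.ι =
        2 * ((k : ℤ) * (q + 1) * dedekindPsi M + 1 - genusFF Qb (FB M)) := by
    intro k hk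
    obtain ⟨-, -, h1, -, h2⟩ := hm0 k (by omega)
    have hdeg : Divisor.degree ((k * (q + 1)) • Flat.poleJ M) =
        (k : ℤ) * (q + 1) * dedekindPsi M := by
      rw [map_nsmul, Flat.degree_poleJ, nsmul_eq_mul]
      push_cast
      ring
    obtain ⟨-, h3, -⟩ := hd0 ((k * (q + 1)) • Flat.poleJ M) (by
      rw [hdeg]
      have h4 : d0 ≤ k * (q + 1) * dedekindPsi M :=
        calc d0 ≤ k * 1 * 1 := by omega
          _ ≤ _ := Nat.mul_le_mul (Nat.mul_le_mul le_rfl (by omega)) hψ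
      exact_mod_cast h4)
    rw [Flat.rDiv_nsmul, ← htarget, hdeg] at h3
    have h1' := congrArg (Nat.cast : ℕ → ℤ) h1
    push_cast at h1'
    rw [h2, h3] at h1'
    exact h1'
  have e0 := key m le_rfl
  have e1 := key (m + 1) (Nat.le_succ m)
  push_cast at e1
  have hn : (RR.ndeg Qb D.J : ℤ) = 2 * (q + 1) * dedekindPsi M := by linear_combination e1 - e0
  have hδ : (Nat.card D.ι : ℤ) = genusFF Qb (FB (M * q)) - 2 * genusFF Qb (FB M) + 1 := by
    linear_combination e0 - (m : ℤ) * hn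
  rw [hδ]
  exact genus_diff hr h11 hrM C.prime C.not_dvd

/-- the Hasse polynomial over the residue field -/
theorem exists_hasse_kA (C : Ctx A M q) :
    ∃ P : Polynomial (kA A), P.Monic ∧ P.natDegree = q - 1 ∧
      Polynomial.aeval (jqModC (kA A)) P * deltaC (kA A) ^ (q - 1) = 1 := by
  haveI := Fact.mk C.prime
  haveI := charP_residue A C.prime C.lies
  letI : Algebra (ZMod q) (kA A) := ZMod.algebra _ q
  obtain ⟨P, hP, hd, h⟩ := exists_hasse_poly q
  exact ⟨P.map (algebraMap (ZMod q) (kA A)), hP.map _, by rw [hP.natDegree_map, hd], h (kA A)⟩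

/-- The zeros of the Hasse polynomial are exactly the double points, all twelvefold. -/
theorem double_eq_zeros (C : Ctx A M q) (L : LevelData D) {r : ℕ} (hr : r.Prime)
    (h11 : r % 12 = 11) (hrM : r ∣ M) {P : Polynomial (kA A)} (hPm : P.Monic)
    (hPd : P.natDegree = q - 1)
    (hP : Polynomial.aeval (jqModC (kA A)) P * deltaC (kA A) ^ (q - 1) = 1) :
    (∀ s, (D.pt false s).ord (Polynomial.aeval (jS A M) P) = 12) ∧
      ∀ Q : PS A M, (Bd Q (tS A M false) 0 ∧ 0 < Q.ord (Polynomial.aeval (jS A M) P)) ↔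
        ∃ s, D.pt false s = Q := by
  classical
  haveI := D.fintype
  have hN : NoEll M := noEll hr h11 hrM
  set Pj := Polynomial.aeval (jS A M) P
  obtain ⟨Z, hZ, hsum⟩ := exists_zeros_poly C hPm
  set S := Finset.univ.image (D.pt false)
  have hZS : Z ⊆ S := fun Q hQ => by
    obtain ⟨hQf, hpos⟩ := (hZ Q).mp hQ
    by_contra hne
    obtain ⟨t, ht, ht1, hθ⟩ := exists_unif_theta C hQf
    have := (off_double C L hN hPm.ne_zero hP hQf
      (fun s hs => hne (Finset.mem_image.mpr ⟨s, Finset.mem_univ _, hs⟩)) ht ht1 hθ).1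
    exact absurd this hpos.ne'
  have hle : ∀ Q ∈ S, Q.ord Pj ≤ 12 := fun Q hQ => by
    obtain ⟨s, -, rfl⟩ := Finset.mem_image.mp hQ
    obtain ⟨t, ht, ht1, hθ⟩ := exists_unif_theta C (L.fin_pt false s)
    obtain ⟨T⟩ := exists_twistQuot C L ht
    exact (at_double C L hN hPm.ne_zero hP s ht ht1 hθ T).1
  have hext : ∑ Q ∈ S, Q.ord Pj = ((q : ℤ) - 1) * dedekindPsi M := by
    rw [← Finset.sum_subset hZS fun Q hQ hQ' => ?_, hsum, hPd,
      Nat.cast_sub C.prime.one_le, Nat.cast_one]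
    obtain ⟨s, -, rfl⟩ := Finset.mem_image.mp hQ
    have h1 := ord_aeval_nonneg C hPm.ne_zero (L.fin_pt false s)
    by_contra hne
    exact hQ' ((hZ _).mpr ⟨L.fin_pt false s, lt_of_le_of_ne h1 (Ne.symm hne)⟩)
  have h12 : ∀ Q ∈ S, Q.ord Pj = 12 := eq_of_sum_eq_card hle (by
    rw [hext, ← card_double C L hr h11 hrM, Finset.card_image_of_injective _ (D.pt_inj false),
      Finset.card_univ, ← Nat.card_eq_fintype_card, mul_comm])
  refine ⟨fun s => h12 _ (Finset.mem_image.mpr ⟨s, Finset.mem_univ _, rfl⟩),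
    fun Q => ⟨fun hQ => ?_, ?_⟩⟩
  · obtain ⟨s, -, hs⟩ := Finset.mem_image.mp (hZS ((hZ Q).mpr hQ))
    exact ⟨s, hs⟩
  · rintro ⟨s, rfl⟩
    have h := h12 _ (Finset.mem_image.mpr ⟨s, Finset.mem_univ _, rfl⟩)
    exact ⟨L.fin_pt false s, by change 0 < (D.pt false s).ord Pj; omega⟩

/-- At a double point `Z₁Z₂/q` takes a non-zero value, and `Z₂` is a uniformiser of the first
branch. -/
theorem exists_crossing (C : Ctx A M q) (L : LevelData D) {r : ℕ} (hr : r.Prime)
    (h11 : r % 12 = 11) (hrM : r ∣ M) (s : D.ι) {t : FS A M}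
    (ht : t ∈ regOn (kA A) (tS A M false)) (ht1 : (D.pt false s).ord t = 1)
    (hθ : theta (t : LaurentSeries (kA A)) ≠ 0) (T : TwistQuot D t) :
    (D.pt false s).ord (D.red false T.Z2) = 1 ∧
      (D.pt false s).ord (D.red false T.h) = -1 ∧
      ∃ c, c ≠ 0 ∧ ∀ b, Val (D.pt b s) (D.red b (T.h * T.Z2)) c := by
  obtain ⟨P, hPm, hPd, hP⟩ := exists_hasse_kA C
  obtain ⟨-, h1, h2⟩ := at_double C L (noEll hr h11 hrM) hPm.ne_zero hP s ht ht1 hθ T
  obtain ⟨c, hc0, hc⟩ := h2 ((double_eq_zeros C L hr h11 hrM hPm hPd hP).1 s)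
  refine ⟨h1, ?_, c, hc0, hc⟩
  have h3 := hc false
  rw [D.red_mul false _ T.h_mem _ (T.Z2_mem false)] at h3
  obtain ⟨hne, h4⟩ := h3.ord_eq_zero hc0
  obtain ⟨n1, n2⟩ := mul_ne_zero_iff.mp hne
  rw [(D.pt false s).ord_mul n1 n2] at h4
  omega

/-- off the double points `θt` is finite and non-zero -/
theorem theta_ne_off_double (C : Ctx A M q) (L : LevelData D) {r : ℕ} (hr : r.Prime)
    (h11 : r % 12 = 11) (hrM : r ∣ M) {Q : PS A M} (hQ : Bd Q (tS A M false) 0)
    (hne : ∀ s, D.pt false s ≠ Q) {t : FS A M} (ht : t ∈ regOn (kA A) (tS A M false))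
    (ht1 : Q.ord t = 1) (hθ : theta (t : LaurentSeries (kA A)) ≠ 0) :
    ∃ V : FS A M, (V : LaurentSeries (kA A)) = theta (t : LaurentSeries (kA A)) ^ (q - 1) ∧
      V ≠ 0 ∧ Q.ord V = 0 := by
  obtain ⟨P, hPm, -, hP⟩ := exists_hasse_kA C
  exact (off_double C L (noEll hr h11 hrM) hPm.ne_zero hP hQ hne ht ht1 hθ).2

end FLTAgent.SS2
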