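import Fermat.Agent.SS2.Inertia
import Mathlib.LinearAlgebra.Lagrange

/-!
Elements of valuation `1/d` over the inertia-fixed field: independence of powers, integrality of
coordinates, conjugates; a valuation estimate for a polynomial equation.
-/

set_option autoImplicit false
set_option linter.unusedSectionVars false

noncomputable section

open Polynomial

namespace FLTAgent.SS2

open FLTAgent.Reduction (Qb)

variable {A : ValuationSubring Qb} {q : ℕ}

theorem valuation_q_pos (hq : q.Prime) : 0 < A.valuation (q : Qb) :=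
  zero_lt_iff.mpr ((_root_.map_ne_zero _).mpr (Nat.cast_ne_zero.mpr hq.ne_zero))

theorem valuation_inertia {σ : Qb ≃ₐ[ℚ] Qb} (hσ : σ ∈ A.inertiaSubgroupIn ℚ) {x : Qb}
    (hx : x ∈ A) : σ x ∈ A := by
  obtain ⟨s, hs, rfl⟩ := Subgroup.mem_map.mp hσ
  exact (s • (⟨x, hx⟩ : A)).2

section Root

variable (hq : q.Prime) (hA : A.LiesOverPrime q) {z : Qb} {d : ℕ} (hd : 0 < d)
  (hz : A.valuation z ^ d = A.valuation (q : Qb))

include hq hz hd in
theorem z_ne_zero : z ≠ 0 := fun h => by
  rw [h, map_zero, zero_pow hd.ne'] at hz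
  exact (valuation_q_pos (A := A) hq).ne hz

include hq hA hz hd in
/-- the powers below `d` have coordinates bounded by the value -/
theorem coeff_le {c : ℕ → Qb} (hc : ∀ i, c i ∈ inertiaFixed A) {i : ℕ} (hi : i < d) :
    A.valuation (c i * z ^ i) ≤ A.valuation (∑ j ∈ Finset.range d, c j * z ^ j) := by
  classical
  set v := A.valuation
  by_cases hall : ∀ j ∈ Finset.range d, c j * z ^ j = 0
  · rw [hall i (Finset.mem_range.mpr hi), map_zero]; exact zero_le
  push Not at hall
  obtain ⟨j₀, hj₀, hj₀0⟩ := hall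
  obtain ⟨i₀, hi₀, hmax⟩ := (Finset.range d).exists_max_image (fun j => v (c j * z ^ j)) ⟨j₀, hj₀⟩
  have hne : c i₀ * z ^ i₀ ≠ 0 := fun h0 => hj₀0 (by
    have := hmax j₀ hj₀
    rw [h0, map_zero, le_zero_iff, map_eq_zero] at this
    exact this)
  have hval : ∀ j ∈ Finset.range d, c j * z ^ j ≠ 0 →
      ∃ k : ℤ, v (c j * z ^ j) ^ d = v (q : Qb) ^ (k * d + j) := by
    intro j _ hj
    obtain ⟨k, hk⟩ := exists_zpow_valuation_T hq hA (hc j) (left_ne_zero_of_mul hj)
    refine ⟨k, ?_⟩
    rw [map_mul, map_pow, mul_pow, hk, ← pow_mul, mul_comm j d, pow_mul, hz,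
      zpow_add₀ (valuation_q_pos hq).ne', zpow_mul, zpow_natCast, zpow_natCast]
  rw [Valuation.map_sum_eq_of_lt v hi₀ fun j hj => ?_]
  · exact hmax i (Finset.mem_range.mpr hi)
  rw [Finset.mem_sdiff, Finset.mem_singleton] at hj
  rcases eq_or_ne (c j * z ^ j) 0 with h0 | h0
  · rw [h0, map_zero]
    exact zero_lt_iff.mpr ((_root_.map_ne_zero _).mpr hne)
  refine lt_of_le_of_ne (hmax j hj.1) fun he => hj.2 ?_
  obtain ⟨k, hk⟩ := hval j hj.1 h0
  obtain ⟨k', hk'⟩ := hval i₀ hi₀ hne
  rw [he, hk'] at hk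
  have hinj : k' * d + i₀ = k * d + (j : ℤ) :=
    (zpow_right_inj₀ (valuation_q_pos hq) (ne_of_lt hA)).mp hk
  have h1 := Finset.mem_range.mp hi₀
  have h2 := Finset.mem_range.mp hj.1
  have h3 : ((i₀ : ℤ) - j) = (k - k') * d := by linear_combination hinj
  rcases lt_trichotomy (k - k') 0 with h | h | h
  · nlinarith
  · rw [h, zero_mul] at h3
    omega
  · nlinarith

include hq hA hz hd in
theorem coeff_eq_zero {c : ℕ → Qb} (hc : ∀ i, c i ∈ inertiaFixed A)
    (h : ∑ j ∈ Finset.range d, c j * z ^ j = 0) {i : ℕ} (hi : i < d) : c i = 0 := by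
  have := coeff_le hq hA hd hz hc hi
  rw [h, map_zero, le_zero_iff, map_eq_zero] at this
  exact (mul_eq_zero.mp this).resolve_right (pow_ne_zero _ (z_ne_zero hq hd hz))

include hq hA hz hd in
/-- integral elements of `T(z)` have integral coordinates -/
theorem coeff_mem {c : ℕ → Qb} (hc : ∀ i, c i ∈ inertiaFixed A)
    (h : ∑ j ∈ Finset.range d, c j * z ^ j ∈ A) {i : ℕ} (hi : i < d) : c i ∈ A := by
  rcases eq_or_ne (c i) 0 with h0 | h0
  · rw [h0]; exact A.zero_mem
  obtain ⟨k, hk⟩ := exists_zpow_valuation_T hq hA (hc i) h0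
  have h1 := (coeff_le hq hA hd hz hc hi).trans ((A.valuation_le_one_iff _).mpr h)
  have h2 : (A.valuation (c i * z ^ i)) ^ d ≤ 1 := pow_le_one₀ zero_le h1
  rw [map_mul, map_pow, mul_pow, hk, ← pow_mul, mul_comm i d, pow_mul, hz, ← zpow_natCast
    (A.valuation (q : Qb) ^ k), ← zpow_mul, ← zpow_natCast (A.valuation (q : Qb)) i,
    ← zpow_add₀ (valuation_q_pos hq).ne'] at h2
  have hk0 : 0 ≤ k := by
    by_contra hneg
    have hlt : k * (d : ℤ) + i < 0 := by
      have : (i : ℤ) < d := by exact_mod_cast hi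
      nlinarith
    have := (one_lt_zpow_iff_right_of_lt_one₀ (valuation_q_pos hq) hA).mpr hlt
    exact absurd h2 (not_le.mpr this)
  rw [← A.valuation_le_one_iff, hk]
  rcases eq_or_lt_of_le hk0 with hk' | hk'
  · rw [← hk', zpow_zero]
  · exact ((zpow_lt_one_iff_right_of_lt_one₀ (valuation_q_pos hq) hA).mpr hk').le

include hq hA hz hd in
/-- an inertia-stable set containing `z` has at least `d` elements -/
theorem card_le (S : Finset Qb) (hS : ∀ σ ∈ A.inertiaSubgroupIn ℚ, ∀ x ∈ S, σ x ∈ S)
    (hzS : z ∈ S) : d ≤ S.card := by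
  classical
  by_contra hlt
  push Not at hlt
  set p : Qb[X] := ∏ x ∈ S, (X - C x)
  have hmonic : p.Monic := monic_prod_of_monic _ _ fun x _ => monic_X_sub_C x
  have hdeg : p.natDegree = S.card := by
    rw [natDegree_prod_of_monic _ _ fun x _ => monic_X_sub_C x]
    simp
  have hfix : ∀ i, p.coeff i ∈ inertiaFixed A := fun i => by
    rw [mem_inertiaFixed]
    intro σ hσ
    have hmap : p.map (σ : Qb →+* Qb) = p := by
      simp only [p, Polynomial.map_prod, Polynomial.map_sub, map_X, map_C]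
      refine Finset.prod_bij (fun x _ => σ x) (fun x hx => hS σ hσ x hx)
        (fun x _ y _ h => σ.injective h) (fun y hy => ?_) (fun x _ => rfl)
      exact ⟨σ⁻¹ y, hS _ (inv_mem hσ) y hy, σ.apply_symm_apply y⟩
    have := congrArg (fun g : Qb[X] => g.coeff i) hmap
    simpa using this
  have h0 : p.eval z = 0 := by
    rw [eval_prod]
    exact Finset.prod_eq_zero hzS (by simp)
  rw [eval_eq_sum_range' (show p.natDegree < d by omega)] at h0
  have := coeff_eq_zero hq hA hd hz hfix h0 (show S.card < d from hlt)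
  rw [← hdeg, hmonic.coeff_natDegree] at this
  exact one_ne_zero this

/-- interpolation: a value determined by a conjugate of `z` is a polynomial in `z` over `T` -/
theorem exists_coords {ι : Type} [Fintype ι] (w zf : ι → Qb) (hinj : Function.Injective zf)
    (hperm : ∀ σ ∈ A.inertiaSubgroupIn ℚ, ∀ i, ∃ j, σ (zf i) = zf j ∧ σ (w i) = w j) :
    ∃ c : ℕ → Qb, (∀ k, c k ∈ inertiaFixed A) ∧
      ∀ i, w i = ∑ k ∈ Finset.range (Fintype.card ι), c k * zf i ^ k := by
  classical
  set p := Lagrange.interpolate (Finset.univ : Finset ι) zf w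
  have hinj' : Set.InjOn zf (Finset.univ : Finset ι) := hinj.injOn
  have hdeg : p.degree < (Finset.univ : Finset ι).card := Lagrange.degree_interpolate_lt _ hinj'
  refine ⟨p.coeff, fun k => ?_, fun i => ?_⟩
  · rw [mem_inertiaFixed]
    intro σ hσ
    have heq : p.map (σ : Qb →+* Qb) = p := by
      refine Lagrange.eq_interpolate_of_eval_eq _ hinj' ?_ fun j _ => ?_
      · exact lt_of_le_of_lt (degree_map_le) hdeg
      · obtain ⟨i, hi, hwi⟩ := hperm σ⁻¹ (inv_mem hσ) j
        have hi' : σ (zf i) = zf j := by rw [← hi]; exact σ.apply_symm_apply _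
        have hw' : σ (w i) = w j := by rw [← hwi]; exact σ.apply_symm_apply _
        rw [← hi', eval_map, ← RingHom.coe_coe σ, Polynomial.eval₂_hom,
          Lagrange.eval_interpolate_at_node _ hinj' (Finset.mem_univ i)]
        exact hw'
    have := congrArg (fun g : Qb[X] => g.coeff k) heq
    simpa using this
  · rw [← Lagrange.eval_interpolate_at_node w hinj' (Finset.mem_univ i)]
    rcases eq_or_ne p 0 with hp | hp
    · show p.eval (zf i) = _
      rw [hp]
      simp
    refine eval_eq_sum_range' ((natDegree_lt_iff_degree_lt hp).mpr ?_) _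
    simpa using hdeg

end Root

/-- the second valuation estimate: a root of `T^q + b_{q-1} T^{q-1} + ⋯ + b_0` with `v(b_0) = y` and
all other coefficients smaller in value than `y` has `v^q = y` -/
theorem root_valuation {n : ℕ} (hn : 0 < n) {b : ℕ → Qb} {Z : Qb}
    (h : Z ^ n + ∑ j ∈ Finset.range n, b j * Z ^ j = 0)
    (hlt : A.valuation Z < 1) (hb : ∀ j ∈ Finset.range n, j ≠ 0 → A.valuation (b j) ≤ A.valuation (b 0))
    : A.valuation Z ^ n = A.valuation (b 0) := by
  classical
  set v := A.valuation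
  rcases eq_or_ne (b 0) 0 with h0 | h0
  · have hall : ∑ j ∈ Finset.range n, b j * Z ^ j = 0 := Finset.sum_eq_zero fun j hj => by
      rcases eq_or_ne j 0 with rfl | hj0
      · simp [h0]
      · have := hb j hj hj0
        rw [h0, map_zero, le_zero_iff, map_eq_zero] at this
        rw [this, zero_mul]
    rw [hall, add_zero] at h
    rw [← map_pow, h, h0]
  have hsum : v (∑ j ∈ Finset.range n, b j * Z ^ j) = v (b 0) := by
    rw [Valuation.map_sum_eq_of_lt v (Finset.mem_range.mpr hn) fun j hj => ?_]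
    · simp
    rw [Finset.mem_sdiff, Finset.mem_singleton] at hj
    rw [map_mul, map_pow, pow_zero, mul_one]
    calc v (b j) * v Z ^ j ≤ v (b 0) * v Z ^ j := mul_le_mul_left (hb j hj.1 hj.2) _
      _ < v (b 0) * 1 := by
          refine mul_lt_mul_of_pos_left ?_ (zero_lt_iff.mpr ((_root_.map_ne_zero _).mpr h0))
          exact pow_lt_one₀ zero_le hlt hj.2
      _ = v (b 0) := mul_one _
  rw [← map_pow, eq_neg_of_add_eq_zero_left h, Valuation.map_neg, hsum]

end FLTAgent.SS2
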