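import Fermat.Agent.SS2.ModelLattice
import Fermat.Agent.Reduction.Atkin
import Fermat.Agent.Flat.Residual

/-!
Facts for the model at level `M q²` that need neither the branches nor the level `M q` fibre:
the degeneracy maps keep rationality, the product coordinate, the special fibre of level `M`,
sections of exact order.
-/

set_option autoImplicit false
set_option linter.unusedSectionVars false
set_option linter.style.haveILetI false
set_option synthInstance.maxHeartbeats 200000
set_option maxHeartbeats 1000000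

noncomputable section

open ModularCurve AlgebraicCurve IsLocalRing
open FLTAgent.RR (Bd Pol)

namespace FLTAgent.SS2

open FLTAgent.Reduction (Qb FB FS Ctx tB tS jS kA)

variable {A : ValuationSubring Qb} {N : ℕ} [NeZero N]

/-! ### rationality -/

theorem heckeAlphaBar_rational (l : ℕ) [NeZero l] {x : FB N} :
    heckeAlphaBar Qb N l x ∈ rationalFn A (N * l) ↔ x ∈ rationalFn A N := by
  rw [mem_rationalFn, mem_rationalFn, coe_heckeAlphaBar]

theorem heckeBetaBar_rational (l : ℕ) [NeZero l] {x : FB N} :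
    heckeBetaBar Qb N l x ∈ rationalFn A (N * l) ↔ x ∈ rationalFn A N := by
  rw [mem_rationalFn, mem_rationalFn, coe_heckeBetaBar]
  refine ⟨fun h i => ?_, fun h i => ?_⟩
  · have := h ((l : ℤ) * i)
    rwa [qExpand_coeff_mul] at this
  · by_cases hi : (l : ℤ) ∣ i
    · obtain ⟨k, rfl⟩ := hi
      rw [qExpand_coeff_mul]
      exact h k
    · rw [qExpand_coeff_of_not_dvd l _ hi]
      exact zero_mem _

theorem incl_rational {a b : ℕ} [NeZero a] [NeZero b] (h : a ∣ b) {x : FB a} :
    incl h x ∈ rationalFn A b ↔ x ∈ rationalFn A a := by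
  rw [mem_rationalFn, mem_rationalFn, coe_incl]

theorem jBar_rational (A : ValuationSubring Qb) (N : ℕ) [NeZero N] :
    ModFun.jBar N ∈ rationalFn A N :=
  mem_rationalFn.mpr fun i => by
    rw [Reduction.coe_jBar, coeffEmb, coeffMap_coeff]
    exact IntermediateField.algebraMap_mem _ _

/-! ### `j(q^d)` and `j(q^(dl))` have the same poles -/

/-- the substitution `q ↦ q^d` as a map of algebras -/
def qPow (d : ℕ) [NeZero d] : LaurentSeries Qb →ₐ[Qb] LaurentSeries Qb :=
  { qExpand Qb d with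
    commutes' := fun a => by
      show qExpand Qb d (algebraMap Qb (LaurentSeries Qb) a) = algebraMap Qb (LaurentSeries Qb) a
      rw [algebraMap_laurentSeries_eq_single, qExpand_single, mul_zero] }

theorem qExpand_congr' {a b : ℕ} [NeZero a] [NeZero b] (h : a = b) (x : LaurentSeries Qb) :
    qExpand Qb a x = qExpand Qb b x := by subst h; rfl

/-- a monic relation `Y ^ n + ∑ c_m(X) Y ^ (n - m) = 0` -/
def MonicRel (X Y : LaurentSeries Qb) : Prop :=
  ∃ (n : ℕ) (c : ℕ → Polynomial Qb), c 0 = 1 ∧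
    ∑ m ∈ Finset.range (n + 1), Polynomial.aeval X (c m) * Y ^ (n - m) = 0

theorem MonicRel.of_hom {F : Type*} [Field F] [Algebra Qb F] (φ : F →ₐ[Qb] LaurentSeries Qb)
    {x y : F} {n : ℕ} {c : ℕ → Polynomial Qb} (hc0 : c 0 = 1)
    (hc : ∑ m ∈ Finset.range (n + 1), Polynomial.aeval x (c m) * y ^ (n - m) = 0) :
    MonicRel (φ x) (φ y) := by
  refine ⟨n, c, hc0, ?_⟩
  have h2 := congrArg φ hc
  rw [map_zero, map_sum] at h2
  refine Eq.trans (Finset.sum_congr rfl fun m _ => ?_) h2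
  rw [map_mul, map_pow, Polynomial.aeval_algHom_apply]

theorem monicRel_pair (l : ℕ) [NeZero l] (hl : l.Prime) :
    MonicRel (coeffEmb Qb jq) (qExpand Qb l (coeffEmb Qb jq)) ∧
      MonicRel (qExpand Qb l (coeffEmb Qb jq)) (coeffEmb Qb jq) := by
  obtain ⟨c, hc0, hc⟩ := ModFun.relation_bar (1 * l)
  obtain ⟨W, hWα, hWβ⟩ := Reduction.exists_atkin (N := 1) hl hl.not_dvd_one
  have ha : ModFun.jBar (1 * l) = heckeAlphaBar Qb 1 l (ModFun.jBar 1) :=
    Subtype.ext (by rw [coe_heckeAlphaBar, Reduction.coe_jBar, Reduction.coe_jBar])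
  have hb : ModFun.jNBar (1 * l) = heckeBetaBar Qb 1 l (ModFun.jBar 1) := Subtype.ext (by
    rw [coe_heckeBetaBar]
    show coeffEmb Qb (qExpand ℚ (1 * l) jq) = qExpand Qb l (coeffEmb Qb jq)
    rw [coeffEmb, ModularCurve.coeffMap_qExpand]
    exact qExpand_congr' (one_mul l) _)
  rw [ha, hb] at hc
  set v := (modularFunctionFieldBar (1 * l)).val with hv
  set j₁ := ModFun.jBar 1
  have e0 : v (heckeAlphaBar Qb 1 l j₁) = coeffEmb Qb jq := coe_heckeAlphaBar 1 l j₁
  have e1 : v (heckeBetaBar Qb 1 l j₁) = qExpand Qb l (coeffEmb Qb jq) := coe_heckeBetaBar 1 l j₁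
  have e2 : (v.comp W) (heckeAlphaBar Qb 1 l j₁) = qExpand Qb l (coeffEmb Qb jq) :=
    (congrArg v (hWα j₁)).trans e1
  have e3 : (v.comp W) (heckeBetaBar Qb 1 l j₁) = coeffEmb Qb jq :=
    (congrArg v (hWβ j₁)).trans e0
  have h1 := MonicRel.of_hom v hc0 hc
  have h2 := MonicRel.of_hom (v.comp W) hc0 hc
  rw [e0, e1] at h1
  rw [e2, e3] at h2
  exact ⟨h1, h2⟩

theorem MonicRel.map {X Y : LaurentSeries Qb} (h : MonicRel X Y) (d : ℕ) [NeZero d] :
    MonicRel (qExpand Qb d X) (qExpand Qb d Y) := by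
  obtain ⟨n, c, hc0, hc⟩ := h
  refine ⟨n, c, hc0, ?_⟩
  have h2 := congrArg (qPow d) hc
  rw [map_zero, map_sum] at h2
  refine Eq.trans (Finset.sum_congr rfl fun m _ => ?_) h2
  rw [map_mul, map_pow, ← Polynomial.aeval_algHom_apply]
  rfl

theorem bd_of_monicRel {x y : FB N} (h : MonicRel (x : LaurentSeries Qb) (y : LaurentSeries Qb))
    {P : Place Qb (FB N)} (hx : Bd P x 0) : Bd P y 0 := by
  classical
  obtain ⟨n, c, hc0, hc⟩ := h
  by_contra hy
  obtain ⟨hy0, hord⟩ := RR.not_bd_iff.mp hy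
  have hF : ∑ m ∈ Finset.range (n + 1), Polynomial.aeval x (c m) * y ^ (n - m) = 0 := by
    refine Subtype.ext ?_
    rw [ZeroMemClass.coe_zero, AddSubmonoidClass.coe_finsetSum, ← hc]
    refine Finset.sum_congr rfl fun m _ => ?_
    rw [MulMemClass.coe_mul, SubmonoidClass.coe_pow]
    congr 1
    exact (Polynomial.aeval_algHom_apply (modularFunctionFieldBar N).val x (c m)).symm
  rw [Finset.sum_range_succ'] at hF
  simp only [hc0, map_one, one_mul, Nat.sub_zero] at hF
  set k : ℤ := -P.ord y with hk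
  have hk1 : 1 ≤ k := by omega
  have hsum : Bd P (∑ m ∈ Finset.range n, Polynomial.aeval x (c (m + 1)) * y ^ (n - (m + 1)))
      (((n : ℤ) - 1) * k) := by
    refine RR.Bd.sum _ _ fun m hm => ?_
    have hm' := Finset.mem_range.mp hm
    refine RR.Bd.mono ((RR.bd_aeval hx (c (m + 1))).mul ((RR.bd_self (v := P) (f := y)).pow _)) ?_
    rw [zero_add, ← hk]
    refine mul_le_mul_of_nonneg_right ?_ (by omega)
    omega
  rw [eq_neg_of_add_eq_zero_left hF] at hsum
  have h1 := (RR.bd_iff_ord (neg_ne_zero.mpr (pow_ne_zero n hy0))).mp hsum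
  have h2 : P.ord (-(y ^ n)) = n * P.ord y := by
    have := RR.Bd.neg (RR.bd_self (v := P) (f := y ^ n))
    have h3 := (RR.bd_iff_ord (neg_ne_zero.mpr (pow_ne_zero n hy0))).mp this
    have h4 := RR.Bd.neg (RR.bd_self (v := P) (f := -(y ^ n)))
    rw [neg_neg] at h4
    have h5 := (RR.bd_iff_ord (pow_ne_zero n hy0)).mp h4
    rw [← RR.ord_pow]
    omega
  rw [h2, hk] at h1
  nlinarith

section Level

variable {M q : ℕ} [NeZero M] [NeZero q]

variable (M q) in
/-- the three images of `j` at level `M q²` -/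
def jImg : Fin 3 → FB (M * q * q) :=
  ![heckeAlphaBar Qb (M * q) q (heckeAlphaBar Qb M q (ModFun.jBar M)),
    heckeAlphaBar Qb (M * q) q (heckeBetaBar Qb M q (ModFun.jBar M)),
    heckeBetaBar Qb (M * q) q (heckeBetaBar Qb M q (ModFun.jBar M))]

variable (M q) in
/-- the coordinate `j(q) j(q^q) j(q^(q²))` -/
def Jprod : FB (M * q * q) := jImg M q 0 * jImg M q 1 * jImg M q 2

theorem coe_jImg_zero : (jImg M q 0 : LaurentSeries Qb) = coeffEmb Qb jq := rfl

theorem coe_jImg_one : (jImg M q 1 : LaurentSeries Qb) = qExpand Qb q (coeffEmb Qb jq) := rfl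

theorem coe_jImg_two :
    (jImg M q 2 : LaurentSeries Qb) = qExpand Qb q (qExpand Qb q (coeffEmb Qb jq)) := rfl

theorem jImg_zero : jImg M q 0 = ModFun.jBar (M * q * q) := rfl

theorem jImg_rational (A : ValuationSubring Qb) : ∀ k, jImg M q k ∈ rationalFn A (M * q * q) := by
  have h := jBar_rational A M
  intro k
  fin_cases k
  · exact (heckeAlphaBar_rational q).mpr ((heckeAlphaBar_rational q).mpr h)
  · exact (heckeAlphaBar_rational q).mpr ((heckeBetaBar_rational q).mpr h)
  · exact (heckeBetaBar_rational q).mpr ((heckeBetaBar_rational q).mpr h)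

theorem Jprod_rational (A : ValuationSubring Qb) : Jprod M q ∈ rationalFn A (M * q * q) :=
  mul_mem (mul_mem (jImg_rational A 0) (jImg_rational A 1)) (jImg_rational A 2)

theorem jImg_ne_zero (k : Fin 3) : jImg M q k ≠ 0 := by
  have h := Reduction.ne_zero_of_transc (ModFun.transcendental_jBar M)
  fin_cases k <;> exact (_root_.map_ne_zero _).mpr ((_root_.map_ne_zero _).mpr h)

theorem Jprod_ne_zero : Jprod M q ≠ 0 :=
  mul_ne_zero (mul_ne_zero (jImg_ne_zero 0) (jImg_ne_zero 1)) (jImg_ne_zero 2)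

theorem bd_jImg_iff (hq : q.Prime) (k : Fin 3) {P : Place Qb (FB (M * q * q))} :
    Bd P (jImg M q k) 0 ↔ Bd P (tB (M * q * q) false) 0 := by
  obtain ⟨h1, h2⟩ := monicRel_pair q hq
  have e01 : Bd P (jImg M q 0) 0 ↔ Bd P (jImg M q 1) 0 := by
    refine ⟨bd_of_monicRel ?_, bd_of_monicRel ?_⟩
    · rw [coe_jImg_zero, coe_jImg_one]; exact h1
    · rw [coe_jImg_zero, coe_jImg_one]; exact h2
  have e12 : Bd P (jImg M q 1) 0 ↔ Bd P (jImg M q 2) 0 := by
    refine ⟨bd_of_monicRel ?_, bd_of_monicRel ?_⟩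
    · rw [coe_jImg_one, coe_jImg_two]; exact h1.map q
    · rw [coe_jImg_one, coe_jImg_two]; exact h2.map q
  show _ ↔ Bd P (ModFun.jBar (M * q * q)) 0
  rw [← jImg_zero]
  fin_cases k
  · exact Iff.rfl
  · exact e01.symm
  · exact (e01.trans e12).symm

theorem ord_jImg_neg_iff (hq : q.Prime) (k : Fin 3) {P : Place Qb (FB (M * q * q))} :
    P.ord (jImg M q k) < 0 ↔ P.ord (tB (M * q * q) false) < 0 := by
  have h := bd_jImg_iff (P := P) hq k
  rw [RR.bd_iff_ord (jImg_ne_zero k), RR.bd_iff_ord (Reduction.tB_ne_zero _ _), neg_zero] at h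
  rw [← not_le, ← not_le, h]

theorem ord_Jprod (P : Place Qb (FB (M * q * q))) :
    P.ord (Jprod M q) = P.ord (jImg M q 0) + P.ord (jImg M q 1) + P.ord (jImg M q 2) := by
  rw [Jprod, P.ord_mul (mul_ne_zero (jImg_ne_zero 0) (jImg_ne_zero 1)) (jImg_ne_zero 2),
    P.ord_mul (jImg_ne_zero 0) (jImg_ne_zero 1)]

/-- `J` and `j` have the same poles -/
theorem ord_Jprod_neg_iff (hq : q.Prime) {P : Place Qb (FB (M * q * q))} :
    P.ord (Jprod M q) < 0 ↔ P.ord (tB (M * q * q) false) < 0 := by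
  have h0 := ord_jImg_neg_iff (P := P) hq 0
  have h1 := ord_jImg_neg_iff (P := P) hq 1
  have h2 := ord_jImg_neg_iff (P := P) hq 2
  rw [ord_Jprod]
  constructor <;> intro h <;> omega

theorem inChart_false_Jprod (hq : q.Prime) {P : Place Qb (FB (M * q * q))} :
    InChart false (P.ord (Jprod M q)) ↔ Bd P (tB (M * q * q) false) 0 := by
  have h := ord_Jprod_neg_iff (P := P) hq
  rw [RR.bd_iff_ord (Reduction.tB_ne_zero _ _), neg_zero]
  simp only [InChart, Bool.false_eq_true, if_false]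
  omega

/-- away from the zeros of `J` = away from the zeros of all three images of `j` -/
theorem inChart_true_Jprod (hq : q.Prime) {P : Place Qb (FB (M * q * q))} :
    InChart true (P.ord (Jprod M q)) ↔ ∀ k, P.ord (jImg M q k) ≤ 0 := by
  have h0 := ord_jImg_neg_iff (P := P) hq 0
  have h1 := ord_jImg_neg_iff (P := P) hq 1
  have h2 := ord_jImg_neg_iff (P := P) hq 2
  rw [ord_Jprod]
  simp only [InChart, if_true, Fin.forall_fin_succ, IsEmpty.forall_iff,
    and_true]
  show _ ↔ P.ord (jImg M q 0) ≤ 0 ∧ P.ord (jImg M q 1) ≤ 0 ∧ P.ord (jImg M q 2) ≤ 0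
  omega

theorem inChart_true_iff_bd {F : Type*} [Field F] [Algebra Qb F] {P : Place Qb F} {x : F}
    (hx : x ≠ 0) : InChart true (P.ord x) ↔ Bd P x⁻¹ 0 := by
  rw [RR.bd_iff_ord (inv_ne_zero hx), P.ord_inv]
  simp [InChart]

/-- functions regular away from the zeros of one image of `j` are regular away from those of `J` -/
theorem bd_of_inChart_true (hq : q.Prime) {P : Place Qb (FB (M * q * q))} (k : Fin 3)
    (h : InChart true (P.ord (Jprod M q))) : Bd P (jImg M q k)⁻¹ 0 :=
  (inChart_true_iff_bd (jImg_ne_zero k)).mp (by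
    show (jImg M q k |> P.ord) ≤ 0
    exact (inChart_true_Jprod hq).mp h k)

/-- regular on the chart `true` of `J` iff regular away from the poles of `1 / J` -/
theorem regOn_inv_Jprod {x : FB (M * q * q)} :
    x ∈ Reduction.regOn Qb (Jprod M q)⁻¹ ↔
      ∀ P : Place Qb (FB (M * q * q)), InChart true (P.ord (Jprod M q)) → Bd P x 0 :=
  forall_congr' fun _ => imp_congr_left (inChart_true_iff_bd Jprod_ne_zero).symm

theorem regOn_Jprod (hq : q.Prime) {x : FB (M * q * q)} :
    x ∈ Reduction.regOn Qb (tB (M * q * q) false) ↔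
      ∀ P : Place Qb (FB (M * q * q)), InChart false (P.ord (Jprod M q)) → Bd P x 0 :=
  forall_congr' fun _ => imp_congr_left (inChart_false_Jprod hq).symm

theorem transcendental_of_pole {F : Type*} [Field F] [Algebra Qb F] {x : F} {P : Place Qb F}
    (h : P.ord x < 0) : Transcendental Qb x := by
  intro halg
  obtain ⟨c, rfl⟩ := minpoly.mem_range_of_degree_eq_one Qb x
    (IsAlgClosed.degree_eq_one_of_irreducible Qb (minpoly.irreducible halg.isIntegral))
  rw [RR.ord_algebraMap] at h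
  exact lt_irrefl _ h

theorem transcendental_Jprod (hq : q.Prime) : Transcendental Qb (Jprod M q) := by
  haveI := Reduction.finite_tB (M * q * q) true
  haveI := Reduction.separable_tB (M * q * q) true
  obtain ⟨S, hS, hsum⟩ := Reduction.exists_zeros (Reduction.transcendental_tB (M * q * q) true)
  obtain ⟨P, hP⟩ : S.Nonempty := by
    rcases S.eq_empty_or_nonempty with rfl | h
    · rw [Finset.sum_empty, Reduction.ndeg_tB] at hsum
      have := dedekindPsi_pos' (M * q * q)
      omega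
    · exact h
  have hpole : P.ord (tB (M * q * q) false) < 0 := by
    have h := (hS P).mp hP
    rw [show tB (M * q * q) true = (tB (M * q * q) false)⁻¹ from Reduction.tB_not _ false,
      P.ord_inv] at h
    omega
  exact transcendental_of_pole ((ord_Jprod_neg_iff hq).mpr hpole)

end Level

/-! ### the special fibre of level `N` -/

section Special

variable {ℓ : ℕ} (C : Ctx A N ℓ)

theorem inChart_jS_pow (s : Bool) {e : ℕ} (he : 0 < e) {Q : Place (kA A) (FS A N)} :
    InChart s (Q.ord (jS A N ^ e)) ↔ Bd Q (tS A N s) 0 := by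
  rw [RR.bd_iff_ord (Reduction.tS_ne_zero A N s), RR.ord_pow, neg_zero]
  have he' : (0 : ℤ) < (e : ℤ) := by exact_mod_cast he
  cases s
  · show (0 : ℤ) ≤ e * _ ↔ _
    rw [mul_nonneg_iff_of_pos_left he']
    rfl
  · show (e : ℤ) * Q.ord (jS A N) ≤ 0 ↔ 0 ≤ Q.ord (jS A N)⁻¹
    rw [Q.ord_inv, neg_nonneg]
    exact ⟨fun h => by nlinarith, fun h => by nlinarith⟩

theorem regOn_inChart (s : Bool) {e : ℕ} (he : 0 < e) {φ : FS A N} :
    φ ∈ Reduction.regOn (kA A) (tS A N s) ↔
      ∀ Q : Place (kA A) (FS A N), InChart s (Q.ord (jS A N ^ e)) → Bd Q φ 0 :=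
  forall_congr' fun _ => imp_congr_left (inChart_jS_pow s he).symm

theorem transcendental_jS_pow {e : ℕ} (he : 0 < e) : Transcendental (kA A) (jS A N ^ e) :=
  (Reduction.transcendental_jS A N).pow he

include C

theorem hasRes_FS (Q : Place (kA A) (FS A N)) : RR.HasRes Q :=
  (Flat.curveLike_S C).res Q

theorem finite_ord_FS' (w : FS A N) (hw : w ≠ 0) :
    {Q : Place (kA A) (FS A N) | Q.ord w ≠ 0}.Finite :=
  Flat.finite_ord_FS C hw

theorem bounded_FS (e : ℕ) (w : FS A N) (hw : w ≠ 0) : ∃ c : ℕ, ∀ m : ℕ,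
    FiniteDimensional (kA A) (RR.boundedOn (fun _ => True)
      (fun Q : Place (kA A) (FS A N) =>
        (m : ℤ) * max (-Q.ord (jS A N ^ e)) 0 + |Q.ord w|)) ∧
    Module.finrank (kA A) (RR.boundedOn (fun _ => True)
      (fun Q : Place (kA A) (FS A N) =>
        (m : ℤ) * max (-Q.ord (jS A N ^ e)) 0 + |Q.ord w|)) ≤ c * (m + 1) := by
  classical
  obtain ⟨D₁, hD₁, -⟩ := (Flat.curveLike_S C).div (jS A N ^ e)
    (pow_ne_zero _ (Reduction.tS_ne_zero A N false))
  obtain ⟨D₂, hD₂, -⟩ := (Flat.curveLike_S C).div w hw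
  set E₁ : Divisor (kA A) (FS A N) := D₁.mapRange (fun z => max (-z) 0) (by simp) with hE₁
  set E₂ : Divisor (kA A) (FS A N) := D₂.mapRange (fun z => |z|) abs_zero with hE₂
  refine ⟨(Divisor.degree E₁).natAbs + (Divisor.degree E₂).natAbs + 1, fun m => ?_⟩
  have hfun : (fun Q : Place (kA A) (FS A N) =>
      (m : ℤ) * max (-Q.ord (jS A N ^ e)) 0 + |Q.ord w|) = fun Q => (m • E₁ + E₂) Q := by
    funext Q
    rw [Finsupp.add_apply, Finsupp.smul_apply, nsmul_eq_mul, hE₁, hE₂, Finsupp.mapRange_apply,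
      Finsupp.mapRange_apply, hD₁, hD₂]
  rw [hfun, ← RR.riemannRochSpace_eq_boundedOn]
  obtain ⟨hfd, hle⟩ := (Flat.curveLike_S C).finite_finrank (m • E₁ + E₂)
  refine ⟨hfd, ?_⟩
  rw [map_add, map_nsmul, nsmul_eq_mul] at hle
  have h1 := Int.le_natAbs (a := Divisor.degree E₁)
  have h2 := Int.le_natAbs (a := Divisor.degree E₂)
  have h3 : (m : ℤ) * Divisor.degree E₁ ≤ (m : ℤ) * ((Divisor.degree E₁).natAbs : ℤ) :=
    mul_le_mul_of_nonneg_left h1 (by positivity)
  have h4 : (0 : ℤ) ≤ ((Divisor.degree E₁).natAbs : ℤ) * 1 := by positivity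
  have h5 : (0 : ℤ) ≤ ((Divisor.degree E₂).natAbs : ℤ) * m := by positivity
  have h6 : (Module.finrank (kA A) (riemannRochSpace (m • E₁ + E₂)) : ℤ) ≤
      ((((Divisor.degree E₁).natAbs + (Divisor.degree E₂).natAbs + 1) * (m + 1) : ℕ) : ℤ) := by
    refine hle.trans (max_le (by positivity) ?_)
    push_cast
    rw [← Int.natCast_natAbs, ← Int.natCast_natAbs]
    nlinarith
  exact_mod_cast h6

end Special

/-! ### exact orders -/

/-- a divisor with a rational multiple principal is fixed by inertia -/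
theorem galois_fixed_of_ord {n : ℕ} (hn : n ≠ 0) {D : Divisor Qb (FB N)} {f : FB N}
    (hf : f ∈ rationalFn A N) (hD : ∀ P : Place Qb (FB N), (n : ℤ) * D P = P.ord f) :
    ∀ σ ∈ A.inertiaSubgroupIn ℚ, galFn N σ • D = D := by
  intro σ hσ
  ext P
  rw [SemilinearAut.divisor_smul_apply]
  have h := SemilinearAut.ord_smul (galFn N σ) ((galFn N σ)⁻¹ • P) f
  rw [smul_inv_smul, hf σ hσ, ← hD, ← hD] at h
  exact (mul_left_cancel₀ (Nat.cast_ne_zero.mpr hn) h).symm

/-- on either chart of a rational coordinate: rational sections of exact order at each place -/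
theorem exists_full {J : FB N} (hJ : J ∈ rationalFn A N) (hJt : Transcendental Qb J)
    (D : Divisor Qb (FB N)) (hD : ∀ σ ∈ A.inertiaSubgroupIn ℚ, galFn N σ • D = D) (s : Bool) :
    ∀ PK : Place Qb (FB N), InChart s (PK.ord J) → ∃ m ∈ rationalFn A N, m ≠ 0 ∧
      (∀ P : Place Qb (FB N), InChart s (P.ord J) → Bd P m (D P)) ∧ PK.ord m = -D PK := by
  intro PK hPK
  obtain ⟨J', hJ', hJ't, hchart⟩ : ∃ J' ∈ rationalFn A N, Transcendental Qb J' ∧
      ∀ P : Place Qb (FB N), InChart s (P.ord J) → max (-P.ord J') 0 = 0 := by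
    cases s
    · exact ⟨J, hJ, hJt, fun P h => max_eq_right (by simpa [InChart] using h)⟩
    · refine ⟨J⁻¹, inv_mem hJ, RR.transcendental_inv hJt, fun P h => max_eq_right ?_⟩
      rw [P.ord_inv]
      simpa [InChart] using h
  obtain ⟨m, x, hxr, hx, hxn⟩ := exists_exact hJ' hJ't D hD (P₀ := PK)
  have hE : ∀ P : Place Qb (FB N), InChart s (P.ord J) → (m • Pol (K := Qb) J' + D) P = D P :=
    fun P hP => by
      rw [Finsupp.add_apply, Finsupp.smul_apply, RR.Pol_apply, hchart P hP, smul_zero, zero_add]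
  rw [hE PK hPK] at hxn
  have hx' : ∀ P : Place Qb (FB N), InChart s (P.ord J) → Bd P x (D P) := fun P hP =>
    hE P hP ▸ (show Bd P x _ from hx P)
  obtain ⟨hx0, hord⟩ := RR.ord_eq_of_bd (hx' PK hPK) hxn
  exact ⟨x, hxr, hx0, hx', hord⟩

end FLTAgent.SS2
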