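import Fermat.Agent.SS2.BranchesEmb
import Fermat.Agent.SS2.ModelAux
import Fermat.Agent.SS2.ModelLift
import Fermat.Agent.SS2.Eisenstein
import Fermat.Agent.SS.Side
import Fermat.Agent.Flat.Points

/-!
Auxiliary facts for the values at the points over a crossing: roots of monic equations at a place,
restriction of places, Frobenius on the special fibre, division by `q` of rational functions.
-/

set_option autoImplicit false
set_option linter.unusedSectionVars false
set_option linter.style.haveILetI false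
set_option synthInstance.maxHeartbeats 400000

noncomputable section

open ModularCurve AlgebraicCurve IsLocalRing Polynomial
open FLTAgent.RR (Bd KK)

namespace FLTAgent.SS2.PV

open FLTAgent.Reduction

/-! ### places -/

section Places

variable {K F F' : Type*} [Field K] [Field F] [Field F'] [Algebra K F] [Algebra K F']

/-- a root of a monic equation with finite coefficients is finite -/
theorem bd_of_eval₂ (ι : F →+* F') {w : Place K F'} {Φ : F[X]} (hΦ : Φ.Monic)
    (hc : ∀ j, Bd w (ι (Φ.coeff j)) 0) {y : F'} (h : Φ.eval₂ ι y = 0) : Bd w y 0 := by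
  rw [← RR.mem_iff_bd]
  have hl : Φ.map ι ∈ Polynomial.lifts (algebraMap w.toValuationSubring F') := by
    rw [Polynomial.lifts_iff_coeff_lifts]
    intro j
    rw [Polynomial.coeff_map]
    exact ⟨⟨_, RR.mem_iff_bd.mpr (hc j)⟩, rfl⟩
  obtain ⟨p, hp, -, hpm⟩ := Polynomial.lifts_and_degree_eq_and_monic hl (hΦ.map ι)
  have hint : IsIntegral w.toValuationSubring y :=
    ⟨p, hpm, by rw [← Polynomial.eval_map, hp, Polynomial.eval_map, h]⟩
  obtain ⟨z, hz⟩ := IsIntegrallyClosed.isIntegral_iff.mp hint
  rw [← hz]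
  exact z.2

/-- values of a monic equation -/
theorem val_eval₂ (ι : F →+* F') {w : Place K F'} {Φ : F[X]} {n : ℕ} (hn : Φ.natDegree = n)
    (hΦ : Φ.Monic) {c : ℕ → K} (hc : ∀ j, Val w (ι (Φ.coeff j)) (c j)) {y : F'} {u : K}
    (hy : Val w y u) (h : Φ.eval₂ ι y = 0) :
    u ^ n + ∑ j ∈ Finset.range n, c j * u ^ j = 0 := by
  classical
  rw [Polynomial.eval₂_eq_sum_range, hn, Finset.sum_range_succ, ← hn, hΦ.coeff_natDegree, map_one,
    one_mul, hn] at h
  have hv : ∀ m : ℕ, Val w (∑ j ∈ Finset.range m, ι (Φ.coeff j) * y ^ j)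
      (∑ j ∈ Finset.range m, c j * u ^ j) := by
    intro m
    induction m with
    | zero => simpa using Val.zero
    | succ m ih =>
      rw [Finset.sum_range_succ, Finset.sum_range_succ]
      exact ih.add ((hc m).mul (hy.pow m))
  have h1 := (hv n).add (hy.pow n)
  rw [h] at h1
  rw [add_comm]
  exact h1.unique Val.zero

theorem val_sum {ι : Type*} {w : Place K F} (S : Finset ι) (f : ι → F) (c : ι → K)
    (h : ∀ i ∈ S, Val w (f i) (c i)) : Val w (∑ i ∈ S, f i) (∑ i ∈ S, c i) := by
  classical
  induction S using Finset.induction with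
  | empty => simpa using Val.zero
  | insert a S ha ih =>
    rw [Finset.sum_insert ha, Finset.sum_insert ha]
    exact (h a (by simp)).add (ih fun i hi => h i (by simp [hi]))

theorem val_smul_aut (g : SemilinearAut K F) {w : Place K F} {x : F} {c : K} (h : Val w x c) :
    Val (g • w) (g • x) (SemilinearAut.baseAut g c) := by
  have e : g • x - algebraMap K F (SemilinearAut.baseAut g c) =
      g • (x - algebraMap K F c) := by
    rw [smul_sub, SemilinearAut.smul_algebraMap]
  unfold Val at h ⊢
  rw [e]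
  rw [RR.bd_iff] at h ⊢
  rcases h with h | h
  · exact Or.inl (by rw [h, smul_zero])
  · exact Or.inr (by rw [SemilinearAut.ord_smul]; exact h)

variable (φ : F →ₐ[K] F') (hφ : φ.toRingHom.IsIntegral)

theorem bd_restrict_iff {w : Place K F'} {x : F} (n : ℤ) (hn : n = 0 ∨ n = -1) :
    Bd (w.restrictAlong φ hφ) x n ↔ Bd w (φ x) n := by
  rcases eq_or_ne x 0 with rfl | hx
  · simp [RR.Bd.zero]
  have he : (0 : ℤ) < Place.ramificationIndexAlong φ w := by
    letI := algebraAlong φ
    haveI := isIntegral_along φ hφ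
    exact_mod_cast w.ramificationIndex_pos (F := F)
  rw [RR.bd_iff_ord hx, RR.bd_iff_ord ((map_ne_zero φ).mpr hx), w.ord_restrictAlong φ hφ]
  rcases hn with rfl | rfl
  · constructor
    · intro h; have := mul_nonneg he.le (show (0 : ℤ) ≤ _ by simpa using h); omega
    · intro h
      by_contra hlt
      have := mul_neg_of_pos_of_neg he (show (w.restrictAlong φ hφ).ord x < 0 by omega)
      omega
  · constructor
    · intro h; have := mul_pos he (show (0 : ℤ) < (w.restrictAlong φ hφ).ord x by omega); omega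
    · intro h
      by_contra hlt
      have := mul_nonpos_of_nonneg_of_nonpos he.le
        (show (w.restrictAlong φ hφ).ord x ≤ 0 by omega)
      omega

theorem val_restrict_iff {w : Place K F'} {x : F} {c : K} :
    Val (w.restrictAlong φ hφ) x c ↔ Val w (φ x) c := by
  unfold Val
  rw [bd_restrict_iff φ hφ (-1) (Or.inr rfl), map_sub, AlgHom.commutes]

end Places

/-! ### constants -/

variable {A : ValuationSubring Qb}

theorem le_q_of_lt_one {q : ℕ} (hq : q.Prime) (hA : A.LiesOverPrime q) {t : Qb}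
    (ht : t ∈ inertiaFixed A) (h : A.valuation t < 1) : A.valuation t ≤ A.valuation (q : Qb) := by
  rcases eq_or_ne t 0 with rfl | h0
  · simp
  obtain ⟨i, hi⟩ := exists_zpow_valuation_T hq hA ht h0
  rw [hi] at h ⊢
  have hpos : 0 < i := (zpow_lt_one_iff_right_of_lt_one₀ (valuation_q_pos hq) hA).mp h
  calc A.valuation (q : Qb) ^ i ≤ A.valuation (q : Qb) ^ (1 : ℤ) :=
        zpow_le_zpow_right_of_le_one₀ (valuation_q_pos hq) (le_of_lt hA) (by omega)
    _ = _ := zpow_one _

/-- residue of a monic relation -/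
theorem residue_relation {n : ℕ} {u : A} {c : ℕ → A}
    (h : (u : Qb) ^ n + ∑ j ∈ Finset.range n, (c j : Qb) * (u : Qb) ^ j = 0) :
    residue A u ^ n + ∑ j ∈ Finset.range n, residue A (c j) * residue A u ^ j = 0 := by
  have h1 : u ^ n + ∑ j ∈ Finset.range n, c j * u ^ j = 0 := Subtype.ext (by
    push_cast
    exact h)
  have h2 := congrArg (residue A) h1
  simpa using h2

/-- roots of monic relations over `A` are in `A` -/
theorem mem_A_of_relation {n : ℕ} {u : Qb} {c : ℕ → A}
    (h : u ^ n + ∑ j ∈ Finset.range n, (c j : Qb) * u ^ j = 0) : u ∈ A := by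
  classical
  refine mem_A_of_isIntegral A ⟨X ^ n + ∑ j ∈ Finset.range n, Polynomial.C (c j) * X ^ j, ?_, ?_⟩
  · refine monic_X_pow_add ((degree_sum_le _ _).trans_lt ?_)
    refine (Finset.sup_lt_iff (WithBot.bot_lt_coe n)).mpr fun j hj => ?_
    exact (degree_C_mul_X_pow_le j (c j)).trans_lt (WithBot.coe_lt_coe.mpr (Finset.mem_range.mp hj))
  · rw [eval₂_add, eval₂_X_pow, eval₂_finsetSum]
    simpa using h

variable {M q : ℕ} [NeZero M] [NeZero q] (C : Ctx A M q)
include C

/-! ### Frobenius on the special fibre -/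

theorem Fr_frobS (x : FS A M) : SS.Fr C (frobS C • x) = x ^ q := by
  haveI := SS.expChar_kA C
  refine Subtype.ext ?_
  rw [SS.coe_Fr, SubmonoidClass.coe_pow, pow_char_eq q, frobS, coe_fullAut_smul]
  rfl

theorem frobS_tS (s : Bool) : frobS C • tS A M s = tS A M s := by
  have h : frobS C • jS A M = jS A M := Subtype.ext (by
    rw [frobS, coe_fullAut_smul]
    exact coeffMap_jqModC _)
  cases s
  · exact h
  · show frobS C • (jS A M)⁻¹ = (jS A M)⁻¹
    rw [smul_inv'', h]

theorem val_frobS {Q : PS A M} {x : FS A M} {c : kA A} (h : Val Q x c) :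
    Val (frobS C • Q) (frobS C • x) (c ^ q) := by
  have := val_smul_aut (frobS C) h
  exact this

theorem fin_frobS {s : Bool} {Q : PS A M} (h : Bd Q (tS A M s) 0) :
    Bd (frobS C • Q) (tS A M s) 0 := by
  rw [RR.bd_iff_ord (tS_ne_zero A M s)] at h ⊢
  rw [← frobS_tS C s, SemilinearAut.ord_smul]
  exact h

/-- `(Fr g)(Q) = g(ΦQ)` -/
theorem val_Fr {Q : PS A M} {g : FS A M} {c : kA A} (h : Val (frobS C • Q) g c) :
    Val Q (SS.Fr C g) c := by
  obtain ⟨r, hr⟩ := IsAlgClosed.exists_pow_nat_eq c C.prime.pos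
  have e : frobS C • ((frobS C)⁻¹ • g) = g := smul_inv_smul _ _
  have h1 : Val Q ((frobS C)⁻¹ • g) r := by
    have h2 := val_smul_aut (frobS C)⁻¹ h
    rw [inv_smul_smul] at h2
    convert h2 using 1
    refine (frobK C).injective ?_
    rw [frobK_apply, hr]
    exact ((frobK C).apply_symm_apply c).symm
  rw [← e, Fr_frobS C, ← hr]
  exact h1.pow q

/-- a series fixed by `Fr` twice has no simple zero -/
theorem ord_ne_one_of_Fr {Q : PS A M} {x : FS A M} (h : SS.Fr C (SS.Fr C x) = x) :
    Q.ord x ≠ 1 := by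
  intro h1
  have e : SS.Fr C x = frobS C • (frobS C)⁻¹ • SS.Fr C x := (smul_inv_smul _ _).symm
  rw [e, Fr_frobS C] at h
  rw [← h, RR.ord_pow] at h1
  exact C.prime.one_lt.ne' (by exact_mod_cast Int.eq_one_of_mul_eq_one_right (by positivity) h1)

/-! ### division by `q` -/

/-- a rational chart function vanishing on the special fibre is divisible by `q` -/
theorem exists_q_mul {s : Bool} {y : FB M} (hy : BT A M s y) (hr : y ∈ rationalFn A M)
    (h0 : red A M y = 0) :
    ∃ r : FB M, BT A M s r ∧ r ∈ rationalFn A M ∧ y = cB M (q : Qb) * r := by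
  rcases eq_or_ne y 0 with rfl | hy0
  · exact ⟨0, by simpa using BT_const (A := A) (N := M) s A.zero_mem, zero_mem _, by simp⟩
  have hreg := hy.mem_regOn
  obtain ⟨t, u, ht, ht0, hur, huG, hune, rfl⟩ := exists_T_scale C hreg hr hy0
  have htA : t ∈ A := mem_A_of_UG_mul C ⟨huG, hune⟩ (BT.mem_GR C hy)
  rw [red_mul C (cB_mem htA) huG, red_cB C ⟨t, htA⟩, mul_eq_zero] at h0
  have hlt : A.valuation t < 1 := (res_eq_zero_iff A ⟨t, htA⟩).mp
    ((algebraMap (kA A) (FS A M)).injective ((h0.resolve_right hune).trans (map_zero _).symm))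
  have hq0 : (q : Qb) ≠ 0 := Nat.cast_ne_zero.mpr C.prime.ne_zero
  have hle := le_q_of_lt_one C.prime C.lies ht hlt
  have hdiv : t / (q : Qb) ∈ A := by
    rw [← A.valuation_le_one_iff, map_div₀, div_le_one₀ (valuation_q_pos C.prime)]
    exact hle
  have huR : u ∈ regOn Qb (tB M s) := by
    have h := mul_mem ((regOn Qb (tB M s)).algebraMap_mem t⁻¹) hreg
    rwa [← mul_assoc, ← map_mul, inv_mul_cancel₀ ht0, map_one, one_mul] at h
  refine ⟨cB M (t / (q : Qb)) * u, BT_of_mem C (mul_mem ((regOn Qb (tB M s)).algebraMap_mem _) huR)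
    (mul_mem (cB_mem hdiv) huG),
    mul_mem (const_mem_rationalFn (div_mem ht (natCast_mem _ q))) hur, ?_⟩
  rw [← mul_assoc, ← map_mul, mul_div_cancel₀ _ hq0]

/-- values at fixed places of rational functions are fixed -/
theorem val_mem_fixed {N : ℕ} [NeZero N] {P : PB N}
    (hP : ∀ σ ∈ A.inertiaSubgroupIn ℚ, galFn N σ • P = P) {x : FB N} (hx : x ∈ rationalFn A N)
    {c : Qb} (h : Val P x c) : c ∈ inertiaFixed A := by
  rw [mem_inertiaFixed]
  intro σ hσ
  have h1 := Flat.val_gal σ h
  rw [show Flat.gal N σ • x = x from hx σ hσ, show Flat.gal N σ • P = P from hP σ hσ] at h1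
  exact h1.unique h

end FLTAgent.SS2.PV

end
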