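import Fermat.Agent.SS2.Descent
import Fermat.Agent.SS2.Eisenstein
import Mathlib.LinearAlgebra.Matrix.NonsingularInverse

/-!
Bounded sets of rational functions in a finite dimensional space lie in a lattice with a finite
basis over the integers of the inertia field.
-/

set_option autoImplicit false
set_option linter.unusedSectionVars false
set_option linter.style.haveILetI false
set_option synthInstance.maxHeartbeats 100000
set_option maxHeartbeats 1000000

noncomputable section

open ModularCurve AlgebraicCurve IsLocalRing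

namespace FLTAgent.SS2

open FLTAgent.Reduction (Qb FB cB)

variable {A : ValuationSubring Qb} {q : ℕ} {N : ℕ} [NeZero N]

/-- the field of constants of the model -/
abbrev TF (A : ValuationSubring Qb) : Subfield Qb := (inertiaFixed A).toSubfield

theorem mem_TF {x : Qb} : x ∈ TF A ↔ x ∈ inertiaFixed A := Iff.rfl

theorem val_TF (hq : q.Prime) (hA : A.LiesOverPrime q) :
    ∀ x ∈ TF A, x ≠ 0 → ∃ i : ℤ, A.valuation x = A.valuation (q : Qb) ^ i :=
  fun _ hx hx0 => exists_zpow_valuation_T hq hA hx hx0

theorem res_TF (hq : q.Prime) (hA : A.LiesOverPrime q) :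
    ∀ a : A, ∃ t : A, (t : Qb) ∈ TF A ∧ residue A t = residue A a :=
  fun a => exists_residue_T hq hA a

theorem indep_TF {ι : Type} [Fintype ι] (v : ι → FB N) (hv : ∀ i, v i ∈ rationalFn A N)
    (h : ∀ c : ι → Qb, (∀ i, c i ∈ TF A) →
      ∑ i, algebraMap Qb (FB N) (c i) * v i = 0 → ∀ i, c i = 0) : LinearIndependent Qb v :=
  linearIndependent_rationalFn v hv h

/-- every value is below a power of the uniformiser of the inertia field -/
theorem exists_valuation_le (hq : q.Prime) (hA : A.LiesOverPrime q) (B : Qb) :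
    ∃ k : ℤ, A.valuation B ≤ A.valuation (q : Qb) ^ k := by
  obtain ⟨y, hy, hint⟩ := ((IsFractionRing.isAlgebraic_iff ℤ ℚ Qb).mpr
    ((AlgebraicClosure.isAlgebraic ℚ).isAlgebraic B)).exists_integral_multiple
  have hm : (y : Qb) * B ∈ A := Reduction.mem_A_of_isIntegral A (by
    rw [← zsmul_eq_mul]; exact hint.tower_top)
  have hy' : (y : Qb) ≠ 0 := Int.cast_ne_zero.mpr hy
  obtain ⟨m, hval⟩ := exists_zpow_valuation_T hq hA (intCast_mem (inertiaFixed A) y) hy'
  refine ⟨-m, ?_⟩
  have h1 := (A.valuation_le_one_iff _).mpr hm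
  rw [map_mul] at h1
  rw [zpow_neg, ← hval]
  exact (le_inv_mul_iff₀ (zero_lt_iff.mpr ((_root_.map_ne_zero _).mpr hy'))).mpr h1 |>.trans
    (by rw [mul_one])

theorem zpow_le_zpow_val (hq : q.Prime) (hA : A.LiesOverPrime q) {i k : ℤ}
    (h : A.valuation (q : Qb) ^ i ≤ A.valuation (q : Qb) ^ k) : k ≤ i := by
  by_contra hlt
  exact absurd h (not_le.mpr (zpow_lt_zpow_right_of_lt_one₀ (valuation_q_pos hq) hA (not_le.mp hlt)))

/-- the coefficients bound a set of rational functions -/
def CoeffBounded (A : ValuationSubring Qb) (P : FB N → Prop) : Prop :=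
  ∀ i : ℤ, ∃ B : Qb, ∀ x, P x → A.valuation (coeffLin N i x) ≤ A.valuation B

theorem coeffLin_mem {x : FB N} (hx : x ∈ rationalFn A N) (i : ℤ) :
    coeffLin N i x ∈ inertiaFixed A :=
  mem_rationalFn.mp hx i

/-- a finite basis over the integers of the inertia field -/
theorem exists_finset_gen (hq : q.Prime) (hA : A.LiesOverPrime q) (P : FB N → Prop)
    (V : Submodule Qb (FB N)) [FiniteDimensional Qb V]
    (hP : ∀ x, P x → x ∈ V ∧ x ∈ rationalFn A N) (hbd : CoeffBounded A P) :
    ∃ S : Finset (FB N), (∀ x ∈ S, P x) ∧ LinearIndependent Qb ((↑) : S → FB N) ∧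
      ∀ x, P x → ∃ c : FB N → Qb, (∀ i, c i ∈ TF A ∧ c i ∈ A) ∧
        x = ∑ i ∈ S, algebraMap Qb (FB N) (c i) * i := by
  classical
  set X := Submodule.span Qb {x : FB N | P x}
  have hXV : X ≤ V := Submodule.span_le.mpr fun x hx => (hP x hx).1
  haveI : FiniteDimensional Qb X := Submodule.finiteDimensional_of_le hXV
  obtain ⟨s, hbij⟩ := exists_pivots _ X inferInstance rfl
  set φ : X ≃ₗ[Qb] (s → Qb) := LinearEquiv.ofBijective _ hbij
  have hφ : ∀ (x : X) (j : s), φ x j = coeffLin N j x := fun x j => rfl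
  -- the determinants
  let det : (s → FB N) → Qb := fun w => Matrix.det (Matrix.of fun i j : s => coeffLin N j (w i))
  obtain ⟨w₀, hw₀P, hw₀⟩ : ∃ w : s → FB N, (∀ i, P (w i)) ∧ det w ≠ 0 := by
    obtain ⟨b, hbP, hspan, hli⟩ := exists_linearIndependent Qb {x : FB N | P x}
    have hb : ∀ x : b, (x : FB N) ∈ X := fun x => Submodule.subset_span (hbP x.2)
    have hliX : LinearIndependent Qb (fun x : b => (⟨x, hb x⟩ : X)) :=
      LinearIndependent.of_comp X.subtype hli
    haveI : Finite b := hliX.finite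
    letI := Fintype.ofFinite b
    have hcard : Fintype.card s = Fintype.card b := by
      rw [← finrank_span_eq_card hli, Subtype.range_coe_subtype, Set.ofPred_mem_eq, hspan,
        ← Module.finrank_fintype_fun_eq_card Qb]
      exact φ.finrank_eq.symm
    let e := Fintype.equivOfCardEq hcard
    refine ⟨fun i => (e i : FB N), fun i => hbP (e i).2, ?_⟩
    have hrow := (hliX.map' φ.toLinearMap φ.ker).comp e e.injective
    have hu := Matrix.linearIndependent_rows_iff_isUnit.mp
      (show LinearIndependent Qb (Matrix.of fun i j : s => coeffLin N j ((e i : b) : FB N)).row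
        from hrow)
    exact (Matrix.isUnit_iff_isUnit_det _).mp hu |>.ne_zero
  have hdT : ∀ w, (∀ i, P (w i)) → det w ∈ inertiaFixed A := by
    intro w hw
    show Matrix.det _ ∈ _
    rw [Matrix.det_apply']
    exact sum_mem fun σ _ => mul_mem (intCast_mem _ _)
      (prod_mem fun i _ => coeffLin_mem (hP _ (hw _)).2 _)
  -- bounded values
  choose B hB using hbd
  obtain ⟨k, hk⟩ := exists_valuation_le hq hA (∏ j : s, B j)
  have hdle : ∀ w, (∀ i, P (w i)) → A.valuation (det w) ≤ A.valuation (q : Qb) ^ k := by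
    intro w hw
    refine le_trans ?_ hk
    show A.valuation (Matrix.det _) ≤ _
    rw [Matrix.det_apply']
    refine Valuation.map_sum_le _ fun σ _ => ?_
    rw [map_mul, map_prod, map_prod]
    refine (mul_le_of_le_one_left' ?_).trans (Finset.prod_le_prod' fun i _ => hB _ _ (hw _))
    exact (A.valuation_le_one_iff _).mpr (intCast_mem A _)
  -- the most negative one
  let p : ℕ → Prop := fun n => ∃ w : s → FB N, (∀ i, P (w i)) ∧
    A.valuation (det w) = A.valuation (q : Qb) ^ (k + n)
  have hex : ∀ w, (∀ i, P (w i)) → det w ≠ 0 → ∃ n, p n ∧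
      A.valuation (det w) = A.valuation (q : Qb) ^ (k + n) := by
    intro w hw hw0
    obtain ⟨i, hi⟩ := exists_zpow_valuation_T hq hA (hdT w hw) hw0
    have hki := zpow_le_zpow_val hq hA (hi ▸ hdle w hw)
    have : k + ((i - k).toNat : ℕ) = i := by omega
    exact ⟨(i - k).toNat, ⟨w, hw, by rw [this, hi]⟩, by rw [this, hi]⟩
  have hp : ∃ n, p n := (hex w₀ hw₀P hw₀).imp fun n h => h.1
  obtain ⟨w, hw, hwv⟩ := Nat.find_spec hp
  have hw0 : det w ≠ 0 := fun h => by
    rw [h, map_zero] at hwv
    exact zpow_ne_zero _ (valuation_q_pos hq).ne' hwv.symm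
  have hmax : ∀ w', (∀ i, P (w' i)) → A.valuation (det w') ≤ A.valuation (det w) := by
    intro w' hw'
    rcases eq_or_ne (det w') 0 with h0 | h0
    · rw [h0, map_zero]; exact zero_le
    obtain ⟨n, hn, hnv⟩ := hex w' hw' h0
    rw [hnv, hwv]
    exact zpow_le_zpow_right_of_le_one₀ (valuation_q_pos hq) (le_of_lt hA)
      (by have := Nat.find_min' hp hn; omega)
  have hwX : ∀ i, w i ∈ X := fun i => Submodule.subset_span (hw i)
  have hli : LinearIndependent Qb w := by
    have h1 : LinearIndependent Qb (Matrix.of fun i j : s => coeffLin N j (w i)).row :=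
      Matrix.linearIndependent_rows_iff_isUnit.mpr
        ((Matrix.isUnit_iff_isUnit_det _).mpr (Ne.isUnit hw0))
    exact LinearIndependent.of_comp (LinearMap.pi fun j : s => coeffLin N j) h1
  refine ⟨Finset.univ.image w, fun x hx => ?_, ?_, fun x hx => ?_⟩
  · obtain ⟨i, -, rfl⟩ := Finset.mem_image.mp hx
    exact hw i
  · have h1 := hli.linearIndepOn_id
    rw [← Set.image_univ, ← Finset.coe_univ, ← Finset.coe_image] at h1
    exact h1
  -- coordinates
  have hwli : LinearIndependent Qb (fun i => (⟨w i, hwX i⟩ : X)) := LinearIndependent.of_comp X.subtype hli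
  have hxX : (⟨x, Submodule.subset_span hx⟩ : X) ∈ Submodule.span Qb (Set.range fun i => (⟨w i, hwX i⟩ : X)) := by
    rw [hwli.span_eq_top_of_card_eq_finrank' (by
      rw [φ.finrank_eq, Module.finrank_fintype_fun_eq_card])]
    exact Submodule.mem_top
  obtain ⟨a, ha⟩ := (Submodule.mem_span_range_iff_exists_fun Qb).mp hxX
  have hax : x = ∑ i, algebraMap Qb (FB N) (a i) * w i := by
    have h := congrArg Subtype.val ha
    simp only [AddSubmonoidClass.coe_finsetSum, SetLike.val_smul, Algebra.smul_def] at h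
    exact h.symm
  have hcram : ∀ i, det (Function.update w i x) = a i * det w := by
    intro i
    have hM : (Matrix.of fun i' j : s => coeffLin N j (Function.update w i x i')) =
        (Matrix.of fun i' j : s => coeffLin N j (w i')).updateRow i
          (∑ l, a l • (Matrix.of fun i' j : s => coeffLin N j (w i')) l) := by
      ext i' j
      rw [Matrix.updateRow_apply]
      by_cases h : i' = i
      · subst h
        simp only [Matrix.of_apply, Function.update_self, if_true, Finset.sum_apply, Pi.smul_apply,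
          smul_eq_mul, hax, map_sum]
        refine Finset.sum_congr rfl fun l _ => ?_
        rw [← Algebra.smul_def, LinearMap.map_smul, smul_eq_mul]
      · rw [if_neg h]
        simp only [Matrix.of_apply, Function.update_of_ne h]
    show Matrix.det _ = _
    rw [hM, Matrix.det_updateRow_sum, smul_eq_mul]
  have hup : ∀ i i', P (Function.update w i x i') := fun i i' => by
    by_cases h : i' = i
    · subst h; rwa [Function.update_self]
    · rw [Function.update_of_ne h]; exact hw i'
  have haT : ∀ i, a i ∈ inertiaFixed A ∧ a i ∈ A := by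
    intro i
    refine ⟨?_, ?_⟩
    · rw [show a i = det (Function.update w i x) / det w by rw [hcram, mul_div_cancel_right₀ _ hw0]]
      exact div_mem (hdT _ (hup i)) (hdT _ hw)
    · rw [← A.valuation_le_one_iff]
      have h := hmax _ (hup i)
      rw [hcram, map_mul] at h
      exact (mul_le_iff_le_one_left (zero_lt_iff.mpr ((_root_.map_ne_zero _).mpr hw0))).mp h
  refine ⟨Function.extend w a 0, fun y => ?_, ?_⟩
  · by_cases hy : ∃ i, w i = y
    · obtain ⟨i, rfl⟩ := hy
      rw [hli.injective.extend_apply]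
      exact haT i
    · rw [Function.extend_apply' _ _ _ hy, Pi.zero_apply]
      exact ⟨zero_mem _, zero_mem _⟩
  · rw [hax, Finset.sum_image fun i _ j _ h => hli.injective h]
    exact Finset.sum_congr rfl fun i _ => by rw [hli.injective.extend_apply]

/-- coordinates bounded by a constant bound the coefficients -/
theorem coeffBounded_of_coord {ι : Type*} [Fintype ι] (v : ι → FB N) (c : Qb) (P : FB N → Prop)
    (h : ∀ x, P x → ∃ a : ι → Qb, x = ∑ i, a i • v i ∧ ∀ i, A.valuation (a i) ≤ A.valuation c) :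
    CoeffBounded A P := by
  classical
  intro i
  rcases isEmpty_or_nonempty ι with hι | hι
  · refine ⟨0, fun x hx => ?_⟩
    obtain ⟨a, rfl, -⟩ := h x hx
    simp
  obtain ⟨l, -, hl⟩ := Finset.univ.exists_max_image (fun l => A.valuation (coeffLin N i (v l)))
    Finset.univ_nonempty
  refine ⟨c * coeffLin N i (v l), fun x hx => ?_⟩
  obtain ⟨a, rfl, ha⟩ := h x hx
  rw [map_sum]
  refine Valuation.map_sum_le _ fun j _ => ?_
  rw [LinearMap.map_smul, smul_eq_mul, map_mul, map_mul]
  exact mul_le_mul' (ha j) (hl j (Finset.mem_univ j))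

/-- the shape of `Fib.lattice_fg` -/
theorem lattice_fg_of_coord (hq : q.Prime) (hA : A.LiesOverPrime q) (V : Submodule Qb (FB N))
    [FiniteDimensional Qb V] (M₀ : FB N → Prop) (hM : ∀ x ∈ V, M₀ x → x ∈ rationalFn A N)
    {ι : Type*} [Fintype ι] (v : ι → FB N) (c : Qb)
    (h : ∀ x ∈ V, M₀ x → ∃ a : ι → Qb, x = ∑ i, a i • v i ∧ ∀ i, A.valuation (a i) ≤ A.valuation c) :
    ∃ S : Finset (FB N), (∀ x ∈ S, x ∈ V ∧ M₀ x) ∧ ∀ x ∈ V, M₀ x →
      ∃ d : FB N → Qb, (∀ i, d i ∈ TF A ∧ d i ∈ A) ∧
        x = ∑ i ∈ S, algebraMap Qb (FB N) (d i) * i := by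
  obtain ⟨S, hS, -, hgen⟩ := exists_finset_gen hq hA (fun x => x ∈ V ∧ M₀ x) V
    (fun x hx => ⟨hx.1, hM x hx.1 hx.2⟩)
    (coeffBounded_of_coord v c _ fun x hx => h x hx.1 hx.2)
  exact ⟨S, hS, fun x hxV hx => hgen x ⟨hxV, hx⟩⟩

end FLTAgent.SS2
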