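import Fermat.Agent.SS2.KillModel
import Fermat.Agent.SS2.KillSupp
import Fermat.Agent.SS2.FibPointOff
import Fermat.Agent.SS2.PointValBase
import Fermat.Agent.SS.Repr

/-!
The double points as a set of points of the special fibre of level `M`, stable under the passage to
the other branch; at such a point the three branches of level `Mq²` meet.
-/

set_option autoImplicit false
set_option linter.all false
set_option synthInstance.maxHeartbeats 400000
set_option maxHeartbeats 1000000

noncomputable section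

open ModularCurve AlgebraicCurve IsLocalRing
open FLTAgent.RR (Bd KK)
open FLTAgent.Reduction

namespace FLTAgent.SS2

variable {A : ValuationSubring Qb} {M q : ℕ} [NeZero M] [NeZero q]

/-- the double points, seen on the special fibre of level `M` -/
def DblSet (D : SS.Data Qb A (FB (M * q)) (FS A M)) : Set (PS A M) := Set.range (D.pt false)

variable (C : Ctx A M q) {D : SS.Data Qb A (FB (M * q)) (FS A M)} (L : LevelData D)

include C in
/-- points with the same values of regular functions are equal -/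
theorem place_eq_of_val {Q R : PS A M} (hQ : Bd Q (tS A M false) 0) (hR : Bd R (tS A M false) 0)
    (h : ∀ g ∈ regOn (kA A) (tS A M false), ∀ c, Val Q g c → Val R g c) : Q = R := by
  haveI := finite_tS C false
  haveI := separable_tS C false
  by_contra hne
  obtain ⟨g, hg, hgv, hg0, hgw⟩ := exists_separate (transcendental_tS A M false) hQ hR hne
  have := (h g hg 0 (by rwa [Val, map_zero, sub_zero])).ord_pos hg0
  omega

include L

include C in
/-- glueing of the two degeneracy images of a regular function -/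
theorem glue_pt (i : D.ι) {g : FS A M} (hg : g ∈ regOn (kA A) (tS A M false)) :
    (∀ c, Val (D.pt true i) (SS.Fr C g) c → Val (D.pt false i) g c) ∧
      ∀ c, Val (D.pt false i) (SS.Fr C g) c → Val (D.pt true i) g c := by
  obtain ⟨f, hf, -, hfr⟩ := exists_rational_lift C ((BS_iff C).mpr hg)
  have hfG := BT.mem_GR C hf
  obtain ⟨G, X, hG, -, -⟩ := exists_series_BT C false hf
  have hmem : ∀ (x : FB (M * q)) (r : FS A M), SS.IsRed A false x r → x ∈ D.G false ∧ D.red false x = r :=
    fun x r h => ⟨(L.mem_false x).mpr h.1, Subtype.ext ((L.red_false x h.1).trans h.2)⟩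
  have hmemt : ∀ (x : FB (M * q)) (r : FS A M), SS.IsRed A false (L.w x) r →
      x ∈ D.G true ∧ D.red true x = r :=
    fun x r h => ⟨(L.mem_true x).mpr h.1,
      Subtype.ext (by rw [L.red_true x h.1, L.red_false _ h.1]; exact h.2)⟩
  have a1 := hmem _ _ (SS.isRed_i1 C hfG).1
  have b1 := hmem _ _ (SS.isRed_i2 C hfG).1
  have a2 := hmemt (SS.i1 M q f) _ (by rw [L.w_alpha]; exact (SS.isRed_i2 C hfG).1)
  have b2 := hmemt (SS.i2 M q f) _ (by rw [L.w_beta]; exact (SS.isRed_i1 C hfG).1)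
  rw [hfr] at a1 b1 a2 b2
  have hglue : ∀ x : FB (M * q), (∀ b, x ∈ D.G b) → FinReg D x →
      ∃ c, ∀ b, Val (D.pt b i) (D.red b x) c := fun x hx hfin => by
    set R := D.toCore.trivialRep 1
    obtain ⟨m, hm⟩ := R.exists_L_of_onFin (x := x) (fun P hP => by
      rw [D.toCore.trivialRep_E]; exact hfin P hP)
    rw [D.toCore.trivialRep_L] at hm
    exact D.glue m x hm hx i
  obtain ⟨ca, hca⟩ := hglue _ (fun b => by cases b; exacts [a1.1, a2.1]) (L.finReg_alpha hf)
  obtain ⟨cb, hcb⟩ := hglue _ (fun b => by cases b; exacts [b1.1, b2.1]) (L.finReg_beta hf)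
  have h0 := hca false
  have h1 := hca true
  rw [show D.red false (heckeAlphaBar Qb M q f) = g from a1.2] at h0
  rw [show D.red true (heckeAlphaBar Qb M q f) = SS.Fr C g from a2.2] at h1
  have h2 := hcb false
  have h3 := hcb true
  rw [show D.red false (heckeBetaBar Qb M q f) = SS.Fr C g from b1.2] at h2
  rw [show D.red true (heckeBetaBar Qb M q f) = g from b2.2] at h3
  exact ⟨fun c hc => (h1.unique hc) ▸ h0, fun c hc => (h2.unique hc) ▸ h3⟩

include C in
/-- the other branch of a double point is its image under Frobenius -/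
theorem frobS_pt (t : Bool) (i : D.ι) : frobS C • D.pt t i = D.pt (!t) i := by
  refine place_eq_of_val C (PV.fin_frobS C (L.fin_pt t i)) (L.fin_pt (!t) i) fun g hg c hc => ?_
  have h := PV.val_Fr C hc
  cases t
  exacts [(glue_pt C L i hg).2 c h, (glue_pt C L i hg).1 c h]

omit L in
/-- the Hasse polynomial with coefficients in the prime field -/
theorem exists_hasse_stable :
    ∃ P : Polynomial (kA A), P.Monic ∧ P.natDegree = q - 1 ∧
      Polynomial.aeval (jqModC (kA A)) P * deltaC (kA A) ^ (q - 1) = 1 ∧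
      SS.Fr C (Polynomial.aeval (jS A M) P) = Polynomial.aeval (jS A M) P ^ q := by
  haveI := Fact.mk C.prime
  haveI := charP_residue A C.prime C.lies
  letI : Algebra (ZMod q) (kA A) := ZMod.algebra _ q
  obtain ⟨P, hP, hd, h⟩ := exists_hasse_poly q
  set φ : Polynomial (ZMod q) →+* FS A M :=
    (Polynomial.aeval (jS A M)).toRingHom.comp (Polynomial.mapRingHom (algebraMap (ZMod q) (kA A)))
  refine ⟨P.map (algebraMap (ZMod q) (kA A)), hP.map _, by rw [hP.natDegree_map, hd], h (kA A), ?_⟩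
  have h1 := congrArg φ (ZMod.expand_card (p := q) P)
  rw [map_pow] at h1
  simp only [φ, RingHom.comp_apply, Polynomial.coe_mapRingHom, Polynomial.map_expand,
    AlgHom.toRingHom_eq_coe, RingHom.coe_coe, Polynomial.expand_aeval] at h1
  rw [← Polynomial.aeval_algHom_apply, SS.Fr_jS C]
  exact h1

variable {r : ℕ} (hr : r.Prime) (h11 : r % 12 = 11) (hrM : r ∣ M)
include C hr h11 hrM

theorem mem_DblSet_iff {P : Polynomial (kA A)} (hPm : P.Monic) (hPd : P.natDegree = q - 1)
    (hP : Polynomial.aeval (jqModC (kA A)) P * deltaC (kA A) ^ (q - 1) = 1) (Q : PS A M) :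
    Q ∈ DblSet D ↔ Bd Q (tS A M false) 0 ∧ 0 < Q.ord (Polynomial.aeval (jS A M) P) :=
  ((double_eq_zeros C L hr h11 hrM hPm hPd hP).2 Q).symm

/-- the set of double points is stable under Frobenius, in both directions -/
theorem frobS_mem_DblSet_iff (Q : PS A M) : frobS C • Q ∈ DblSet D ↔ Q ∈ DblSet D := by
  obtain ⟨P, hPm, hPd, hP, hPq⟩ := exists_hasse_stable C (A := A) (M := M)
  rw [mem_DblSet_iff C L hr h11 hrM hPm hPd hP, mem_DblSet_iff C L hr h11 hrM hPm hPd hP]
  set g := Polynomial.aeval (jS A M) P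
  have h1 : frobS C • g = g := by
    have e := PV.Fr_frobS C g
    rw [← hPq] at e
    exact (SS.Fr C).toRingHom.injective e
  rw [RR.bd_iff_ord (tS_ne_zero A M false), RR.bd_iff_ord (tS_ne_zero A M false)]
  conv_lhs => rw [← PV.frobS_tS C false, ← h1, SemilinearAut.ord_smul, SemilinearAut.ord_smul]

/-- both branches of every double point lie in the set -/
theorem pt_mem_DblSet (t : Bool) (i : D.ι) : D.pt t i ∈ DblSet D := by
  cases t
  · exact ⟨i, rfl⟩
  · rw [← frobS_mem_DblSet_iff C L hr h11 hrM, frobS_pt C L true i]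
    exact ⟨i, rfl⟩

theorem ne_pt_of_not_mem {Q : PS A M} (hQ : Q ∉ DblSet D) (t : Bool) (i : D.ι) :
    D.pt t i ≠ Q ∧ D.pt t i ≠ frobS C • Q := by
  refine ⟨fun h => hQ (h ▸ pt_mem_DblSet C L hr h11 hrM t i), fun h => hQ ?_⟩
  rw [← frobS_mem_DblSet_iff C L hr h11 hrM, ← h]
  exact pt_mem_DblSet C L hr h11 hrM t i

/-- every point of the set is a second branch as well -/
theorem exists_pt_true {Q : PS A M} (hQ : Q ∈ DblSet D) : ∃ i, D.pt true i = Q := by
  obtain ⟨i, rfl⟩ := hQ
  obtain ⟨k, hk⟩ := (frobS_mem_DblSet_iff C L hr h11 hrM (D.pt false i)).mpr ⟨i, rfl⟩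
  refine ⟨k, ?_⟩
  rw [show D.pt true k = D.pt (!false) k from rfl, ← frobS_pt C L false k, hk,
    frobS_pt C L false i]
  exact frobS_pt C L true i

theorem frobS_frobS {Q : PS A M} (hQ : Q ∈ DblSet D) : frobS C • frobS C • Q = Q := by
  obtain ⟨i, rfl⟩ := hQ
  rw [frobS_pt C L false i]
  exact frobS_pt C L true i

/-! ### the three branches through a double point -/

omit C L hr h11 hrM in
/-- norms of regular functions are regular -/
theorem norm_regOn {a b : ℕ} [NeZero a] [NeZero b] (φ : FB a →ₐ[Qb] FB b) {t : FB a}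
    (ht : Transcendental Qb t) {x : FB b} (hx : x ∈ regOn Qb (φ t)) :
    normAlong φ x ∈ regOn Qb t := by
  have htb : Transcendental Qb (φ t) := fun halg =>
    ht ((isAlgebraic_algHom_iff φ φ.toRingHom.injective).mp halg)
  haveI : FiniteDimensional (KK Qb (φ t)) (FB b) := RR.finiteDimensional_adjoin htb
  haveI : CharZero (KK Qb (φ t)) := charZero_of_injective_algebraMap (algebraMap Qb _).injective
  haveI : Algebra.IsIntegral (KK Qb (φ t)) (FB b) := Algebra.IsIntegral.of_finite _ _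
  haveI : Algebra.IsSeparable (KK Qb (φ t)) (FB b) := Algebra.IsSeparable.of_integral _ _
  obtain ⟨p, hp, hpx⟩ := isIntegral_of_mem_regOn htb hx
  letI := (Polynomial.aeval (R := Qb) t).toRingHom.toAlgebra
  letI := algebraAlong φ
  letI := (Polynomial.aeval (R := Qb) (φ t)).toRingHom.toAlgebra
  haveI : Module.Finite (FB a) (FB b) := HeckeJ.finiteAlong φ
  haveI : IsScalarTower (Polynomial Qb) (FB a) (FB b) :=
    IsScalarTower.of_algebraMap_eq' (RingHom.ext fun P => (Polynomial.aeval_algHom_apply φ t P))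
  have hint : IsIntegral (Polynomial Qb) x := ⟨p, hp, hpx⟩
  refine mem_regOn_of_isIntegral (Polynomial.aeval (R := Qb) t).toRingHom (fun P => ?_)
    (Algebra.isIntegral_norm (FB a) hint)
  exact Algebra.adjoin_le (Set.singleton_subset_iff.mpr (self_mem_regOn _))
    (Polynomial.aeval_mem_adjoin_singleton Qb _)

omit C hr h11 hrM in
/-- regular functions on the finite chart of level `Mq` are finite regular -/
theorem finReg_of_regOn {x : FB (M * q)} (hx : x ∈ regOn Qb (tB (M * q) false)) : FinReg D x :=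
  fun P hP => hx P (fin_of_J L.w L.w_alpha L.w_beta (L.J_eq ▸ hP)).1

omit C hr h11 hrM in
theorem glue_val {x : FB (M * q)} (hx : ∀ b, x ∈ D.G b) (hfin : FinReg D x) (i : D.ι) :
    ∃ c, ∀ b, Val (D.pt b i) (D.red b x) c := by
  set R := D.toCore.trivialRep 1
  obtain ⟨m, hm⟩ := R.exists_L_of_onFin (x := x) (fun P hP => by
    rw [D.toCore.trivialRep_E]; exact hfin P hP)
  rw [D.toCore.trivialRep_L] at hm
  exact D.glue m x hm hx i

variable {Mo : Fib Qb A (FB (M * q * q)) (FS A M)} (hMo : IsModel C Mo)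
include hMo

/-- the two norm relations at a double point, on the finite chart -/
theorem norms_false {Q : PS A M} (hQ : Q ∈ DblSet D) (hQf : Bd Q (tS A M false) 0)
    {x : FB (M * q * q)} (hx : x ∈ Mo.R false) :
    ((Val Q (Mo.red 0 x) 0 ∨ Val Q (Mo.red 2 x) 0) ↔ Val Q (Mo.red 1 x) 0) ∧
      ((Val Q (Mo.red 1 x) 0 ∨ Val Q (Mo.red 2 x) 0) ↔ Val Q (Mo.red 0 x) 0) := by
  have hq := C.prime
  have hG := Mo.GI_iff.mp hx.1
  obtain ⟨ζ⟩ := nonempty_PR C
  have hres := fun b => hMo.res b x (hG b)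
  have hrat : x ∈ rationalFn A (M * q * q) := (hMo.mem_Ω x).mp (Mo.G_le 0 x (hG 0))
  have h20 : cL 1 * e20 M q x ∈ GG A := by rw [cL_one, one_mul]; exact (hres 0 ζ).1
  have h02 : cL 1 * e02 M q hq C.not_dvd x ∈ GG A := by rw [cL_one, one_mul]; exact (hres 1 ζ).1
  have h11' : ∀ z : PR q, cL ((fun _ => (1 : Qb)) z) * e11 M q hq C.not_dvd z x ∈ GG A :=
    fun z => by rw [cL_one, one_mul]; exact (hres 2 z).1
  have hprod : ∏ z : PR q, redL A (cL ((fun _ => (1 : Qb)) z) * e11 M q hq C.not_dvd z x) =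
      ((Mo.red 2 x : FS A M) : LaurentSeries (kA A)) ^ (q - 1) := by
    simp only [cL_one, one_mul]
    exact (prod_redL_e11 C hrat ζ (hres 2 ζ).1).trans (congrArg (· ^ (q - 1)) (hres 2 ζ).2)
  set Na := normAlong (heckeAlphaBar Qb (M * q) q) x
  set Nb := normAlong (heckeBetaBar Qb (M * q) q) x
  have hsc : ∀ z, cL ((1 : Qb) * ∏ _z : PR q, (fun _ => (1 : Qb)) _z) * z = z ∧
      cL ((1 : Qb) ^ q) * z = z := fun z => by simp [cL_one]
  -- along `α`
  have a1 := red_norm_alpha_side1 C x 1 (fun _ => 1) h20 h11'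
  have a2 := red_norm_alpha_side2 C x 1 h02
  -- along `β`
  have b2 := red_norm_beta_side2 C x 1 (fun _ => 1) h02 h11'
  have b1 := red_norm_beta_side1 C x 1 h20
  rw [(hsc _).1, hprod, cL_one, one_mul] at a1 b2
  rw [(hsc _).2, cL_one, one_mul] at a2 b1
  have side : ∀ y : FB (M * q), (y : LS) ∈ GG A → y ∈ D.G false ∧
      ((D.red false y : FS A M) : LaurentSeries (kA A)) = redL A (y : LS) := fun y hy => by
    have h := (coe_mem_GG_iff y).mp hy
    exact ⟨(L.mem_false y).mpr h, (L.red_false y h).trans (redL_coe h).symm⟩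
  have side' : ∀ y : FB (M * q), s2 M q hq C.not_dvd y ∈ GG A → y ∈ D.G true ∧
      ((D.red true y : FS A M) : LaurentSeries (kA A)) = redL A (s2 M q hq C.not_dvd y) :=
    fun y hy => by
    rw [s2_eq_w L] at hy ⊢
    have h := (coe_mem_GG_iff _).mp hy
    exact ⟨(L.mem_true y).mpr h, by rw [L.red_true y h, L.red_false _ h, redL_coe h]⟩
  obtain ⟨ga1, ra1⟩ := side Na a1.1
  obtain ⟨ga2, ra2⟩ := side' Na a2.1
  obtain ⟨gb2, rb2⟩ := side' Nb b2.1
  obtain ⟨gb1, rb1⟩ := side Nb b1.1
  have ea1 : D.red false Na = Mo.red 0 x * Mo.red 2 x ^ (q - 1) :=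
    Subtype.ext (by rw [ra1, a1.2]; push_cast; rw [← (hres 0 ζ).2]; rfl)
  have ea2 : SS.Fr C (D.red true Na) = Mo.red 1 x ^ q :=
    Subtype.ext (by rw [SS.coe_Fr, ra2, a2.2]; push_cast; rw [← (hres 1 ζ).2]; rfl)
  have eb2 : D.red true Nb = Mo.red 1 x * Mo.red 2 x ^ (q - 1) :=
    Subtype.ext (by rw [rb2, b2.2]; push_cast; rw [← (hres 1 ζ).2]; rfl)
  have eb1 : SS.Fr C (D.red false Nb) = Mo.red 0 x ^ q :=
    Subtype.ext (by rw [SS.coe_Fr, rb1, b1.2]; push_cast; rw [← (hres 0 ζ).2]; rfl)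
  -- regularity
  have hreg : x ∈ regOn Qb (tB (M * q * q) false) := (regOn_Jprod hq).mpr fun P hP => by
    simpa using hx.2 P (hMo.J_eq ▸ hP)
  have hjt : heckeAlphaBar Qb (M * q) q (tB (M * q) false) = tB (M * q * q) false :=
    Subtype.ext (by rw [coe_heckeAlphaBar]; rfl)
  have hNa := finReg_of_regOn L (norm_regOn (heckeAlphaBar Qb (M * q) q)
    (transcendental_tB (M * q) false) (hjt ▸ hreg))
  have hNb := finReg_of_regOn L (norm_regOn (heckeBetaBar Qb (M * q) q)
    (transcendental_tB (M * q) false) (x := x) fun P hP => hreg P ((bd_jImg_iff hq 1).mp (by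
      rw [show jImg M q 1 = heckeBetaBar Qb (M * q) q (tB (M * q) false) from
        (beta_alpha (ModFun.jBar M)).symm.trans (congrArg (heckeBetaBar Qb (M * q) q)
          (Subtype.ext (by rw [coe_heckeAlphaBar]; rfl)))]
      exact hP)))
  obtain ⟨i, hi⟩ := id hQ
  obtain ⟨k, hk⟩ := exists_pt_true C L hr h11 hrM hQ
  obtain ⟨ca, hca⟩ := glue_val L (fun b => by cases b; exacts [ga1, ga2]) hNa i
  obtain ⟨cb, hcb⟩ := glue_val L (fun b => by cases b; exacts [gb1, gb2]) hNb k
  have hi' : D.pt true i = frobS C • Q := by rw [← hi]; exact (frobS_pt C L false i).symm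
  have hk' : D.pt false k = frobS C • Q := by rw [← hk]; exact (frobS_pt C L true k).symm
  have a0 := hca false
  have a1' := hca true
  have b0 := hcb false
  have b1' := hcb true
  rw [hi, ea1] at a0
  rw [hi'] at a1'
  rw [hk, eb2] at b1'
  rw [hk'] at b0
  have a3 := PV.val_Fr C a1'
  have b3 := PV.val_Fr C b0
  rw [ea2] at a3
  rw [eb1] at b3
  have hv : ∀ b, ∃ v, Val Q (Mo.red b x) v := fun b =>
    Mo.val_exists ((hMo.inChart_iff false b Q).mpr hQf) hx
  choose v hv using hv
  have e1 : v 0 * v 2 ^ (q - 1) = v 1 ^ q :=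
    (((hv 0).mul ((hv 2).pow _)).unique a0).trans (a3.unique ((hv 1).pow q))
  have e2 : v 1 * v 2 ^ (q - 1) = v 0 ^ q :=
    (((hv 1).mul ((hv 2).pow _)).unique b1').trans (b3.unique ((hv 0).pow q))
  have hz : ∀ b, Val Q (Mo.red b x) 0 ↔ v b = 0 := fun b =>
    ⟨fun h => (hv b).unique h, fun h => h ▸ hv b⟩
  simp only [hz]
  have hq1 : q - 1 ≠ 0 := Nat.sub_ne_zero_of_lt hq.one_lt
  constructor
  · rw [← pow_eq_zero_iff (n := q - 1) (a := v 2) hq1, ← mul_eq_zero, e1, pow_eq_zero_iff hq.ne_zero]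
  · rw [← pow_eq_zero_iff (n := q - 1) (a := v 2) hq1, ← mul_eq_zero, e2, pow_eq_zero_iff hq.ne_zero]

/-- the two norm relations at a double point, on either chart -/
theorem norms_chart {s : Bool} {Q : PS A M} (hQ : Q ∈ DblSet D) (hQs : Bd Q (tS A M s) 0)
    {x : FB (M * q * q)} (hx : x ∈ Mo.R s) :
    ((Val Q (Mo.red 0 x) 0 ∨ Val Q (Mo.red 2 x) 0) ↔ Val Q (Mo.red 1 x) 0) ∧
      ((Val Q (Mo.red 1 x) 0 ∨ Val Q (Mo.red 2 x) 0) ↔ Val Q (Mo.red 0 x) 0) := by
  obtain ⟨i, hi⟩ := id hQ
  have hQf : Bd Q (tS A M false) 0 := hi ▸ L.fin_pt false i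
  cases s with
  | false => exact norms_false C L hr h11 hrM hMo hQ hQs hx
  | true =>
    have hJ0 : Mo.J ≠ 0 := by rw [hMo.J_eq]; exact Jprod_ne_zero
    obtain ⟨k, hk⟩ := exists_pow_mul_mem (K := Qb) hJ0 (y := x)
      (fun hx0 => (RR.finite_ord_ne (K := Qb) hx0).subset fun v hv => hv.2) (fun P hP => by
        have := hx.2 P (show InChart true (P.ord Mo.J) from (inChart_true_iff_bd hJ0).mpr hP)
        simpa using this)
    have hJR : Mo.J ∈ Mo.R false := ⟨Mo.GI_iff.mpr Mo.J_mem, fun P hP => by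
      rw [RR.bd_iff_ord hJ0]; simpa [InChart] using hP⟩
    have hx' : Mo.J ^ k * x ∈ Mo.R false :=
      ⟨Mo.GI.mul_mem (Mo.GI.pow_mem hJR.1 k) hx.1, fun P hP => by
        simpa using hk P ((RR.bd_iff_ord hJ0).mpr (by simpa [InChart] using hP))⟩
    have key : ∀ b, Val Q (Mo.red b (Mo.J ^ k * x)) 0 ↔ Val Q (Mo.red b x) 0 := fun b => by
      obtain ⟨e, he, hJb⟩ := hMo.Jbar_eq b
      obtain ⟨c, hc⟩ := val_exists_S C hQf
      have hc0 : c ≠ 0 := fun h0 => by
        have hj0 : tS A M false ≠ 0 := tS_ne_zero A M false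
        obtain ⟨c', hc'⟩ := val_exists_S C hQs
        have h1 := hc.mul hc'
        rw [show tS A M false * tS A M true = 1 from mul_inv_cancel₀ hj0, h0, zero_mul] at h1
        exact one_ne_zero (Val.one.unique h1)
      have hJk : Val Q (Mo.red b (Mo.J ^ k)) ((c ^ e) ^ k) := by
        rw [Mo.red_pow b (Mo.J_mem b), Mo.red_J, hJb]
        exact (hc.pow e).pow k
      obtain ⟨w, hw⟩ := Mo.val_exists ((hMo.inChart_iff true b Q).mpr hQs) hx
      rw [Mo.red_mul b _ (pow_mem (Mo.J_mem b) k) _ (Mo.GI_iff.mp hx.1 b)]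
      constructor
      · intro h
        rcases mul_eq_zero.mp ((hJk.mul hw).unique h) with h' | h'
        · exact absurd h' (pow_ne_zero _ (pow_ne_zero _ hc0))
        · exact h' ▸ hw
      · intro h
        simpa using hJk.mul h
    simpa only [key] using norms_false C L hr h11 hrM hMo hQ hQf hx'

/-- at a double point the three branches meet -/
theorem samePt_double {s : Bool} {Q : PS A M} (hQ : Q ∈ DblSet D) (hQs : Bd Q (tS A M s) 0)
    (b b' : Fin 3) : Mo.SamePt s b Q b' Q :=
  Mo.samePt_of_norms (Q := fun _ => Q) (fun b => (hMo.inChart_iff s b Q).mpr hQs)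
    (fun _ hx => norms_chart C L hr h11 hrM hMo hQ hQs hx) b b'

end FLTAgent.SS2

end
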