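import Fermat.Agent.SS2.BranchesNorm
import Fermat.Agent.SS2.Eisenstein

/-!
The three branches of the special fibre of `X₀(Mq²)` at a place over `q`: residues of the three
expansions, their scales on rational functions, the residual norm formulas, orthogonal bases.

Index convention: `0 ↦ 20`, `1 ↦ 02`, `2 ↦ 11`.
-/

set_option autoImplicit false
set_option linter.all false
set_option synthInstance.maxHeartbeats 100000
set_option maxHeartbeats 1000000

noncomputable section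

open ModularCurve AlgebraicCurve IsLocalRing
open FLTAgent.Reduction (Qb FB kA up dn GR redS)

namespace FLTAgent.SS2

variable {A : ValuationSubring Qb} {M q : ℕ} [NeZero M] [NeZero q]

variable (M q) in
/-- the three expansions -/
def eB (hq : q.Prime) (hqM : ¬ q ∣ M) (ζ : PR q) : Fin 3 → (FB (M * q * q) →ₐ[Qb] LS) :=
  ![e20 M q, e02 M q hq hqM, e11 M q hq hqM ζ]

/-- membership in the Gauss ring of series agrees with that of a function field -/
theorem coe_mem_GG_iff {n : ℕ} [NeZero n] (y : FB n) : (y : LS) ∈ GG A ↔ y ∈ GR A n := Iff.rfl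

theorem redL_coe {n : ℕ} [NeZero n] {y : FB n} (hy : y ∈ GR A n) :
    redL A (y : LS) = redS A n y := by
  obtain ⟨G, H, hH, h⟩ := hy
  rw [redL_eq hH h, Reduction.redS_eq hH h]


/-- a constant multiple of a scalable series -/
theorem Scalable.const_mul {y : LS} (hy : Scalable A y) {c : Qb} (hc : c ≠ 0) :
    Scalable A (cL c * y) := by
  obtain ⟨d, hd, h1, h2⟩ := hy
  refine ⟨d / c, div_ne_zero hd hc, ?_⟩
  rw [← mul_assoc, ← cL_mul, div_mul_cancel₀ d hc]
  exact ⟨h1, h2⟩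

/-- scales of equal value do the same -/
theorem scale_congr {c d : Qb} (hc : c ≠ 0) (h : A.valuation c = A.valuation d) {y : LS}
    (h1 : cL c * y ∈ GG A) (h1' : redL A (cL c * y) ≠ 0) :
    cL d * y ∈ GG A ∧ redL A (cL d * y) ≠ 0 := by
  have hv : A.valuation (d / c) = 1 := by
    rw [map_div₀, h, div_self (h ▸ (Valuation.ne_zero_iff _).mpr hc)]
  have hu : d / c ∈ A := (A.valuation_le_one_iff _).mp hv.le
  have e : cL d * y = cL (d / c) * (cL c * y) := by
    rw [← mul_assoc, ← cL_mul, div_mul_cancel₀ d hc]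
  rw [e]
  refine ⟨mul_mem (cL_mem hu) h1, ?_⟩
  rw [redL_mul (cL_mem hu) h1, redL_cL ⟨d / c, hu⟩]
  exact mul_ne_zero ((_root_.map_ne_zero _).mpr ((Reduction.res_ne_zero_iff A _).mpr hv)) h1'

theorem twist_cL_mul (u : Qbˣ) (c : Qb) (y : LS) :
    Reduction.twist u (cL c * y) = cL c * Reduction.twist u y := by
  rw [map_mul]
  congr 1
  exact (twistA u).commutes c

theorem qExpand_cL_mul (n : ℕ) [NeZero n] (c : Qb) (y : LS) :
    qExpand Qb n (cL c * y) = cL c * qExpand Qb n y := by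
  rw [map_mul]
  congr 1
  exact (qExpA n).commutes c

theorem cL_prod {ι : Type*} (S : Finset ι) (f : ι → Qb) :
    cL (∏ i ∈ S, f i) = ∏ i ∈ S, cL (f i) := map_prod (algebraMap Qb LS) f S

/-- integrality can be tested after `q ↦ q^n` -/
theorem mem_of_qExpand_mem (n : ℕ) [NeZero n] {y : LS} (hy : y = 0 ∨ Scalable A y)
    (h : qExpand Qb n y ∈ GG A) : y ∈ GG A := by
  rcases hy with rfl | ⟨c, hc, h1, h2⟩
  · exact zero_mem _
  obtain ⟨h3, h4⟩ := qExpand_mem n h1
  have h4' : redL A (qExpand Qb n (cL c * y)) ≠ 0 := by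
    rw [h4]; exact (_root_.map_ne_zero _).mpr h2
  have h5 : cL c⁻¹ * qExpand Qb n (cL c * y) ∈ GG A := by
    rwa [qExpand_cL_mul, ← mul_assoc, ← cL_mul, inv_mul_cancel₀ hc, cL_one, one_mul]
  have h6 := mul_mem (cL_mem (mem_A_of_cL_mul h3 h4' h5)) h1
  rwa [← mul_assoc, ← cL_mul, inv_mul_cancel₀ hc, cL_one, one_mul] at h6

theorem Bdd.qExpand_bdd (n : ℕ) [NeZero n] {y : LS} (hy : Bdd A y) : Bdd A (qExpand Qb n y) := by
  obtain ⟨⟨L, hL, hyL⟩, c, hcA, hc, hc'⟩ := hy
  refine ⟨⟨L, hL, fun k => ?_⟩, c, hcA, hc, fun k => ?_⟩ <;> by_cases hk : (n : ℤ) ∣ k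
  · obtain ⟨j, rfl⟩ := hk; rw [qExpand_coeff_mul]; exact hyL j
  · rw [qExpand_coeff_of_not_dvd n y hk]; exact zero_mem _
  · obtain ⟨j, rfl⟩ := hk; rw [qExpand_coeff_mul]; exact hc' j
  · rw [qExpand_coeff_of_not_dvd n y hk, mul_zero]; exact A.zero_mem

theorem Bdd.twist_bdd (u : Aˣ) {y : LS} (hy : Bdd A y) :
    Bdd A (Reduction.twist (unitQ u) y) := by
  obtain ⟨⟨L, hL, hyL⟩, c, hcA, hc, hc'⟩ := hy
  haveI := hL
  haveI : Algebra.IsAlgebraic ℚ Qb := AlgebraicClosure.isAlgebraic ℚ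
  set L' := IntermediateField.adjoin ℚ ({((u : A) : Qb)} : Set Qb)
  haveI : FiniteDimensional ℚ L' :=
    IntermediateField.adjoin.finiteDimensional (Algebra.IsIntegral.isIntegral _)
  refine ⟨⟨L ⊔ L', inferInstance, fun k => ?_⟩, c, hcA, hc, fun k => ?_⟩
  · rw [Reduction.twist_coeff]
    refine mul_mem ((le_sup_right : L' ≤ L ⊔ L') ?_) ((le_sup_left : L ≤ L ⊔ L') (hyL k))
    rw [Units.val_zpow_eq_zpow_val]
    exact zpow_mem (IntermediateField.mem_adjoin_simple_self ℚ _) k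
  · rw [Reduction.twist_coeff, mul_left_comm, ← map_zpow]
    exact mul_mem ((u ^ k : Aˣ) : A).2 (hc' k)

variable (A) in
theorem bdd_jser (n : ℕ) [NeZero n] : Bdd A (jser n) := by
  refine bdd_up (G := qExpand A n (jqModC A)) ?_ ⟨⊥, inferInstance, fun k => ?_⟩
  · show coeffMap A.subtype _ = _
    rw [ModFun.coeffMap_qExpand, jser, coeffEmb, ModFun.coeffMap_qExpand]
    congr 1
    exact Reduction.up_jqModC A
  · rw [jser, coeffEmb, coeffMap_coeff]
    exact IntermediateField.algebraMap_mem _ _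

theorem coeff_jser_mem (K : IntermediateField ℚ Qb) (n : ℕ) [NeZero n] (k : ℤ) :
    (jser n).coeff k ∈ K := by
  rw [jser, coeffEmb, coeffMap_coeff]
  exact IntermediateField.algebraMap_mem _ _

/-- series with coefficients in a subfield -/
def coeffRing (K : IntermediateField ℚ Qb) : Subring LS where
  carrier := {y | ∀ k, y.coeff k ∈ K}
  mul_mem' := fun {y z} hy hz k => by
    rw [HahnSeries.coeff_mul]; exact sum_mem fun _ _ => mul_mem (hy _) (hz _)
  one_mem' := fun k => by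
    rw [HahnSeries.coeff_one]; split_ifs <;> [exact one_mem _; exact zero_mem _]
  add_mem' := fun {y z} hy hz k => by rw [HahnSeries.coeff_add]; exact add_mem (hy k) (hz k)
  zero_mem' := fun k => by rw [HahnSeries.coeff_zero]; exact zero_mem _
  neg_mem' := fun {y} hy k => by rw [HahnSeries.coeff_neg]; exact neg_mem (hy k)

variable (A) in
/-- expansions of the generators are bounded -/
def BddGen {N : ℕ} [NeZero N] (e : FB N →ₐ[Qb] LS) : Prop :=
  ∀ d, Bdd A (e (Genus.gen N d))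

theorem exists_bdd_repr {N : ℕ} [NeZero N] {e : FB N →ₐ[Qb] LS} (he : BddGen A e) (x : FB N) :
    ∃ Y D : LS, Bdd A Y ∧ Bdd A D ∧ D ≠ 0 ∧ e x * D = Y := by
  obtain ⟨P, Q, hQ, rfl⟩ := Genus.exists_repr _ x
  refine ⟨_, _, bdd_aeval _ he P, bdd_aeval _ he Q, ?_, ?_⟩
  · rw [← MvPolynomial.comp_aeval_apply]; exact (_root_.map_ne_zero _).mpr hQ
  · rw [← MvPolynomial.comp_aeval_apply, ← MvPolynomial.comp_aeval_apply, map_div₀,
      div_mul_cancel₀]
    exact (_root_.map_ne_zero _).mpr hQ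

theorem scalable_of_bddGen {ℓ : ℕ} (hℓ : ℓ.Prime) (hA : A.LiesOverPrime ℓ) {N : ℕ} [NeZero N]
    {e : FB N →ₐ[Qb] LS} (he : BddGen A e) {x : FB N} (hx : x ≠ 0) : Scalable A (e x) := by
  obtain ⟨Y, D, hY, hD, hD0, h⟩ := exists_bdd_repr he x
  have hY0 : Y ≠ 0 := h ▸ mul_ne_zero ((_root_.map_ne_zero _).mpr hx) hD0
  rw [eq_div_iff hD0 |>.mpr h, div_eq_mul_inv]
  exact (hY.scalable hℓ hA hY0).mul (hD.scalable hℓ hA hD0).inv

/-- a series with coefficients in `K` and a bounded representation has a scale in `K` -/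
theorem exists_scale_in {ℓ : ℕ} (hℓ : ℓ.Prime) (hA : A.LiesOverPrime ℓ)
    (K : IntermediateField ℚ Qb) {N : ℕ} [NeZero N] {e : FB N →ₐ[Qb] LS} (he : BddGen A e)
    (hK : ∀ d k, (e (Genus.gen N d)).coeff k ∈ K) {x : FB N} (hx : ∀ k, (e x).coeff k ∈ K)
    (hx0 : x ≠ 0) : ∃ c ∈ K, c ≠ 0 ∧ cL c * e x ∈ GG A ∧ redL A (cL c * e x) ≠ 0 := by
  classical
  obtain ⟨P, Q, hQ, hPQ⟩ := Genus.exists_repr _ x
  set m : N.divisors → LS := fun d => e (Genus.gen N d)
  have hQ0 : MvPolynomial.aeval m Q ≠ 0 := by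
    rw [← MvPolynomial.comp_aeval_apply]; exact (_root_.map_ne_zero _).mpr hQ
  have hrel : e x * MvPolynomial.aeval m Q = MvPolynomial.aeval m P := by
    rw [← MvPolynomial.comp_aeval_apply, ← MvPolynomial.comp_aeval_apply, hPQ, map_div₀,
      div_mul_cancel₀]
    exact (_root_.map_ne_zero _).mpr hQ
  obtain ⟨k0, hk0⟩ : ∃ k, (MvPolynomial.aeval m Q).coeff k ≠ 0 := by
    by_contra h
    push Not at h
    exact hQ0 (HahnSeries.ext (funext h))
  obtain ⟨g, hg⟩ := LinearMap.exists_leftInverse_of_injective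
    (LinearMap.toSpanSingleton K Qb ((MvPolynomial.aeval m Q).coeff k0))
    (LinearMap.ker_eq_bot.mpr (smul_left_injective K hk0))
  have hg1 : g ((MvPolynomial.aeval m Q).coeff k0) = 1 := by
    simpa using LinearMap.congr_fun hg 1
  let π : LS →+ LS :=
    { toFun := fun y => ⟨fun k => ((g (y.coeff k) : K) : Qb),
        y.isPWO_support.mono fun k hk h => hk (by simp [h])⟩
      map_zero' := by ext k; simp
      map_add' := fun y z => by ext k; simp }
  have hπc : ∀ y k, (π y).coeff k = ((g (y.coeff k) : K) : Qb) := fun y k => rfl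
  have hπmul : ∀ y ∈ coeffRing K, ∀ S, π (y * S) = y * π S := by
    intro y hy S
    have hsub : (π S).support ⊆ S.support := fun k hk h => hk (by rw [hπc, h, map_zero]; rfl)
    ext k
    rw [hπc, HahnSeries.coeff_mul, HahnSeries.coeff_mul_right' S.isPWO_support hsub, map_sum,
      AddSubmonoidClass.coe_finsetSum]
    refine Finset.sum_congr rfl fun ij _ => ?_
    rw [hπc, show y.coeff ij.1 * S.coeff ij.2 = (⟨_, hy ij.1⟩ : K) • S.coeff ij.2 from rfl,
      map_smul]
    rfl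
  have hmon : ∀ d, m d ∈ coeffRing K := fun d k => hK d k
  have hπP : ∀ R : MvPolynomial N.divisors Qb, Bdd A (π (MvPolynomial.aeval m R)) := by
    intro R
    induction R using MvPolynomial.induction_on' with
    | add p r hp hr => rw [map_add, map_add]; exact hp.add hr
    | monomial s a =>
      rw [MvPolynomial.aeval_monomial, mul_comm, hπmul]
      · refine Bdd.mul ?_ ?_
        · have := bdd_aeval (A := A) m he (MvPolynomial.monomial s 1)
          rwa [MvPolynomial.aeval_monomial, map_one, one_mul] at this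
        · have e1 : π (algebraMap Qb LS a) = cL ((g a : K) : Qb) := by
            ext k
            rw [hπc, cL, algebraMap_laurentSeries_eq_single, algebraMap_laurentSeries_eq_single,
              HahnSeries.coeff_single, HahnSeries.coeff_single]
            split_ifs <;> simp
          rw [e1]
          exact bdd_cL _
      · exact prod_mem fun d _ => pow_mem (hmon d) _
  set D := π (MvPolynomial.aeval m Q) with hD
  have hD0 : D ≠ 0 := fun h => by
    have h1 := congrArg (fun s : LS => s.coeff k0) h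
    rw [hD] at h1
    simp only [hπc, hg1, HahnSeries.coeff_zero] at h1
    exact one_ne_zero h1
  have hN : e x * D = π (MvPolynomial.aeval m P) := by rw [← hπmul _ hx, hrel]
  have hN0 : π (MvPolynomial.aeval m P) ≠ 0 := hN ▸ mul_ne_zero ((_root_.map_ne_zero _).mpr hx0) hD0
  obtain ⟨kN, hkN, hN1, hN2⟩ := (hπP P).scalable_coeff hℓ hA hN0
  obtain ⟨kD, hkD, hD1, hD2⟩ := (hπP Q).scalable_coeff hℓ hA hD0
  obtain ⟨hI, hI'⟩ := inv_mem_GL hD1 hD2
  refine ⟨D.coeff kD / (π (MvPolynomial.aeval m P)).coeff kN,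
    div_mem (SetLike.coe_mem (g _)) (SetLike.coe_mem (g _)), div_ne_zero hkD hkN, ?_⟩
  have heq : cL (D.coeff kD / (π (MvPolynomial.aeval m P)).coeff kN) * e x =
      (cL ((π (MvPolynomial.aeval m P)).coeff kN)⁻¹ * π (MvPolynomial.aeval m P)) *
        (cL (D.coeff kD)⁻¹ * D)⁻¹ := by
    rw [← hN, mul_inv, cL_inv (D.coeff kD), inv_inv, div_eq_mul_inv, cL_mul]
    field_simp
  rw [heq]
  refine ⟨mul_mem hN1 hI, ?_⟩
  rw [redL_mul hN1 hI, hI']
  exact mul_ne_zero hN2 (inv_ne_zero hD2)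

/-- inertia acts trivially on residues of series -/
theorem coeffMap_inertia {σ : Qb ≃ₐ[ℚ] Qb} (hσ : σ ∈ A.inertiaSubgroupIn ℚ) {y : LS}
    (hy : y ∈ GG A) :
    coeffMap (σ : Qb →+* Qb) y ∈ GG A ∧ redL A (coeffMap (σ : Qb →+* Qb) y) = redL A y := by
  obtain ⟨s, hs, rfl⟩ := Subgroup.mem_map.mp hσ
  let ψ : A →+* A := MulSemiringAction.toRingHom _ A s
  have hres : (residue A).comp ψ = residue A := RingHom.ext fun a => by
    exact DFunLike.congr_fun (MonoidHom.mem_ker.mp hs) (residue A a)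
  obtain ⟨G, H, hH, h⟩ := hy
  have hdn : ∀ X : LaurentSeries A, dn A (coeffMap ψ X) = dn A X := fun X => by
    show coeffMap _ _ = _
    rw [coeffMap_coeffMap, coeffMap_congr hres]
  have hup : ∀ X : LaurentSeries A, up A (coeffMap ψ X) = coeffMap
      (((ValuationSubring.decompositionSubgroup ℚ A).subtype s : Qb ≃ₐ[ℚ] Qb) : Qb →+* Qb)
      (up A X) := fun X => by
    show coeffMap _ _ = coeffMap _ (coeffMap _ _)
    rw [coeffMap_coeffMap, coeffMap_coeffMap]
    exact coeffMap_congr (RingHom.ext fun a => rfl) X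
  have h' : coeffMap (((ValuationSubring.decompositionSubgroup ℚ A).subtype s :
      Qb ≃ₐ[ℚ] Qb) : Qb →+* Qb) y * up A (coeffMap ψ H) = up A (coeffMap ψ G) := by
    rw [hup, hup, ← h, map_mul]
  refine ⟨⟨_, _, by rwa [hdn], h'⟩, ?_⟩
  rw [redL_eq (by rwa [hdn]) h', redL_eq hH h, hdn, hdn]

/-- every generator comes from a generator of level `M` -/
theorem gen_cases' (hq : q.Prime) (d : (M * q * q).divisors) :
    ∃ d' : M.divisors, Genus.gen (M * q * q) d = i0 M q (Genus.gen M d') ∨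
      Genus.gen (M * q * q) d = i1 M q (Genus.gen M d') ∨
      Genus.gen (M * q * q) d = i2 M q (Genus.gen M d') := by
  obtain ⟨d', hd', h⟩ := dvd_cases (M := M) hq (Nat.dvd_of_mem_divisors d.2)
  refine ⟨⟨d', Nat.mem_divisors.mpr ⟨hd', NeZero.ne M⟩⟩, ?_⟩
  rcases h with h | h | h
  · exact Or.inl (i0_gen _ d h).symm
  · exact Or.inr (Or.inl (i1_gen _ d h).symm)
  · exact Or.inr (Or.inr (i2_gen _ d h).symm)

theorem bddGen_e20 : BddGen A (e20 M q) := fun d => by
  rw [e20_apply, coe_gen_N]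
  exact bdd_jser A _

/-! ### roots of unity in `A` -/

section Roots

variable (C : Reduction.Ctx A M q)

include C in
theorem PR.exists_unit (ζ : PR q) : ∃ u : Aˣ, unitQ u = ζ.u ∧ residue A (u : A) = 1 := by
  haveI := Fact.mk C.prime
  haveI := Reduction.charP_residue A C.prime C.lies
  have hζA : (ζ : Qb) ∈ A := Reduction.mem_A_of_isIntegral A ⟨Polynomial.X ^ q - 1,
    Polynomial.monic_X_pow_sub_C 1 C.prime.ne_zero, by simp [ζ.prim.pow_eq_one]⟩
  have hζ' : (⟨ζ, hζA⟩ : A) ^ q = 1 := Subtype.ext ζ.prim.pow_eq_one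
  refine ⟨Units.ofPowEqOne ⟨ζ, hζA⟩ q hζ' C.prime.ne_zero, Units.ext rfl, ?_⟩
  have h1 : (residue A ⟨ζ, hζA⟩ - 1) ^ q = 0 := by
    rw [sub_pow_char, ← map_pow, hζ', map_one, one_pow, sub_self]
  simpa [sub_eq_zero] using eq_zero_of_pow_eq_zero h1

theorem PR.one_sub_ne_zero (hq : q.Prime) (ζ : PR q) : (1 : Qb) - (ζ : Qb) ≠ 0 :=
  sub_ne_zero.mpr (ζ.prim.ne_one hq.one_lt).symm

include C in
theorem valuation_one_sub_eq (ζ ζ' : PR q) :
    A.valuation (1 - (ζ' : Qb)) = A.valuation (1 - (ζ : Qb)) := by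
  obtain ⟨u, hu, hu1⟩ := PR.exists_unit C ζ
  obtain ⟨i, hi, hii⟩ := ζ.prim.eq_pow_of_pow_eq_one ζ'.prim.pow_eq_one
  obtain ⟨d, hd, hr⟩ := exists_geom u hu1 i
  have hi0 : i ≠ 0 := by
    rintro rfl
    exact ζ'.prim.ne_one C.prime.one_lt (by rw [← hii, pow_zero])
  have hdv : A.valuation (d : Qb) = 1 := by
    refine (Reduction.res_ne_zero_iff A d).mp ?_
    rw [hr, Int.cast_natCast]
    exact Reduction.natCast_residue_ne_zero A C.prime C.lies
      fun h => absurd (Nat.le_of_dvd (Nat.pos_of_ne_zero hi0) h) (not_le.mpr hi)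
  have hu' : ((u : A) : Qb) = (ζ : Qb) := congrArg Units.val hu
  have h2 := congrArg (fun z : A => (z : Qb)) hd
  simp only [zpow_natCast, Units.val_pow_eq_pow_val] at h2
  push_cast at h2
  rw [hu'] at h2
  rw [← hii, h2, map_mul, hdv, mul_one]

end Roots

/-! ### Galois conjugation -/

/-- conjugate root -/
def PR.map (σ : Qb ≃ₐ[ℚ] Qb) (ζ : PR q) : PR q :=
  ⟨σ (ζ : Qb), (mem_primitiveRoots (Nat.pos_of_ne_zero (NeZero.ne q))).mpr
    (ζ.prim.map_of_injective σ.injective)⟩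

theorem PR.coe_map (σ : Qb ≃ₐ[ℚ] Qb) (ζ : PR q) : ((PR.map σ ζ : PR q) : Qb) = σ (ζ : Qb) := rfl

theorem coeffMap_e20 (σ : Qb ≃ₐ[ℚ] Qb) (x : FB (M * q * q)) :
    coeffMap (σ : Qb →+* Qb) (e20 M q x) = e20 M q (galFn (M * q * q) σ • x) := rfl

theorem galFn_smul_i0 (σ : Qb ≃ₐ[ℚ] Qb) (a : FB M) :
    galFn (M * q * q) σ • i0 M q a = i0 M q (galFn M σ • a) :=
  Subtype.ext (by
    rw [coe_arithmeticGalois_smul, coe_i0, coe_i0, coe_arithmeticGalois_smul])

theorem galFn_smul_i1 (σ : Qb ≃ₐ[ℚ] Qb) (a : FB M) :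
    galFn (M * q * q) σ • i1 M q a = i1 M q (galFn M σ • a) :=
  Subtype.ext (by
    rw [coe_arithmeticGalois_smul, coe_i1, coe_i1, coe_arithmeticGalois_smul,
      ModFun.coeffMap_qExpand])

theorem galFn_smul_i2 (σ : Qb ≃ₐ[ℚ] Qb) (a : FB M) :
    galFn (M * q * q) σ • i2 M q a = i2 M q (galFn M σ • a) :=
  Subtype.ext (by
    rw [coe_arithmeticGalois_smul, coe_i2, coe_i2, coe_arithmeticGalois_smul,
      ModFun.coeffMap_qExpand, ModFun.coeffMap_qExpand])

theorem coeffMap_e02 (hq : q.Prime) (hqM : ¬ q ∣ M) (σ : Qb ≃ₐ[ℚ] Qb) (x : FB (M * q * q)) :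
    coeffMap (σ : Qb →+* Qb) (e02 M q hq hqM x) = e02 M q hq hqM (galFn (M * q * q) σ • x) := by
  let g := galFn (M * q * q) σ
  have key : (coeffMap (σ : Qb →+* Qb)).comp (e02 M q hq hqM).toRingHom =
      (e02 M q hq hqM).toRingHom.comp (MulSemiringAction.toRingHom _ (FB (M * q * q)) g) := by
    refine ringHom_ext_i hq (fun c => ?_) (fun a => ?_) (fun a => ?_) (fun a => ?_)
    · show coeffMap (σ : Qb →+* Qb) (e02 M q hq hqM (algebraMap Qb _ c)) =
        e02 M q hq hqM (g • algebraMap Qb _ c)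
      rw [galFn_smul_const, AlgHom.commutes, AlgHom.commutes,
        algebraMap_laurentSeries_eq_single, algebraMap_laurentSeries_eq_single, coeffMap_single]
      rfl
    · show coeffMap (σ : Qb →+* Qb) (e02 M q hq hqM (i0 M q a)) =
        e02 M q hq hqM (g • i0 M q a)
      rw [galFn_smul_i0, e02_i0, e02_i0, coe_arithmeticGalois_smul, ModFun.coeffMap_qExpand,
        ModFun.coeffMap_qExpand]
    · show coeffMap (σ : Qb →+* Qb) (e02 M q hq hqM (i1 M q a)) =
        e02 M q hq hqM (g • i1 M q a)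
      rw [galFn_smul_i1, e02_i1, e02_i1, coe_arithmeticGalois_smul, ModFun.coeffMap_qExpand]
    · show coeffMap (σ : Qb →+* Qb) (e02 M q hq hqM (i2 M q a)) =
        e02 M q hq hqM (g • i2 M q a)
      rw [galFn_smul_i2, e02_i2, e02_i2, coe_arithmeticGalois_smul]
  exact DFunLike.congr_fun key x

theorem coeffMap_e11 (hq : q.Prime) (hqM : ¬ q ∣ M) (σ : Qb ≃ₐ[ℚ] Qb) (ζ : PR q)
    (x : FB (M * q * q)) :
    coeffMap (σ : Qb →+* Qb) (e11 M q hq hqM ζ x) =
      e11 M q hq hqM (PR.map σ ζ) (galFn (M * q * q) σ • x) := by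
  let g := galFn (M * q * q) σ
  have hu : Units.map ((σ : Qb →+* Qb) : Qb →* Qb) ζ.u = (PR.map σ ζ).u := Units.ext rfl
  have key : (coeffMap (σ : Qb →+* Qb)).comp (e11 M q hq hqM ζ).toRingHom =
      (e11 M q hq hqM (PR.map σ ζ)).toRingHom.comp
        (MulSemiringAction.toRingHom _ (FB (M * q * q)) g) := by
    refine ringHom_ext_i hq (fun c => ?_) (fun a => ?_) (fun a => ?_) (fun a => ?_)
    · show coeffMap (σ : Qb →+* Qb) (e11 M q hq hqM ζ (algebraMap Qb _ c)) =
        e11 M q hq hqM (PR.map σ ζ) (g • algebraMap Qb _ c)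
      rw [galFn_smul_const, AlgHom.commutes, AlgHom.commutes,
        algebraMap_laurentSeries_eq_single, algebraMap_laurentSeries_eq_single, coeffMap_single]
      rfl
    · show coeffMap (σ : Qb →+* Qb) (e11 M q hq hqM ζ (i0 M q a)) =
        e11 M q hq hqM (PR.map σ ζ) (g • i0 M q a)
      rw [galFn_smul_i0, e11_i0, e11_i0, coe_arithmeticGalois_smul, Reduction.coeffMap_twist, hu]
    · show coeffMap (σ : Qb →+* Qb) (e11 M q hq hqM ζ (i1 M q a)) =
        e11 M q hq hqM (PR.map σ ζ) (g • i1 M q a)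
      rw [galFn_smul_i1, e11_i1, e11_i1, coe_arithmeticGalois_smul, ModFun.coeffMap_qExpand]
    · show coeffMap (σ : Qb →+* Qb) (e11 M q hq hqM ζ (i2 M q a)) =
        e11 M q hq hqM (PR.map σ ζ) (g • i2 M q a)
      rw [galFn_smul_i2, e11_i2, e11_i2, coe_arithmeticGalois_smul]
  exact DFunLike.congr_fun key x

variable (C : Reduction.Ctx A M q)

include C in
theorem prod_one_sub : ∏ ζ : PR q, (1 - (ζ : Qb)) = (q : Qb) := by
  haveI := Fact.mk C.prime
  haveI : NeZero (q : Qb) := ⟨Nat.cast_ne_zero.mpr C.prime.ne_zero⟩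
  obtain ⟨z, hz⟩ := HasEnoughRootsOfUnity.exists_primitiveRoot Qb q
  rw [Finset.prod_coe_sort (primitiveRoots q Qb) (fun μ => 1 - μ),
    ← Polynomial.eval_one_cyclotomic_prime (R := Qb) (p := q),
    Polynomial.cyclotomic_eq_prod_X_sub_primitiveRoots hz, Polynomial.eval_prod]
  simp

include C in
theorem valuation_one_sub_pow (ζ : PR q) :
    A.valuation (1 - (ζ : Qb)) ^ (q - 1) = A.valuation (q : Qb) := by
  rw [← prod_one_sub C, map_prod, Finset.prod_congr rfl fun ζ' _ => valuation_one_sub_eq C ζ ζ',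
    Finset.prod_const, Finset.card_univ, card_PR C.prime]

theorem PR.map_mul (σ τ : Qb ≃ₐ[ℚ] Qb) (ζ : PR q) :
    PR.map (σ * τ) ζ = PR.map σ (PR.map τ ζ) := Subtype.ext rfl

include C in
/-- inertia permutes the primitive roots transitively -/
theorem exists_inertia_map (ζ ζ' : PR q) :
    ∃ σ ∈ A.inertiaSubgroupIn ℚ, PR.map σ ζ = ζ' := by
  classical
  set R := Finset.univ.filter fun z : PR q => ∃ σ ∈ A.inertiaSubgroupIn ℚ, PR.map σ ζ = z with hR
  suffices h : R = Finset.univ by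
    have := Finset.mem_univ ζ'
    rw [← h, hR, Finset.mem_filter] at this
    exact this.2
  refine Finset.eq_univ_of_card _ (le_antisymm (Finset.card_le_univ _) ?_)
  rw [card_PR C.prime]
  have hinj : Function.Injective fun z : PR q => (1 : Qb) - (z : Qb) := fun a b h =>
    Subtype.ext (sub_right_injective h)
  rw [← Finset.card_image_of_injective R hinj]
  refine card_le C.prime C.lies (Nat.sub_pos_of_lt C.prime.one_lt) (valuation_one_sub_pow C ζ) _
    (fun σ hσ w hw => ?_) ?_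
  · obtain ⟨z, hz, rfl⟩ := Finset.mem_image.mp hw
    rw [hR] at hz
    obtain ⟨-, τ, hτ, rfl⟩ := Finset.mem_filter.mp hz
    refine Finset.mem_image.mpr ⟨PR.map (σ * τ) ζ,
      Finset.mem_filter.mpr ⟨Finset.mem_univ _, _, mul_mem hσ hτ, rfl⟩, ?_⟩
    simp only [PR.coe_map, map_sub, map_one]
    rfl
  · exact Finset.mem_image.mpr ⟨ζ, Finset.mem_filter.mpr
      ⟨Finset.mem_univ _, 1, one_mem _, Subtype.ext rfl⟩, rfl⟩

/-! ### residues on the three copies of level `M` -/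

variable {a : FB M}

theorem red20_i0 (ha : a ∈ GR A M) :
    e20 M q (i0 M q a) ∈ GG A ∧ redL A (e20 M q (i0 M q a)) = redS A M a := by
  rw [e20_i0]; exact ⟨ha, redL_coe ha⟩

theorem red20_i1 (ha : a ∈ GR A M) :
    e20 M q (i1 M q a) ∈ GG A ∧
      redL A (e20 M q (i1 M q a)) = qExpand (kA A) q (redS A M a) := by
  rw [e20_i1, ← redL_coe ha]; exact qExpand_mem q ((coe_mem_GG_iff a).mpr ha)

theorem red20_i2 (ha : a ∈ GR A M) :
    e20 M q (i2 M q a) ∈ GG A ∧
      redL A (e20 M q (i2 M q a)) = qExpand (kA A) q (qExpand (kA A) q (redS A M a)) := by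
  rw [e20_i2, ← redL_coe ha]
  obtain ⟨h1, h2⟩ := qExpand_mem q ((coe_mem_GG_iff a).mpr ha)
  obtain ⟨h3, h4⟩ := qExpand_mem q h1
  exact ⟨h3, by rw [h4, h2]⟩

theorem red02_i0 (hq : q.Prime) (hqM : ¬ q ∣ M) (ha : a ∈ GR A M) :
    e02 M q hq hqM (i0 M q a) ∈ GG A ∧
      redL A (e02 M q hq hqM (i0 M q a)) = qExpand (kA A) q (qExpand (kA A) q (redS A M a)) := by
  rw [e02_i0, ← redL_coe ha]
  obtain ⟨h1, h2⟩ := qExpand_mem q ((coe_mem_GG_iff a).mpr ha)
  obtain ⟨h3, h4⟩ := qExpand_mem q h1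
  exact ⟨h3, by rw [h4, h2]⟩

theorem red02_i1 (hq : q.Prime) (hqM : ¬ q ∣ M) (ha : a ∈ GR A M) :
    e02 M q hq hqM (i1 M q a) ∈ GG A ∧
      redL A (e02 M q hq hqM (i1 M q a)) = qExpand (kA A) q (redS A M a) := by
  rw [e02_i1, ← redL_coe ha]; exact qExpand_mem q ((coe_mem_GG_iff a).mpr ha)

theorem red02_i2 (hq : q.Prime) (hqM : ¬ q ∣ M) (ha : a ∈ GR A M) :
    e02 M q hq hqM (i2 M q a) ∈ GG A ∧ redL A (e02 M q hq hqM (i2 M q a)) = redS A M a := by
  rw [e02_i2]; exact ⟨ha, redL_coe ha⟩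

theorem red11_i0 (ζ : PR q) (ha : a ∈ GR A M) :
    e11 M q C.prime C.not_dvd ζ (i0 M q a) ∈ GG A ∧
      redL A (e11 M q C.prime C.not_dvd ζ (i0 M q a)) = redS A M a := by
  obtain ⟨u, hu, hu1⟩ := PR.exists_unit C ζ
  rw [e11_i0, ← hu, ← redL_coe ha]
  exact twist_mem_of_residue_one u hu1 ((coe_mem_GG_iff a).mpr ha)

theorem red11_i1 (ζ : PR q) (ha : a ∈ GR A M) :
    e11 M q C.prime C.not_dvd ζ (i1 M q a) ∈ GG A ∧
      redL A (e11 M q C.prime C.not_dvd ζ (i1 M q a)) = qExpand (kA A) q (redS A M a) := by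
  rw [e11_i1, ← redL_coe ha]; exact qExpand_mem q ((coe_mem_GG_iff a).mpr ha)

theorem red11_i2 (ζ : PR q) (ha : a ∈ GR A M) :
    e11 M q C.prime C.not_dvd ζ (i2 M q a) ∈ GG A ∧
      redL A (e11 M q C.prime C.not_dvd ζ (i2 M q a)) = redS A M a := by
  rw [e11_i2]; exact ⟨ha, redL_coe ha⟩

/-- `(a(q²τ) - a(τ))/(1 - ζ)` restricts to `θā` on the middle branch -/
theorem red11_pi (ζ : PR q) (ha : a ∈ GR A M) :
    cL (1 - (ζ : Qb))⁻¹ * e11 M q C.prime C.not_dvd ζ (i2 M q a - i0 M q a) ∈ GG A ∧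
      redL A (cL (1 - (ζ : Qb))⁻¹ * e11 M q C.prime C.not_dvd ζ (i2 M q a - i0 M q a)) =
        theta (redS A M a) := by
  obtain ⟨u, hu, hu1⟩ := PR.exists_unit C ζ
  have hu' : ((u : A) : Qb) = (ζ : Qb) := congrArg Units.val hu
  rw [map_sub, e11_i2, e11_i0, ← hu, ← redL_coe ha, ← hu']
  exact theta_difference u hu1 (hu' ▸ ζ.prim.ne_one C.prime.one_lt) ((coe_mem_GG_iff a).mpr ha)

/-! ### scales -/

include C in
theorem bddGen_e11 (ζ : PR q) : BddGen A (e11 M q C.prime C.not_dvd ζ) := fun d => by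
  obtain ⟨u, hu, -⟩ := PR.exists_unit C ζ
  obtain ⟨d', h | h | h⟩ := gen_cases' C.prime d <;> rw [h]
  · rw [e11_i0, coe_gen_M, ← hu]; exact (bdd_jser A _).twist_bdd u
  · rw [e11_i1, coe_gen_M]; exact (bdd_jser A _).qExpand_bdd q
  · rw [e11_i2, coe_gen_M]; exact bdd_jser A _

include C in
theorem bddGen_e02 : BddGen A (e02 M q C.prime C.not_dvd) := fun d => by
  obtain ⟨d', h | h | h⟩ := gen_cases' C.prime d <;> rw [h]
  · rw [e02_i0, coe_gen_M]; exact ((bdd_jser A _).qExpand_bdd q).qExpand_bdd q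
  · rw [e02_i1, coe_gen_M]; exact (bdd_jser A _).qExpand_bdd q
  · rw [e02_i2, coe_gen_M]; exact bdd_jser A _

include C in
theorem bddGen_eB (ζ : PR q) : ∀ b, BddGen A (eB M q C.prime C.not_dvd ζ b) := by
  intro b
  fin_cases b
  · exact bddGen_e20
  · exact bddGen_e02 C
  · exact bddGen_e11 C ζ

/-- every expansion of a nonzero function has a scale -/
theorem scalable_eB (ζ : PR q) (b : Fin 3) {x : FB (M * q * q)} (hx : x ≠ 0) :
    Scalable A (eB M q C.prime C.not_dvd ζ b x) :=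
  scalable_of_bddGen C.prime C.lies (bddGen_eB C ζ b) hx

/-- orthogonal bases with respect to the three branches and prescribed scales -/
theorem exists_orth_basis_eB (ζ : PR q) (c : Fin 3 → Qb) (hc : ∀ b, c b ≠ 0)
    (V : Submodule Qb (FB (M * q * q))) [FiniteDimensional Qb V] :
    ∃ (d : ℕ) (v : Fin d → FB (M * q * q)), Submodule.span Qb (Set.range v) = V ∧
      (∀ b i, cL (c b) * eB M q C.prime C.not_dvd ζ b (v i) ∈ GG A) ∧
      LinearIndependent (kA A)
        (fun i b => redL A (cL (c b) * eB M q C.prime C.not_dvd ζ b (v i))) :=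
  exists_orth_basis C.prime C.lies (eB M q C.prime C.not_dvd ζ)
    (fun b x => exists_bdd_repr (bddGen_eB C ζ b) x) c hc V

section Rational

variable {x : FB (M * q * q)} (hx : x ∈ rationalFn A (M * q * q))

include hx

theorem coeff_e02_mem (i : ℤ) : (e02 M q C.prime C.not_dvd x).coeff i ∈ inertiaFixed A := by
  rw [mem_inertiaFixed]
  intro σ hσ
  have := congrArg (fun z : LS => z.coeff i) (coeffMap_e02 C.prime C.not_dvd σ x)
  rw [hx σ hσ] at this
  simpa only [coeffMap_coeff, RingHom.coe_coe] using this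

theorem coeff_e11_fixed (ζ : PR q) (i : ℤ) {σ : Qb ≃ₐ[ℚ] Qb}
    (hσ : σ ∈ A.inertiaSubgroupIn ℚ) (hζ : σ (ζ : Qb) = ζ) :
    σ ((e11 M q C.prime C.not_dvd ζ x).coeff i) = (e11 M q C.prime C.not_dvd ζ x).coeff i := by
  have := congrArg (fun z : LS => z.coeff i) (coeffMap_e11 C.prime C.not_dvd σ ζ x)
  rw [hx σ hσ, show PR.map σ ζ = ζ from Subtype.ext hζ] at this
  simpa only [coeffMap_coeff, RingHom.coe_coe] using this

include C in
theorem exists_scale_q (e : FB (M * q * q) →ₐ[Qb] LS) (he : BddGen A e)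
    (hK : ∀ d k, (e (Genus.gen (M * q * q) d)).coeff k ∈ inertiaFixed A)
    (hxK : ∀ k, (e x).coeff k ∈ inertiaFixed A) (hx0 : x ≠ 0) :
    ∃ i : ℤ, cL ((q : Qb) ^ i) * e x ∈ GG A ∧ redL A (cL ((q : Qb) ^ i) * e x) ≠ 0 := by
  obtain ⟨c, hcK, hc, h1, h2⟩ := exists_scale_in C.prime C.lies _ he hK hxK hx0
  obtain ⟨i, hi⟩ := exists_zpow_valuation_T C.prime C.lies hcK hc
  exact ⟨i, scale_congr hc (by rw [hi, map_zpow₀]) h1 h2⟩

include C in
/-- on the branch `20` the scale of a rational function is a power of `q` -/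
theorem exists_scale20 (hx0 : x ≠ 0) :
    ∃ i : ℤ, cL ((q : Qb) ^ i) * e20 M q x ∈ GG A ∧
      redL A (cL ((q : Qb) ^ i) * e20 M q x) ≠ 0 :=
  exists_scale_q C hx (e20 M q) bddGen_e20
    (fun d k => by rw [e20_apply, coe_gen_N]; exact coeff_jser_mem _ _ k)
    (fun k => mem_rationalFn.mp hx k) hx0

/-- on the branch `02` the scale of a rational function is a power of `q` -/
theorem exists_scale02 (hx0 : x ≠ 0) :
    ∃ i : ℤ, cL ((q : Qb) ^ i) * e02 M q C.prime C.not_dvd x ∈ GG A ∧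
      redL A (cL ((q : Qb) ^ i) * e02 M q C.prime C.not_dvd x) ≠ 0 := by
  refine exists_scale_q C hx _ (bddGen_e02 C) (fun d k => ?_) (coeff_e02_mem C hx) hx0
  refine coeff_e02_mem C (x := Genus.gen (M * q * q) d) (mem_rationalFn.mpr fun i => ?_) k
  rw [coe_gen_N]
  exact coeff_jser_mem _ _ i

/-- conjugate choices of the root give conjugate scaled expansions with the same residue -/
theorem red11_conj (ζ : PR q) (c : Qb) {σ : Qb ≃ₐ[ℚ] Qb} (hσ : σ ∈ A.inertiaSubgroupIn ℚ)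
    (h : cL c * e11 M q C.prime C.not_dvd ζ x ∈ GG A) :
    cL (σ c) * e11 M q C.prime C.not_dvd (PR.map σ ζ) x ∈ GG A ∧
      redL A (cL (σ c) * e11 M q C.prime C.not_dvd (PR.map σ ζ) x) =
        redL A (cL c * e11 M q C.prime C.not_dvd ζ x) := by
  have e : coeffMap (σ : Qb →+* Qb) (cL c * e11 M q C.prime C.not_dvd ζ x) =
      cL (σ c) * e11 M q C.prime C.not_dvd (PR.map σ ζ) x := by
    rw [map_mul, coeffMap_e11, hx σ hσ, cL, cL, algebraMap_laurentSeries_eq_single,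
      algebraMap_laurentSeries_eq_single, coeffMap_single]
    rfl
  rw [← e]
  exact coeffMap_inertia hσ h

/-- on the branch `11` the scale of a rational function is a power of `1 - ζ`, for all `ζ` -/
theorem exists_scale11 (hx0 : x ≠ 0) :
    ∃ i : ℤ, ∀ ζ : PR q, cL ((1 - (ζ : Qb)) ^ i) * e11 M q C.prime C.not_dvd ζ x ∈ GG A ∧
      redL A (cL ((1 - (ζ : Qb)) ^ i) * e11 M q C.prime C.not_dvd ζ x) ≠ 0 := by
  classical
  obtain ⟨ζ⟩ : Nonempty (PR q) := by
    rw [← Fintype.card_pos_iff, card_PR C.prime]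
    exact Nat.sub_pos_of_lt C.prime.one_lt
  set K := IntermediateField.fixedField
    (A.inertiaSubgroupIn ℚ ⊓ MulAction.stabilizer (Qb ≃ₐ[ℚ] Qb) (ζ : Qb)) with hK
  have hmemK : ∀ {c : Qb}, c ∈ K ↔ ∀ σ ∈ A.inertiaSubgroupIn ℚ, σ (ζ : Qb) = ζ → σ c = c :=
    fun {c} => (IntermediateField.mem_fixedField_iff _ _).trans
      ⟨fun h σ h1 h2 => h σ ⟨h1, h2⟩, fun h σ hσ => h σ hσ.1 hσ.2⟩
  obtain ⟨c, hcK, hc, h1, h2⟩ := exists_scale_in C.prime C.lies K (bddGen_e11 C ζ)
    (fun d k => hmemK.mpr fun σ hσ hζ => coeff_e11_fixed C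
      (x := Genus.gen (M * q * q) d) (mem_rationalFn.mpr fun i => by
        rw [coe_gen_N]; exact coeff_jser_mem _ _ i) ζ k hσ hζ)
    (fun k => hmemK.mpr fun σ hσ hζ => coeff_e11_fixed C hx ζ k hσ hζ) hx0
  -- coordinates of the scale in powers of `1 - ζ`
  choose τ hτ hτζ using exists_inertia_map C ζ
  have hτc : τ ζ c = c := hmemK.mp hcK _ (hτ ζ) (congrArg Subtype.val (hτζ ζ))
  obtain ⟨co, hco, hsum⟩ := exists_coords (A := A) (fun z => τ z c)
    (fun z : PR q => (1 : Qb) - (z : Qb)) (fun a b h => Subtype.ext (sub_right_injective h))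
    (fun σ hσ z => by
      refine ⟨PR.map σ z, by rw [map_sub, map_one]; rfl, ?_⟩
      have h := hmemK.mp hcK ((τ (PR.map σ z))⁻¹ * (σ * τ z))
        (mul_mem (inv_mem (hτ _)) (mul_mem hσ (hτ _))) (by
          have e1 : τ (PR.map σ z) (ζ : Qb) = σ (τ z (ζ : Qb)) := by
            rw [← PR.coe_map, hτζ, ← PR.coe_map (τ z), hτζ]; rfl
          rw [AlgEquiv.mul_apply, AlgEquiv.mul_apply, ← e1]
          exact (τ (PR.map σ z)).symm_apply_apply _)
      rw [AlgEquiv.mul_apply, AlgEquiv.mul_apply] at h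
      have h' := congrArg (τ (PR.map σ z)) h
      rw [show ∀ y, τ (PR.map σ z) ((τ (PR.map σ z))⁻¹ y) = y from
        (τ (PR.map σ z)).apply_symm_apply] at h'
      exact h')
  set z := (1 : Qb) - (ζ : Qb) with hz_def
  have hz : A.valuation z ^ (q - 1) = A.valuation (q : Qb) := valuation_one_sub_pow C ζ
  have hd : 0 < q - 1 := Nat.sub_pos_of_lt C.prime.one_lt
  have hceq : c = ∑ k ∈ Finset.range (q - 1), co k * z ^ k := by
    rw [← card_PR (q := q) C.prime]; exact hτc.symm.trans (hsum ζ)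
  obtain ⟨k, hk, hmax⟩ := (Finset.range (q - 1)).exists_max_image
    (fun k => A.valuation (co k * z ^ k)) ⟨0, Finset.mem_range.mpr hd⟩
  have hval : A.valuation c = A.valuation (co k * z ^ k) := by
    rw [hceq]
    exact le_antisymm (A.valuation.map_sum_le fun j hj => hmax j hj)
      (coeff_le C.prime C.lies hd hz hco (Finset.mem_range.mp hk))
  have hz0 : z ≠ 0 := PR.one_sub_ne_zero C.prime ζ
  have hco0 : co k ≠ 0 := fun h => (Valuation.ne_zero_iff _).mpr hc
    (by rw [hval, h, zero_mul, map_zero])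
  obtain ⟨j, hj⟩ := exists_zpow_valuation_T C.prime C.lies (hco k) hco0
  refine ⟨((q - 1 : ℕ) : ℤ) * j + (k : ℤ), fun ζ' => ?_⟩
  have hv : A.valuation c = A.valuation (z ^ (((q - 1 : ℕ) : ℤ) * j + (k : ℤ))) := by
    rw [hval, map_mul, hj, map_pow, map_zpow₀, zpow_add₀ ((Valuation.ne_zero_iff _).mpr hz0),
      zpow_mul, zpow_natCast, zpow_natCast, hz]
  obtain ⟨h3, h4⟩ := scale_congr hc hv h1 h2
  obtain ⟨σ, hσ, rfl⟩ := exists_inertia_map C ζ ζ'
  obtain ⟨h5, h6⟩ := red11_conj C hx ζ _ hσ h3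
  rw [map_zpow₀, hz_def, map_sub, map_one] at h5 h6
  exact ⟨h5, fun h => h4 (h6.symm.trans h)⟩

/-- the residue on the middle branch does not depend on the choice of the root -/
theorem red11_indep (ζ ζ' : PR q) (h : e11 M q C.prime C.not_dvd ζ x ∈ GG A) :
    e11 M q C.prime C.not_dvd ζ' x ∈ GG A ∧
      redL A (e11 M q C.prime C.not_dvd ζ' x) = redL A (e11 M q C.prime C.not_dvd ζ x) := by
  obtain ⟨σ, hσ, rfl⟩ := exists_inertia_map C ζ ζ'
  have h' : cL 1 * e11 M q C.prime C.not_dvd ζ x ∈ GG A := by rwa [cL_one, one_mul]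
  have := red11_conj C hx ζ 1 hσ h'
  rwa [map_one, cL_one, one_mul, one_mul] at this

theorem prod_redL_e11 (ζ : PR q) (h : e11 M q C.prime C.not_dvd ζ x ∈ GG A) :
    ∏ ζ' : PR q, redL A (e11 M q C.prime C.not_dvd ζ' x) =
      redL A (e11 M q C.prime C.not_dvd ζ x) ^ (q - 1) := by
  rw [Finset.prod_congr rfl fun ζ' _ => (red11_indep C hx ζ ζ' h).2, Finset.prod_const,
    Finset.card_univ, card_PR C.prime]

end Rational

/-! ### residual norm formulas -/

variable (x : FB (M * q * q))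

/-- norm along `α`, side one: `20` times the `11`'s -/
theorem red_norm_alpha_side1 (c : Qb) (b : PR q → Qb) (h20 : cL c * e20 M q x ∈ GG A)
    (h11 : ∀ ζ, cL (b ζ) * e11 M q C.prime C.not_dvd ζ x ∈ GG A) :
    cL (c * ∏ ζ, b ζ) * ((normAlong (heckeAlphaBar Qb (M * q) q) x : FB (M * q)) : LS) ∈ GG A ∧
      redL A (cL (c * ∏ ζ, b ζ) *
          ((normAlong (heckeAlphaBar Qb (M * q) q) x : FB (M * q)) : LS)) =
        redL A (cL c * e20 M q x) *
          ∏ ζ, redL A (cL (b ζ) * e11 M q C.prime C.not_dvd ζ x) := by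
  have key : cL (c * ∏ ζ, b ζ) * ((normAlong (heckeAlphaBar Qb (M * q) q) x : FB (M * q)) : LS) =
      (cL c * e20 M q x) * ∏ ζ : PR q,
        Reduction.twist ζ.u⁻¹ (cL (b ζ) * e11 M q C.prime C.not_dvd ζ x) := by
    rw [val_normAlong_alpha C.prime C.not_dvd, cL_mul, cL_prod]
    simp only [twist_cL_mul, Finset.prod_mul_distrib]
    ring
  have htw : ∀ ζ : PR q,
      Reduction.twist ζ.u⁻¹ (cL (b ζ) * e11 M q C.prime C.not_dvd ζ x) ∈ GG A ∧
        redL A (Reduction.twist ζ.u⁻¹ (cL (b ζ) * e11 M q C.prime C.not_dvd ζ x)) =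
          redL A (cL (b ζ) * e11 M q C.prime C.not_dvd ζ x) := fun ζ => by
    obtain ⟨u, hu, hu1⟩ := PR.exists_unit C ζ
    rw [← hu, ← map_inv]
    refine twist_mem_of_residue_one u⁻¹ ?_ (h11 ζ)
    have h := congrArg (residue A) (show (u : A) * ((u⁻¹ : Aˣ) : A) = 1 from u.mul_inv)
    rwa [map_mul, hu1, one_mul, map_one] at h
  have hp := prod_mem (t := Finset.univ) fun ζ _ => (htw ζ).1
  rw [key]
  exact ⟨mul_mem h20 hp, by
    rw [redL_mul h20 hp, redL_prod _ _ fun ζ _ => (htw ζ).1,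
      Finset.prod_congr rfl fun ζ _ => (htw ζ).2]⟩

include C in
theorem red_insep {y w : LS} (ζ : PR q) (c : Qb) (hy : y = 0 ∨ Scalable A y)
    (hyw : qExpand Qb q y = ∏ k : Fin q, Reduction.twist (ζ.u ^ (k : ℕ)) w)
    (h : cL c * w ∈ GG A) :
    cL (c ^ q) * y ∈ GG A ∧
      qExpand (kA A) q (redL A (cL (c ^ q) * y)) = redL A (cL c * w) ^ q := by
  obtain ⟨u, hu, hu1⟩ := PR.exists_unit C ζ
  have key : qExpand Qb q (cL (c ^ q) * y) =
      ∏ k : Fin q, Reduction.twist (ζ.u ^ (k : ℕ)) (cL c * w) := by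
    rw [qExpand_cL_mul, hyw]
    simp only [twist_cL_mul, Finset.prod_mul_distrib, Finset.prod_const, Finset.card_univ,
      Fintype.card_fin]
    rw [cL, cL, map_pow]
  have htw : ∀ k : ℕ, Reduction.twist (ζ.u ^ k) (cL c * w) ∈ GG A ∧
      redL A (Reduction.twist (ζ.u ^ k) (cL c * w)) = redL A (cL c * w) := fun k => by
    rw [← hu, ← map_pow]
    refine twist_mem_of_residue_one (u ^ k) ?_ h
    rw [Units.val_pow_eq_pow_val, map_pow, hu1, one_pow]
  have hmem : qExpand Qb q (cL (c ^ q) * y) ∈ GG A := key ▸ prod_mem fun k _ => (htw _).1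
  have hy' : cL (c ^ q) * y = 0 ∨ Scalable A (cL (c ^ q) * y) := by
    rcases eq_or_ne c 0 with rfl | hc
    · left; rw [zero_pow C.prime.ne_zero, cL_zero, zero_mul]
    rcases hy with rfl | hy
    · left; rw [mul_zero]
    · exact Or.inr (hy.const_mul (pow_ne_zero _ hc))
  have hm := mem_of_qExpand_mem q hy' hmem
  refine ⟨hm, ?_⟩
  rw [← (qExpand_mem q hm).2, key, redL_prod _ _ fun k _ => (htw _).1,
    Finset.prod_congr rfl fun (k : Fin q) _ => (htw k).2, Finset.prod_const, Finset.card_univ,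
    Fintype.card_fin]

include C in
theorem nonempty_PR : Nonempty (PR q) := by
  rw [← Fintype.card_pos_iff, card_PR C.prime]
  exact Nat.sub_pos_of_lt C.prime.one_lt

/-- norm along `α`, side two: the branch `02`, inseparable -/
theorem red_norm_alpha_side2 (c : Qb) (h : cL c * e02 M q C.prime C.not_dvd x ∈ GG A) :
    cL (c ^ q) * s2 M q C.prime C.not_dvd (normAlong (heckeAlphaBar Qb (M * q) q) x) ∈ GG A ∧
      qExpand (kA A) q (redL A (cL (c ^ q) *
          s2 M q C.prime C.not_dvd (normAlong (heckeAlphaBar Qb (M * q) q) x))) =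
        redL A (cL c * e02 M q C.prime C.not_dvd x) ^ q := by
  obtain ⟨ζ⟩ := nonempty_PR C
  refine red_insep C ζ c ?_ (qExpand_s2_normAlong_alpha C.prime C.not_dvd ζ x) h
  rcases eq_or_ne (normAlong (heckeAlphaBar Qb (M * q) q) x) 0 with h0 | h0
  · left; rw [h0, map_zero]
  · right
    rw [← e02_comp_beta]
    exact scalable_of_bddGen C.prime C.lies (bddGen_e02 C) ((_root_.map_ne_zero _).mpr h0)

/-- norm along `β`, side two: `02` times the `11`'s -/
theorem red_norm_beta_side2 (c : Qb) (b : PR q → Qb)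
    (h02 : cL c * e02 M q C.prime C.not_dvd x ∈ GG A)
    (h11 : ∀ ζ, cL (b ζ) * e11 M q C.prime C.not_dvd ζ x ∈ GG A) :
    cL (c * ∏ ζ, b ζ) * s2 M q C.prime C.not_dvd (normAlong (heckeBetaBar Qb (M * q) q) x) ∈ GG A ∧
      redL A (cL (c * ∏ ζ, b ζ) *
          s2 M q C.prime C.not_dvd (normAlong (heckeBetaBar Qb (M * q) q) x)) =
        redL A (cL c * e02 M q C.prime C.not_dvd x) *
          ∏ ζ, redL A (cL (b ζ) * e11 M q C.prime C.not_dvd ζ x) := by
  have key : cL (c * ∏ ζ, b ζ) *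
        s2 M q C.prime C.not_dvd (normAlong (heckeBetaBar Qb (M * q) q) x) =
      (cL c * e02 M q C.prime C.not_dvd x) *
        ∏ ζ : PR q, cL (b ζ) * e11 M q C.prime C.not_dvd ζ x := by
    rw [s2_normAlong_beta, cL_mul, cL_prod]
    simp only [Finset.prod_mul_distrib]
    ring
  have hp := prod_mem (t := Finset.univ) fun ζ _ => h11 ζ
  rw [key]
  exact ⟨mul_mem h02 hp, by rw [redL_mul h02 hp, redL_prod _ _ fun ζ _ => h11 ζ]⟩

include C in
/-- norm along `β`, side one: the branch `20`, inseparable -/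
theorem red_norm_beta_side1 (c : Qb) (h : cL c * e20 M q x ∈ GG A) :
    cL (c ^ q) * ((normAlong (heckeBetaBar Qb (M * q) q) x : FB (M * q)) : LS) ∈ GG A ∧
      qExpand (kA A) q (redL A (cL (c ^ q) *
          ((normAlong (heckeBetaBar Qb (M * q) q) x : FB (M * q)) : LS))) =
        redL A (cL c * e20 M q x) ^ q := by
  obtain ⟨ζ⟩ := nonempty_PR C
  refine red_insep C ζ c ?_ (qExpand_val_normAlong_beta C.prime C.not_dvd ζ x) h
  rcases eq_or_ne (normAlong (heckeBetaBar Qb (M * q) q) x) 0 with h0 | h0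
  · left; rw [h0]; rfl
  · right
    have h1 := scalable_of_bddGen C.prime C.lies (e := e20 M q) bddGen_e20
      (x := heckeAlphaBar Qb (M * q) q (normAlong (heckeBetaBar Qb (M * q) q) x))
      ((_root_.map_ne_zero _).mpr h0)
    rwa [e20_apply, coe_heckeAlphaBar] at h1

end FLTAgent.SS2

end
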