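import Fermat.Agent.SS2.PointValStep

/-!
The point of `X₀(M)` over a crossing cut out by a lifted uniformiser, and the valuations of the two
further copies at a point above it.
-/

set_option autoImplicit false
set_option linter.unusedSectionVars false
set_option linter.style.haveILetI false
set_option synthInstance.maxHeartbeats 400000
set_option maxHeartbeats 1000000

noncomputable section

open ModularCurve AlgebraicCurve IsLocalRing Polynomial
open FLTAgent.RR (Bd KK)

namespace FLTAgent.SS2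

open FLTAgent.Reduction

variable {A : ValuationSubring Qb} {M q : ℕ} [NeZero M] [NeZero q]

/-- Rational lifts of a uniformiser at a crossing and of its two Frobenius twists, and the unit of
the crossing. -/
structure CrossLifts (C : Ctx A M q) (s : Bool) (Q : PS A M) where
  /-- a lift of a uniformiser -/
  a : FB M
  /-- a lift of its first twist -/
  a1 : FB M
  /-- a lift of its second twist -/
  a2 : FB M
  fin : Bd Q (tS A M s) 0
  fixed : frobS C • frobS C • Q = Q
  bt_a : BT A M s a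
  bt_a1 : BT A M s a1
  bt_a2 : BT A M s a2
  rat_a : a ∈ rationalFn A M
  rat_a1 : a1 ∈ rationalFn A M
  rat_a2 : a2 ∈ rationalFn A M
  ord_a : Q.ord (red A M a) = 1
  red_a1 : red A M a1 = frobS C • red A M a
  red_a2 : red A M a2 = frobS C • red A M a1
  unit : ∃ (r : FS A M) (c : kA A),
    SS.IsRed A false (algebraMap Qb (FB (M * q)) (q : Qb)⁻¹ *
      ((heckeBetaBar Qb M q a1 - heckeAlphaBar Qb M q a ^ q) *
        (heckeBetaBar Qb M q a1 ^ q - heckeAlphaBar Qb M q a2))) r ∧ c ≠ 0 ∧ Val Q r c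

namespace CrossLifts

variable {C : Ctx A M q} {s : Bool} {Q : PS A M} (D : CrossLifts C s Q)
include D

theorem val_a : Val Q (red A M D.a) 0 :=
  val_zero_of_ord_pos (by rw [D.ord_a]; exact one_pos)

theorem val_a1 : Val (frobS C • Q) (red A M D.a1) 0 := by
  have := PV.val_frobS C D.val_a
  rwa [zero_pow C.prime.ne_zero, ← D.red_a1] at this

theorem val_a2 : Val Q (red A M D.a2) 0 := by
  have := PV.val_frobS C D.val_a1
  rwa [zero_pow C.prime.ne_zero, ← D.red_a2, D.fixed] at this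

theorem UG_a : UG A M D.a :=
  ⟨BT.mem_GR C D.bt_a, fun h => by simpa [h] using D.ord_a⟩

/-- the zero of the lift over the crossing -/
theorem exists_base : ∃ P0 : PB M, rP C P0 = Q ∧ P0.ord D.a = 1 ∧
    (∀ P, rP C P = Q → P ≠ P0 → P.ord D.a = 0) ∧
    ∀ σ ∈ A.inertiaSubgroupIn ℚ, galFn M σ • P0 = P0 := by
  classical
  have hd := defect_eq_zero C D.UG_a Q
  rw [defect, sub_eq_zero, mapDomain_apply_eq_sum (rP C) (dv D.a) Q (dv D.a).support subset_rfl,
    D.ord_a] at hd
  simp only [dv_apply] at hd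
  set S := (dv D.a).support.filter (fun P => rP C P = Q)
  have ha0 : D.a ≠ 0 := D.UG_a.ne_zero C
  have hpos : ∀ P ∈ S, 1 ≤ P.ord D.a := by
    intro P hP
    obtain ⟨h1, h2⟩ := Finset.mem_filter.mp hP
    rw [Finsupp.mem_support_iff, dv_apply] at h1
    obtain ⟨d, -, hd'⟩ := (fin_rP_iff C).mp (h2 ▸ D.fin : Bd (rP C P) (tS A M s) 0)
    have h3 := (RR.bd_iff_ord ha0).mp (D.bt_a.mem_regOn P hd'.bd)
    omega
  obtain ⟨P0, hP0⟩ : S.Nonempty := by
    by_contra h
    rw [Finset.not_nonempty_iff_eq_empty] at h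
    rw [h, Finset.sum_empty] at hd
    omega
  have hle : ∀ T ⊆ S, ∑ P ∈ T, P.ord D.a ≤ 1 := fun T hT =>
    (Finset.sum_le_sum_of_subset_of_nonneg hT fun P hP _ => by have := hpos P hP; omega).trans hd.le
  have h1 : P0.ord D.a = 1 := by
    have h := hle {P0} (Finset.singleton_subset_iff.mpr hP0)
    rw [Finset.sum_singleton] at h
    have := hpos P0 hP0
    omega
  have hu : ∀ P, rP C P = Q → P ≠ P0 → P.ord D.a = 0 := fun P hP hne => by
    by_contra hne0
    have hPS : P ∈ S :=
      Finset.mem_filter.mpr ⟨by rw [Finsupp.mem_support_iff, dv_apply]; exact hne0, hP⟩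
    have h2 := hle {P, P0} (by
      intro x hx
      simp only [Finset.mem_insert, Finset.mem_singleton] at hx
      rcases hx with rfl | rfl <;> assumption)
    rw [Finset.sum_pair hne] at h2
    have := hpos P hPS
    omega
  refine ⟨P0, (Finset.mem_filter.mp hP0).2, h1, hu, fun σ hσ => ?_⟩
  by_contra hne
  have hQ' : rP C (galFn M σ • P0) = Q :=
    (Flat.rP_inertia C hσ P0).trans (Finset.mem_filter.mp hP0).2
  have h0 := hu _ hQ' hne
  have h2 := SemilinearAut.ord_smul (galFn M σ) P0 D.a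
  rw [D.rat_a σ hσ] at h2
  omega

/-- `Φ - (X - a^q)(X^q - a₂)` is `q` times a polynomial whose constant term does not vanish at the
crossing -/
theorem exists_unit_coeff {Φ : (FB M)[X]} (hm : Φ.Monic) (hn : Φ.natDegree = q + 1)
    (hc : ∀ j, BT A M s (Φ.coeff j) ∧ Φ.coeff j ∈ rationalFn A M ∧
      red A M (Φ.coeff j) = (kronPoly C (red A M D.a1)).coeff j)
    (hrel : Φ.eval₂ (heckeAlphaBar Qb M q).toRingHom (heckeBetaBar Qb M q D.a1) = 0) :
    ∃ (H : FB M) (c : kA A), BT A M s H ∧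
      Φ.coeff 0 = D.a ^ q * D.a2 + cB M (q : Qb) * H ∧ c ≠ 0 ∧ Val Q (red A M H) c := by
  classical
  set α := heckeAlphaBar Qb M q
  set β := heckeBetaBar Qb M q
  set G : (FB M)[X] := (X - Polynomial.C (D.a ^ q)) * (X ^ q - Polynomial.C D.a2) with hG
  have hGm : G.Monic := (monic_X_sub_C _).mul (monic_X_pow_sub_C _ C.prime.ne_zero)
  have hGn : G.natDegree = q + 1 := by
    rw [hG, (monic_X_sub_C _).natDegree_mul (monic_X_pow_sub_C _ C.prime.ne_zero),
      natDegree_X_sub_C, natDegree_X_pow_sub_C, add_comm]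
  -- both polynomials have the same reduction
  let R : Subring (FB M) :=
    { carrier := {x | BT A M s x ∧ x ∈ rationalFn A M}
      mul_mem' := fun hx hy => ⟨hx.1.mul hy.1, mul_mem hx.2 hy.2⟩
      one_mem' := ⟨BT_one s, one_mem _⟩
      add_mem' := fun hx hy => ⟨hx.1.add hy.1, add_mem hx.2 hy.2⟩
      zero_mem' := ⟨by simpa using BT_const (A := A) (N := M) s A.zero_mem, zero_mem _⟩
      neg_mem' := fun {x} hx => ⟨by
        have h := (by simpa using BT_const (A := A) (N := M) s A.zero_mem : BT A M s 0).sub hx.1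
        rwa [zero_sub] at h, neg_mem hx.2⟩ }
  let rr : R →+* FS A M :=
    { toFun := fun x => red A M (x : FB M)
      map_one' := red_one C
      map_mul' := fun x y => red_mul C (BT.mem_GR C x.2.1) (BT.mem_GR C y.2.1)
      map_zero' := red_zero C
      map_add' := fun x y => red_add C (BT.mem_GR C x.2.1) (BT.mem_GR C y.2.1) }
  let G' : R[X] := (X - Polynomial.C ⟨D.a ^ q, D.bt_a.pow q, pow_mem D.rat_a q⟩) *
    (X ^ q - Polynomial.C ⟨D.a2, D.bt_a2, D.rat_a2⟩)
  have hG' : G'.map R.subtype = G := by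
    simp only [G', hG, Polynomial.map_mul, Polynomial.map_sub, map_X, map_C, Polynomial.map_pow]
    rfl
  have hG'' : G'.map rr = kronPoly C (red A M D.a1) := by
    simp only [G', kronPoly, Polynomial.map_mul, Polynomial.map_sub, map_X, map_C,
      Polynomial.map_pow]
    rw [show rr ⟨D.a ^ q, D.bt_a.pow q, pow_mem D.rat_a q⟩ = SS.Fr C (red A M D.a1) from by
        show red A M (D.a ^ q) = _
        rw [red_pow C (BT.mem_GR C D.bt_a), D.red_a1, PV.Fr_frobS C],
      show rr ⟨D.a2, D.bt_a2, D.rat_a2⟩ = frobS C • red A M D.a1 from D.red_a2]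
  have hdiff : ∀ j, ∃ H : FB M, BT A M s H ∧ H ∈ rationalFn A M ∧
      Φ.coeff j - G.coeff j = cB M (q : Qb) * H := by
    intro j
    have hGj : G.coeff j = ((G'.coeff j : R) : FB M) := by rw [← hG', coeff_map]; rfl
    have hGr : red A M (G.coeff j) = (kronPoly C (red A M D.a1)).coeff j := by
      rw [hGj, ← hG'', coeff_map]; rfl
    have hGR : BT A M s (G.coeff j) ∧ G.coeff j ∈ rationalFn A M := hGj ▸ (G'.coeff j).2
    refine PV.exists_q_mul C ((hc j).1.sub hGR.1) (sub_mem (hc j).2.1 hGR.2) ?_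
    rw [red_sub C (BT.mem_GR C (hc j).1) (BT.mem_GR C hGR.1), (hc j).2.2, hGr, sub_self]
  choose H hH hHr hHe using hdiff
  have h0 : G.coeff 0 = D.a ^ q * D.a2 := by
    rw [hG, mul_coeff_zero, coeff_sub, coeff_sub, coeff_X_zero, coeff_C_zero, coeff_X_pow,
      if_neg C.prime.ne_zero.symm, coeff_C_zero]
    ring
  obtain ⟨r, c, hr, hc0, hv⟩ := D.unit
  refine ⟨H 0, -c, hH 0, by rw [← hHe 0, h0]; ring, neg_ne_zero.mpr hc0, ?_⟩
  -- the crossing unit is `-H(β a₁)`
  set y := β D.a1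
  have hu : algebraMap Qb (FB (M * q)) (q : Qb)⁻¹ * ((y - α D.a ^ q) * (y ^ q - α D.a2)) =
      -∑ j ∈ Finset.range (q + 2), α (H j) * y ^ j := by
    have hGe : G.eval₂ α.toRingHom y = (y - α D.a ^ q) * (y ^ q - α D.a2) := by
      rw [hG, eval₂_mul, eval₂_sub, eval₂_sub, eval₂_X, eval₂_C, eval₂_C, eval₂_X_pow, map_pow]
      rfl
    rw [Polynomial.eval₂_eq_sum_range, hn] at hrel
    rw [Polynomial.eval₂_eq_sum_range, hGn] at hGe
    have hsum : algebraMap Qb (FB (M * q)) (q : Qb) *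
        ∑ j ∈ Finset.range (q + 2), α (H j) * y ^ j = -((y - α D.a ^ q) * (y ^ q - α D.a2)) := by
      rw [← hGe, Finset.mul_sum, ← zero_sub, ← hrel, ← Finset.sum_sub_distrib]
      refine Finset.sum_congr rfl fun j _ => ?_
      rw [← sub_mul, ← mul_assoc]
      congr 1
      show _ = α (Φ.coeff j) - α (G.coeff j)
      rw [← map_sub, hHe, map_mul, AlgHom.commutes]
    rw [← neg_neg ((y - α D.a ^ q) * (y ^ q - α D.a2)), ← hsum, mul_neg, ← mul_assoc, ← map_mul,
      inv_mul_cancel₀ (Nat.cast_ne_zero.mpr C.prime.ne_zero), map_one, one_mul]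
  have hy : SS.IsRed A false y (SS.Fr C (red A M D.a1)) :=
    (SS.isRed_i2 C (BT.mem_GR C D.bt_a1)).1
  have hsum : SS.IsRed A false (∑ j ∈ Finset.range (q + 2), α (H j) * y ^ j)
      (∑ j ∈ Finset.range (q + 2), red A M (H j) * SS.Fr C (red A M D.a1) ^ j) :=
    SS.IsRed.sum _ _ _ fun j _ => ((SS.isRed_i1 C (BT.mem_GR C (hH j))).1).mul (hy.pow j)
  rw [hu] at hr
  rw [hr.unique hsum.neg] at hv
  have hz : Val Q (SS.Fr C (red A M D.a1)) 0 := PV.val_Fr C D.val_a1
  have hcs : ∀ j, ∃ e, Val Q (red A M (H j)) e := fun j =>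
    val_exists_S C ((BS_iff C).mp (red_BS C (hH j)) Q D.fin)
  choose e he using hcs
  have h1 := (PV.val_sum (Finset.range (q + 2)) _ _ fun j _ => (he j).mul (hz.pow j))
  have h2 := hv.unique ((Val.zero).sub h1 |> fun h => by rwa [zero_sub] at h)
  rw [Finset.sum_eq_single 0 (fun j _ hj => by rw [zero_pow hj, mul_zero])
    (fun h => absurd (Finset.mem_range.mpr (Nat.succ_pos _)) h), pow_zero, mul_one] at h2
  rw [h2, zero_sub, neg_neg]
  exact he 0

/-- the values of the middle and last copy at a point over the base point -/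
theorem valuations (hK : KronChart C s) {P : PB (M * q * q)}
    (hi0 : (i0 M q).toRingHom.IsIntegral)
    (hP : rP C (P.restrictAlong (i0 M q) hi0) = Q)
    (hfixP : ∀ σ ∈ A.inertiaSubgroupIn ℚ,
      galFn M σ • P.restrictAlong (i0 M q) hi0 = P.restrictAlong (i0 M q) hi0)
    (ha : Val (P.restrictAlong (i0 M q) hi0) D.a 0) :
    ∃ Z : A, Val P (i2 M q D.a) (Z : Qb) ∧
      A.valuation (Z : Qb) ^ (q * (q + 1)) = A.valuation (q : Qb) := by
  classical
  set P0 := P.restrictAlong (i0 M q) hi0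
  have hi1 : (i1 M q).toRingHom.IsIntegral := HeckeJ.isIntegralAlong _
  have hi2 : (i2 M q).toRingHom.IsIntegral := HeckeJ.isIntegralAlong _
  set P1 := P.restrictAlong (i1 M q) hi1
  have h01 : KronPair C s (i0 M q) (i1 M q) := PV.pair01 hK
  have h12 : KronPair C s (i1 M q) (i2 M q) := PV.pair12 hK
  set R := frobS C • Q
  have hR : rP C P1 = R := PV.next_place C h01 hi0 hP D.fin D.fixed hi1
  have hRfin : Bd R (tS A M s) 0 := PV.fin_frobS C D.fin
  have hRfix : frobS C • frobS C • R = R := congrArg (frobS C • ·) D.fixed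
  -- the middle copy
  obtain ⟨Φ, Y, c, h1, h2, h3, h4, hY, hc, hrel⟩ :=
    PV.relation C h01 hi0 hP D.fin D.bt_a1 D.rat_a1
  have h4' : Φ.eval₂ (heckeAlphaBar Qb M q).toRingHom (heckeBetaBar Qb M q D.a1) = 0 := by
    refine (heckeAlphaBar Qb (M * q) q).toRingHom.injective ?_
    rw [Polynomial.hom_eval₂, map_zero]
    exact h4
  obtain ⟨H, e, hH, hH0, he, hHe⟩ := D.exists_unit_coeff h1 h2 h3 h4'
  have hqlt : A.valuation (q : Qb) < 1 := C.lies
  have hc0 : A.valuation (c 0 : Qb) = A.valuation (q : Qb) := by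
    obtain ⟨h, hh, hhr⟩ := PV.exists_val_chart C hP D.fin hH
    obtain ⟨b, hb, -⟩ := PV.exists_val_chart C hP D.fin D.bt_a2
    have h5 : Val P0 (Φ.coeff 0) ((q : Qb) * h) := by
      rw [hH0]
      simpa [zero_pow C.prime.ne_zero] using
        ((ha.pow q).mul hb).add ((Val.const (v := P0) (q : Qb)).mul hh)
    rw [(hc 0).1.unique h5, map_mul, (res_ne_zero_iff A h).mp fun h0 =>
      he (hHe.unique (h0 ▸ hhr)), mul_one]
  have hYres : residue A Y = 0 := by
    obtain ⟨y, hy, hyr⟩ := PV.exists_val_chart C hR hRfin D.bt_a1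
    rw [show Y = y from Subtype.ext (hY.unique ((PV.val_restrict_iff _ hi1).mp hy))]
    exact hyr.unique D.val_a1
  have hY1 : A.valuation (Y : Qb) < 1 := (res_eq_zero_iff A Y).mp hYres
  have hYv : A.valuation (Y : Qb) ^ (q + 1) = A.valuation (q : Qb) := by
    rw [← hc0]
    refine root_valuation (Nat.succ_pos q) hrel hY1 fun j hj _ => ?_
    rw [hc0]
    refine PV.le_q_of_lt_one C.prime C.lies (PV.val_mem_fixed C hfixP (h3 j).2.1 (hc j).1)
      ((res_eq_zero_iff A _).mp ((hc j).2.unique ?_))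
    obtain ⟨hf, hg⟩ := PV.val_roots C D.fixed D.val_a1
    rw [zero_pow C.prime.ne_zero] at hg
    exact PV.val_kronPoly_zero C hf hg (by have := Finset.mem_range.mp hj; omega)
  have hqY : A.valuation (q : Qb) < A.valuation (Y : Qb) := by
    rw [← hYv]
    refine pow_lt_self_of_lt_one₀ (zero_lt_iff.mpr ?_) hY1 (by have := C.prime.two_le; omega)
    intro h0
    rw [h0, zero_pow (Nat.succ_ne_zero q)] at hYv
    exact (valuation_q_pos C.prime).ne hYv
  -- the last copy
  obtain ⟨Ψ, k1, k2, k3, k4, k5⟩ := PV.pair_both hK D.bt_a D.rat_a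
  choose d hd hdr using fun j => PV.exists_val_chart C hR hRfin (k3 j).1
  have hP2 : rP C (P.restrictAlong (i2 M q) hi2) = Q := by
    rw [PV.next_place C h12 hi1 hR hRfin hRfix hi2]
    exact D.fixed
  obtain ⟨Z, hZ', hZr⟩ := PV.exists_val_chart C hP2 D.fin D.bt_a
  have hZ : Val P (i2 M q D.a) (Z : Qb) := (PV.val_restrict_iff _ hi2).mp hZ'
  have hZ1 : A.valuation (Z : Qb) < 1 := (res_eq_zero_iff A Z).mp (hZr.unique D.val_a)
  refine ⟨Z, hZ, ?_⟩
  have hdP : ∀ j, Val P (i1 M q (Ψ.coeff j)) (d j : Qb) :=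
    fun j => (PV.val_restrict_iff _ hi1).mp (hd j)
  have hy : Val P (i0 M q D.a) 0 := (PV.val_restrict_iff _ hi0).mp ha
  set x := i2 M q D.a
  set y := i0 M q D.a
  have hxy : x - y ≠ 0 := sub_ne_zero.mpr (PV.outer_ne C D.bt_a D.ord_a)
  set E := ∑ k ∈ Finset.range (q + 2),
    i1 M q (Ψ.coeff k) * ∑ i ∈ Finset.range k, x ^ i * y ^ (k - 1 - i)
  have hE : E = 0 := by
    refine (mul_eq_zero.mp (?_ : (x - y) * E = 0)).resolve_left hxy
    rw [Polynomial.eval₂_eq_sum_range, k2] at k4 k5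
    rw [Finset.mul_sum, ← sub_self (0 : FB (M * q * q))]
    nth_rw 1 [← k4]
    rw [← k5, ← Finset.sum_sub_distrib]
    refine Finset.sum_congr rfl fun k _ => ?_
    rw [mul_left_comm, mul_comm (x - y), geom_sum₂_mul, mul_sub]
    rfl
  have hrelZ : (Z : Qb) ^ q + ∑ j ∈ Finset.range q, (d (j + 1) : Qb) * (Z : Qb) ^ j = 0 := by
    have hv : Val P E (∑ k ∈ Finset.range (q + 2),
        (d k : Qb) * ∑ i ∈ Finset.range k, (Z : Qb) ^ i * 0 ^ (k - 1 - i)) :=
      PV.val_sum _ _ _ fun k _ => (hdP k).mul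
        (PV.val_sum _ _ _ fun i _ => (hZ.pow i).mul (hy.pow _))
    rw [hE] at hv
    have h0 := Val.zero.unique hv
    have hlead : (d (q + 1) : Qb) = 1 := by
      have e : Ψ.coeff (q + 1) = 1 := by rw [← k2]; exact k1.coeff_natDegree
      exact (hd (q + 1)).unique (e ▸ Val.one)
    rw [Finset.sum_range_succ', Finset.sum_range_zero, mul_zero, add_zero] at h0
    rw [Finset.sum_congr rfl fun k _ => by
      rw [Finset.sum_eq_single k (fun i hi hik => by
          rw [zero_pow (by have := Finset.mem_range.mp hi; omega), mul_zero])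
        (fun h => absurd (Finset.mem_range.mpr (Nat.lt_succ_self k)) h),
        Nat.add_sub_cancel, Nat.sub_self, pow_zero, mul_one], Finset.sum_range_succ, hlead,
      one_mul] at h0
    rw [h0, add_comm]
  have hYP1 : Val P1 D.a1 (Y : Qb) := (PV.val_restrict_iff _ hi1).mpr hY
  -- the linear coefficient is the middle value up to a multiple of `q`
  have hd1 : A.valuation (d 1 : Qb) = A.valuation (Y : Qb) := by
    obtain ⟨r, hr, -, hre⟩ := PV.exists_q_mul C ((k3 1).1.add D.bt_a1)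
      (add_mem (k3 1).2.1 D.rat_a1) (by
        rw [red_add C (BT.mem_GR C (k3 1).1) (BT.mem_GR C D.bt_a1),
          (k3 1).2.2, PV.coeff_one_kronPoly, ← D.red_a1, neg_add_cancel])
    obtain ⟨w, hw, -⟩ := PV.exists_val_chart C hR hRfin hr
    have h7 := ((hd 1).add hYP1)
    rw [hre] at h7
    have h8 := h7.unique ((Val.const (v := P1) (q : Qb)).mul hw)
    rw [eq_sub_of_add_eq h8]
    rw [Valuation.map_sub_swap]
    refine Valuation.map_sub_eq_of_lt_left _ ?_
    rw [map_mul]
    exact (mul_le_of_le_one_right' (val_le_one_of_mem w.2)).trans_lt hqY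
  have hb : ∀ j ∈ Finset.range q, j ≠ 0 →
      A.valuation (d (j + 1) : Qb) ≤ A.valuation (d 1 : Qb) := by
    intro j hj _
    rw [hd1, ← pow_le_pow_iff_left₀ zero_le zero_le (Nat.succ_ne_zero q), hYv]
    refine PV.small C h01 hi0 hP D.fin D.fixed hfixP (k3 (j + 1)).1 (k3 (j + 1)).2.1 ?_
      (hdP (j + 1))
    rw [(k3 (j + 1)).2.2]
    obtain ⟨hf, hg⟩ := PV.val_roots C hRfix (g := red A M D.a) (v := 0) (by
      rw [show frobS C • R = Q from D.fixed]; exact D.val_a)
    rw [zero_pow C.prime.ne_zero] at hg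
    exact PV.val_kronPoly_zero C hf hg (Finset.mem_range.mp hj)
  rw [pow_mul, root_valuation C.prime.pos (b := fun j => (d (j + 1) : Qb)) hrelZ hZ1 hb, hd1, hYv]

end CrossLifts

end FLTAgent.SS2

end
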