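import Fermat.Agent.SS2.KillClass
import Fermat.Agent.SS2.PointValZero
import Fermat.Agent.SS2.Branches

/-!
At every double point there are rational lifts of a uniformiser and its two Frobenius twists whose
product `Z₁Z₂/q` restricts to a unit.
-/

set_option autoImplicit false
set_option linter.all false
set_option synthInstance.maxHeartbeats 400000
set_option maxHeartbeats 1000000

noncomputable section

open ModularCurve AlgebraicCurve IsLocalRing
open FLTAgent.RR (Bd KK)
open FLTAgent.Reduction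

namespace FLTAgent.SS2

variable {A : ValuationSubring Qb} {M q : ℕ} [NeZero M] [NeZero q] (C : Ctx A M q)
include C

/-- Frobenius twists of regular functions are regular -/
theorem frobS_mem_regOn {s : Bool} {g : FS A M} (hg : g ∈ regOn (kA A) (tS A M s)) :
    frobS C • g ∈ regOn (kA A) (tS A M s) ∧ (frobS C)⁻¹ • g ∈ regOn (kA A) (tS A M s) := by
  have key : ∀ φ : SemilinearAut (kA A) (FS A M), φ • tS A M s = tS A M s →
      φ • g ∈ regOn (kA A) (tS A M s) := by
    intro φ hφ R hR
    have hR' : Bd (φ⁻¹ • R) (tS A M s) 0 := by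
      rw [RR.bd_iff_ord (tS_ne_zero A M s)] at hR ⊢
      have := SemilinearAut.ord_smul φ (φ⁻¹ • R) (tS A M s)
      rw [smul_inv_smul, hφ] at this
      rwa [← this]
    have h := hg _ hR'
    rw [RR.bd_iff] at h ⊢
    refine h.imp (fun h => by rw [h, smul_zero]) fun h => ?_
    rwa [show R.ord (φ • g) = (φ⁻¹ • R).ord g by
      conv_lhs => rw [← smul_inv_smul φ R, SemilinearAut.ord_smul]]
  refine ⟨key _ (PV.frobS_tS C s), key _ ?_⟩
  rw [inv_smul_eq_iff, PV.frobS_tS C s]

/-- rational series with Frobenius-twisted residues are congruent modulo `q` -/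
theorem exists_step {f g : FB M} {F G : LaurentSeries A}
    (hF : up A F = (f : LaurentSeries Qb)) (hG : up A G = (g : LaurentSeries Qb))
    (hf : f ∈ rationalFn A M) (hg : g ∈ rationalFn A M)
    (h : red A M g = frobS C • red A M f) :
    ∃ H : LaurentSeries A, qExpand A q G - F ^ q = (q : LaurentSeries A) * H := by
  haveI := Fact.mk C.prime
  haveI := charP_residue A C.prime C.lies
  haveI := SS.expChar_kA C
  have hdn : ∀ {x : FB M} {X : LaurentSeries A}, up A X = (x : LaurentSeries Qb) →
      dn A X = (red A M x : LaurentSeries (kA A)) := fun {x X} hX => by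
    rw [coe_red C (mem_GR_of_series hX), redS_series hX]
  have h0 : dn A (qExpand A q G - F ^ q) = 0 := by
    rw [map_sub, map_pow, coeffMap_qExpand, hdn hF, hdn hG, h, frobS, coe_fullAut_smul, sub_eq_zero,
      pow_char_eq q]
    rfl
  have hF' : up A F ∈ coeffRing (inertiaFixed A) := fun k => by rw [hF]; exact mem_rationalFn.mp hf k
  have hG' : qExpand Qb q (up A G) ∈ coeffRing (inertiaFixed A) := fun k => by
    by_cases hk : (q : ℤ) ∣ k
    · obtain ⟨j, rfl⟩ := hk
      rw [qExpand_coeff_mul, hG]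
      exact mem_rationalFn.mp hg j
    · rw [qExpand_coeff_of_not_dvd q _ hk]
      exact zero_mem _
  have hT : up A (qExpand A q G - F ^ q) ∈ coeffRing (inertiaFixed A) := by
    rw [map_sub, map_pow, coeffMap_qExpand]
    exact sub_mem hG' (pow_mem hF' q)
  refine exists_natCast_mul (natCast_A_ne (A := A) C.prime) _ fun k => ?_
  set c := (qExpand A q G - F ^ q).coeff k
  have hc0 : residue A c = 0 := by
    have := congrArg (fun z : LaurentSeries (kA A) => z.coeff k) h0
    simp only [coeffMap_coeff, HahnSeries.coeff_zero] at this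
    exact this
  have hcT : (c : Qb) ∈ inertiaFixed A := by
    have := hT k
    rwa [coeffMap_coeff] at this
  have hle := PV.le_q_of_lt_one C.prime C.lies hcT ((res_eq_zero_iff A c).mp hc0)
  have hq0 : (q : Qb) ≠ 0 := Nat.cast_ne_zero.mpr C.prime.ne_zero
  have hdiv : (c : Qb) / (q : Qb) ∈ A := by
    rw [← A.valuation_le_one_iff, map_div₀, div_le_one₀ (valuation_q_pos C.prime)]
    exact hle
  refine ⟨⟨_, hdiv⟩, Subtype.ext ?_⟩
  push_cast
  rw [mul_div_cancel₀ _ hq0]

variable {D : SS.Data Qb A (FB (M * q)) (FS A M)} (L : LevelData D)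
include L

/-- the lifts needed at a double point exist -/
theorem exists_crossLifts {r : ℕ} (hr : r.Prime) (h11 : r % 12 = 11) (hrM : r ∣ M) {Q : PS A M}
    (hQ : Q ∈ DblSet D) : Nonempty (CrossLifts C false Q) := by
  classical
  obtain ⟨i, hi⟩ := exists_pt_true C L hr h11 hrM hQ
  have hi' : D.pt false i = frobS C • Q := by rw [← hi]; exact (frobS_pt C L true i).symm
  have hfin : Bd Q (tS A M false) 0 := hi ▸ L.fin_pt true i
  obtain ⟨t, ht, ht1, hθ⟩ := exists_unif_theta C (L.fin_pt false i)
  set g : ℕ → FS A M := fun j =>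
    if j = 0 then (frobS C)⁻¹ • t else if j = 1 then t else frobS C • t
  have hg : ∀ j, g j ∈ regOn (kA A) (tS A M false) := fun j => by
    simp only [g]
    split_ifs
    exacts [(frobS_mem_regOn C ht).2, ht, (frobS_mem_regOn C ht).1]
  choose f hf hfr hfg using fun j => exists_rational_lift C ((BS_iff C).mpr (hg j))
  choose G X hG hX hXS using fun j => exists_series_BT C false (hf j)
  have h1 : red A M (f 1) = frobS C • red A M (f 0) := by
    rw [hfg, hfg]; simp [g]
  have h2 : red A M (f 2) = frobS C • red A M (f 1) := by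
    rw [hfg, hfg]; simp [g]
  obtain ⟨T, hZ1, hZ2⟩ := exists_twistQuot_of_tower C L (t := t) f G (fun j => ⟨hf j, hG j⟩)
    (by rw [hfg]; simp [g]) hfr (fun j hj => by
      interval_cases j
      exacts [exists_step C (hG 0) (hG 1) (hfr 0) (hfr 1) h1,
        exists_step C (hG 1) (hG 2) (hfr 1) (hfr 2) h2])
  obtain ⟨-, -, c, hc0, hc⟩ := exists_crossing C L hr h11 hrM i ht ht1 hθ T
  have hq0 : algebraMap Qb (FB (M * q)) (q : Qb) ≠ 0 :=
    (_root_.map_ne_zero _).mpr (Nat.cast_ne_zero.mpr C.prime.ne_zero)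
  have hh : T.h = (algebraMap Qb (FB (M * q)) (q : Qb))⁻¹ * T.Z1 := by
    rw [← T.q_mul]; exact (inv_mul_cancel_left₀ hq0 _).symm
  set u := T.h * T.Z2
  have hwu : L.w u ∈ GR A (M * q) := (L.mem_true u).mp (T.u_mem true)
  have hexpr : algebraMap Qb (FB (M * q)) (q : Qb)⁻¹ *
      ((heckeBetaBar Qb M q (f 1) - heckeAlphaBar Qb M q (f 0) ^ q) *
        (heckeBetaBar Qb M q (f 1) ^ q - heckeAlphaBar Qb M q (f 2))) = -L.w u := by
    simp only [u, hh, hZ1, hZ2, map_mul, map_sub, map_pow, map_inv₀, AlgHom.commutes, L.w_alpha,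
      L.w_beta]
    ring
  have hqe : 1 ≤ (D.pt false i).ord (red A M (f 1)) := by rw [hfg]; simp [g, ht1]
  refine ⟨{
    a := f 0, a1 := f 1, a2 := f 2
    fin := hfin
    fixed := frobS_frobS C L hr h11 hrM hQ
    bt_a := hf 0, bt_a1 := hf 1, bt_a2 := hf 2
    rat_a := hfr 0, rat_a1 := hfr 1, rat_a2 := hfr 2
    ord_a := ?_
    red_a1 := h1, red_a2 := h2
    unit := ⟨-D.red true u, -c, ?_, neg_ne_zero.mpr hc0, ?_⟩ }⟩
  · have := SemilinearAut.ord_smul (frobS C) Q (red A M (f 0))
    rw [← h1, ← hi', hfg 1] at this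
    rw [← this]
    simpa [g] using ht1
  · rw [hexpr]
    refine ⟨SS.mem_GS.mpr (neg_mem hwu), ?_⟩
    show redS A (M * q) (-L.w u) = _
    have hneg : redS A (M * q) (-L.w u) = -redS A (M * q) (L.w u) := by
      rw [eq_neg_iff_add_eq_zero, ← redS_add (neg_mem hwu) hwu, neg_add_cancel, redS_zero]
    rw [hneg, NegMemClass.coe_neg, L.red_true u hwu, L.red_false _ hwu]
  · rw [← zero_sub, ← zero_sub c, ← hi]
    exact Val.zero.sub (hc true)

end FLTAgent.SS2

end
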