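import Fermat.Agent.SS2.Branches
import Fermat.Agent.SS2.ModelAux
import Fermat.Agent.SS2.ModelLift
import Fermat.Agent.SS2.CrossingBasic
import Fermat.Agent.SS.Side

/-!
Residues on the three branches of the images of functions of level `M`; chart functions lifting a
regular function to a branch and separating one branch from the other two.
-/

set_option autoImplicit false
set_option linter.unusedSectionVars false
set_option linter.style.haveILetI false
set_option linter.unusedSimpArgs false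
set_option synthInstance.maxHeartbeats 200000
set_option maxHeartbeats 1000000

noncomputable section

open ModularCurve AlgebraicCurve IsLocalRing
open FLTAgent.RR (Bd)

namespace FLTAgent.SS2

open FLTAgent.Reduction (Qb FB FS Ctx GR cB tB tS jS kA red redS regOn BS BT)

variable {A : ValuationSubring Qb} {M q : ℕ} [NeZero M] [NeZero q] (C : Ctx A M q)

/-- `r` is the restriction of `x` to the branch `b` -/
def IsRes (b : Fin 3) (x : FB (M * q * q)) (r : FS A M) : Prop :=
  ∀ ζ : PR q, eB M q C.prime C.not_dvd ζ b x ∈ GG A ∧ redL A (eB M q C.prime C.not_dvd ζ b x) = (r : LaurentSeries (kA A))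

namespace IsRes

variable {C} {b : Fin 3} {x y : FB (M * q * q)} {r s : FS A M}

theorem unique (hx : IsRes C b x r) (hx' : IsRes C b x s) : r = s := by
  obtain ⟨ζ⟩ := nonempty_PR C
  exact Subtype.ext ((hx ζ).2.symm.trans (hx' ζ).2)

theorem mul (hx : IsRes C b x r) (hy : IsRes C b y s) : IsRes C b (x * y) (r * s) := fun ζ => by
  rw [map_mul, MulMemClass.coe_mul, redL_mul (hx ζ).1 (hy ζ).1, (hx ζ).2, (hy ζ).2]
  exact ⟨mul_mem (hx ζ).1 (hy ζ).1, rfl⟩

theorem add (hx : IsRes C b x r) (hy : IsRes C b y s) : IsRes C b (x + y) (r + s) := fun ζ => by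
  rw [map_add, AddMemClass.coe_add, redL_add (hx ζ).1 (hy ζ).1, (hx ζ).2, (hy ζ).2]
  exact ⟨add_mem (hx ζ).1 (hy ζ).1, rfl⟩

theorem sub (hx : IsRes C b x r) (hy : IsRes C b y s) : IsRes C b (x - y) (r - s) := fun ζ => by
  rw [map_sub, AddSubgroupClass.coe_sub, redL_sub (hx ζ).1 (hy ζ).1, (hx ζ).2, (hy ζ).2]
  exact ⟨sub_mem (hx ζ).1 (hy ζ).1, rfl⟩

theorem pow (hx : IsRes C b x r) (n : ℕ) : IsRes C b (x ^ n) (r ^ n) := fun ζ => by
  rw [map_pow, SubmonoidClass.coe_pow, redL_pow (hx ζ).1, (hx ζ).2]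
  exact ⟨pow_mem (hx ζ).1 n, rfl⟩

theorem const (a : A) :
    IsRes C b (algebraMap Qb (FB (M * q * q)) (a : Qb))
      (algebraMap (kA A) (FS A M) (residue A a)) := fun ζ => by
  rw [AlgHom.commutes]
  exact ⟨cL_mem a.2, redL_cL a⟩

theorem one : IsRes C b (1 : FB (M * q * q)) 1 := by
  simpa using const (C := C) (b := b) (1 : A)

theorem prod {ι : Type*} (S : Finset ι) (f : ι → FB (M * q * q)) (g : ι → FS A M)
    (h : ∀ i ∈ S, IsRes C b (f i) (g i)) : IsRes C b (∏ i ∈ S, f i) (∏ i ∈ S, g i) := by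
  classical
  induction S using Finset.induction with
  | empty => simpa using one (C := C) (b := b)
  | insert a S ha ih =>
    rw [Finset.prod_insert ha, Finset.prod_insert ha]
    exact (h a (by simp)).mul (ih fun i hi => h i (by simp [hi]))

theorem congr_res (hx : IsRes C b x r) (e : r = s) : IsRes C b x s := e ▸ hx

end IsRes

include C

theorem redS_eq_red {a : FB M} (ha : a ∈ GR A M) :
    redS A M a = (red A M a : LaurentSeries (kA A)) := (Reduction.coe_red C ha).symm

/-- the three images on the three branches -/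
def imgRes (b k : Fin 3) (r : FS A M) : FS A M :=
  match b, k with
  | 0, 0 => r
  | 0, 1 => SS.Fr C r
  | 0, 2 => SS.Fr C (SS.Fr C r)
  | 1, 0 => SS.Fr C (SS.Fr C r)
  | 1, 1 => SS.Fr C r
  | 1, 2 => r
  | 2, 0 => r
  | 2, 1 => SS.Fr C r
  | 2, 2 => r

omit C in
/-- the three images -/
def img (M q : ℕ) [NeZero M] [NeZero q] : Fin 3 → (FB M →ₐ[Qb] FB (M * q * q))
  | 0 => i0 M q
  | 1 => i1 M q
  | 2 => i2 M q

theorem isRes_img {a : FB M} (ha : a ∈ GR A M) :
    ∀ b k : Fin 3, IsRes C b (img M q k a) (imgRes C b k (red A M a))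
  | 0, 0 => fun _ => by rw [imgRes, ← redS_eq_red C ha]; exact red20_i0 ha
  | 0, 1 => fun _ => by rw [imgRes, SS.coe_Fr, ← redS_eq_red C ha]; exact red20_i1 ha
  | 0, 2 => fun _ => by rw [imgRes, SS.coe_Fr, SS.coe_Fr, ← redS_eq_red C ha]; exact red20_i2 ha
  | 1, 0 => fun _ => by
    rw [imgRes, SS.coe_Fr, SS.coe_Fr, ← redS_eq_red C ha]
    exact red02_i0 C.prime C.not_dvd ha
  | 1, 1 => fun _ => by
    rw [imgRes, SS.coe_Fr, ← redS_eq_red C ha]; exact red02_i1 C.prime C.not_dvd ha
  | 1, 2 => fun _ => by rw [imgRes, ← redS_eq_red C ha]; exact red02_i2 C.prime C.not_dvd ha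
  | 2, 0 => fun ζ => by rw [imgRes, ← redS_eq_red C ha]; exact red11_i0 C ζ ha
  | 2, 1 => fun ζ => by rw [imgRes, SS.coe_Fr, ← redS_eq_red C ha]; exact red11_i1 C ζ ha
  | 2, 2 => fun ζ => by rw [imgRes, ← redS_eq_red C ha]; exact red11_i2 C ζ ha

theorem Fr_tS : ∀ s : Bool, SS.Fr C (tS A M s) = tS A M s ^ q
  | false => SS.Fr_jS C
  | true => by
    show SS.Fr C (jS A M)⁻¹ = (jS A M)⁻¹ ^ q
    rw [map_inv₀, SS.Fr_jS C, inv_pow]

omit C in
/-- the exponents of the three images of the coordinate on the branches -/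
def imgExp (q : ℕ) : Fin 3 → Fin 3 → ℕ
  | 0, 0 => 1
  | 0, 1 => q
  | 0, 2 => q * q
  | 1, 0 => q * q
  | 1, 1 => q
  | 1, 2 => 1
  | 2, 0 => 1
  | 2, 1 => q
  | 2, 2 => 1

theorem isRes_img_tB (s : Bool) (b k : Fin 3) :
    IsRes C b (img M q k (tB M s)) (tS A M s ^ imgExp q b k) := by
  refine (isRes_img C (Reduction.tB_mem s) b k).congr_res ?_
  rw [Reduction.red_tB C]
  fin_cases b <;> fin_cases k <;>
    simp [imgRes, imgExp, Fr_tS C, map_pow, ← pow_mul]

omit C

theorem img_rational {a : FB M} (ha : a ∈ rationalFn A M) :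
    ∀ k, img M q k a ∈ rationalFn A (M * q * q)
  | 0 => (heckeAlphaBar_rational q).mpr ((heckeAlphaBar_rational q).mpr ha)
  | 1 => (heckeAlphaBar_rational q).mpr ((heckeBetaBar_rational q).mpr ha)
  | 2 => (heckeBetaBar_rational q).mpr ((heckeBetaBar_rational q).mpr ha)

theorem img_jBar : ∀ k, img M q k (ModFun.jBar M) = jImg M q k
  | 0 => rfl
  | 1 => rfl
  | 2 => rfl

theorem img_regOn (k : Fin 3) {s : Bool} {a : FB M} (ha : BT A M s a) :
    img M q k a ∈ regOn Qb (img M q k (tB M s)) := by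
  refine Reduction.mem_regOn_of_isIntegral _ (fun p => ?_) (isIntegralElem_map (img M q k).toRingHom ha)
  show img M q k (Reduction.phiA A M s p) ∈ _
  rw [Reduction.phiA_apply, ← Polynomial.aeval_algHom_apply]
  exact Algebra.adjoin_le (Set.singleton_subset_iff.mpr (Reduction.self_mem_regOn _))
    (Polynomial.aeval_mem_adjoin_singleton Qb _)

/-- the chart of `J` is contained in the charts of the three images of `j` -/
theorem bd_img_of_inChart (hq : q.Prime) {s : Bool} {P : Place Qb (FB (M * q * q))}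
    (h : InChart s (P.ord (Jprod M q))) (k : Fin 3) : Bd P (img M q k (tB M s)) 0 := by
  cases s
  · show Bd P (img M q k (ModFun.jBar M)) 0
    rw [img_jBar]
    exact (bd_jImg_iff hq k).mpr ((inChart_false_Jprod hq).mp h)
  · show Bd P (img M q k (ModFun.jBar M)⁻¹) 0
    rw [map_inv₀, img_jBar]
    exact bd_of_inChart_true hq k h

include C

/-- a regular function on a branch lifts to the chart -/
theorem exists_branch_lift (s : Bool) (b : Fin 3) {φ : FS A M}
    (hφ : φ ∈ regOn (kA A) (tS A M s)) :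
    ∃ x : FB (M * q * q), x ∈ rationalFn A (M * q * q) ∧ IsRes C b x φ ∧
      (∀ b', ∃ r, IsRes C b' x r) ∧
      ∀ P : Place Qb (FB (M * q * q)), InChart s (P.ord (Jprod M q)) → Bd P x 0 := by
  obtain ⟨a, ha, har, hax⟩ := exists_rational_lift C ((Reduction.BS_iff C).mpr hφ)
  obtain ⟨k, hk⟩ : ∃ k, imgRes C b k φ = φ := by
    fin_cases b
    exacts [⟨0, rfl⟩, ⟨2, rfl⟩, ⟨0, rfl⟩]
  refine ⟨img M q k a, img_rational har k, ?_, fun b' => ⟨_, isRes_img C (Reduction.BT.mem_GR C ha) b' k⟩,
    fun P hP => img_regOn k ha P (bd_img_of_inChart C.prime hP k)⟩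
  exact (isRes_img C (Reduction.BT.mem_GR C ha) b k).congr_res (by rw [hax, hk])

omit C in
/-- the function supported on one branch -/
def brSep (M q : ℕ) [NeZero M] [NeZero q] (s : Bool) : Fin 3 → FB (M * q * q)
  | 0 => img M q 1 (tB M s) - img M q 2 (tB M s) ^ q
  | 1 => img M q 1 (tB M s) - img M q 0 (tB M s) ^ q
  | 2 => (img M q 0 (tB M s) - img M q 1 (tB M s) ^ q) *
      (img M q 2 (tB M s) - img M q 1 (tB M s) ^ q)

theorem brSep_rational (s : Bool) (b : Fin 3) : brSep M q s b ∈ rationalFn A (M * q * q) := by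
  have h := fun k => img_rational (q := q) (tB_mem_rationalFn A M s) k
  fin_cases b
  exacts [sub_mem (h 1) (pow_mem (h 2) q), sub_mem (h 1) (pow_mem (h 0) q),
    mul_mem (sub_mem (h 0) (pow_mem (h 1) q)) (sub_mem (h 2) (pow_mem (h 1) q))]

theorem tS_pow_sub_ne (s : Bool) {i j : ℕ} (hij : i ≠ j) :
    tS A M s ^ i - tS A M s ^ j ≠ 0 := by
  intro h
  have h1 : Polynomial.aeval (tS A M s)
      (Polynomial.X ^ i - Polynomial.X ^ j : Polynomial (kA A)) = 0 := by
    rw [map_sub, map_pow, map_pow, Polynomial.aeval_X]; exact h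
  have h2 := transcendental_iff.mp (Reduction.transcendental_tS A M s) _ h1
  have h3 := congrArg (fun p : Polynomial (kA A) => p.coeff i) h2
  simp [Polynomial.coeff_X_pow, hij] at h3

/-- each branch is separated from the others on each chart -/
theorem exists_branch_sep (s : Bool) (b : Fin 3) :
    ∃ x : FB (M * q * q), x ∈ rationalFn A (M * q * q) ∧
      (∃ r, r ≠ 0 ∧ IsRes C b x r) ∧ (∀ b', b' ≠ b → IsRes C b' x 0) ∧
      ∀ P : Place Qb (FB (M * q * q)), InChart s (P.ord (Jprod M q)) → Bd P x 0 := by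
  have h := isRes_img_tB C s
  have hq2 := C.prime.two_le
  refine ⟨brSep M q s b, brSep_rational C s b, ?_, fun b' hb' => ?_, fun P hP => ?_⟩
  · fin_cases b
    · exact ⟨_, tS_pow_sub_ne C s (show q ≠ q * q * q by nlinarith),
        ((h 0 1).sub ((h 0 2).pow q)).congr_res (by simp only [imgExp, ← pow_mul])⟩
    · exact ⟨_, tS_pow_sub_ne C s (show q ≠ q * q * q by nlinarith),
        ((h 1 1).sub ((h 1 0).pow q)).congr_res (by simp only [imgExp, ← pow_mul])⟩
    · exact ⟨_, mul_ne_zero (tS_pow_sub_ne C s (show (1 : ℕ) ≠ q * q by nlinarith))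
          (tS_pow_sub_ne C s (show (1 : ℕ) ≠ q * q by nlinarith)),
        (((h 2 0).sub ((h 2 1).pow q)).mul ((h 2 2).sub ((h 2 1).pow q))).congr_res
          (by simp only [imgExp, ← pow_mul])⟩
  · fin_cases b <;> fin_cases b' <;> try exact absurd rfl hb'
    · exact ((h 1 1).sub ((h 1 2).pow q)).congr_res (by simp [imgExp, ← pow_mul])
    · exact ((h 2 1).sub ((h 2 2).pow q)).congr_res (by simp [imgExp, ← pow_mul])
    · exact ((h 0 1).sub ((h 0 0).pow q)).congr_res (by simp [imgExp, ← pow_mul])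
    · exact ((h 2 1).sub ((h 2 0).pow q)).congr_res (by simp [imgExp, ← pow_mul])
    · exact (((h 0 0).sub ((h 0 1).pow q)).mul ((h 0 2).sub ((h 0 1).pow q))).congr_res
        (by simp [imgExp, ← pow_mul])
    · exact (((h 1 0).sub ((h 1 1).pow q)).mul ((h 1 2).sub ((h 1 1).pow q))).congr_res
        (by simp [imgExp, ← pow_mul])
  · have hb := fun k => bd_img_of_inChart (M := M) C.prime hP k
    have hs : ∀ k k', Bd P (img M q k (tB M s) - img M q k' (tB M s) ^ q) 0 := fun k k' =>
      (hb k).sub (by simpa using (hb k').pow q)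
    fin_cases b
    exacts [hs 1 2, hs 1 0, by simpa [brSep] using (hs 0 1).mul (hs 2 1)]

/-! ### the coordinate -/

omit C in
/-- the exponents of the coordinate on the branches -/
def eJ (q : ℕ) (b : Fin 3) : ℕ := imgExp q b 0 + imgExp q b 1 + imgExp q b 2

omit C in
theorem eJ_pos (b : Fin 3) : 0 < eJ q b := by
  fin_cases b <;> simp [eJ, imgExp]

theorem isRes_Jprod (b : Fin 3) : IsRes C b (Jprod M q) (jS A M ^ eJ q b) := by
  have h := fun k => isRes_img_tB C false b k
  have := ((h 0).mul (h 1)).mul (h 2)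
  rw [show img M q 0 (tB M false) * img M q 1 (tB M false) * img M q 2 (tB M false) = Jprod M q by
    simp only [show tB M false = ModFun.jBar M from rfl, img_jBar]; rfl] at this
  exact this.congr_res (by rw [eJ, pow_add, pow_add]; rfl)

end FLTAgent.SS2
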