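import Fermat.Agent.SS2.BranchesEmb
import Fermat.Agent.Reduction.Norm

/-!
The norms from level `Mq²` to level `Mq` along the two degeneracy maps, as exact identities between
expansions: products over the three branches.
-/

set_option autoImplicit false
set_option linter.all false
set_option synthInstance.maxHeartbeats 100000
set_option maxHeartbeats 1000000

noncomputable section

open ModularCurve AlgebraicCurve
open FLTAgent.Reduction (Qb FB)

namespace FLTAgent.SS2

variable {M q : ℕ} [NeZero M] [NeZero q]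

theorem algHom_ext_two (hq : q.Prime) (hqM : ¬ q ∣ M) {L : Type*} [Field L] [Algebra Qb L]
    {f g : FB (M * q) →ₐ[Qb] L}
    (h0 : ∀ a, f (heckeAlphaBar Qb M q a) = g (heckeAlphaBar Qb M q a))
    (h1 : ∀ a, f (heckeBetaBar Qb M q a) = g (heckeBetaBar Qb M q a)) : f = g := by
  refine Genus.algHom_ext fun d => ?_
  rcases Reduction.swap_cases hq hqM (Nat.dvd_of_mem_divisors d.2) with ⟨hd, -⟩ | ⟨e, he, hde, -⟩
  · let d' : M.divisors := ⟨d, Nat.mem_divisors.mpr ⟨hd, NeZero.ne M⟩⟩
    have : Genus.gen (M * q) d = heckeAlphaBar Qb M q (Genus.gen M d') :=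
      Subtype.ext (by rw [coe_heckeAlphaBar]; rfl)
    rw [this]
    exact h0 _
  · let d' : M.divisors := ⟨e, Nat.mem_divisors.mpr ⟨he, NeZero.ne M⟩⟩
    haveI : NeZero (q * (d' : ℕ)) :=
      ⟨mul_ne_zero (NeZero.ne q) (ne_zero_of_dvd_ne_zero (NeZero.ne M) he)⟩
    have : Genus.gen (M * q) d = heckeBetaBar Qb M q (Genus.gen M d') := by
      refine Subtype.ext ?_
      rw [coe_heckeBetaBar, coe_gen_N, coe_gen_M, qExpand_jser]
      exact jser_congr (hde.trans (mul_comm _ _))
    rw [this]
    exact h1 _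

variable (M q) (hq : q.Prime) (hqM : ¬ q ∣ M)

/-- the Atkin–Lehner involution at level `Mq` -/
def atkin : FB (M * q) →ₐ[Qb] FB (M * q) := (Reduction.exists_atkin hq hqM).choose

/-- the second expansion of level `Mq` -/
def s2 : FB (M * q) →ₐ[Qb] LS := (valA (M * q)).comp (atkin M q hq hqM)

variable {M q}

theorem atkin_alpha (a : FB M) :
    atkin M q hq hqM (heckeAlphaBar Qb M q a) = heckeBetaBar Qb M q a :=
  (Reduction.exists_atkin hq hqM).choose_spec.1 a

theorem atkin_beta (a : FB M) :
    atkin M q hq hqM (heckeBetaBar Qb M q a) = heckeAlphaBar Qb M q a :=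
  (Reduction.exists_atkin hq hqM).choose_spec.2 a

theorem s2_alpha (a : FB M) :
    s2 M q hq hqM (heckeAlphaBar Qb M q a) = qExpand Qb q (a : LS) := by
  rw [s2, AlgHom.comp_apply, atkin_alpha, valA_apply, coe_heckeBetaBar]

theorem s2_beta (a : FB M) : s2 M q hq hqM (heckeBetaBar Qb M q a) = (a : LS) := by
  rw [s2, AlgHom.comp_apply, atkin_beta, valA_apply, coe_heckeAlphaBar]

theorem atkin_atkin (x : FB (M * q)) : atkin M q hq hqM (atkin M q hq hqM x) = x := by
  refine DFunLike.congr_fun (algHom_ext_two hq hqM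
    (f := (atkin M q hq hqM).comp (atkin M q hq hqM)) (g := AlgHom.id Qb _)
    (fun a => ?_) (fun a => ?_)) x <;> simp [atkin_alpha, atkin_beta]

/-! ### the degrees -/

include hq hqM in
theorem finrankAlong_alpha_q : finrankAlong Qb (heckeAlphaBar Qb (M * q) q) = q := by
  have h := finrankAlong_incl (dvd_mul_right (M * q) q)
  have hc : M.Coprime q := (hq.coprime_iff_not_dvd.mpr hqM).symm
  rw [alpha_eq_incl]
  have e1 : dedekindPsi (M * q) = dedekindPsi M * (q + 1) := by
    rw [Genus.dedekindPsi_mul hc, Reduction.dedekindPsi_prime hq]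
  have e2 : dedekindPsi (M * q * q) = dedekindPsi M * (q ^ 2 + q) := by
    rw [mul_assoc M q q, Genus.dedekindPsi_mul (Nat.Coprime.mul_right hc hc), ← sq,
      Genus.dedekindPsi_prime_pow hq two_pos, show 2 - 1 = 1 from rfl, pow_one]
  rw [e1, e2] at h
  refine Nat.eq_of_mul_eq_mul_right (Nat.mul_pos (dedekindPsi_pos' M) q.succ_pos) (h.trans ?_)
  rw [Nat.succ_eq_add_one]
  ring

include hq hqM in
theorem finrankAlong_beta_q : finrankAlong Qb (heckeBetaBar Qb (M * q) q) = q := by
  refine Eq.trans ?_ (finrankAlong_alpha_q hq hqM)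
  let i : FB (M * q) ≃+* FB (M * q) :=
    (AlgEquiv.ofAlgHom (atkin M q hq hqM) (atkin M q hq hqM) (AlgHom.ext (atkin_atkin hq hqM))
      (AlgHom.ext (atkin_atkin hq hqM))).toRingEquiv
  let j : FB (M * q * q) ≃+* FB (M * q * q) :=
    (AlgEquiv.ofAlgHom (swap hq hqM) (swap hq hqM) (AlgHom.ext (swap_swap hq hqM))
      (AlgHom.ext (swap_swap hq hqM))).toRingEquiv
  have key : (heckeAlphaBar Qb (M * q) q).comp (atkin M q hq hqM) =
      (swap hq hqM).comp (heckeBetaBar Qb (M * q) q) := by
    refine algHom_ext_two hq hqM (fun a => ?_) (fun a => ?_)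
    · rw [AlgHom.comp_apply, AlgHom.comp_apply, atkin_alpha, beta_alpha, swap_i1]
      rfl
    · rw [AlgHom.comp_apply, AlgHom.comp_apply, atkin_beta]
      exact (swap_i2 hq hqM a).symm
  exact @Algebra.finrank_eq_of_equiv_equiv _ _ _ _ (algebraAlong (heckeBetaBar Qb (M * q) q))
    _ _ _ _ (algebraAlong (heckeAlphaBar Qb (M * q) q)) i j
    (RingHom.ext fun x => DFunLike.congr_fun key x)

theorem card_PR (hq : q.Prime) : Fintype.card (PR q) = q - 1 := by
  haveI : NeZero (q : Qb) := ⟨Nat.cast_ne_zero.mpr hq.ne_zero⟩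
  obtain ⟨ζ, hζ⟩ := HasEnoughRootsOfUnity.exists_primitiveRoot Qb q
  rw [Fintype.card_coe, hζ.card_primitiveRoots, Nat.totient_prime hq]

theorem card_option_PR (hq : q.Prime) : Fintype.card (Option (PR q)) = q := by
  rw [Fintype.card_option, card_PR hq]
  exact Nat.sub_add_cancel hq.one_le

/-- the norm along an embedding as a product over given conjugates -/
theorem normAlong_prod {F F' : Type*} [Field F] [Field F'] [Algebra Qb F] [Algebra Qb F']
    [RR.FnField Qb F] [RR.FnField Qb F'] (φ : F →ₐ[Qb] F') {I : Type*} [Fintype I]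
    (b : F →+* LS) (e : I → (F' →+* LS)) (he : ∀ i g, e i (φ g) = b g)
    (hinj : Function.Injective e) (hcard : Fintype.card I = finrankAlong Qb φ) (x : F') :
    b (normAlong φ x) = ∏ i, e i x := by
  letI := algebraAlong φ
  haveI := isScalarTower_along φ
  haveI : Module.Finite F F' := HeckeJ.finiteAlong φ
  haveI : CharZero F := charZero_of_injective_algebraMap (algebraMap Qb F).injective
  haveI : Algebra.IsIntegral F F' := Algebra.IsIntegral.of_finite _ _
  haveI : Algebra.IsSeparable F F' := Algebra.IsSeparable.of_integral _ _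
  exact Reduction.norm_eq_prod_homs b e he hinj hcard x

/-- `j` of level `M` -/
abbrev jM0 (M : ℕ) [NeZero M] : FB M := ModFun.jBar M

theorem coe_jM0 : ((jM0 M : FB M) : LS) = jqModC Qb := by
  rw [Reduction.jqModC_eq_coeffEmb]; rfl

theorem coeff_twist_j (u : Qbˣ) :
    (Reduction.twist u (jqModC Qb)).coeff (-1) = ((u ^ (-1 : ℤ) : Qbˣ) : Qb) :=
  Reduction.coe_jqModC_neg_one u

theorem coeff_qExpand_neg_one (hq : q.Prime) (y : LS) : (qExpand Qb q y).coeff (-1) = 0 :=
  qExpand_coeff_of_not_dvd q y fun h => hq.one_lt.ne' (Nat.eq_one_of_dvd_one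
    (by exact_mod_cast (dvd_neg.mp h)))

theorem twist_qExpand_PR (ζ : PR q) (y : LS) :
    Reduction.twist ζ.u (qExpand Qb q y) = qExpand Qb q y :=
  Reduction.twist_qExpand _ _ ζ.u_pow y

theorem twist_qExpand_pow (ζ : PR q) (k : ℕ) (y : LS) :
    Reduction.twist (ζ.u ^ k) (qExpand Qb q y) = qExpand Qb q y :=
  Reduction.twist_qExpand _ _ (by rw [← pow_mul, mul_comm, pow_mul, ζ.u_pow, one_pow]) y

theorem twist_inv_twist (u : Qbˣ) (y : LS) :
    Reduction.twist u⁻¹ (Reduction.twist u y) = y := by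
  ext n
  rw [Reduction.twist_coeff, Reduction.twist_coeff, ← mul_assoc, ← Units.val_mul,
    ← mul_zpow, inv_mul_cancel, one_zpow, Units.val_one, one_mul]

theorem zpow_neg_one_ne (u : Qbˣ) : ((u ^ (-1 : ℤ) : Qbˣ) : Qb) ≠ 0 := Units.ne_zero _

/-! ### side one -/

theorem e11_comp_alpha (ζ : PR q) (g : FB (M * q)) :
    e11 M q hq hqM ζ (heckeAlphaBar Qb (M * q) q g) = Reduction.twist ζ.u (g : LS) := by
  refine DFunLike.congr_fun (algHom_ext_two hq hqM
    (f := (e11 M q hq hqM ζ).comp (heckeAlphaBar Qb (M * q) q))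
    (g := (twistA ζ.u).comp (valA (M * q))) (fun a => ?_) (fun a => ?_)) g <;>
    simp only [AlgHom.comp_apply, twistA_apply, valA_apply]
  · rw [coe_heckeAlphaBar]
    exact e11_i0 hq hqM ζ a
  · rw [coe_heckeBetaBar, twist_qExpand_PR]
    exact e11_i1 hq hqM ζ a

theorem e02_comp_alpha (g : FB (M * q)) :
    e02 M q hq hqM (heckeAlphaBar Qb (M * q) q g) = qExpand Qb q (s2 M q hq hqM g) := by
  refine DFunLike.congr_fun (algHom_ext_two hq hqM
    (f := (e02 M q hq hqM).comp (heckeAlphaBar Qb (M * q) q))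
    (g := (qExpA q).comp (s2 M q hq hqM)) (fun a => ?_) (fun a => ?_)) g <;>
    simp only [AlgHom.comp_apply, qExpA_apply]
  · rw [s2_alpha]
    exact e02_i0 hq hqM a
  · rw [s2_beta]
    exact e02_i1 hq hqM a

theorem e02_comp_beta (g : FB (M * q)) :
    e02 M q hq hqM (heckeBetaBar Qb (M * q) q g) = s2 M q hq hqM g := by
  refine DFunLike.congr_fun (algHom_ext_two hq hqM
    (f := (e02 M q hq hqM).comp (heckeBetaBar Qb (M * q) q))
    (g := s2 M q hq hqM) (fun a => ?_) (fun a => ?_)) g <;>
    simp only [AlgHom.comp_apply]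
  · rw [s2_alpha, beta_alpha, e02_i1]
  · rw [s2_beta]
    exact e02_i2 hq hqM a

theorem e11_comp_beta (ζ : PR q) (g : FB (M * q)) :
    e11 M q hq hqM ζ (heckeBetaBar Qb (M * q) q g) = s2 M q hq hqM g := by
  refine DFunLike.congr_fun (algHom_ext_two hq hqM
    (f := (e11 M q hq hqM ζ).comp (heckeBetaBar Qb (M * q) q))
    (g := s2 M q hq hqM) (fun a => ?_) (fun a => ?_)) g <;>
    simp only [AlgHom.comp_apply]
  · rw [s2_alpha, beta_alpha, e11_i1]
  · rw [s2_beta]
    exact e11_i2 hq hqM ζ a

theorem e20_comp_beta (g : FB (M * q)) :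
    e20 M q (heckeBetaBar Qb (M * q) q g) = qExpand Qb q (g : LS) := by
  rw [e20_apply, coe_heckeBetaBar]

/-- the conjugates over side one along `α` -/
def conjA : Option (PR q) → (FB (M * q * q) →+* LS) := fun o =>
  o.elim (e20 M q).toRingHom fun ζ =>
    (Reduction.twist ζ.u⁻¹).comp (e11 M q hq hqM ζ).toRingHom

/-- the conjugates over side two along `α` -/
def conjA' (ζ0 : PR q) : Fin q → (FB (M * q * q) →+* LS) := fun k =>
  (Reduction.twist (ζ0.u ^ (k : ℕ))).comp (e02 M q hq hqM).toRingHom

/-- the conjugates over side two along `β` -/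
def conjB : Option (PR q) → (FB (M * q * q) →+* LS) := fun o =>
  o.elim (e02 M q hq hqM).toRingHom fun ζ => (e11 M q hq hqM ζ).toRingHom

/-- the conjugates over side one along `β` -/
def conjB' (ζ0 : PR q) : Fin q → (FB (M * q * q) →+* LS) := fun k =>
  (Reduction.twist (ζ0.u ^ (k : ℕ))).comp (e20 M q).toRingHom

theorem conjA_none (x : FB (M * q * q)) : conjA hq hqM none x = e20 M q x := rfl

theorem conjA_some (ζ : PR q) (x : FB (M * q * q)) :
    conjA hq hqM (some ζ) x = Reduction.twist ζ.u⁻¹ (e11 M q hq hqM ζ x) := rfl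

theorem conjA_apply (o : Option (PR q)) (g : FB (M * q)) :
    conjA hq hqM o (heckeAlphaBar Qb (M * q) q g) = (g : LS) := by
  cases o with
  | none => rw [conjA_none, e20_apply, coe_heckeAlphaBar]
  | some ζ => rw [conjA_some, e11_comp_alpha, twist_inv_twist]

theorem conjB_apply (o : Option (PR q)) (g : FB (M * q)) :
    conjB hq hqM o (heckeBetaBar Qb (M * q) q g) = s2 M q hq hqM g := by
  cases o with
  | none => exact e02_comp_beta hq hqM g
  | some ζ => exact e11_comp_beta hq hqM ζ g

theorem conjA'_apply (ζ0 : PR q) (k : Fin q) (g : FB (M * q)) :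
    conjA' hq hqM ζ0 k (heckeAlphaBar Qb (M * q) q g) = qExpand Qb q (s2 M q hq hqM g) := by
  show Reduction.twist _ (e02 M q hq hqM _) = qExpand Qb q (s2 M q hq hqM g)
  rw [e02_comp_alpha, twist_qExpand_pow]

theorem conjB'_apply (ζ0 : PR q) (k : Fin q) (g : FB (M * q)) :
    conjB' (M := M) ζ0 k (heckeBetaBar Qb (M * q) q g) = qExpand Qb q (g : LS) := by
  show Reduction.twist _ (e20 M q _) = qExpand Qb q (g : LS)
  rw [e20_comp_beta, twist_qExpand_pow]

theorem injective_option_conj (e : Option (PR q) → (FB (M * q * q) →+* LS))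
    (x : FB (M * q * q)) (y : LS) (u : PR q → Qbˣ) (hu : Function.Injective u) (hq : q.Prime)
    (hnone : e none x = qExpand Qb q y)
    (hsome : ∀ ζ, e (some ζ) x = Reduction.twist (u ζ) (jqModC Qb)) : Function.Injective e := by
  have hne : ∀ ζ, e none ≠ e (some ζ) := fun ζ h => by
    have h1 := congrArg (fun s : LS => s.coeff (-1))
      ((hnone.symm.trans (DFunLike.congr_fun h _)).trans (hsome ζ))
    simp only [coeff_qExpand_neg_one hq, coeff_twist_j] at h1
    exact zpow_neg_one_ne _ h1.symm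
  rintro (_ | ζ) (_ | ζ') h
  · rfl
  · exact absurd h (hne ζ')
  · exact absurd h.symm (hne ζ)
  · have h1 := congrArg (fun s : LS => s.coeff (-1))
      (((hsome ζ).symm.trans (DFunLike.congr_fun h _)).trans (hsome ζ'))
    simp only [coeff_twist_j] at h1
    exact congrArg some (hu (by simpa using Units.ext h1))

theorem conjA_injective : Function.Injective (conjA (M := M) hq hqM) :=
  injective_option_conj _ (i2 M q (jM0 M)) (qExpand Qb q (jqModC Qb)) (fun ζ => ζ.u⁻¹)
    (fun a b h => PR.u_inj (inv_injective h)) hq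
    (by show e20 M q (i2 M q (jM0 M)) = _; rw [e20_i2, coe_jM0])
    (fun ζ => by
      show Reduction.twist ζ.u⁻¹ (e11 M q hq hqM ζ (i2 M q (jM0 M))) = _
      rw [e11_i2, coe_jM0])

theorem conjB_injective : Function.Injective (conjB (M := M) hq hqM) :=
  injective_option_conj _ (i0 M q (jM0 M)) (qExpand Qb q (jqModC Qb)) (fun ζ => ζ.u)
    PR.u_inj hq
    (by show e02 M q hq hqM (i0 M q (jM0 M)) = _; rw [e02_i0, coe_jM0])
    (fun ζ => by
      show e11 M q hq hqM ζ (i0 M q (jM0 M)) = _
      rw [e11_i0, coe_jM0])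

theorem injective_fin_conj (ζ0 : PR q) (e : Fin q → (FB (M * q * q) →+* LS))
    (x : FB (M * q * q))
    (hval : ∀ k : Fin q, e k x = Reduction.twist (ζ0.u ^ (k : ℕ)) (jqModC Qb)) :
    Function.Injective e := fun k k' h => by
  have h1 := congrArg (fun s : LS => s.coeff (-1))
    (((hval k).symm.trans (DFunLike.congr_fun h _)).trans (hval k'))
  simp only [coeff_twist_j] at h1
  have h2 : ζ0.u ^ (k : ℕ) = ζ0.u ^ (k' : ℕ) := by simpa using Units.ext h1
  exact Fin.ext (ζ0.prim.pow_inj k.2 k'.2 (by simpa [PR.coe_u] using congrArg Units.val h2))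

/-- the norm along `α` on side one: the branches `20` and `11` -/
theorem val_normAlong_alpha (x : FB (M * q * q)) :
    ((normAlong (heckeAlphaBar Qb (M * q) q) x : FB (M * q)) : LS) =
      e20 M q x * ∏ ζ : PR q, Reduction.twist ζ.u⁻¹ (e11 M q hq hqM ζ x) := by
  have h := normAlong_prod (heckeAlphaBar Qb (M * q) q) (valA (M * q)).toRingHom (conjA hq hqM)
    (conjA_apply hq hqM) (conjA_injective hq hqM)
    ((card_option_PR hq).trans (finrankAlong_alpha_q hq hqM).symm) x
  rw [Fintype.prod_option] at h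
  exact h

/-- the norm along `α` on side two: the branch `02` -/
theorem qExpand_s2_normAlong_alpha (ζ0 : PR q) (x : FB (M * q * q)) :
    qExpand Qb q (s2 M q hq hqM (normAlong (heckeAlphaBar Qb (M * q) q) x)) =
      ∏ k : Fin q, Reduction.twist (ζ0.u ^ (k : ℕ)) (e02 M q hq hqM x) :=
  normAlong_prod (heckeAlphaBar Qb (M * q) q)
    ((qExpand Qb q).comp (s2 M q hq hqM).toRingHom) (conjA' hq hqM ζ0) (conjA'_apply hq hqM ζ0)
    (injective_fin_conj ζ0 _ (i2 M q (jM0 M)) fun k => by
      show Reduction.twist _ (e02 M q hq hqM (i2 M q (jM0 M))) = _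
      rw [e02_i2, coe_jM0])
    ((Fintype.card_fin q).trans (finrankAlong_alpha_q hq hqM).symm) x

/-- the norm along `β` on side two: the branches `02` and `11` -/
theorem s2_normAlong_beta (x : FB (M * q * q)) :
    s2 M q hq hqM (normAlong (heckeBetaBar Qb (M * q) q) x) =
      e02 M q hq hqM x * ∏ ζ : PR q, e11 M q hq hqM ζ x := by
  have h := normAlong_prod (heckeBetaBar Qb (M * q) q) (s2 M q hq hqM).toRingHom (conjB hq hqM)
    (conjB_apply hq hqM) (conjB_injective hq hqM)
    ((card_option_PR hq).trans (finrankAlong_beta_q hq hqM).symm) x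
  rw [Fintype.prod_option] at h
  exact h

include hq hqM in
/-- the norm along `β` on side one: the branch `20` -/
theorem qExpand_val_normAlong_beta (ζ0 : PR q) (x : FB (M * q * q)) :
    qExpand Qb q ((normAlong (heckeBetaBar Qb (M * q) q) x : FB (M * q)) : LS) =
      ∏ k : Fin q, Reduction.twist (ζ0.u ^ (k : ℕ)) (e20 M q x) :=
  normAlong_prod (heckeBetaBar Qb (M * q) q)
    ((qExpand Qb q).comp (valA (M * q)).toRingHom) (conjB' ζ0) (conjB'_apply ζ0)
    (injective_fin_conj ζ0 _ (i0 M q (jM0 M)) fun k => by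
      show Reduction.twist _ (e20 M q (i0 M q (jM0 M))) = _
      rw [e20_i0, coe_jM0])
    ((Fintype.card_fin q).trans (finrankAlong_beta_q hq hqM).symm) x

/-! ### traces -/

/-- the trace along an embedding of function fields -/
def trAlong {F F' : Type*} [Field F] [Field F'] [Algebra Qb F] [Algebra Qb F']
    (φ : F →ₐ[Qb] F') (x : F') : F :=
  letI := algebraAlong φ
  Algebra.trace F F' x

theorem trace_eq_sum_homs {F L M : Type*} [Field F] [Field L] [Field M] [Algebra F L]
    [Module.Finite F L] [Algebra.IsSeparable F L] (b : F →+* M) {I : Type*} [Fintype I]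
    (e : I → (L →+* M)) (he : ∀ i g, e i (algebraMap F L g) = b g) (hinj : Function.Injective e)
    (hcard : Fintype.card I = Module.finrank F L) (x : L) :
    b (Algebra.trace F L x) = ∑ i, e i x := by
  classical
  letI : Algebra F (AlgebraicClosure M) := ((algebraMap M (AlgebraicClosure M)).comp b).toAlgebra
  let E : I → (L →ₐ[F] AlgebraicClosure M) := fun i =>
    { toRingHom := (algebraMap M (AlgebraicClosure M)).comp (e i)
      commutes' := fun g => congrArg (algebraMap M (AlgebraicClosure M)) (he i g) }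
  have hE : Function.Injective E := fun i j h => hinj (RingHom.ext fun y =>
    (algebraMap M (AlgebraicClosure M)).injective (DFunLike.congr_fun h y))
  have hbij : Function.Bijective E :=
    (Fintype.bijective_iff_injective_and_card E).mpr ⟨hE, by rw [AlgHom.card, hcard]⟩
  refine (algebraMap M (AlgebraicClosure M)).injective ?_
  refine (trace_eq_sum_embeddings (K := F) (L := L) (E := AlgebraicClosure M) (x := x)).trans ?_
  rw [← Fintype.sum_bijective E hbij (fun i => E i x) _ (fun i => rfl), map_sum]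
  rfl

theorem trAlong_sum {F F' : Type*} [Field F] [Field F'] [Algebra Qb F] [Algebra Qb F']
    [RR.FnField Qb F] [RR.FnField Qb F'] (φ : F →ₐ[Qb] F') {I : Type*} [Fintype I]
    (b : F →+* LS) (e : I → (F' →+* LS)) (he : ∀ i g, e i (φ g) = b g)
    (hinj : Function.Injective e) (hcard : Fintype.card I = finrankAlong Qb φ) (x : F') :
    b (trAlong φ x) = ∑ i, e i x := by
  letI := algebraAlong φ
  haveI := isScalarTower_along φ
  haveI : Module.Finite F F' := HeckeJ.finiteAlong φ
  haveI : CharZero F := charZero_of_injective_algebraMap (algebraMap Qb F).injective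
  haveI : Algebra.IsIntegral F F' := Algebra.IsIntegral.of_finite _ _
  haveI : Algebra.IsSeparable F F' := Algebra.IsSeparable.of_integral _ _
  exact trace_eq_sum_homs b e he hinj hcard x

/-- the trace along `α` on side one -/
theorem val_trAlong_alpha (x : FB (M * q * q)) :
    ((trAlong (heckeAlphaBar Qb (M * q) q) x : FB (M * q)) : LS) =
      e20 M q x + ∑ ζ : PR q, Reduction.twist ζ.u⁻¹ (e11 M q hq hqM ζ x) := by
  have h := trAlong_sum (heckeAlphaBar Qb (M * q) q) (valA (M * q)).toRingHom (conjA hq hqM)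
    (conjA_apply hq hqM) (conjA_injective hq hqM)
    ((card_option_PR hq).trans (finrankAlong_alpha_q hq hqM).symm) x
  rw [Fintype.sum_option] at h
  exact h

/-- the trace along `β` on side two -/
theorem s2_trAlong_beta (x : FB (M * q * q)) :
    s2 M q hq hqM (trAlong (heckeBetaBar Qb (M * q) q) x) =
      e02 M q hq hqM x + ∑ ζ : PR q, e11 M q hq hqM ζ x := by
  have h := trAlong_sum (heckeBetaBar Qb (M * q) q) (s2 M q hq hqM).toRingHom (conjB hq hqM)
    (conjB_apply hq hqM) (conjB_injective hq hqM)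
    ((card_option_PR hq).trans (finrankAlong_beta_q hq hqM).symm) x
  rw [Fintype.sum_option] at h
  exact h

end FLTAgent.SS2

end
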