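import Fermat.Agent.SS2.FibRoots

/-!
The components of a fibre are discrete valuations of the rational functions: consequences of the
scaling axiom of `Fib`.
-/

set_option autoImplicit false
set_option linter.unusedSectionVars false
set_option linter.unusedVariables false

noncomputable section

open AlgebraicCurve IsLocalRing
open FLTAgent.RR (Bd)

namespace FLTAgent.SS2.Fib

variable {K : Type*} [Field K] [IsAlgClosed K] [CharZero K] {A : ValuationSubring K}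
  {F : Type*} [Field F] [Algebra K F] [RR.FnField K F]
  {Fs : Type*} [Field Fs] [Algebra (ResidueField A) Fs] (M : Fib K A F Fs)

theorem ϖ_mem_Ω (b : Fin 3) : M.ϖ b ∈ M.Ω := M.G_le b _ (M.ϖ_mem b)

theorem zpow_ϖ_mul (b : Fin 3) {y : F} (hy : y ∈ M.G b) {i : ℤ} (hi : 1 ≤ i) :
    M.ϖ b ^ i * y ∈ M.G b ∧ M.red b (M.ϖ b ^ i * y) = 0 := by
  obtain ⟨k, rfl⟩ : ∃ k : ℕ, i = (k + 1 : ℕ) := ⟨(i - 1).toNat, by omega⟩
  rw [zpow_natCast]
  refine ⟨mul_mem (pow_mem (M.ϖ_mem b) _) hy, ?_⟩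
  rw [M.red_mul b _ (pow_mem (M.ϖ_mem b) _) _ hy, M.red_pow b (M.ϖ_mem b), M.red_ϖ,
    zero_pow (Nat.succ_ne_zero k), zero_mul]

theorem exists_unit_part (b : Fin 3) {x : F} (hx : x ∈ M.Ω) (hx0 : x ≠ 0) :
    ∃ (i : ℤ) (y : F), y ∈ M.G b ∧ M.red b y ≠ 0 ∧ x = M.ϖ b ^ i * y := by
  obtain ⟨i, hi, hir⟩ := M.exists_scale b x hx hx0
  refine ⟨i, _, hi, hir, ?_⟩
  rw [mul_comm x, ← mul_assoc, ← zpow_add₀ (M.ϖ_ne b), add_neg_cancel, zpow_zero, one_mul]

theorem exponent_nonneg (b : Fin 3) {x y : F} {i : ℤ} (hy : y ∈ M.G b) (hyr : M.red b y ≠ 0)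
    (hxy : x = M.ϖ b ^ i * y) (hx : x ∈ M.G b) : 0 ≤ i := by
  by_contra hneg
  refine hyr ?_
  have h := (M.zpow_ϖ_mul b hx (show 1 ≤ -i by omega)).2
  rwa [hxy, ← mul_assoc, ← zpow_add₀ (M.ϖ_ne b), neg_add_cancel, zpow_zero, one_mul] at h

theorem exponent_pos (b : Fin 3) {x y : F} {i : ℤ} (hy : y ∈ M.G b) (hyr : M.red b y ≠ 0)
    (hxy : x = M.ϖ b ^ i * y) (hx : x ∈ M.G b) (hxr : M.red b x = 0) : 1 ≤ i := by
  have h0 := M.exponent_nonneg b hy hyr hxy hx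
  by_contra hlt
  obtain rfl : i = 0 := by omega
  rw [zpow_zero, one_mul] at hxy
  exact hyr (hxy ▸ hxr)

/-- inverses of units of a component -/
theorem inv_mem_G (b : Fin 3) {x : F} (hx : x ∈ M.G b) (hxr : M.red b x ≠ 0) :
    x⁻¹ ∈ M.G b ∧ M.red b x⁻¹ = (M.red b x)⁻¹ := by
  have hx0 : x ≠ 0 := fun h => hxr (by rw [h, M.red_zero])
  obtain ⟨i, y, hy, hyr, hxy⟩ := M.exists_unit_part b (inv_mem (M.G_le b x hx)) (inv_ne_zero hx0)
  have hone : (1 : F) = M.ϖ b ^ i * (x * y) := by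
    rw [mul_left_comm, ← hxy, mul_inv_cancel₀ hx0]
  have hprod : M.red b (x * y) = M.red b x * M.red b y := M.red_mul b _ hx _ hy
  have hi : i = 0 := by
    have h0 := M.exponent_nonneg b (mul_mem hx hy) (by rw [hprod]; exact mul_ne_zero hxr hyr) hone
      (one_mem _)
    by_contra hne
    have h := (M.zpow_ϖ_mul b (mul_mem hx hy) (show 1 ≤ i by omega)).2
    rw [← hone, M.red_one] at h
    exact one_ne_zero h
  rw [hi, zpow_zero, one_mul] at hxy hone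
  refine ⟨hxy ▸ hy, ?_⟩
  refine (inv_eq_of_mul_eq_one_right ?_).symm
  rw [← M.red_mul b _ hx _ (hxy ▸ hy), mul_inv_cancel₀ hx0, M.red_one]

/-- powers of non-units of a component absorb any rational function -/
theorem exists_killing_exp (b : Fin 3) {x : F} (hx : x ∈ M.Ω) :
    ∃ N : ℕ, ∀ y ∈ M.G b, M.red b y = 0 → ∀ k, N ≤ k →
      x * y ^ k ∈ M.G b ∧ M.red b (x * y ^ k) = 0 := by
  rcases eq_or_ne x 0 with rfl | hx0
  · exact ⟨0, fun y hy _ k _ => by rw [zero_mul]; exact ⟨zero_mem _, M.red_zero b⟩⟩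
  obtain ⟨i, X, hX, hXr, hxX⟩ := M.exists_unit_part b hx hx0
  refine ⟨i.natAbs + 1, fun y hy hyr k hk => ?_⟩
  rcases eq_or_ne y 0 with rfl | hy0
  · rw [zero_pow (by omega), mul_zero]
    exact ⟨zero_mem _, M.red_zero b⟩
  obtain ⟨j, Y, hY, hYr, hyY⟩ := M.exists_unit_part b (M.G_le b y hy) hy0
  have hj := M.exponent_pos b hY hYr hyY hy hyr
  have h1 : 1 ≤ i + j * k := by
    have : (k : ℤ) ≤ j * k := le_mul_of_one_le_left (Int.natCast_nonneg k) hj
    omega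
  have heq : x * y ^ k = M.ϖ b ^ (i + j * k) * (X * Y ^ k) := by
    rw [hxX, hyY, mul_pow, zpow_add₀ (M.ϖ_ne b), ← zpow_natCast (M.ϖ b ^ j) k, ← zpow_mul]
    ring
  rw [heq]
  exact M.zpow_ϖ_mul b (mul_mem hX (pow_mem hY k)) h1

theorem q_mem_T : (M.q : K) ∈ M.T := natCast_mem _ _

theorem q_mem_G (b : Fin 3) :
    algebraMap K F (M.q : K) ∈ M.G b ∧ M.red b (algebraMap K F (M.q : K)) = 0 := by
  have hA : (M.q : K) ∈ A := natCast_mem _ _
  refine ⟨M.const_mem b ⟨_, hA⟩ M.q_mem_T, ?_⟩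
  rw [M.red_const b ⟨_, hA⟩ M.q_mem_T]
  have : residue A ⟨(M.q : K), hA⟩ = 0 := by
    rw [residue_eq_zero_iff, ValuationSubring.valuation_lt_one_iff]
    exact M.q_lt
  rw [this, map_zero]

theorem red_sum' (b : Fin 3) {ι : Type*} (S : Finset ι) (f : ι → F) (h : ∀ i ∈ S, f i ∈ M.G b) :
    M.red b (∑ i ∈ S, f i) = ∑ i ∈ S, M.red b (f i) := by
  classical
  induction S using Finset.induction with
  | empty => simp [M.red_zero]
  | insert a S ha ih =>
    rw [Finset.sum_insert ha, Finset.sum_insert ha,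
      M.red_add b _ (h a (Finset.mem_insert_self _ _)) _
        (sum_mem fun i hi => h i (Finset.mem_insert_of_mem hi)),
      ih fun i hi => h i (Finset.mem_insert_of_mem hi)]

end FLTAgent.SS2.Fib

end
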