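import Fermat.Agent.SS2.Branches
import Fermat.Agent.SS2.Crossing
import Fermat.Agent.SS2.ModelAux
import Fermat.Agent.SS2.Fib
import Fermat.Agent.SS2.FibVal
import Fermat.Agent.SS.Side

/-!
What the kill argument uses of the model of `X₀(Mq²)`: the components are given by the three
expansions; restrictions and regularity of the pullbacks from levels `M` and `Mq`.

Index convention: `0 ↦ 20`, `1 ↦ 02`, `2 ↦ 11`.
-/

set_option autoImplicit false
set_option linter.all false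
set_option synthInstance.maxHeartbeats 400000
set_option maxHeartbeats 1000000

noncomputable section

open ModularCurve AlgebraicCurve IsLocalRing
open FLTAgent.RR (Bd)
open FLTAgent.Reduction

namespace FLTAgent.SS2

variable {A : ValuationSubring Qb} {M q : ℕ} [NeZero M] [NeZero q]

variable (C : Ctx A M q)

/-- `r` is the restriction of `x` to the branch `b` -/
def KRes (b : Fin 3) (x : FB (M * q * q)) (r : FS A M) : Prop :=
  ∀ ζ : PR q, eB M q C.prime C.not_dvd ζ b x ∈ GG A ∧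
    redL A (eB M q C.prime C.not_dvd ζ b x) = (r : LaurentSeries (kA A))

/-- A fibre given by the three expansions. -/
structure IsModel (Mo : Fib Qb A (FB (M * q * q)) (FS A M)) : Prop where
  q_eq : Mo.q = q
  mem_T : ∀ x : Qb, x ∈ Mo.T ↔ x ∈ inertiaFixed A
  mem_Ω : ∀ x : FB (M * q * q), x ∈ Mo.Ω ↔ x ∈ rationalFn A (M * q * q)
  of_res : ∀ b x r, x ∈ rationalFn A (M * q * q) → KRes C b x r → x ∈ Mo.G b ∧ Mo.red b x = r
  res : ∀ b, ∀ x ∈ Mo.G b, KRes C b x (Mo.red b x)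
  J_eq : Mo.J = Jprod M q
  Jbar_eq : ∀ b, ∃ e : ℕ, 0 < e ∧ Mo.Jbar b = jS A M ^ e
  e_eq : ∀ b, Mo.e b = if b = 2 then q - 1 else 1

variable {C}

namespace KRes

variable {b : Fin 3} {x y : FB (M * q * q)} {r r' : FS A M}

theorem unique (h : KRes C b x r) (h' : KRes C b x r') : r = r' := by
  obtain ⟨ζ⟩ := nonempty_PR C
  exact Subtype.ext ((h ζ).2.symm.trans (h' ζ).2)

theorem add (h : KRes C b x r) (h' : KRes C b y r') : KRes C b (x + y) (r + r') := fun ζ => by
  rw [map_add]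
  exact ⟨add_mem (h ζ).1 (h' ζ).1, by rw [redL_add (h ζ).1 (h' ζ).1, (h ζ).2, (h' ζ).2]; rfl⟩

theorem sub (h : KRes C b x r) (h' : KRes C b y r') : KRes C b (x - y) (r - r') := fun ζ => by
  rw [map_sub]
  exact ⟨sub_mem (h ζ).1 (h' ζ).1, by rw [redL_sub (h ζ).1 (h' ζ).1, (h ζ).2, (h' ζ).2]; rfl⟩

theorem mul (h : KRes C b x r) (h' : KRes C b y r') : KRes C b (x * y) (r * r') := fun ζ => by
  rw [map_mul]
  exact ⟨mul_mem (h ζ).1 (h' ζ).1, by rw [redL_mul (h ζ).1 (h' ζ).1, (h ζ).2, (h' ζ).2]; rfl⟩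

theorem pow (h : KRes C b x r) (n : ℕ) : KRes C b (x ^ n) (r ^ n) := fun ζ => by
  rw [map_pow]
  exact ⟨pow_mem (h ζ).1 n, by rw [redL_pow (h ζ).1, (h ζ).2]; rfl⟩

end KRes

theorem kRes_const (b : Fin 3) (a : A) :
    KRes C b (cB (M * q * q) (a : Qb)) (algebraMap (kA A) (FS A M) (residue A a)) := fun ζ => by
  rw [show eB M q C.prime C.not_dvd ζ b (cB (M * q * q) (a : Qb)) = cL (a : Qb) from
    (eB M q C.prime C.not_dvd ζ b).commutes _]
  exact ⟨cL_mem a.2, by rw [redL_cL]; rfl⟩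

/-- restrictions of the three images of a function of level `M` -/
theorem kRes_i {a : FB M} (ha : a ∈ GR A M) :
    (KRes C 0 (i0 M q a) (red A M a) ∧ KRes C 0 (i1 M q a) (SS.Fr C (red A M a)) ∧
      KRes C 0 (i2 M q a) (SS.Fr C (SS.Fr C (red A M a)))) ∧
    (KRes C 1 (i0 M q a) (SS.Fr C (SS.Fr C (red A M a))) ∧
      KRes C 1 (i1 M q a) (SS.Fr C (red A M a)) ∧ KRes C 1 (i2 M q a) (red A M a)) ∧
    (KRes C 2 (i0 M q a) (red A M a) ∧ KRes C 2 (i1 M q a) (SS.Fr C (red A M a)) ∧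
      KRes C 2 (i2 M q a) (red A M a)) := by
  have h0 : redS A M a = ((red A M a : FS A M) : LaurentSeries (kA A)) := (coe_red C ha).symm
  refine ⟨⟨fun ζ => ?_, fun ζ => ?_, fun ζ => ?_⟩, ⟨fun ζ => ?_, fun ζ => ?_, fun ζ => ?_⟩,
    fun ζ => ?_, fun ζ => ?_, fun ζ => ?_⟩
  all_goals simp only [SS.coe_Fr, ← h0]
  exacts [red20_i0 ha, red20_i1 ha, red20_i2 ha, red02_i0 C.prime C.not_dvd ha,
    red02_i1 C.prime C.not_dvd ha, red02_i2 C.prime C.not_dvd ha, red11_i0 C ζ ha,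
    red11_i1 C ζ ha, red11_i2 C ζ ha]

section Level

variable {D : SS.Data Qb A (FB (M * q)) (FS A M)} (L : LevelData D)
include L

theorem s2_eq_w (hq : q.Prime) (hqM : ¬ q ∣ M) (g : FB (M * q)) :
    s2 M q hq hqM g = ((L.w g : FB (M * q)) : LS) := by
  refine DFunLike.congr_fun (algHom_ext_two hq hqM
    (f := s2 M q hq hqM) (g := (valA (M * q)).comp L.w) (fun a => ?_) (fun a => ?_)) g <;>
    simp only [AlgHom.comp_apply, valA_apply]
  · rw [s2_alpha, L.w_alpha, coe_heckeBetaBar]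
  · rw [s2_beta, L.w_beta, coe_heckeAlphaBar]

theorem s2_res (hq : q.Prime) (hqM : ¬ q ∣ M) {g : FB (M * q)} (hg : g ∈ D.G true) :
    s2 M q hq hqM g ∈ GG A ∧
      redL A (s2 M q hq hqM g) = ((D.red true g : FS A M) : LaurentSeries (kA A)) := by
  have h := (L.mem_true g).mp hg
  rw [s2_eq_w L]
  exact ⟨(coe_mem_GG_iff _).mpr h, by rw [redL_coe h, L.red_true g h, L.red_false _ h]⟩

theorem s1_res {g : FB (M * q)} (hg : g ∈ D.G false) :
    (g : LS) ∈ GG A ∧ redL A (g : LS) = ((D.red false g : FS A M) : LaurentSeries (kA A)) :=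
  have h := (L.mem_false g).mp hg
  ⟨(coe_mem_GG_iff _).mpr h, by rw [redL_coe h, L.red_false _ h]⟩

/-- restrictions of pullbacks along `α` -/
theorem kRes_alpha {g : FB (M * q)} :
    (g ∈ D.G false → KRes C 0 (heckeAlphaBar Qb (M * q) q g) (D.red false g) ∧
      KRes C 2 (heckeAlphaBar Qb (M * q) q g) (D.red false g)) ∧
    (g ∈ D.G true → KRes C 1 (heckeAlphaBar Qb (M * q) q g) (SS.Fr C (D.red true g))) := by
  refine ⟨fun hg => ⟨fun ζ => ?_, fun ζ => ?_⟩, fun hg ζ => ?_⟩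
  · show e20 M q _ ∈ GG A ∧ redL A (e20 M q _) = _
    rw [e20_apply, coe_heckeAlphaBar]
    exact s1_res L hg
  · show e11 M q C.prime C.not_dvd ζ _ ∈ GG A ∧ redL A (e11 M q C.prime C.not_dvd ζ _) = _
    rw [e11_comp_alpha]
    obtain ⟨u, hu, hu1⟩ := PR.exists_unit C ζ
    rw [← hu]
    obtain ⟨h1, h2⟩ := s1_res L hg
    exact ⟨(twist_mem_of_residue_one u hu1 h1).1, (twist_mem_of_residue_one u hu1 h1).2.trans h2⟩
  · show e02 M q C.prime C.not_dvd _ ∈ GG A ∧ redL A (e02 M q C.prime C.not_dvd _) = _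
    obtain ⟨h1, h2⟩ := s2_res L C.prime C.not_dvd hg
    rw [e02_comp_alpha, SS.coe_Fr, ← h2]
    exact qExpand_mem q h1

/-- restrictions of pullbacks along `β` -/
theorem kRes_beta {g : FB (M * q)} :
    (g ∈ D.G false → KRes C 0 (heckeBetaBar Qb (M * q) q g) (SS.Fr C (D.red false g))) ∧
    (g ∈ D.G true → KRes C 1 (heckeBetaBar Qb (M * q) q g) (D.red true g) ∧
      KRes C 2 (heckeBetaBar Qb (M * q) q g) (D.red true g)) := by
  refine ⟨fun hg ζ => ?_, fun hg => ⟨fun ζ => ?_, fun ζ => ?_⟩⟩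
  · show e20 M q _ ∈ GG A ∧ redL A (e20 M q _) = _
    obtain ⟨h1, h2⟩ := s1_res L hg
    rw [e20_comp_beta, SS.coe_Fr, ← h2]
    exact qExpand_mem q h1
  · show e02 M q C.prime C.not_dvd _ ∈ GG A ∧ redL A (e02 M q C.prime C.not_dvd _) = _
    rw [e02_comp_beta]
    exact s2_res L C.prime C.not_dvd hg
  · show e11 M q C.prime C.not_dvd ζ _ ∈ GG A ∧ redL A (e11 M q C.prime C.not_dvd ζ _) = _
    rw [e11_comp_beta]
    exact s2_res L C.prime C.not_dvd hg

end Level

/-! ### charts -/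

/-- boundedness of pullbacks -/
theorem bd_restrictAlong {F F' : Type*} [Field F] [Algebra Qb F] [Field F'] [Algebra Qb F']
    (φ : F →ₐ[Qb] F') (hφ : φ.toRingHom.IsIntegral) (P : Place Qb F') (y : F) :
    Bd P (φ y) 0 ↔ Bd (P.restrictAlong φ hφ) y 0 := by
  rw [← RR.mem_iff_bd, ← RR.mem_iff_bd]
  rfl

theorem bd_Jfn_alpha (hq : q.Prime) {s : Bool} {P : Place Qb (FB (M * q * q))}
    (hP : InChart s (P.ord (Jprod M q))) :
    InChart s ((P.restrictAlong (heckeAlphaBar Qb (M * q) q)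
        (HeckeJ.isIntegralAlong _)).ord (SS.Jfn M q)) ∧
      InChart s ((P.restrictAlong (heckeBetaBar Qb (M * q) q)
        (HeckeJ.isIntegralAlong _)).ord (SS.Jfn M q)) := by
  have hj := Reduction.ne_zero_of_transc (ModFun.transcendental_jBar M)
  have hJ0 : SS.Jfn M q ≠ 0 :=
    mul_ne_zero ((_root_.map_ne_zero _).mpr hj) ((_root_.map_ne_zero _).mpr hj)
  have hα : heckeAlphaBar Qb (M * q) q (SS.Jfn M q) = jImg M q 0 * jImg M q 1 := map_mul _ _ _
  have hβ : heckeBetaBar Qb (M * q) q (SS.Jfn M q) = jImg M q 1 * jImg M q 2 := by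
    show heckeBetaBar Qb (M * q) q (SS.i1 M q _ * SS.i2 M q _) = _
    rw [map_mul]
    congr 1
  cases s with
  | false =>
    have h := (inChart_false_Jprod hq).mp hP
    have hk := fun k => (bd_jImg_iff (M := M) hq k).mpr h
    constructor
    · have h1 := (hk 0).mul (hk 1)
      rw [← hα, add_zero, bd_restrictAlong _ (HeckeJ.isIntegralAlong _), RR.bd_iff_ord hJ0] at h1
      simpa [InChart] using h1
    · have h1 := (hk 1).mul (hk 2)
      rw [← hβ, add_zero, bd_restrictAlong _ (HeckeJ.isIntegralAlong _), RR.bd_iff_ord hJ0] at h1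
      simpa [InChart] using h1
  | true =>
    have hk := fun k => bd_of_inChart_true (M := M) hq k hP
    constructor
    · have h1 := (hk 0).mul (hk 1)
      rw [← mul_inv, ← hα, add_zero, ← map_inv₀, bd_restrictAlong _ (HeckeJ.isIntegralAlong _)]
        at h1
      exact (inChart_true_iff_bd hJ0).mpr h1
    · have h1 := (hk 1).mul (hk 2)
      rw [← mul_inv, ← hβ, add_zero, ← map_inv₀, bd_restrictAlong _ (HeckeJ.isIntegralAlong _)]
        at h1
      exact (inChart_true_iff_bd hJ0).mpr h1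

/-- pullbacks of functions regular on a chart of level `Mq` are regular on the chart -/
theorem regular_pullback (hq : q.Prime) {s : Bool} {g : FB (M * q)}
    (hg : ∀ P : PB (M * q), InChart s (P.ord (SS.Jfn M q)) → Bd P g 0)
    {P : Place Qb (FB (M * q * q))} (hP : InChart s (P.ord (Jprod M q))) :
    Bd P (heckeAlphaBar Qb (M * q) q g) 0 ∧ Bd P (heckeBetaBar Qb (M * q) q g) 0 :=
  ⟨(bd_restrictAlong _ (HeckeJ.isIntegralAlong _) P g).mpr (hg _ (bd_Jfn_alpha hq hP).1),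
    (bd_restrictAlong _ (HeckeJ.isIntegralAlong _) P g).mpr (hg _ (bd_Jfn_alpha hq hP).2)⟩

namespace IsModel

variable {Mo : Fib Qb A (FB (M * q * q)) (FS A M)} (hM : IsModel C Mo)
include hM

theorem inChart_iff (s : Bool) (b : Fin 3) (Q : PS A M) :
    InChart s (Q.ord (Mo.Jbar b)) ↔ Bd Q (tS A M s) 0 := by
  obtain ⟨e, he, h⟩ := hM.Jbar_eq b
  rw [h]
  exact inChart_jS_pow s he

/-- membership in a chart ring -/
theorem mem_R {s : Bool} {x : FB (M * q * q)} (hx : x ∈ rationalFn A (M * q * q))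
    (hres : ∀ b, ∃ r, KRes C b x r)
    (hreg : ∀ P : Place Qb (FB (M * q * q)), InChart s (P.ord (Jprod M q)) → Bd P x 0) :
    x ∈ Mo.R s := by
  refine ⟨Mo.GI_iff.mpr fun b => ?_, fun P hP => ?_⟩
  · obtain ⟨r, hr⟩ := hres b
    exact (hM.of_res b x r hx hr).1
  · simp only [Finsupp.coe_zero, Pi.zero_apply]
    exact hreg P (hM.J_eq ▸ hP)

theorem red_eq {b : Fin 3} {x : FB (M * q * q)} {r : FS A M}
    (hx : x ∈ rationalFn A (M * q * q)) (hr : KRes C b x r) : Mo.red b x = r :=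
  (hM.of_res b x r hx hr).2

theorem const_mem_R {c : Qb} (hc : c ∈ inertiaFixed A) (hcA : c ∈ A) (s : Bool) :
    cB (M * q * q) c ∈ Mo.R s :=
  hM.mem_R (const_mem_rationalFn hc) (fun b => ⟨_, kRes_const b ⟨c, hcA⟩⟩)
    fun P _ => RR.Bd.of_algebraMap c

/-- rational functions of level `Mq` give chart functions along both projections -/
theorem alpha_mem_R {D : SS.Data Qb A (FB (M * q)) (FS A M)} (L : LevelData D) {s : Bool}
    {g : FB (M * q)} (hg : g ∈ rationalFn A (M * q)) (hG : ∀ b, g ∈ D.G b)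
    (hreg : ∀ P : PB (M * q), InChart s (P.ord D.J) → Bd P g 0) :
    heckeAlphaBar Qb (M * q) q g ∈ Mo.R s ∧ heckeBetaBar Qb (M * q) q g ∈ Mo.R s := by
  have hreg' : ∀ P : PB (M * q), InChart s (P.ord (SS.Jfn M q)) → Bd P g 0 :=
    fun P hP => hreg P (by rw [L.J_eq]; exact hP)
  have ha := kRes_alpha (C := C) L (g := g)
  have hb := kRes_beta (C := C) L (g := g)
  constructor
  · refine hM.mem_R ((heckeAlphaBar_rational q).mpr hg) (fun b => ?_)
      fun P hP => (regular_pullback C.prime hreg' hP).1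
    fin_cases b
    exacts [⟨_, (ha.1 (hG _)).1⟩, ⟨_, ha.2 (hG _)⟩, ⟨_, (ha.1 (hG _)).2⟩]
  · refine hM.mem_R ((heckeBetaBar_rational q).mpr hg) (fun b => ?_)
      fun P hP => (regular_pullback C.prime hreg' hP).2
    fin_cases b
    exacts [⟨_, hb.1 (hG _)⟩, ⟨_, (hb.2 (hG _)).1⟩, ⟨_, (hb.2 (hG _)).2⟩]

end IsModel

end FLTAgent.SS2

end
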