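import Fermat.Agent.ModFun.EtaProd
import Fermat.Agent.ModFun.J
import Fermat.Agent.Periods.Eis.Relations

/-!
The operator `θ = q d/dq` on q-expansions and the identity `(θj)⁶ = j⁴ (j - 1728)³ Δ`.
-/

set_option autoImplicit false

noncomputable section

open UpperHalfPlane Filter ModularCurve Derivative
open scoped MatrixGroups Manifold Topology Real

namespace FLTAgent.SS2

open FLTAgent.ModFun FLTAgent.Periods
open scoped ModularForm

section Formal

variable {R S : Type*} [CommRing R] [CommRing S]

/-- `q d/dq` on power series -/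
def thetaP (g : PowerSeries R) : PowerSeries R := PowerSeries.mk fun n => (n : R) * g.coeff n

@[simp] theorem coeff_thetaP (g : PowerSeries R) (n : ℕ) :
    (thetaP g).coeff n = (n : R) * g.coeff n := by simp [thetaP]

theorem thetaP_map (φ : R →+* S) (g : PowerSeries R) : thetaP (g.map φ) = (thetaP g).map φ := by
  ext n; simp

/-- `q d/dq` on Laurent series -/
def theta : LaurentSeries R →+ LaurentSeries R where
  toFun x :=
    { coeff := fun k => (k : R) * x.coeff k
      isPWO_support' := x.isPWO_support.mono fun k hk h => hk (by simp [h]) }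
  map_zero' := by ext k; simp
  map_add' x y := by ext k; simp [mul_add]

@[simp] theorem coeff_theta (x : LaurentSeries R) (k : ℤ) :
    (theta x).coeff k = (k : R) * x.coeff k := rfl

theorem theta_mul (x y : LaurentSeries R) : theta (x * y) = theta x * y + x * theta y := by
  have hsub : (theta x).support ⊆ x.support := fun k hk h => hk (by simp [h])
  have hsub' : (theta y).support ⊆ y.support := fun k hk h => hk (by simp [h])
  ext k
  rw [coeff_theta, HahnSeries.coeff_add, HahnSeries.coeff_mul,
    HahnSeries.coeff_mul_left' x.isPWO_support hsub, HahnSeries.coeff_mul_right' y.isPWO_support hsub',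
    Finset.mul_sum, ← Finset.sum_add_distrib]
  refine Finset.sum_congr rfl fun ij hij => ?_
  simp only [Finset.mem_antidiagonal] at hij
  rw [coeff_theta, coeff_theta, ← hij.2.2]
  push_cast
  ring

theorem theta_single (k : ℤ) (a : R) :
    theta (HahnSeries.single k a) = HahnSeries.single k ((k : R) * a) := by
  ext m
  by_cases h : m = k
  · subst h; simp
  · simp [HahnSeries.coeff_single_of_ne h]

theorem theta_coeffMap (φ : R →+* S) (x : LaurentSeries R) :
    theta (coeffMap φ x) = coeffMap φ (theta x) := by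
  ext k; simp

theorem theta_qExpand (n : ℕ) [NeZero n] (x : LaurentSeries R) :
    theta (qExpand R n x) = (n : LaurentSeries R) * qExpand R n (theta x) := by
  ext k
  rw [coeff_theta, ← map_natCast (HahnSeries.C : R →+* LaurentSeries R) n,
    HahnSeries.C_apply, HahnSeries.coeff_single_zero_mul]
  by_cases hk : (n : ℤ) ∣ k
  · obtain ⟨m, rfl⟩ := hk
    rw [qExpand_coeff_mul, qExpand_coeff_mul, coeff_theta]
    push_cast
    ring
  · rw [qExpand_coeff_of_not_dvd n x hk, qExpand_coeff_of_not_dvd n (theta x) hk, mul_zero, mul_zero]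

theorem theta_ofPowerSeries (g : PowerSeries R) :
    theta (HahnSeries.ofPowerSeries ℤ R g) = HahnSeries.ofPowerSeries ℤ R (thetaP g) := by
  ext k
  rw [coeff_theta]
  rcases lt_or_ge k 0 with hk | hk
  · rw [ofPowerSeries_coeff_of_neg g hk, ofPowerSeries_coeff_of_neg _ hk, mul_zero]
  · obtain ⟨m, rfl⟩ := Int.eq_ofNat_of_zero_le hk
    rw [HahnSeries.ofPowerSeries_apply_coeff, HahnSeries.ofPowerSeries_apply_coeff, coeff_thetaP]
    simp

end Formal

section Analytic

theorem hasDerivAt_q (z : ℂ) : HasDerivAt (Function.Periodic.qParam (1 : ℝ))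
    (Function.Periodic.qParam (1 : ℝ) z * (2 * π * Complex.I)) z := by
  have := ((hasDerivAt_id z).const_mul (2 * π * Complex.I : ℂ)).div_const ((1 : ℝ) : ℂ) |>.cexp
  have he : Function.Periodic.qParam (1 : ℝ) = fun x : ℂ => Complex.exp (2 * π * Complex.I * x) :=
    funext fun x => by simp [Function.Periodic.qParam]
  simpa [he] using! this

variable {f : ℍ → ℂ}

theorem good_D_aux (hf : Good f) (τ : ℍ) :
    D f τ = qp τ * deriv (cuspFunction 1 f) (qp τ) := by
  have hq : ‖qp τ‖ < 1 := Function.Periodic.norm_qParam_lt_one one_pos τ.im_pos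
  have hd : DifferentiableAt ℂ (cuspFunction 1 f) (qp τ) :=
    differentiableAt_cuspFunction one_pos (by simpa using hf.per) hf.holo hf.bdd hq
  have h1 := hd.hasDerivAt.comp (τ : ℂ) (hasDerivAt_q (τ : ℂ))
  have heq : (f ∘ ofComplex) =ᶠ[𝓝 (τ : ℂ)]
      (cuspFunction 1 f ∘ Function.Periodic.qParam (1 : ℝ)) := by
    filter_upwards [isOpen_upperHalfPlaneSet.mem_nhds τ.im_pos] with z hz
    simp only [Function.comp_apply]
    rw [ofComplex_apply_of_im_pos hz]
    exact (eq_cuspFunction (⟨z, hz⟩ : ℍ) one_ne_zero (by simpa using hf.per)).symm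
  rw [normalizedDerivOfComplex, (h1.congr_of_eventuallyEq heq).deriv, qp]
  have : (2 * (π : ℂ) * Complex.I) ≠ 0 := by simp [Real.pi_ne_zero]
  field_simp

theorem good_D (hf : Good f) : Good (D f) where
  per := by
    intro z
    have h : ∀ w : ℂ, D f (ofComplex w) =
        Function.Periodic.qParam 1 ((ofComplex w : ℍ) : ℂ) *
          deriv (cuspFunction 1 f) (Function.Periodic.qParam 1 ((ofComplex w : ℍ) : ℂ)) :=
      fun w => good_D_aux hf (ofComplex w)
    simp only [Function.comp_apply]
    rw [h, h]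
    have := good_qp.per z
    simp only [Function.comp_apply, qp] at this
    rw [this]
  holo := normalizedDerivOfComplex_mdifferentiable hf.holo
  bdd := by
    have hdiff : DifferentiableOn ℂ (deriv (cuspFunction 1 f)) (Metric.ball 0 1) :=
      (differentiableOn_cuspFunction_ball one_pos (by simpa using hf.per) hf.holo hf.bdd).deriv
        Metric.isOpen_ball
    have hc : ContinuousAt (fun q : ℂ => q * deriv (cuspFunction 1 f) q) 0 :=
      continuousAt_id.mul
        (hdiff.continuousOn.continuousAt (Metric.isOpen_ball.mem_nhds (by simp)))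
    have ht : Tendsto (fun τ : ℍ => qp τ * deriv (cuspFunction 1 f) (qp τ)) atImInfty
        (𝓝 ((0 : ℂ) * deriv (cuspFunction 1 f) 0)) :=
      hc.tendsto.comp (qParam_tendsto_atImInfty one_pos)
    exact (ht.congr fun τ => (good_D_aux hf τ).symm).isBigO_one ℝ

theorem qx_D (hf : Good f) : qx (D f) = thetaP (qx f) := by
  rw [coeff_unique' (good_D hf) (c := fun n => (n : ℂ) * (qx f).coeff n)]
  · rfl
  intro τ
  rw [good_D_aux hf]
  have hq : ‖qp τ‖ < 1 := Function.Periodic.norm_qParam_lt_one one_pos τ.im_pos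
  have hdiff : DifferentiableOn ℂ (deriv (cuspFunction 1 f)) (Metric.ball 0 1) :=
    (differentiableOn_cuspFunction_ball one_pos (by simpa using hf.per) hf.holo hf.bdd).deriv
      Metric.isOpen_ball
  have h := (Complex.hasSum_taylorSeries_on_ball hdiff (show qp τ ∈ Metric.ball (0 : ℂ) 1 by simpa using hq)).mul_left (qp τ)
  rw [← hasSum_nat_add_iff' (f := fun m => (m : ℂ) * (qx f).coeff m * qp τ ^ m) 1]
  convert! h using 1
  · funext n
    rw [qExpansion_coeff, ← iteratedDeriv_succ']
    simp only [sub_zero, smul_eq_mul, Nat.factorial_succ]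
    push_cast
    have h1 : ((n : ℂ) + 1) ≠ 0 := by exact_mod_cast Nat.succ_ne_zero n
    field_simp
    ring
  · simp

theorem qx_jFun_mul_qp : Good (jFun * qp) ∧
    qx (jFun * qp) = jNum.map (Int.castRingHom ℂ) := by
  have hg : Good (jFun * qp) :=
    { per := (per_of_SL jFun_smul).mul good_qp.per
      holo := mdiff_jFun.mul good_qp.holo
      bdd := tendsto_jFun_mul_qp.isBigO_one ℝ }
  refine ⟨hg, ?_⟩
  have h : (jFun * qp) * ModularForm.discriminant = (ModularForm.E₄ : ℍ → ℂ) ^ 3 * qp := by
    rw [mul_right_comm, jFun_mul_delta]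
  have h1 := congrArg qx h
  rw [Good.qx_mul hg isMF_delta.good, Good.qx_mul (isMF_E4.good.pow 3) good_qp,
    Good.qx_pow isMF_E4.good, qx_qp, qx_E4, qx_discriminant] at h1
  set φ := Int.castRingHom ℂ
  have hU : dedekindEtaUnit.map φ * dedekindEtaUnitInv.map φ = 1 := by
    rw [← map_mul, dedekindEtaUnit_mul_inv, map_one]
  rw [jNum, map_mul, map_pow]
  refine mul_left_cancel₀ (PowerSeries.X_ne_zero (R := ℂ)) ?_
  linear_combination (dedekindEtaUnitInv.map φ) * h1 - PowerSeries.X * qx (jFun * qp) * hU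

theorem thetaP_jNum : ((thetaP jNum - jNum) * dedekindEtaUnit) ^ 2 =
    eisenstein4 ^ 4 * (eisenstein4 ^ 3 - 1728 * (PowerSeries.X * dedekindEtaUnit)) := by
  set φ := Int.castRingHom ℂ
  refine PowerSeries.map_injective φ Int.cast_injective ?_
  obtain ⟨hg, hgx⟩ := qx_jFun_mul_qp
  set T : ℍ → ℂ := D jFun * ModularForm.discriminant
  have hDq : D qp = qp := funext fun τ => by
    rw [normalizedDerivOfComplex]
    have heq : (qp ∘ ofComplex) =ᶠ[𝓝 (τ : ℂ)] Function.Periodic.qParam (1 : ℝ) := by
      filter_upwards [isOpen_upperHalfPlaneSet.mem_nhds τ.im_pos] with z hz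
      simp [qp, ofComplex_apply_of_im_pos hz]
    rw [((hasDerivAt_q (τ : ℂ)).congr_of_eventuallyEq heq).deriv, qp]
    have : (2 * (π : ℂ) * Complex.I) ≠ 0 := by simp [Real.pi_ne_zero]
    push_cast
    field_simp
  have hT : T = (D (jFun * qp) - jFun * qp) * etaFn ^ 24 := by
    rw [normalizedDerivOfComplex_mul _ _ mdiff_jFun good_qp.holo, hDq]
    show D jFun * ModularForm.discriminant = _
    rw [discriminant_eq]
    ring
  have hgood : Good T := hT ▸ ((good_D hg).sub hg).mul (good_etaFn.pow 24)
  have hinv : ∀ γ : SL(2, ℤ), T ∣[(14 : ℤ)] γ = T := by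
    intro γ
    rw [show (14 : ℤ) = 2 + 12 by norm_num, ModularForm.mul_slash_SL2,
      isMF_delta.inv γ (mem_Gamma0_one γ)]
    congr 1
    have h := normalizedDerivOfComplex_SL_slash (k := 0) (γ := γ) mdiff_jFun
    rw [slash_zero_eq, funext (jFun_smul γ)] at h
    rw [show (2 : ℤ) = 0 + 2 by norm_num]
    simp only [Int.cast_zero, zero_mul] at h
    funext w
    simpa using (congrFun h w).symm
  have hMF : IsMF 1 14 T := isMF_one_of hgood.holo hinv hgood.bdd
  set F : ℍ → ℂ := (ModularForm.E₄ : ℍ → ℂ) ^ 2 * (ModularForm.E₆ : ℍ → ℂ)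
  have hF : IsMF 1 14 F := ((isMF_E4.pow 2).mul (isMF_levelOne ModularForm.E₆)).cast (by norm_num)
  have hU : qx (etaFn ^ 24) = dedekindEtaUnit.map φ := by
    have h := qx_discriminant
    rw [discriminant_eq, Good.qx_mul good_qp (good_etaFn.pow 24), qx_qp] at h
    exact mul_left_cancel₀ PowerSeries.X_ne_zero h
  have hTx : qx T = ((thetaP jNum - jNum) * dedekindEtaUnit).map φ := by
    rw [hT, Good.qx_mul ((good_D hg).sub hg) (good_etaFn.pow 24), Good.qx_sub (good_D hg) hg,
      qx_D hg, hgx, hU, map_mul, map_sub, thetaP_map]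
  have hzero : T + F = 0 := by
    refine Periods.Eis.levelOne_fourteen_eq_zero (Submodule.add_mem (MF 1 14) hMF hF) ?_
    rw [Good.qx_add hgood hF.good, hTx,
      Good.qx_mul (isMF_E4.good.pow 2) (isMF_levelOne ModularForm.E₆).good,
      Good.qx_pow isMF_E4.good, qx_E4]
    simp only [map_add, PowerSeries.coeff_zero_eq_constantCoeff, map_mul, map_pow]
    rw [← PowerSeries.coeff_zero_eq_constantCoeff_apply (qx (ModularForm.E₆ : ℍ → ℂ)), qx,
      EisensteinSeries.E_qExpansion_coeff_zero _ ⟨3, rfl⟩]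
    have e1 : jNum.coeff 0 = 1 := by simp [PowerSeries.coeff_zero_eq_constantCoeff, constantCoeff_jNum]
    have e2 : dedekindEtaUnit.coeff 0 = 1 := by
      simp [PowerSeries.coeff_zero_eq_constantCoeff, constantCoeff_dedekindEtaUnit]
    have e3 : eisenstein4.coeff 0 = 1 := by simp [PowerSeries.coeff_zero_eq_constantCoeff]
    simp [← PowerSeries.coeff_zero_eq_constantCoeff, thetaP, e1, e2, e3]
  have h2 : T ^ 2 = (ModularForm.E₄ : ℍ → ℂ) ^ 4 *
      ((ModularForm.E₄ : ℍ → ℂ) ^ 3 - (1728 : ℂ) • ModularForm.discriminant) := by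
    funext z
    have h := congrFun hzero z
    have hd := ModularForm.discriminant_eq_E₄_cube_sub_E₆_sq z
    simp only [Pi.add_apply, Pi.zero_apply, Pi.mul_apply, Pi.pow_apply, F] at h
    simp only [Pi.mul_apply, Pi.pow_apply, Pi.sub_apply, Pi.smul_apply, smul_eq_mul]
    rw [eq_neg_of_add_eq_zero_left h, hd]
    ring
  have h3 := congrArg qx h2
  rw [Good.qx_pow hgood, hTx, Good.qx_mul (isMF_E4.good.pow 4)
      ((isMF_E4.good.pow 3).sub (isMF_delta.good.smul _)),
    Good.qx_sub (isMF_E4.good.pow 3) (isMF_delta.good.smul _), Good.qx_smul _ isMF_delta.good,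
    Good.qx_pow isMF_E4.good, Good.qx_pow isMF_E4.good, qx_E4, qx_discriminant] at h3
  simp only [map_pow, map_mul, map_sub, map_ofNat, PowerSeries.map_X] at h3 ⊢
  rw [h3, PowerSeries.smul_eq_C_mul, map_ofNat]

end Analytic

end FLTAgent.SS2
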