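import Fermat.Agent.Reduction.Gauss
import Fermat.Agent.Reduction.Twist
import Fermat.Agent.SS2.Theta

/-!
The Gauss valuation on Laurent series over `ℚ̄` at a place, for series generated by bounded series
with coefficients in number fields.
-/

set_option autoImplicit false
set_option linter.all false
set_option synthInstance.maxHeartbeats 100000

noncomputable section

open ModularCurve IsLocalRing
open FLTAgent.Reduction (Qb kA up dn)

namespace FLTAgent.SS2

/-- series over `ℚ̄` -/
abbrev LS : Type := LaurentSeries Qb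

/-- constants -/
abbrev cL (c : Qb) : LS := algebraMap Qb LS c

theorem coeff_cL_mul (c : Qb) (y : LS) (k : ℤ) : (cL c * y).coeff k = c * y.coeff k := by
  rw [cL, algebraMap_laurentSeries_eq_single, HahnSeries.coeff_single_zero_mul]

theorem cL_mul (c d : Qb) : cL (c * d) = cL c * cL d := map_mul _ c d

theorem cL_inv (c : Qb) : cL c⁻¹ = (cL c)⁻¹ := map_inv₀ _ c

theorem cL_one : cL 1 = 1 := map_one _

theorem cL_zero : cL 0 = 0 := map_zero _

theorem smul_eq_cL (r : Qb) (y : LS) : r • y = cL r * y := by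
  refine HahnSeries.ext (funext fun k => ?_)
  rw [coeff_cL_mul, HahnSeries.coeff_smul, smul_eq_mul]

theorem mul_smul_cL (r : Qb) (y z : LS) : y * (r • z) = r • (y * z) := by
  rw [smul_eq_cL, smul_eq_cL]
  ring

variable (A : ValuationSubring Qb)

/-- the Gauss valuation ring of series -/
def GG : Subring LS where
  carrier := {y | ∃ G H : LaurentSeries A, dn A H ≠ 0 ∧ y * up A H = up A G}
  mul_mem' := by
    rintro y z ⟨G, H, hH, h⟩ ⟨G', H', hH', h'⟩
    refine ⟨G * G', H * H', by rw [map_mul]; exact mul_ne_zero hH hH', ?_⟩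
    rw [map_mul, map_mul, ← h, ← h']
    ring
  one_mem' := ⟨1, 1, Reduction.dn_one A, by simp⟩
  add_mem' := by
    rintro y z ⟨G, H, hH, h⟩ ⟨G', H', hH', h'⟩
    refine ⟨G * H' + G' * H, H * H', by rw [map_mul]; exact mul_ne_zero hH hH', ?_⟩
    rw [map_mul, map_add, map_mul, map_mul, ← h, ← h']
    ring
  zero_mem' := ⟨0, 1, Reduction.dn_one A, by simp⟩
  neg_mem' := by
    rintro y ⟨G, H, hH, h⟩
    refine ⟨-G, H, hH, ?_⟩
    rw [map_neg, ← h]
    simp

open scoped Classical in
/-- reduction of a Gauss integral series -/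
def redL (y : LS) : LaurentSeries (kA A) :=
  if h : y ∈ GG A then dn A h.choose / dn A h.choose_spec.choose else 0

/-- a series with a scale -/
def Scalable (y : LS) : Prop := ∃ c : Qb, c ≠ 0 ∧ cL c * y ∈ GG A ∧ redL A (cL c * y) ≠ 0

variable {A}

theorem mem_GL_of_series {y : LS} (G : LaurentSeries A) (h : up A G = y) : y ∈ GG A :=
  ⟨G, 1, Reduction.dn_one A, by rw [map_one, mul_one, h]⟩

theorem redL_eq {y : LS} {G H : LaurentSeries A} (hH : dn A H ≠ 0) (h : y * up A H = up A G) :
    redL A y = dn A G / dn A H := by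
  have hy : y ∈ GG A := ⟨G, H, hH, h⟩
  rw [redL, dif_pos hy]
  have key : ∀ G' H' : LaurentSeries A, dn A H' ≠ 0 →
      y * up A H' = up A G' → dn A G' / dn A H' = dn A G / dn A H := by
    intro G' H' hH' h'
    rw [div_eq_div_iff hH' hH, ← map_mul, ← map_mul]
    congr 1
    refine Reduction.toBar_injective A ?_
    show up A _ = up A _
    rw [map_mul, map_mul, ← h, ← h']
    ring
  exact key _ _ hy.choose_spec.choose_spec.1 hy.choose_spec.choose_spec.2

theorem redL_series {y : LS} (G : LaurentSeries A) (h : up A G = y) : redL A y = dn A G := by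
  rw [redL_eq (Reduction.dn_one A) (G := G) (by rw [map_one, mul_one, h]), map_one, div_one]

theorem redL_mul {y z : LS} (hy : y ∈ GG A) (hz : z ∈ GG A) :
    redL A (y * z) = redL A y * redL A z := by
  obtain ⟨G, H, hH, h⟩ := hy
  obtain ⟨G', H', hH', h'⟩ := hz
  rw [redL_eq hH h, redL_eq hH' h', redL_eq (G := G * G') (H := H * H')
    (by rw [map_mul]; exact mul_ne_zero hH hH')
    (by rw [map_mul, map_mul, ← h, ← h']; ring), map_mul, map_mul, mul_div_mul_comm]

theorem redL_add {y z : LS} (hy : y ∈ GG A) (hz : z ∈ GG A) :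
    redL A (y + z) = redL A y + redL A z := by
  obtain ⟨G, H, hH, h⟩ := hy
  obtain ⟨G', H', hH', h'⟩ := hz
  rw [redL_eq hH h, redL_eq hH' h', redL_eq (G := G * H' + G' * H) (H := H * H')
    (by rw [map_mul]; exact mul_ne_zero hH hH')
    (by rw [map_mul, map_add, map_mul, map_mul, ← h, ← h']; ring),
    map_add, map_mul, map_mul, map_mul, div_add_div _ _ hH hH', mul_comm (dn A H) (dn A G')]

theorem redL_one : redL A 1 = 1 := by
  rw [redL_series (1 : LaurentSeries A) (map_one _), map_one]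

theorem redL_zero : redL A 0 = 0 := by
  rw [redL_series (0 : LaurentSeries A) (map_zero _), map_zero]

theorem redL_neg {y : LS} (hy : y ∈ GG A) : redL A (-y) = -redL A y := by
  have h := redL_add hy (neg_mem hy)
  rw [add_neg_cancel, redL_zero] at h
  exact eq_neg_of_add_eq_zero_right h.symm

theorem redL_sub {y z : LS} (hy : y ∈ GG A) (hz : z ∈ GG A) :
    redL A (y - z) = redL A y - redL A z := by
  rw [sub_eq_add_neg, redL_add hy (neg_mem hz), redL_neg hz, sub_eq_add_neg]

theorem redL_pow {y : LS} (hy : y ∈ GG A) (n : ℕ) : redL A (y ^ n) = redL A y ^ n := by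
  induction n with
  | zero => simp [redL_one]
  | succ n ih => rw [pow_succ, redL_mul (pow_mem hy n) hy, ih, pow_succ]

theorem redL_prod {ι : Type*} (S : Finset ι) (f : ι → LS) (hf : ∀ i ∈ S, f i ∈ GG A) :
    redL A (∏ i ∈ S, f i) = ∏ i ∈ S, redL A (f i) := by
  classical
  induction S using Finset.induction_on with
  | empty => simp [redL_one]
  | insert a S ha ih =>
      rw [Finset.prod_insert ha, Finset.prod_insert ha,
        redL_mul (hf a (Finset.mem_insert_self a S))
          (prod_mem fun i hi => hf i (Finset.mem_insert_of_mem hi)),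
        ih fun i hi => hf i (Finset.mem_insert_of_mem hi)]

theorem redL_sum {ι : Type*} (S : Finset ι) (f : ι → LS) (hf : ∀ i ∈ S, f i ∈ GG A) :
    redL A (∑ i ∈ S, f i) = ∑ i ∈ S, redL A (f i) := by
  classical
  induction S using Finset.induction_on with
  | empty => simp [redL_zero]
  | insert a S ha ih =>
      rw [Finset.sum_insert ha, Finset.sum_insert ha,
        redL_add (hf a (Finset.mem_insert_self a S))
          (sum_mem fun i hi => hf i (Finset.mem_insert_of_mem hi)),
        ih fun i hi => hf i (Finset.mem_insert_of_mem hi)]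

theorem cL_eq_up (a : A) : up A (HahnSeries.single 0 a) = cL (a : Qb) := by
  rw [cL, algebraMap_laurentSeries_eq_single, coeffMap_single]
  rfl

theorem cL_mem {a : Qb} (ha : a ∈ A) : cL a ∈ GG A := mem_GL_of_series _ (cL_eq_up ⟨a, ha⟩)

theorem redL_cL (a : A) :
    redL A (cL (a : Qb)) = algebraMap (kA A) (LaurentSeries (kA A)) (residue A a) := by
  rw [redL_series _ (cL_eq_up a), coeffMap_single, algebraMap_laurentSeries_eq_single]

theorem inv_mem_GL {u : LS} (hu : u ∈ GG A) (hr : redL A u ≠ 0) :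
    u⁻¹ ∈ GG A ∧ redL A u⁻¹ = (redL A u)⁻¹ := by
  obtain ⟨G, H, hH, h⟩ := hu
  rw [redL_eq hH h] at hr ⊢
  have hG : dn A G ≠ 0 := fun e => hr (by rw [e, zero_div])
  have hu0 : u ≠ 0 := by
    intro e
    rw [e, zero_mul] at h
    exact hG (by rw [Reduction.toBar_injective A (h.symm.trans (map_zero _).symm), map_zero])
  have e : u⁻¹ * up A G = up A H := by rw [← h, ← mul_assoc, inv_mul_cancel₀ hu0, one_mul]
  exact ⟨⟨H, G, hG, e⟩, by rw [redL_eq hG e, inv_div]⟩

theorem Scalable.ne_zero {y : LS} (h : Scalable A y) : y ≠ 0 := by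
  rintro rfl
  obtain ⟨c, -, -, h⟩ := h
  exact h (by rw [mul_zero, redL_zero])

theorem Scalable.mul {y z : LS} (hy : Scalable A y) (hz : Scalable A z) : Scalable A (y * z) := by
  obtain ⟨c, hc, h1, h1'⟩ := hy
  obtain ⟨d, hd, h2, h2'⟩ := hz
  refine ⟨c * d, mul_ne_zero hc hd, ?_, ?_⟩ <;>
    rw [show cL (c * d) * (y * z) = (cL c * y) * (cL d * z) by rw [cL_mul]; ring]
  · exact mul_mem h1 h2
  · rw [redL_mul h1 h2]; exact mul_ne_zero h1' h2'

theorem Scalable.inv {y : LS} (hy : Scalable A y) : Scalable A y⁻¹ := by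
  obtain ⟨c, hc, h1, h1'⟩ := hy
  obtain ⟨h2, h2'⟩ := inv_mem_GL h1 h1'
  refine ⟨c⁻¹, inv_ne_zero hc, ?_, ?_⟩ <;> rw [cL_inv, ← mul_inv]
  · exact h2
  · rw [h2']; exact inv_ne_zero h1'

theorem mem_A_of_cL_mul {c : Qb} {u : LS} (hu : u ∈ GG A) (hu0 : redL A u ≠ 0)
    (h : cL c * u ∈ GG A) : c ∈ A := by
  by_contra hc
  have hc0 : c ≠ 0 := fun h0 => hc (h0 ▸ A.zero_mem)
  have hinv : c⁻¹ ∈ A := (A.mem_or_inv_mem c).resolve_left hc
  have h1 : residue A ⟨c⁻¹, hinv⟩ = 0 := by
    rw [Reduction.res_eq_zero_iff]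
    show A.valuation c⁻¹ < 1
    rw [map_inv₀, inv_lt_one_iff₀]
    exact Or.inr (lt_of_not_ge fun h => hc ((A.valuation_le_one_iff c).mp h))
  have h2 : u = cL c⁻¹ * (cL c * u) := by
    rw [← mul_assoc, ← cL_mul, inv_mul_cancel₀ hc0, cL_one, one_mul]
  apply hu0
  rw [h2, redL_mul (cL_mem hinv) h, redL_cL ⟨c⁻¹, hinv⟩, h1, map_zero, zero_mul]

/-- two scales differ by a unit -/
theorem valuation_scale_eq {c d : Qb} (hc : c ≠ 0) (hd : d ≠ 0) {y : LS}
    (h1 : cL c * y ∈ GG A) (h1' : redL A (cL c * y) ≠ 0)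
    (h2 : cL d * y ∈ GG A) (h2' : redL A (cL d * y) ≠ 0) :
    A.valuation c = A.valuation d := by
  have key : ∀ a b : Qb, a ≠ 0 → cL a * y ∈ GG A → redL A (cL a * y) ≠ 0 → cL b * y ∈ GG A →
      A.valuation b ≤ A.valuation a := by
    intro a b ha u u' h
    have hba : b / a ∈ A := mem_A_of_cL_mul u u' (by
      rwa [← mul_assoc, ← cL_mul, div_mul_cancel₀ b ha])
    have := (A.valuation_le_one_iff _).mpr hba
    rwa [map_div₀, div_le_one₀ (zero_lt_iff.mpr ((Valuation.ne_zero_iff _).mpr ha))] at this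
  exact le_antisymm (key d c hd h2 h2' h1) (key c d hc h1 h1' h2)

/-! ### substitutions -/

/-- a unit of `A` as a unit of `ℚ̄` -/
abbrev unitQ (u : Aˣ) : Qbˣ := Units.map (A.subtype : A →* Qb) u

/-- a unit of `A` in the residue field -/
abbrev unitK (u : Aˣ) : (kA A)ˣ := Units.map (residue A : A →* kA A) u

theorem twist_up (u : Aˣ) (G : LaurentSeries A) :
    Reduction.twist (unitQ u) (up A G) = up A (Reduction.twist u G) :=
  (Reduction.coeffMap_twist A.subtype u G).symm

theorem twist_mem (u : Aˣ) {y : LS} (hy : y ∈ GG A) :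
    Reduction.twist (unitQ u) y ∈ GG A ∧
      redL A (Reduction.twist (unitQ u) y) = Reduction.twist (unitK u) (redL A y) := by
  obtain ⟨G, H, hH, h⟩ := hy
  have h' : Reduction.twist (unitQ u) y * up A (Reduction.twist u H) = up A (Reduction.twist u G) := by
    rw [← twist_up, ← twist_up, ← map_mul, h]
  have hH' : dn A (Reduction.twist u H) ≠ 0 := by
    show coeffMap (residue A) _ ≠ 0
    rw [Reduction.coeffMap_twist]
    exact (map_ne_zero _).mpr hH
  refine ⟨⟨_, _, hH', h'⟩, ?_⟩
  rw [redL_eq hH' h', redL_eq hH h, map_div₀]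
  show coeffMap (residue A) _ / coeffMap (residue A) _ = _
  rw [Reduction.coeffMap_twist, Reduction.coeffMap_twist]

theorem twist_mem_of_residue_one (u : Aˣ) (hu : residue A (u : A) = 1) {y : LS} (hy : y ∈ GG A) :
    Reduction.twist (unitQ u) y ∈ GG A ∧ redL A (Reduction.twist (unitQ u) y) = redL A y := by
  obtain ⟨h1, h2⟩ := twist_mem u hy
  have h3 : unitK u = 1 := Units.ext hu
  exact ⟨h1, by rw [h2, h3, Reduction.twist_one_apply]⟩

theorem qExpand_mem (n : ℕ) [NeZero n] {y : LS} (hy : y ∈ GG A) :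
    qExpand Qb n y ∈ GG A ∧ redL A (qExpand Qb n y) = qExpand (kA A) n (redL A y) := by
  obtain ⟨G, H, hH, h⟩ := hy
  have h' : qExpand Qb n y * up A (qExpand A n H) = up A (qExpand A n G) := by
    show _ * coeffMap A.subtype _ = coeffMap A.subtype _
    rw [ModFun.coeffMap_qExpand, ModFun.coeffMap_qExpand, ← map_mul]
    exact congrArg _ h
  have hH' : dn A (qExpand A n H) ≠ 0 := by
    show coeffMap (residue A) _ ≠ 0
    rw [ModFun.coeffMap_qExpand]
    exact (map_ne_zero _).mpr hH
  refine ⟨⟨_, _, hH', h'⟩, ?_⟩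
  rw [redL_eq hH' h', redL_eq hH h, map_div₀]
  show coeffMap (residue A) _ / coeffMap (residue A) _ = _
  rw [ModFun.coeffMap_qExpand, ModFun.coeffMap_qExpand]

theorem exists_geom (u : Aˣ) (hu : residue A (u : A) = 1) (n : ℤ) :
    ∃ d : A, 1 - ((u ^ n : Aˣ) : A) = (1 - (u : A)) * d ∧ residue A d = (n : kA A) := by
  induction n using Int.induction_on with
  | zero => exact ⟨0, by simp, by simp⟩
  | succ i ih =>
    obtain ⟨d, hd, hr⟩ := ih
    refine ⟨1 + (u : A) * d, ?_, by simp [hu, hr, add_comm]⟩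
    rw [zpow_add_one, Units.val_mul]
    linear_combination (u : A) * hd
  | pred i ih =>
    obtain ⟨d, hd, hr⟩ := ih
    have hu' : residue A ((u⁻¹ : Aˣ) : A) = 1 := by
      have := congrArg (residue A) (show (u : A) * ((u⁻¹ : Aˣ) : A) = 1 from u.mul_inv)
      rwa [map_mul, hu, one_mul, map_one] at this
    refine ⟨((u⁻¹ : Aˣ) : A) * (d - 1), ?_, by simp [hu', hr]⟩
    rw [zpow_sub_one, Units.val_mul]
    linear_combination ((u⁻¹ : Aˣ) : A) * hd - u.inv_mul

theorem exists_series_geom (u : Aˣ) (hu : residue A (u : A) = 1) (G : LaurentSeries A) :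
    ∃ G' : LaurentSeries A, G - Reduction.twist u G = HahnSeries.single 0 (1 - (u : A)) * G' ∧
      dn A G' = theta (dn A G) := by
  choose d hd hr using exists_geom u hu
  refine ⟨⟨fun n => d n * G.coeff n, G.isPWO_support.mono fun n hn h => hn (by simp [h])⟩, ?_, ?_⟩
  · refine HahnSeries.ext (funext fun n => ?_)
    rw [HahnSeries.coeff_single_zero_mul, HahnSeries.coeff_sub, Reduction.twist_coeff]
    linear_combination (G.coeff n) * hd n
  · ext n
    rw [coeff_theta, coeffMap_coeff, coeffMap_coeff, map_mul, hr]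

/-- `(y(q) - y(u q))/(1 - u)` reduces to `θ` of the reduction -/
theorem theta_difference (u : Aˣ) (hu : residue A (u : A) = 1) (hu1 : ((u : A) : Qb) ≠ 1) {y : LS}
    (hy : y ∈ GG A) :
    cL (1 - ((u : A) : Qb))⁻¹ * (y - Reduction.twist (unitQ u) y) ∈ GG A ∧
      redL A (cL (1 - ((u : A) : Qb))⁻¹ * (y - Reduction.twist (unitQ u) y)) = theta (redL A y) := by
  obtain ⟨G, H, hH, h⟩ := hy
  obtain ⟨G', hG', rG'⟩ := exists_series_geom u hu G
  obtain ⟨H', hH', rH'⟩ := exists_series_geom u hu H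
  have h' : Reduction.twist (unitQ u) y * up A (Reduction.twist u H) = up A (Reduction.twist u G) := by
    rw [← twist_up, ← twist_up, ← map_mul, h]
  have hc : (1 - ((u : A) : Qb)) ≠ 0 := sub_ne_zero.mpr (Ne.symm hu1)
  have eG := congrArg (up A) hG'
  have eH := congrArg (up A) hH'
  rw [map_sub, map_mul, cL_eq_up] at eG eH
  have hdt : ∀ X : LaurentSeries A, dn A (Reduction.twist u X) = dn A X := fun X => by
    show coeffMap (residue A) _ = _
    rw [Reduction.coeffMap_twist]
    show Reduction.twist (unitK u) _ = _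
    rw [show unitK u = 1 from Units.ext hu, Reduction.twist_one_apply]
  have hne : dn A (H * Reduction.twist u H) ≠ 0 := by
    rw [map_mul, hdt]; exact mul_ne_zero hH hH
  have e : cL (1 - ((u : A) : Qb))⁻¹ * (y - Reduction.twist (unitQ u) y) *
      up A (H * Reduction.twist u H) =
      up A (G' * Reduction.twist u H - Reduction.twist u G * H') := by
    have h1 : cL (1 - ((u : A) : Qb))⁻¹ * cL ((1 - (u : A) : A) : Qb) = 1 := by
      rw [← cL_mul, show ((1 - (u : A) : A) : Qb) = 1 - ((u : A) : Qb) from rfl, inv_mul_cancel₀ hc,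
        cL_one]
    rw [map_mul, map_sub, map_mul, map_mul]
    linear_combination
      (cL (1 - ((u : A) : Qb))⁻¹ * up A (Reduction.twist u H)) * h
      - (cL (1 - ((u : A) : Qb))⁻¹ * up A H) * h'
      + (cL (1 - ((u : A) : Qb))⁻¹ * up A (Reduction.twist u H)) * eG
      - (cL (1 - ((u : A) : Qb))⁻¹ * up A (Reduction.twist u G)) * eH
      + (up A G' * up A (Reduction.twist u H) - up A (Reduction.twist u G) * up A H') * h1
  refine ⟨⟨_, _, hne, e⟩, ?_⟩
  rw [redL_eq hne e, map_sub, map_mul, map_mul, map_mul, hdt, hdt, rG', rH', redL_eq hH h]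
  have key : theta (dn A G / dn A H * dn A H) = theta (dn A G) := by rw [div_mul_cancel₀ _ hH]
  rw [theta_mul] at key
  rw [← key]
  field_simp
  ring

/-! ### bounded series with coefficients in a number field -/

variable (A)

/-- bounded series with coefficients in a number field -/
def Bdd (y : LS) : Prop :=
  (∃ L : IntermediateField ℚ Qb, FiniteDimensional ℚ L ∧ ∀ k, y.coeff k ∈ L) ∧
    ∃ c ∈ A, c ≠ 0 ∧ ∀ k, c * y.coeff k ∈ A

variable {A}

theorem Bdd.add {y z : LS} (hy : Bdd A y) (hz : Bdd A z) : Bdd A (y + z) := by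
  obtain ⟨⟨L, hL, hyL⟩, c, hcA, hc, hc'⟩ := hy
  obtain ⟨⟨L', hL', hzL⟩, d, hdA, hd, hd'⟩ := hz
  haveI := hL
  haveI := hL'
  refine ⟨⟨L ⊔ L', inferInstance, fun k => ?_⟩, c * d, mul_mem hcA hdA, mul_ne_zero hc hd, fun k => ?_⟩
  · rw [HahnSeries.coeff_add]
    exact add_mem ((le_sup_left : L ≤ L ⊔ L') (hyL k)) ((le_sup_right : L' ≤ L ⊔ L') (hzL k))
  · rw [HahnSeries.coeff_add, show c * d * (y.coeff k + z.coeff k) =
      d * (c * y.coeff k) + c * (d * z.coeff k) by ring]
    exact add_mem (mul_mem hdA (hc' k)) (mul_mem hcA (hd' k))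

theorem Bdd.mul {y z : LS} (hy : Bdd A y) (hz : Bdd A z) : Bdd A (y * z) := by
  obtain ⟨⟨L, hL, hyL⟩, c, hcA, hc, hc'⟩ := hy
  obtain ⟨⟨L', hL', hzL⟩, d, hdA, hd, hd'⟩ := hz
  haveI := hL
  haveI := hL'
  refine ⟨⟨L ⊔ L', inferInstance, fun k => ?_⟩, c * d, mul_mem hcA hdA, mul_ne_zero hc hd, fun k => ?_⟩
  · rw [HahnSeries.coeff_mul]
    exact sum_mem fun ij _ =>
      mul_mem ((le_sup_left : L ≤ L ⊔ L') (hyL _)) ((le_sup_right : L' ≤ L ⊔ L') (hzL _))
  · rw [HahnSeries.coeff_mul, Finset.mul_sum]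
    refine sum_mem fun ij _ => ?_
    rw [show c * d * (y.coeff ij.1 * z.coeff ij.2) = (c * y.coeff ij.1) * (d * z.coeff ij.2) by ring]
    exact mul_mem (hc' _) (hd' _)

theorem exists_clear_const (a : Qb) : ∃ c ∈ A, c ≠ 0 ∧ c * a ∈ A := by
  rcases A.mem_or_inv_mem a with h | h
  · exact ⟨1, A.one_mem, one_ne_zero, by rwa [one_mul]⟩
  · rcases eq_or_ne a 0 with rfl | ha
    · exact ⟨1, A.one_mem, one_ne_zero, by simp⟩
    · exact ⟨a⁻¹, h, inv_ne_zero ha, by rw [inv_mul_cancel₀ ha]; exact A.one_mem⟩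

theorem bdd_cL (a : Qb) : Bdd A (cL a) := by
  obtain ⟨c, hcA, hc, hca⟩ := exists_clear_const (A := A) a
  haveI : Algebra.IsAlgebraic ℚ Qb := AlgebraicClosure.isAlgebraic ℚ
  refine ⟨⟨IntermediateField.adjoin ℚ {a},
    IntermediateField.adjoin.finiteDimensional (Algebra.IsIntegral.isIntegral a), fun k => ?_⟩,
    c, hcA, hc, fun k => ?_⟩ <;>
    rw [cL, algebraMap_laurentSeries_eq_single, HahnSeries.coeff_single] <;> split_ifs
  · exact IntermediateField.subset_adjoin _ _ rfl
  · exact zero_mem _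
  · exact hca
  · rw [mul_zero]; exact A.zero_mem

theorem bdd_up {G : LaurentSeries A} {y : LS} (h : up A G = y)
    (hL : ∃ L : IntermediateField ℚ Qb, FiniteDimensional ℚ L ∧ ∀ k, y.coeff k ∈ L) : Bdd A y :=
  ⟨hL, 1, A.one_mem, one_ne_zero, fun k => by rw [one_mul, ← h]; exact (G.coeff k).2⟩

/-- polynomials in bounded series are bounded -/
theorem bdd_aeval {ι : Type*} (m : ι → LS) (hm : ∀ i, Bdd A (m i)) (P : MvPolynomial ι Qb) :
    Bdd A (MvPolynomial.aeval m P) := by
  induction P using MvPolynomial.induction_on with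
  | C a => rw [MvPolynomial.aeval_C]; exact bdd_cL a
  | add p q hp hq => rw [map_add]; exact hp.add hq
  | mul_X p i hp => rw [map_mul, MvPolynomial.aeval_X]; exact hp.mul (hm i)

variable {ℓ : ℕ} (hℓ : ℓ.Prime) (hA : A.LiesOverPrime ℓ)
include hℓ hA

/-- a uniform exponent carrying the values on a number field to powers of the value of `ℓ` -/
theorem exists_uniform_pow (L : IntermediateField ℚ Qb) [FiniteDimensional ℚ L] :
    ∃ e : ℕ, 0 < e ∧ ∀ x ∈ L, x ≠ 0 →
      ∃ k : ℤ, A.valuation x ^ e = A.valuation (ℓ : Qb) ^ k := by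
  classical
  refine ⟨(Module.finrank ℚ L).factorial, Nat.factorial_pos _, fun x hxL hx => ?_⟩
  set v := A.valuation
  haveI : Algebra.IsAlgebraic ℚ Qb := AlgebraicClosure.isAlgebraic ℚ
  have hint : IsIntegral ℚ x := Algebra.IsIntegral.isIntegral x
  set p := minpoly ℚ x with hp
  have hdeg : p.natDegree ≤ Module.finrank ℚ L := by
    have h := minpoly.natDegree_le (A := ℚ) (⟨x, hxL⟩ : L)
    rwa [← minpoly.algebraMap_eq (A := ℚ) (algebraMap L Qb).injective] at h
  set s := p.support
  have hsum : ∑ i ∈ s, algebraMap ℚ Qb (p.coeff i) * x ^ i = 0 := by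
    have := minpoly.aeval ℚ x
    rw [Polynomial.aeval_def, Polynomial.eval₂_eq_sum, Polynomial.sum_def] at this
    exact this
  obtain ⟨i, hi, hmax⟩ := s.exists_max_image
    (fun i => v (algebraMap ℚ Qb (p.coeff i) * x ^ i))
    (Polynomial.support_nonempty.mpr (minpoly.ne_zero hint))
  have hti : ∀ j ∈ s, algebraMap ℚ Qb (p.coeff j) * x ^ j ≠ 0 := fun j hj =>
    mul_ne_zero ((map_ne_zero _).mpr (Polynomial.mem_support_iff.mp hj)) (pow_ne_zero _ hx)
  obtain ⟨j, hj, hji, hje⟩ : ∃ j ∈ s, j ≠ i ∧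
      v (algebraMap ℚ Qb (p.coeff j) * x ^ j) = v (algebraMap ℚ Qb (p.coeff i) * x ^ i) := by
    by_contra hc
    push Not at hc
    have := v.map_sum_eq_of_lt hi (by
      intro j hj
      rw [Finset.mem_sdiff, Finset.mem_singleton] at hj
      exact lt_of_le_of_ne (hmax j hj.1) (hc j hj.1 hj.2))
    rw [hsum, map_zero] at this
    exact (Valuation.ne_zero_iff _).mpr (hti i hi) this.symm
  obtain ⟨ei, hei⟩ := Reduction.exists_valuation_rat A hℓ hA _ (Polynomial.mem_support_iff.mp hi)
  obtain ⟨ej, hej⟩ := Reduction.exists_valuation_rat A hℓ hA _ (Polynomial.mem_support_iff.mp hj)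
  rw [map_mul, map_mul, map_pow, map_pow, hei, hej] at hje
  have hvx : v x ≠ 0 := (Valuation.ne_zero_iff _).mpr hx
  have hl0 : v (ℓ : Qb) ≠ 0 := (Valuation.ne_zero_iff _).mpr (Nat.cast_ne_zero.mpr hℓ.ne_zero)
  -- the difference of the exponents divides the factorial
  have hid : i ≤ p.natDegree := Polynomial.le_natDegree_of_mem_supp i hi
  have hjd : j ≤ p.natDegree := Polynomial.le_natDegree_of_mem_supp j hj
  have hz : v x ^ ((j : ℤ) - i) = v (ℓ : Qb) ^ (ei - ej) := by
    rw [zpow_sub₀ hvx, zpow_sub₀ hl0, zpow_natCast, zpow_natCast, div_eq_div_iff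
      (pow_ne_zero _ hvx) (zpow_ne_zero _ hl0), mul_comm, hje]
  obtain ⟨m, hm⟩ : ((j : ℤ) - i) ∣ (((Module.finrank ℚ L).factorial : ℕ) : ℤ) := by
    rw [← Int.natAbs_dvd_natAbs, Int.natAbs_natCast]
    exact Nat.dvd_factorial (by omega) (by omega)
  exact ⟨(ei - ej) * m, by rw [← zpow_natCast, hm, zpow_mul, hz, ← zpow_mul]⟩

/-- nonzero bounded series have scales, with a coefficient as scale -/
theorem Bdd.exists_max {y : LS} (hy : Bdd A y) (hy0 : y ≠ 0) :
    ∃ k, y.coeff k ≠ 0 ∧ ∀ i, y.coeff i / y.coeff k ∈ A := by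
  classical
  obtain ⟨⟨L, hL, hyL⟩, c, hcA, hc, hc'⟩ := hy
  haveI := hL
  obtain ⟨e, he, hpow⟩ := exists_uniform_pow hℓ hA L
  set v := A.valuation
  set l := v (ℓ : Qb)
  have hl1 : l < 1 := Reduction.valuation_ell_lt_one A hA
  have hl0 : 0 < l := zero_lt_iff.mpr ((Valuation.ne_zero_iff _).mpr (Nat.cast_ne_zero.mpr hℓ.ne_zero))
  obtain ⟨m, hm⟩ := Reduction.exists_pow_le A hℓ hA hl1 hc
  have hlow : ∀ i, y.coeff i ≠ 0 → ∃ n : ℕ, v (y.coeff i) ^ e = l ^ ((n : ℤ) - (e * m : ℕ)) := by
    intro i hi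
    obtain ⟨k, hk⟩ := hpow _ (hyL i) hi
    have h1 : l ^ m * v (y.coeff i) ≤ 1 := by
      refine le_trans (mul_le_mul_left hm _) ?_
      rw [← map_mul]
      exact Reduction.val_le_one_of_mem (hc' i)
    have h2 := pow_le_one₀ (n := e) zero_le h1
    rw [mul_pow, hk, ← pow_mul, ← zpow_natCast, ← zpow_add₀ hl0.ne',
      ← zpow_zero l, zpow_le_zpow_iff_right_of_lt_one₀ hl0 hl1] at h2
    refine ⟨(k + (e * m : ℕ)).toNat, ?_⟩
    rw [Int.toNat_of_nonneg (by push_cast at h2 ⊢; linarith), add_sub_cancel_right, hk]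
  have hne : ∃ n : ℕ, ∃ i, y.coeff i ≠ 0 ∧ v (y.coeff i) ^ e = l ^ ((n : ℤ) - (e * m : ℕ)) := by
    obtain ⟨i, hi⟩ : ∃ i, y.coeff i ≠ 0 := by
      by_contra h
      push Not at h
      exact hy0 (HahnSeries.ext (funext h))
    obtain ⟨n, hn⟩ := hlow i hi
    exact ⟨n, i, hi, hn⟩
  obtain ⟨k, hk0, hk⟩ := Nat.find_spec hne
  refine ⟨k, hk0, fun i => ?_⟩
  rcases eq_or_ne (y.coeff i) 0 with h | h
  · rw [h, zero_div]; exact A.zero_mem
  obtain ⟨n, hn⟩ := hlow i h
  have hle : Nat.find hne ≤ n := Nat.find_min' hne ⟨i, h, hn⟩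
  have hv : v (y.coeff i) ^ e ≤ v (y.coeff k) ^ e := by
    rw [hn, hk, zpow_le_zpow_iff_right_of_lt_one₀ hl0 hl1]
    omega
  refine (A.valuation_le_one_iff _).mp ?_
  rw [map_div₀, div_le_one₀ (zero_lt_iff.mpr ((Valuation.ne_zero_iff _).mpr hk0))]
  exact (pow_le_pow_iff_left₀ zero_le zero_le he.ne').mp hv

theorem Bdd.scalable_coeff {y : LS} (hy : Bdd A y) (hy0 : y ≠ 0) :
    ∃ k, y.coeff k ≠ 0 ∧ cL (y.coeff k)⁻¹ * y ∈ GG A ∧ redL A (cL (y.coeff k)⁻¹ * y) ≠ 0 := by
  obtain ⟨k, hk, hall⟩ := hy.exists_max hℓ hA hy0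
  obtain ⟨G, hG⟩ := Reduction.exists_series A (f := cL (y.coeff k)⁻¹ * y) fun i => by
    rw [coeff_cL_mul, ← div_eq_inv_mul]; exact hall i
  refine ⟨k, hk, mem_GL_of_series G hG, ?_⟩
  rw [redL_series G hG]
  intro h
  have h1 := congrArg (fun s : LaurentSeries (kA A) => s.coeff k) h
  simp only [coeffMap_coeff, HahnSeries.coeff_zero] at h1
  have h2 : ((G.coeff k : A) : Qb) = 1 := by
    have := congrArg (fun s : LS => s.coeff k) hG
    simp only [coeffMap_coeff, coeff_cL_mul, inv_mul_cancel₀ hk] at this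
    exact this
  rw [show G.coeff k = 1 from Subtype.ext h2, map_one] at h1
  exact one_ne_zero h1

theorem Bdd.scalable {y : LS} (hy : Bdd A y) (hy0 : y ≠ 0) : Scalable A y :=
  let ⟨_, hk, h1, h2⟩ := hy.scalable_coeff hℓ hA hy0
  ⟨_, inv_ne_zero hk, h1, h2⟩

/-! ### orthogonal bases -/

/-- orthogonal bases for finitely many expansions with prescribed scales -/
theorem exists_orth_basis {F : Type*} [Field F] [Algebra Qb F] {β : Type*} [Fintype β] [Nonempty β]
    (e : β → F →ₐ[Qb] LS)
    (hrep : ∀ b (x : F), ∃ N D : LS, Bdd A N ∧ Bdd A D ∧ D ≠ 0 ∧ e b x * D = N)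
    (a : β → Qb) (ha : ∀ b, a b ≠ 0) (V : Submodule Qb F) [FiniteDimensional Qb V] :
    ∃ (d : ℕ) (v : Fin d → F), Submodule.span Qb (Set.range v) = V ∧
      (∀ b i, cL (a b) * e b (v i) ∈ GG A) ∧
      LinearIndependent (kA A) (fun i b => redL A (cL (a b) * e b (v i))) := by
  classical
  let bas := Module.finBasis Qb V
  choose N D hN hD hD0 hND using hrep
  -- a common denominator
  let P : β → LS := fun b => ∏ j, D b (bas j : F)
  have hP : ∀ b, Bdd A (P b) := fun b => Finset.prod_induction _ (Bdd A) (fun _ _ => Bdd.mul)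
    (by simpa using bdd_cL (A := A) 1) fun j _ => hD b _
  have hP0 : ∀ b, P b ≠ 0 := fun b => Finset.prod_ne_zero_iff.mpr fun j _ => hD0 b _
  choose p hp hpG hpr using fun b => (hP b).scalable hℓ hA (hP0 b)
  -- bounded numerators
  let w : β → F →ₗ[Qb] LS := fun b =>
    { toFun := fun x => cL (a b) * (cL (p b) * P b) * e b x
      map_add' := fun x y => by rw [map_add, mul_add]
      map_smul' := fun r x => by
        rw [RingHom.id_apply, Algebra.smul_def, map_mul, AlgHom.commutes, smul_eq_cL]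
        ring }
  have hwdef : ∀ b x, w b x = cL (p b) * P b * (cL (a b) * e b x) := fun b x => by
    show cL (a b) * (cL (p b) * P b) * e b x = _
    ring
  have hwB : ∀ b, ∀ x ∈ V, Bdd A (w b x) := by
    intro b x hx
    have hgen : ∀ j, Bdd A (w b (bas j : F)) := by
      intro j
      have : w b (bas j : F) = cL (p b) * cL (a b) *
          ((∏ i ∈ Finset.univ.erase j, D b (bas i : F)) * N b (bas j : F)) := by
        rw [hwdef, show P b = D b (bas j : F) * ∏ i ∈ Finset.univ.erase j, D b (bas i : F) from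
          (Finset.mul_prod_erase _ _ (Finset.mem_univ j)).symm, ← hND b (bas j : F)]
        ring
      rw [this]
      exact ((bdd_cL _).mul (bdd_cL _)).mul
        ((Finset.prod_induction _ (Bdd A) (fun _ _ => Bdd.mul)
          (by simpa using bdd_cL (A := A) 1) fun i _ => hD b _).mul (hN b _))
    have hxe : x = ∑ j, (bas.repr ⟨x, hx⟩ j) • (bas j : F) := by
      conv_lhs => rw [show x = ((⟨x, hx⟩ : V) : F) from rfl, ← bas.sum_repr ⟨x, hx⟩]
      exact (map_sum V.subtype _ _).trans (Finset.sum_congr rfl fun j _ => rfl)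
    rw [hxe, map_sum]
    refine Finset.sum_induction _ (Bdd A) (fun _ _ => Bdd.add) (by simpa using bdd_cL (A := A) 0)
      fun j _ => ?_
    rw [map_smul, smul_eq_cL]
    exact (bdd_cL _).mul (hgen j)
  have hu : ∀ b, (cL (p b) * P b)⁻¹ ∈ GG A ∧
      redL A (cL (p b) * P b)⁻¹ = (redL A (cL (p b) * P b))⁻¹ := fun b => inv_mem_GL (hpG b) (hpr b)
  have hback : ∀ b x, cL (a b) * e b x = (cL (p b) * P b)⁻¹ * w b x := fun b x => by
    rw [hwdef, ← mul_assoc (cL (p b) * P b)⁻¹, inv_mul_cancel₀, one_mul]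
    intro e0
    exact hpr b (by rw [e0, redL_zero])
  -- recursion
  suffices key : ∀ U : Submodule Qb F, U ≤ V → ∀ n, Module.finrank Qb U = n →
      ∃ (d : ℕ) (v : Fin d → F), Submodule.span Qb (Set.range v) = U ∧
        (∀ b i k, (w b (v i)).coeff k ∈ A) ∧
        ∀ r : Fin d → A, (∀ b k, A.valuation (∑ i, (r i : Qb) * (w b (v i)).coeff k) < 1) →
          ∀ i, A.valuation (r i : Qb) < 1 by
    obtain ⟨d, v, hspan, hint, hind⟩ := key V le_rfl _ rfl
    have hG : ∀ b i, ∃ G : LaurentSeries A, up A G = w b (v i) := fun b i =>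
      Reduction.exists_series A (hint b i)
    choose G hG using hG
    refine ⟨d, v, hspan, fun b i => ?_, ?_⟩
    · rw [hback]
      exact mul_mem (hu b).1 (mem_GL_of_series _ (hG b i))
    · rw [Fintype.linearIndependent_iff]
      intro r hr i
      choose s hs using fun i => residue_surjective (r i)
      rw [← hs i, Reduction.res_eq_zero_iff]
      refine hind s (fun b k => ?_) i
      have h1 := congrFun hr b
      simp only [Finset.sum_apply, Pi.smul_apply, Pi.zero_apply] at h1
      have h2 : ∑ j, r j • dn A (G b j) = 0 := by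
        have h3 : ∀ j, redL A (cL (a b) * e b (v j)) =
            (redL A (cL (p b) * P b))⁻¹ * dn A (G b j) := fun j => by
          rw [hback, redL_mul (hu b).1 (mem_GL_of_series _ (hG b j)), (hu b).2,
            redL_series _ (hG b j)]
        have hsm : ∀ (r : kA A) (z z' : LaurentSeries (kA A)), r • (z * z') = z * (r • z') := by
          intro r z z'
          have e1 : ∀ t : LaurentSeries (kA A), r • t = HahnSeries.single 0 r * t := fun t =>
            HahnSeries.ext (funext fun k => by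
              rw [HahnSeries.coeff_single_zero_mul, HahnSeries.coeff_smul, smul_eq_mul])
          rw [e1, e1]; ring
        simp only [h3, hsm, ← Finset.mul_sum] at h1
        exact (mul_eq_zero.mp h1).resolve_left (inv_ne_zero (hpr b))
      have h4 := congrArg (fun s : LaurentSeries (kA A) => s.coeff k) h2
      simp only [HahnSeries.coeff_sum, HahnSeries.coeff_smul, coeffMap_coeff, smul_eq_mul,
        HahnSeries.coeff_zero, ← hs, ← map_mul, ← map_sum] at h4
      have h5 := (Reduction.res_eq_zero_iff A _).mp h4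
      rw [AddSubmonoidClass.coe_finset_sum] at h5
      have h6 : ∀ j, (w b (v j)).coeff k = ((G b j).coeff k : Qb) := fun j => by
        rw [← hG]; rfl
      simpa [h6] using h5
  intro U hU n
  induction n generalizing U with
  | zero =>
    intro h
    haveI : FiniteDimensional Qb U := Submodule.finiteDimensional_of_le hU
    refine ⟨0, Fin.elim0, ?_, fun _ i => i.elim0, fun _ _ i => i.elim0⟩
    rw [Set.range_eq_empty, Submodule.span_empty, Submodule.finrank_eq_zero.mp h]
  | succ n ih =>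
    intro h
    haveI : FiniteDimensional Qb U := Submodule.finiteDimensional_of_le hU
    obtain ⟨x, hxU, hx0⟩ := U.exists_mem_ne_zero_of_ne_bot (fun e => by
      rw [e, finrank_bot] at h; omega)
    -- the largest coefficient over all expansions
    have hwx : ∀ b, w b x ≠ 0 := fun b e0 => by
      rw [hwdef] at e0
      rcases mul_eq_zero.mp e0 with h' | h'
      · exact hpr b (by rw [h', redL_zero])
      · rcases mul_eq_zero.mp h' with h' | h'
        · exact (map_ne_zero _).mpr (ha b) h'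
        · exact hx0 ((map_eq_zero_iff _ (e b).injective).mp h')
    choose K hK hKall using fun b => (hwB b x (hU hxU)).exists_max hℓ hA (hwx b)
    obtain ⟨b0, -, hb0⟩ := Finset.univ.exists_max_image
      (fun b => A.valuation ((w b x).coeff (K b))) Finset.univ_nonempty
    set c := (w b0 x).coeff (K b0) with hc
    let φ : U →ₗ[Qb] Qb :=
      { toFun := fun y => (w b0 y).coeff (K b0)
        map_add' := fun y z => by simp
        map_smul' := fun r y => by simp }
    have hφ : φ ⟨x, hxU⟩ ≠ 0 := hK b0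
    let U' : Submodule Qb F := (LinearMap.ker φ).map U.subtype
    have hU'U : U' ≤ U := Submodule.map_subtype_le _ _
    have hrk : Module.finrank Qb U' = n := by
      rw [Submodule.finrank_map_subtype_eq]
      have h1 := φ.finrank_range_add_finrank_ker
      have h2 : LinearMap.range φ = ⊤ := by
        refine eq_top_iff.mpr fun z _ => ⟨(z / φ ⟨x, hxU⟩) • ⟨x, hxU⟩, ?_⟩
        rw [map_smul, smul_eq_mul, div_mul_cancel₀ _ hφ]
      rw [h2, finrank_top, Module.finrank_self] at h1
      omega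
    obtain ⟨d, v, hspan, hint, hind⟩ := ih U' (hU'U.trans hU) hrk
    have hv : ∀ i, (w b0 (v i)).coeff (K b0) = 0 := fun i => by
      have : v i ∈ U' := hspan ▸ Submodule.subset_span ⟨i, rfl⟩
      obtain ⟨y, hy, hye⟩ := Submodule.mem_map.mp this
      rw [← hye]
      exact hy
    have hcoef : ∀ b k, (w b (c⁻¹ • x)).coeff k = (w b x).coeff k / c := fun b k => by
      rw [map_smul, HahnSeries.coeff_smul, smul_eq_mul, inv_mul_eq_div]
    refine ⟨d + 1, Fin.cons (c⁻¹ • x) v, ?_, fun b i k => ?_, fun r hr => ?_⟩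
    · rw [Fin.range_cons]
      refine le_antisymm (Submodule.span_le.mpr (Set.insert_subset (U.smul_mem _ hxU) ?_)) ?_
      · exact (Submodule.span_le.mp (hspan.le.trans hU'U))
      · intro y hy
        set y0 : U := ⟨y, hy⟩ - (φ ⟨y, hy⟩ / φ ⟨x, hxU⟩) • ⟨x, hxU⟩ with hy0
        have hker : y0 ∈ LinearMap.ker φ := by
          rw [LinearMap.mem_ker, hy0, map_sub, map_smul, smul_eq_mul, div_mul_cancel₀ _ hφ, sub_self]
        have hmem : (y0 : F) ∈ Submodule.span Qb (Set.range v) :=
          hspan ▸ Submodule.mem_map_of_mem hker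
        have : y = (y0 : F) + (φ ⟨y, hy⟩ / φ ⟨x, hxU⟩ * c) • (c⁻¹ • x) := by
          rw [smul_smul, mul_assoc, mul_inv_cancel₀ (show c ≠ 0 from hK b0), mul_one, hy0]
          simp
        rw [this]
        exact add_mem (Submodule.span_mono (Set.subset_insert _ _) hmem)
          (Submodule.smul_mem _ _ (Submodule.subset_span (Set.mem_insert _ _)))
    · induction i using Fin.cases with
      | zero =>
        rw [Fin.cons_zero, hcoef]
        refine (A.valuation_le_one_iff _).mp ?_
        rw [map_div₀, div_le_one₀ (zero_lt_iff.mpr ((Valuation.ne_zero_iff _).mpr (hK b0)))]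
        refine le_trans ?_ (hb0 b (Finset.mem_univ _))
        have := Reduction.val_le_one_of_mem (hKall b k)
        rwa [map_div₀, div_le_one₀ (zero_lt_iff.mpr ((Valuation.ne_zero_iff _).mpr (hK b)))] at this
      | succ i => rw [Fin.cons_succ]; exact hint b i k
    · have h0 : A.valuation (r 0 : Qb) < 1 := by
        have := hr b0 (K b0)
        rw [Fin.sum_univ_succ, Fin.cons_zero, hcoef, div_self (show c ≠ 0 from hK b0), mul_one] at this
        simpa [hv] using this
      intro i
      induction i using Fin.cases with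
      | zero => exact h0
      | succ i =>
        refine hind (fun i => r i.succ) (fun b k => ?_) i
        have h1 := hr b k
        rw [Fin.sum_univ_succ, Fin.cons_zero, hcoef] at h1
        have h2 : A.valuation ((r 0 : Qb) * ((w b x).coeff k / c)) < 1 := by
          rw [map_mul]
          refine lt_of_le_of_lt (mul_le_of_le_one_right zero_le ?_) h0
          rw [map_div₀, div_le_one₀ (zero_lt_iff.mpr ((Valuation.ne_zero_iff _).mpr (hK b0)))]
          refine le_trans ?_ (hb0 b (Finset.mem_univ _))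
          have := Reduction.val_le_one_of_mem (hKall b k)
          rwa [map_div₀, div_le_one₀ (zero_lt_iff.mpr ((Valuation.ne_zero_iff _).mpr (hK b)))] at this
        simp only [Fin.cons_succ] at h1
        have h3 := lt_of_le_of_lt (A.valuation.map_sub _ _) (max_lt h1 h2)
        rwa [add_sub_cancel_left] at h3

end FLTAgent.SS2

end
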