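import Fermat.Agent.SS2.Theta
import Fermat.Prelude.Def_ModularCurve_JqCoeff
import Mathlib.NumberTheory.Bernoulli

/-!
`(θj)⁶ = j⁴ (j - 1728)³ Δ` over any ring, and `Δ^{-(q-1)}` is a monic polynomial of degree `q - 1`
in `j` modulo a prime `q`.
-/

set_option autoImplicit false

noncomputable section

open UpperHalfPlane ModularCurve
open scoped MatrixGroups ArithmeticFunction.sigma

namespace FLTAgent.SS2

open FLTAgent.ModFun FLTAgent.Periods

/-- the series `Δ` -/
def deltaC (R : Type*) [CommRing R] : LaurentSeries R :=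
  HahnSeries.single (1 : ℤ) 1 *
    HahnSeries.ofPowerSeries ℤ R (dedekindEtaUnit.map (Int.castRingHom R))

/-- the series `E₄` -/
def e4C (R : Type*) [CommRing R] : LaurentSeries R :=
  HahnSeries.ofPowerSeries ℤ R (eisenstein4.map (Int.castRingHom R))

theorem single_mul_cancel (R : Type*) [CommRing R] :
    HahnSeries.single (-1 : ℤ) (1 : R) * HahnSeries.single (1 : ℤ) 1 = 1 := by
  simp [HahnSeries.single_mul_single]

theorem isUnit_deltaC (R : Type*) [CommRing R] : IsUnit (deltaC R) := by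
  refine IsUnit.mul (IsUnit.of_mul_eq_one _ ((mul_comm _ _).trans (single_mul_cancel R))) ?_
  refine IsUnit.map _ (PowerSeries.isUnit_iff_constantCoeff.mpr ?_)
  rw [← PowerSeries.coeff_zero_eq_constantCoeff, PowerSeries.coeff_map,
    PowerSeries.coeff_zero_eq_constantCoeff, constantCoeff_dedekindEtaUnit, map_one]
  exact isUnit_one

theorem jqModC_mul_deltaC (R : Type*) [CommRing R] : jqModC R * deltaC R = e4C R ^ 3 := by
  rw [jqModC, deltaC, e4C, mul_mul_mul_comm, single_mul_cancel, one_mul, ← map_mul, ← map_mul,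
    ← map_pow, ← map_pow, jNum, mul_assoc, mul_comm dedekindEtaUnitInv, dedekindEtaUnit_mul_inv,
    mul_one]

theorem theta_jqModC_mul_deltaC_sq (R : Type*) [CommRing R] :
    (theta (jqModC R) * deltaC R) ^ 2 =
      e4C R ^ 4 * (e4C R ^ 3 - 1728 * deltaC R) := by
  have h := congrArg (fun g : PowerSeries ℤ =>
    HahnSeries.ofPowerSeries ℤ R (g.map (Int.castRingHom R))) thetaP_jNum
  simp only [map_pow, map_mul, map_sub, map_ofNat, PowerSeries.map_X] at h
  rw [← thetaP_map, HahnSeries.ofPowerSeries_X] at h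
  rw [deltaC, e4C]
  refine Eq.trans ?_ h
  rw [jqModC, theta_mul, theta_single, theta_ofPowerSeries]
  simp only [Int.cast_neg, Int.cast_one, mul_one, HahnSeries.single_neg]
  have hs := single_mul_cancel R
  linear_combination
    ((HahnSeries.ofPowerSeries ℤ R (thetaP (jNum.map (Int.castRingHom R))) -
        HahnSeries.ofPowerSeries ℤ R (jNum.map (Int.castRingHom R))) *
      HahnSeries.ofPowerSeries ℤ R (dedekindEtaUnit.map (Int.castRingHom R))) ^ 2 *
      (HahnSeries.single (-1 : ℤ) (1 : R) * HahnSeries.single (1 : ℤ) 1 + 1) * hs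

/-- `(θj)⁶ = j⁴ (j - 1728)³ Δ` -/
theorem theta_jqModC_pow_six (R : Type*) [CommRing R] :
    theta (jqModC R) ^ 6 = jqModC R ^ 4 * (jqModC R - 1728) ^ 3 * deltaC R := by
  refine ((isUnit_deltaC R).pow 6).mul_right_cancel ?_
  have h1 := jqModC_mul_deltaC R
  calc theta (jqModC R) ^ 6 * deltaC R ^ 6
      = ((theta (jqModC R) * deltaC R) ^ 2) ^ 3 := by ring
    _ = (e4C R ^ 3) ^ 4 * (e4C R ^ 3 - 1728 * deltaC R) ^ 3 := by
        rw [theta_jqModC_mul_deltaC_sq]; ring
    _ = _ := by rw [← h1]; ring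

/-- integral level one forms of weight `12 m` are integral polynomials in `E₄³` and `Δ` -/
theorem exists_int_poly : ∀ (m : ℕ) (G : PowerSeries ℤ),
    (∃ F : ℍ → ℂ, IsMF 1 (12 * m) F ∧ qx F = G.map (Int.castRingHom ℂ)) →
    ∃ Q : ℕ → ℤ, Q m = G.coeff 0 ∧
      G = ∑ i ∈ Finset.range (m + 1), Q i •
        ((eisenstein4 ^ 3) ^ i * (PowerSeries.X * dedekindEtaUnit) ^ (m - i)) := by
  intro m
  induction m with
  | zero =>
    rintro G ⟨F, hF, hFG⟩
    refine ⟨fun _ => G.coeff 0, rfl, ?_⟩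
    obtain ⟨c, hc⟩ := ModularForm.eq_const_of_weight_zero ((hF.cast (by simp) : IsMF 1 0 F).toLevelOne)
    rw [IsMF.coe_toLevelOne] at hc
    have hG : qx F = PowerSeries.C c := by
      rw [coeff_unique' hF.good (c := fun n => if n = 0 then c else 0)]
      · ext n; simp [PowerSeries.coeff_C]
      · intro τ
        convert hasSum_single (f := fun n : ℕ => (if n = 0 then c else 0) * qp τ ^ n) 0
          (fun n hn => by simp [hn]) using 1
        simp [hc]
    refine PowerSeries.ext fun n => ?_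
    rcases eq_or_ne n 0 with rfl | hn
    · simp
    · have h := congrArg (PowerSeries.coeff n) (hFG.symm.trans hG)
      rw [PowerSeries.coeff_map, PowerSeries.coeff_C, if_neg hn] at h
      have h' : G.coeff n = 0 := Int.cast_eq_zero.mp h
      simp only [zero_add, Finset.sum_range_one, pow_zero, mul_one, Nat.sub_zero]
      rw [h', map_zsmul, PowerSeries.coeff_one, if_neg hn, smul_zero]
  | succ m ih =>
    rintro G ⟨F, hF, hFG⟩
    set φ := Int.castRingHom ℂ
    set c := G.coeff 0
    have hM : IsMF 1 (12 * ((m + 1 : ℕ) : ℤ)) ((ModularForm.E₄ : ℍ → ℂ) ^ (3 * (m + 1))) :=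
      (isMF_E4.pow _).cast (by push_cast; ring)
    have hH : IsMF 1 (12 * ((m + 1 : ℕ) : ℤ))
        (F - (c : ℂ) • (ModularForm.E₄ : ℍ → ℂ) ^ (3 * (m + 1))) :=
      Submodule.sub_mem (MF 1 _) hF (Submodule.smul_mem (MF 1 _) _ hM)
    have hqH : qx (F - (c : ℂ) • (ModularForm.E₄ : ℍ → ℂ) ^ (3 * (m + 1))) =
        (G - c • (eisenstein4 ^ 3) ^ (m + 1)).map φ := by
      rw [Good.qx_sub hF.good (hM.good.smul _), Good.qx_smul _ hM.good, Good.qx_pow isMF_E4.good,
        qx_E4, hFG, map_sub, map_zsmul, map_pow, map_pow, ← pow_mul, Int.cast_smul_eq_zsmul]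
    have h0Z : (G - c • (eisenstein4 ^ 3) ^ (m + 1)).coeff 0 = 0 := by
      simp [c, PowerSeries.coeff_zero_eq_constantCoeff]
    have h0 : (UpperHalfPlane.qExpansion 1 hH.toLevelOne).coeff 0 = 0 := by
      rw [IsMF.coe_toLevelOne]
      show (qx _).coeff 0 = 0
      rw [hqH, PowerSeries.coeff_map, h0Z, map_zero]
    let K := CuspForm.discriminantEquiv (ModularForm.toCuspForm hH.toLevelOne h0)
    have hK : IsMF 1 (12 * (m : ℤ)) (K : ℍ → ℂ) :=
      (isMF_levelOne K).cast (by push_cast; ring)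
    obtain ⟨G', hG'⟩ : (PowerSeries.X : PowerSeries ℤ) ∣ G - c • (eisenstein4 ^ 3) ^ (m + 1) :=
      PowerSeries.X_dvd_iff.mpr (by rw [← PowerSeries.coeff_zero_eq_constantCoeff]; exact h0Z)
    have hKq : qx (K : ℍ → ℂ) = (G' * dedekindEtaUnitInv).map φ := by
      have h1 : ModularForm.discriminant * (K : ℍ → ℂ) =
          F - (c : ℂ) • (ModularForm.E₄ : ℍ → ℂ) ^ (3 * (m + 1)) :=
        funext fun τ => (ModularForm.discriminant_mul_discriminantEquiv_apply _ τ).trans rfl
      have h2 := congrArg qx h1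
      rw [Good.qx_mul isMF_delta.good hK.good, qx_discriminant, hqH, hG'] at h2
      have hU : dedekindEtaUnit.map φ * dedekindEtaUnitInv.map φ = 1 := by
        rw [← map_mul, dedekindEtaUnit_mul_inv, map_one]
      rw [map_mul] at h2 ⊢
      rw [PowerSeries.map_X, mul_assoc] at h2
      have h3 := mul_left_cancel₀ PowerSeries.X_ne_zero h2
      linear_combination (dedekindEtaUnitInv.map φ) * h3 - qx (K : ℍ → ℂ) * hU
    obtain ⟨Q, -, hQe⟩ := ih (G' * dedekindEtaUnitInv) ⟨_, hK, hKq⟩
    refine ⟨fun i => if i = m + 1 then c else Q i, by simp [c], ?_⟩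
    have hG : G = c • (eisenstein4 ^ 3) ^ (m + 1) +
        (PowerSeries.X * dedekindEtaUnit) * (G' * dedekindEtaUnitInv) := by
      rw [mul_mul_mul_comm, dedekindEtaUnit_mul_inv, mul_one, ← hG', add_sub_cancel]
    conv_lhs => rw [hG, hQe]
    rw [Finset.sum_range_succ _ (m + 1), add_comm, Finset.mul_sum]
    congr 1
    · refine Finset.sum_congr rfl fun i hi => ?_
      rw [Finset.mem_range] at hi
      simp only [if_neg (show ¬ i = m + 1 by omega)]
      rw [show m + 1 - i = (m - i) + 1 by omega, pow_succ, mul_smul_comm]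
      congr 1
      ring
    · simp

/-- `q` divides the denominator of `B_{q-1}` -/
theorem prime_dvd_bernoulli_den {q : ℕ} (hq : q.Prime) (hq2 : q ≠ 2) :
    q ∣ (bernoulli (q - 1)).den := by
  obtain ⟨k, hk⟩ : 2 ∣ q - 1 :=
    (hq.even_sub_one hq2).two_dvd
  obtain ⟨z, hz⟩ := Bernoulli.vonStaudt_clausen k
  set B := bernoulli (2 * k)
  set s := (Finset.range (2 * k + 2)).filter fun r => r.Prime ∧ (r - 1) ∣ 2 * k
  have hqs : q ∈ s := by
    have := hq.two_le
    simp only [s, Finset.mem_filter, Finset.mem_range]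
    exact ⟨by omega, hq, by rw [← hk]⟩
  rw [hk]
  by_contra hnd
  set L : ℕ := ∏ r ∈ s.erase q, r
  have hrest : ∃ K : ℤ, (L : ℚ) * ∑ r ∈ s.erase q, (1 : ℚ) / r = K := by
    refine ⟨∑ r ∈ s.erase q, ((L / r : ℕ) : ℤ), ?_⟩
    rw [Finset.mul_sum]
    rw [Int.cast_sum]
    refine Finset.sum_congr rfl fun r hr => ?_
    have hr0 : r ≠ 0 := (Finset.mem_filter.mp (Finset.mem_of_mem_erase hr)).2.1.ne_zero
    rw [Int.cast_natCast, Nat.cast_div (show r ∣ L from Finset.dvd_prod_of_mem _ hr) (by exact_mod_cast hr0)]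
    field_simp
  obtain ⟨K, hK⟩ := hrest
  rw [← Finset.add_sum_erase _ _ hqs] at hz
  have hmain : (q : ℚ) * L * B.num = ((q : ℚ) * (z * L - K) - L) * B.den := by
    have hB : B * B.den = B.num := Rat.mul_den_eq_num B
    have hq0 : (q : ℚ) ≠ 0 := by exact_mod_cast hq.ne_zero
    rw [← hB, ← hK]
    have : (q : ℚ) * (1 / q) = 1 := by field_simp
    linear_combination -((q : ℚ) * L * B.den * hz) - (L : ℚ) * B.den * this
  have hdvd : (q : ℤ) ∣ (L : ℤ) * B.den := by
    refine ⟨(z * L - K) * B.den - L * B.num, ?_⟩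
    have : ((q * L * B.num : ℤ) : ℚ) = ((((q : ℤ) * (z * L - K) - L) * B.den : ℤ) : ℚ) := by
      push_cast; exact hmain
    have := Int.cast_injective this
    linear_combination this
  rcases (Nat.prime_iff_prime_int.mp hq).dvd_or_dvd hdvd with h | h
  · have h' : q ∣ L := by exact_mod_cast h
    obtain ⟨r, hr, hqr⟩ := (hq.prime.dvd_finsetProd_iff _).mp h'
    have := ((Finset.mem_filter.mp (Finset.mem_of_mem_erase hr)).2.1)
    exact Finset.ne_of_mem_erase hr ((Nat.prime_dvd_prime_iff_eq hq this).mp hqr).symm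
  · exact hnd (by exact_mod_cast h)

/-- an integral level one form of weight `12 (q - 1)` congruent to a non-zero constant mod `q` -/
theorem exists_form_congr_const {q : ℕ} (hq : q.Prime) :
    ∃ (G : PowerSeries ℤ) (F : ℍ → ℂ) (b : ℤ), IsMF 1 (12 * ((q - 1 : ℕ) : ℤ)) F ∧
      qx F = G.map (Int.castRingHom ℂ) ∧ ¬ (q : ℤ) ∣ b ∧
      ∀ n, (q : ℤ) ∣ (G - PowerSeries.C b).coeff n := by
  rcases lt_or_ge q 5 with h5 | h5
  · refine ⟨(eisenstein4 ^ 3) ^ (q - 1), (ModularForm.E₄ : ℍ → ℂ) ^ (3 * (q - 1)), 1,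
      (isMF_E4.pow _).cast (by push_cast; ring), ?_, ?_, ?_⟩
    · rw [Good.qx_pow isMF_E4.good, qx_E4, map_pow, map_pow, ← pow_mul]
    · intro h
      exact hq.ne_one (Nat.dvd_one.mp (by exact_mod_cast h))
    · have h240 : (q : ℤ) ∣ 240 := by
        interval_cases q <;> first | (norm_num; done) | (norm_num at hq)
      have : Fact q.Prime := ⟨hq⟩
      intro n
      rw [← ZMod.intCast_zmod_eq_zero_iff_dvd]
      have he : eisenstein4.map (Int.castRingHom (ZMod q)) = 1 := by
        ext n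
        have h0 : ((240 : ℤ) : ZMod q) = 0 := (ZMod.intCast_zmod_eq_zero_iff_dvd _ _).mpr h240
        rw [PowerSeries.coeff_map, eisenstein4, PowerSeries.coeff_mk, PowerSeries.coeff_one]
        split_ifs <;> simp [Int.cast_ofNat] at h0 ⊢
        simp [h0]
      have h := congrArg (PowerSeries.coeff n) (congrArg (fun x => (x ^ 3) ^ (q - 1) - 1) he)
      simp only [one_pow, sub_self, map_zero] at h
      rw [← map_pow, ← map_pow, ← map_one (PowerSeries.map (Int.castRingHom (ZMod q))), ← map_sub,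
        PowerSeries.coeff_map] at h
      simpa using h
  · obtain ⟨hk3, hk2⟩ : 3 ≤ q - 1 ∧ Even (q - 1) := ⟨by omega, hq.even_sub_one (by omega)⟩
    set B := bernoulli (q - 1)
    have hden := prime_dvd_bernoulli_den hq (by omega)
    obtain ⟨d, hd⟩ := hden
    set e : PowerSeries ℤ := PowerSeries.mk fun n =>
      if n = 0 then B.num else -(2 * ((q - 1 : ℕ) : ℤ) * ((q : ℤ) * d) * (σ (q - 1 - 1) n : ℤ))
    have hB0 : (B.num : ℤ) ≠ 0 := fun h => by
      have h1 := B.reduced
      rw [h, Int.natAbs_zero, Nat.coprime_zero_left] at h1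
      have : q ∣ B.den := ⟨d, hd⟩
      rw [h1] at this
      exact hq.ne_one (Nat.dvd_one.mp this)
    have hqb : ¬ (q : ℤ) ∣ B.num := by
      intro h
      have hg := Nat.dvd_gcd (Int.natCast_dvd.mp h) (show q ∣ B.den from ⟨d, hd⟩)
      rw [B.reduced] at hg
      exact hq.ne_one (Nat.dvd_one.mp hg)
    set E : ℍ → ℂ := ⇑(ModularForm.E (k := q - 1) hk3)
    have hE : IsMF 1 ((q - 1 : ℕ) : ℤ) E := isMF_levelOne _
    have hqx : qx ((B.num : ℂ) • E) = e.map (Int.castRingHom ℂ) := by
      rw [Good.qx_smul _ hE.good]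
      ext n
      rw [PowerSeries.coeff_smul, qx, EisensteinSeries.E_qExpansion_coeff hk3 hk2,
        PowerSeries.coeff_map, PowerSeries.coeff_mk, smul_eq_mul]
      split_ifs with hn
      · simp
      · have hbC : (bernoulli (q - 1) : ℂ) = (B.num : ℂ) / (B.den : ℂ) := by
          rw [Rat.cast_def]
        have hnC : (B.num : ℂ) ≠ 0 := Int.cast_ne_zero.mpr hB0
        have hdC : ((B.den : ℕ) : ℂ) = (q : ℂ) * (d : ℂ) := by rw [hd]; push_cast; ring
        rw [hbC, hdC]
        simp only [map_neg, map_mul, map_ofNat, eq_intCast, Int.cast_natCast]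
        field_simp
    refine ⟨e ^ 12, ((B.num : ℂ) • E) ^ 12, B.num ^ 12,
      (IsMF.pow (Submodule.smul_mem (MF 1 _) _ hE) 12).cast (by push_cast; ring), ?_,
      fun h => hqb ((Nat.prime_iff_prime_int.mp hq).dvd_of_dvd_pow h), fun n => ?_⟩
    · rw [Good.qx_pow (hE.good.smul _), hqx, map_pow]
    · have : Fact q.Prime := ⟨hq⟩
      rw [← ZMod.intCast_zmod_eq_zero_iff_dvd]
      have he : e.map (Int.castRingHom (ZMod q)) = PowerSeries.C (B.num : ZMod q) := by
        ext i
        rw [PowerSeries.coeff_map, PowerSeries.coeff_mk, PowerSeries.coeff_C]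
        split_ifs <;> simp
      have h : ((e ^ 12 - PowerSeries.C (B.num ^ 12)).map (Int.castRingHom (ZMod q))).coeff n = 0 := by
        rw [map_sub, map_pow, he, PowerSeries.map_C, ← map_pow, eq_intCast, Int.cast_pow, sub_self,
          map_zero]
      rw [PowerSeries.coeff_map, eq_intCast] at h
      exact h

/-- `Δ^{-(q-1)}` is a monic polynomial of degree `q - 1` in `j` modulo `q`. -/
theorem exists_hasse_poly (q : ℕ) [Fact q.Prime] :
    ∃ P : Polynomial (ZMod q), P.Monic ∧ P.natDegree = q - 1 ∧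
      ∀ (k : Type) [Field k] [Algebra (ZMod q) k],
        Polynomial.aeval (jqModC k) (P.map (algebraMap (ZMod q) k)) * deltaC k ^ (q - 1) = 1 := by
  obtain ⟨G, F, b, hF, hFG, hb, hcong⟩ := exists_form_congr_const (Fact.out : q.Prime)
  obtain ⟨Q, hQm, hQe⟩ := exists_int_poly (q - 1) G ⟨F, hF, hFG⟩
  have hb0 : (b : ZMod q) ≠ 0 := fun h => hb ((ZMod.intCast_zmod_eq_zero_iff_dvd _ _).mp h)
  have hlead : (Q (q - 1) : ZMod q) = b := by
    rw [hQm, ← sub_eq_zero, ← Int.cast_sub, ZMod.intCast_zmod_eq_zero_iff_dvd]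
    simpa [PowerSeries.coeff_C] using hcong 0
  set P : Polynomial (ZMod q) :=
    Polynomial.C ((b : ZMod q)⁻¹) *
      ∑ i ∈ Finset.range (q - 1 + 1), Polynomial.monomial i (Q i : ZMod q)
  have hcoeff : P.coeff (q - 1) = 1 := by
    simp [P, Polynomial.finsetSum_coeff, Polynomial.coeff_monomial, hlead, hb0]
  have hdeg : P.natDegree ≤ q - 1 := by
    refine Polynomial.natDegree_C_mul_le _ _ |>.trans ?_
    exact Polynomial.natDegree_sum_le_of_forall_le _ _ fun i hi =>
      (Polynomial.natDegree_monomial_le _).trans (by have := Finset.mem_range.mp hi; omega)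
  refine ⟨P, Polynomial.monic_of_natDegree_le_of_coeff_eq_one _ hdeg hcoeff,
    le_antisymm hdeg (Polynomial.le_natDegree_of_ne_zero (by rw [hcoeff]; exact one_ne_zero)),
    fun k _ _ => ?_⟩
  have : CharP k q := charP_of_injective_algebraMap (algebraMap (ZMod q) k).injective q
  have hG : G.map (Int.castRingHom k) = PowerSeries.C ((b : k)) := by
    ext n
    rw [PowerSeries.coeff_map, eq_intCast, PowerSeries.coeff_C, ← sub_eq_zero]
    have h := (CharP.intCast_eq_zero_iff k q _).mpr (hcong n)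
    rw [map_sub, PowerSeries.coeff_C, Int.cast_sub] at h
    split_ifs at h ⊢ with hn
    · exact h
    · simpa using h
  have h := congrArg (fun g : PowerSeries ℤ =>
    HahnSeries.ofPowerSeries ℤ k (g.map (Int.castRingHom k))) hQe
  simp only [map_sum, map_zsmul, map_mul, map_pow, PowerSeries.map_X, HahnSeries.ofPowerSeries_X,
    hG] at h
  rw [HahnSeries.ofPowerSeries_C] at h
  have hbk : (b : k) ≠ 0 := by
    rw [← map_intCast (algebraMap (ZMod q) k)]
    exact (map_ne_zero _).mpr hb0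
  calc Polynomial.aeval (jqModC k) (P.map (algebraMap (ZMod q) k)) * deltaC k ^ (q - 1)
      = HahnSeries.C ((b : k)⁻¹) * ∑ i ∈ Finset.range (q - 1 + 1),
          Q i • ((e4C k ^ 3) ^ i * deltaC k ^ (q - 1 - i)) := by
        simp only [P, Polynomial.map_mul, Polynomial.map_C, map_mul, Polynomial.map_sum, map_sum,
          Polynomial.map_monomial, Polynomial.aeval_monomial, Polynomial.aeval_C, map_inv₀,
          map_intCast]
        rw [mul_assoc, Finset.sum_mul, ← map_intCast (HahnSeries.C : k →+* LaurentSeries k) b,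
          ← map_inv₀]
        congr 1
        refine Finset.sum_congr rfl fun i hi => ?_
        rw [zsmul_eq_mul, ← jqModC_mul_deltaC, mul_pow, mul_assoc, mul_assoc, ← pow_add,
          Nat.add_sub_cancel' (by have := Finset.mem_range.mp hi; omega)]
    _ = HahnSeries.C ((b : k)⁻¹) * HahnSeries.C (b : k) := by
        rw [h]; rfl
    _ = 1 := by rw [← map_mul, inv_mul_cancel₀ hbk, map_one]

end FLTAgent.SS2
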