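import Fermat.Agent.SS2.FibLattice

/-!
Finiteness of the chart rings and twisted sections of a fibre, and: a twist having residual roots of
its trivialisation on both charts is principal.
-/

set_option autoImplicit false
set_option linter.unusedSectionVars false
set_option linter.unusedVariables false

noncomputable section

open AlgebraicCurve IsLocalRing
open FLTAgent.RR (Bd Pol)

namespace FLTAgent.SS2.Fib

variable {K : Type*} [Field K] [IsAlgClosed K] [CharZero K] {A : ValuationSubring K}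
  {F : Type*} [Field F] [Algebra K F] [RR.FnField K F]
  {Fs : Type*} [Field Fs] [Algebra (ResidueField A) Fs] (M : Fib K A F Fs) {n : ℕ}

theorem isNoetherianRing_R (s : Bool) : IsNoetherianRing (M.R s) := M.isNoetherianRing_R' s

theorem I_fg (hn : (n : ResidueField A) ≠ 0) (W : M.Twist n) (s : Bool) :
    (M.I W.D s).FG := M.fg_of_ne_zero (fun h => hn (by simp [h])) W s

local notation "ι'" => algebraMap K F

variable {M}

theorem inv_natCast_mem_R (hn : (n : ResidueField A) ≠ 0) (s : Bool) : ι' ((n : K)⁻¹) ∈ M.R s := by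
  have h : (n : K)⁻¹ ∈ M.T := inv_mem (natCast_mem M.T n)
  exact M.const_mem_R s ⟨⟨_, h⟩, SS.inv_natCast_mem (K := K) (A := A) hn⟩

theorem natCast_mul_inv (hn : (n : ResidueField A) ≠ 0) : (n : F) * ι' ((n : K)⁻¹) = 1 := by
  rw [← map_natCast (algebraMap K F), ← map_mul, mul_inv_cancel₀, map_one]
  intro h0
  exact hn (by simp [Nat.cast_eq_zero.mp h0])

/-- the defect of a section lies in the chart ring -/
theorem defect_mem {W : M.Twist n} {s : Bool} {x : F} (hx : x ∈ M.I W.D s) :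
    x ^ n * W.f - 1 ∈ M.R s := by
  refine sub_mem (⟨M.GI.mul_mem (pow_mem hx.1 n) (M.mem_GI.2 W.f_mem), fun P hP => ?_⟩ : _ ∈ M.R s)
    (one_mem _)
  rw [Finsupp.zero_apply]
  have hf : Bd P W.f (-((n : ℤ) * W.D P)) := (RR.bd_iff_ord W.f_ne).2 (by rw [neg_neg, W.ord_f])
  simpa using ((hx.2 P hP).pow n).mul hf

theorem red_pow_f {W : M.Twist n} (b : Fin 3) {x : F} (hx : x ∈ M.G b) :
    M.red b (x ^ n * W.f) = M.red b x ^ n := by
  rw [M.red_mul b _ (pow_mem hx n) _ (W.f_mem b), M.red_pow b hx, W.red_f, mul_one]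

theorem pow_div_q_mem {b : Fin 3} {z : F} (hz : z ∈ M.G b) (hr : M.red b z = 0) {j k : ℕ}
    (hk : M.e b * j ≤ k) : z ^ k * (ι' (M.q : K) ^ j)⁻¹ ∈ M.G b := by
  obtain ⟨d, rfl⟩ := Nat.exists_eq_add_of_le hk
  have hϖ := M.ϖ_ne b
  have e : z ^ (M.e b * j + d) * (ι' (M.q : K) ^ j)⁻¹ =
      (M.ϖ b ^ M.e b * (ι' (M.q : K))⁻¹) ^ j * (z ^ (M.e b * j) * (M.ϖ b ^ (M.e b * j))⁻¹) * z ^ d := by
    rw [mul_pow, inv_pow, ← pow_mul, pow_add]
    field_simp
  rw [e]
  exact mul_mem (mul_mem (pow_mem (M.ϖ_pow_div_q b).1 _) (M.pow_div_ϖ_mem hz hr _)) (pow_mem hz d)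

/-- Newton iteration on one chart -/
theorem newton_chart (hn : (n : ResidueField A) ≠ 0) {W : M.Twist n} {s : Bool} {x : F}
    (hx : x ∈ M.I W.D s) (hr : ∀ b, M.red b x ^ n = 1) (j : ℕ) :
    ∃ x' ∈ M.I W.D s, (∀ b, M.red b x' = M.red b x) ∧
      (x' ^ n * W.f - 1) * (ι' (M.q : K) ^ j)⁻¹ ∈ M.GI := by
  classical
  set z := x ^ n * W.f - 1 with hz
  have hzR := defect_mem hx
  have hG : ∀ {y : F}, y ∈ M.R s → ∀ b, y ∈ M.G b := fun hy b => M.mem_GI.1 hy.1 b
  have hz0 : ∀ b, M.red b z = 0 := fun b => by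
    rw [hz, M.red_sub b (mul_mem (pow_mem (M.mem_GI.1 hx.1 b) n) (W.f_mem b)) (one_mem _),
      red_pow_f b (M.mem_GI.1 hx.1 b), hr, M.red_one, sub_self]
  have iter : ∀ l : ℕ, ∃ x' ∈ M.I W.D s, (∀ b, M.red b x' = M.red b x) ∧
      ∃ r ∈ M.R s, x' ^ n * W.f - 1 = z ^ (2 ^ l) * r := by
    intro l
    induction l with
    | zero => exact ⟨x, hx, fun _ => rfl, 1, one_mem _, by simp [hz]⟩
    | succ l ih =>
      obtain ⟨x', hx', hxr, r, hrR, he⟩ := ih
      set c := ι' ((n : K)⁻¹) with hc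
      have hcR := inv_natCast_mem_R (M := M) hn s
      set t := z ^ (2 ^ l) * r with ht
      have htR : t ∈ M.R s := mul_mem (pow_mem hzR _) hrR
      obtain ⟨u, hu, hpow⟩ := SS.exists_one_sub_pow (M.R s) (s := c) (t := t) hcR htR n
      have hns : (n : F) * c = 1 := natCast_mul_inv (A := A) hn
      have hstepR : 1 - c * t ∈ M.R s := sub_mem (one_mem _) (mul_mem hcR htR)
      refine ⟨x' * (1 - c * t), ?_, fun b => ?_, r ^ 2 * (u + t * u - 1), ?_, ?_⟩
      · rw [mul_comm]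
        exact (M.I W.D s).smul_mem ⟨_, hstepR⟩ hx'
      · rw [M.red_mul b _ (M.mem_GI.1 hx'.1 b) _ (hG hstepR b), M.red_sub b (one_mem _) (hG (mul_mem hcR htR) b),
          M.red_one, M.red_mul b _ (hG hcR b) _ (hG htR b), ht,
          M.red_mul b _ (pow_mem (hG hzR b) _) _ (hG hrR b), M.red_pow b (hG hzR b), hz0,
          zero_pow (pow_ne_zero _ two_ne_zero), zero_mul, mul_zero, sub_zero, mul_one, hxr]
      · exact mul_mem (pow_mem hrR 2) (sub_mem (add_mem hu (mul_mem htR hu)) (one_mem _))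
      · have he' : x' ^ n * W.f = 1 + t := sub_eq_iff_eq_add'.1 he
        rw [mul_pow, mul_right_comm, he', hpow, hns, one_mul, ht, show (2 : ℕ) ^ (l + 1) = 2 ^ l * 2 from pow_succ 2 l,
          pow_mul]
        ring
  obtain ⟨x', hx', hxr, r, hrR, he⟩ := iter (M.emax * j)
  refine ⟨x', hx', hxr, M.mem_GI.2 fun b => ?_⟩
  rw [he, mul_right_comm]
  exact mul_mem (pow_div_q_mem (hG hzR b) (hz0 b) ((Nat.mul_le_mul_right j (M.e_le b)).trans
    (Nat.lt_two_pow_self).le)) (hG hrR b)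

/-- approximate roots with the same restrictions are congruent -/
theorem sub_div_mem (hn : (n : ResidueField A) ≠ 0) {W : M.Twist n} {x y : F} (hx : x ∈ M.GI)
    (hy : y ∈ M.GI) (ω : Fin 3 → ResidueField A) (hω : ∀ b, ω b ^ n = 1)
    (hxr : ∀ b, M.red b x = algebraMap (ResidueField A) Fs (ω b))
    (hyr : ∀ b, M.red b y = algebraMap (ResidueField A) Fs (ω b)) {j : ℕ}
    (h : (x ^ n * W.f - y ^ n * W.f) * (ι' (M.q : K) ^ j)⁻¹ ∈ M.GI) :
    (x - y) * (ι' (M.q : K) ^ j)⁻¹ ∈ M.GI := by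
  refine M.mem_GI.2 fun b => ?_
  have hxb := M.mem_GI.1 hx b
  have hyb := M.mem_GI.1 hy b
  set S := ∑ i ∈ Finset.range n, x ^ i * y ^ (n - 1 - i) with hS
  have hS' : S ∈ M.G b := sum_mem fun i _ => mul_mem (pow_mem hxb i) (pow_mem hyb _)
  have hn0 : n ≠ 0 := fun h => hn (by simp [h])
  have hSr : M.red b (S * W.f) ≠ 0 := by
    rw [M.red_mul b _ hS' _ (W.f_mem b), W.red_f, mul_one, hS,
      M.red_sum b _ _ fun i _ => mul_mem (pow_mem hxb i) (pow_mem hyb _)]
    rw [Finset.sum_congr rfl fun i (hi : i ∈ Finset.range n) => by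
      rw [M.red_mul b _ (pow_mem hxb i) _ (pow_mem hyb _), M.red_pow b hxb, M.red_pow b hyb, hxr, hyr,
        ← pow_add, show i + (n - 1 - i) = n - 1 by rw [Finset.mem_range] at hi; omega]]
    rw [Finset.sum_const, Finset.card_range, nsmul_eq_mul, ← map_natCast (algebraMap (ResidueField A) Fs),
      ← map_pow, ← map_mul]
    refine (_root_.map_ne_zero _).2 (mul_ne_zero hn (pow_ne_zero _ fun h0 => ?_))
    have := hω b
    rw [h0, zero_pow hn0] at this
    exact zero_ne_one this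
  have hne : S * W.f ≠ 0 := fun h0 => hSr (by rw [h0, M.red_zero])
  have e : (x - y) * (ι' (M.q : K) ^ j)⁻¹ =
      (x ^ n * W.f - y ^ n * W.f) * (ι' (M.q : K) ^ j)⁻¹ * (S * W.f)⁻¹ := by
    rw [eq_mul_inv_iff_mul_eq₀ hne, ← sub_mul, ← geom_sum₂_mul, ← hS]
    ring
  rw [e]
  exact mul_mem (M.mem_GI.1 h b) (M.G_inv_mem (mul_mem hS' (W.f_mem b)) hSr).1

theorem pow_congr_mem {W : M.Twist n} {v x : F} (hv : v ∈ M.GI) (hx : x ∈ M.GI) {j : ℕ}
    (h : (v - x) * (ι' (M.q : K) ^ j)⁻¹ ∈ M.GI) :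
    (v ^ n * W.f - x ^ n * W.f) * (ι' (M.q : K) ^ j)⁻¹ ∈ M.GI := by
  have e : (v ^ n * W.f - x ^ n * W.f) * (ι' (M.q : K) ^ j)⁻¹ =
      (∑ i ∈ Finset.range n, v ^ i * x ^ (n - 1 - i)) * ((v - x) * (ι' (M.q : K) ^ j)⁻¹) * W.f := by
    rw [← sub_mul, ← geom_sum₂_mul]; ring
  rw [e]
  exact M.GI.mul_mem (M.GI.mul_mem (sum_mem fun i _ => mul_mem (pow_mem hv i) (pow_mem hx _)) h)
    (M.mem_GI.2 W.f_mem)

/-- approximate solutions to all orders in a lattice give a solution -/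
theorem exists_root (hA : SS.Arch A) (hn : n ≠ 0) (W : M.Twist n) (m : ℕ)
    (happ : ∀ j : ℕ, ∃ v ∈ (M.pair W.D).L m, (v ^ n * W.f - 1) * (ι' (M.q : K) ^ j)⁻¹ ∈ M.GI) :
    ∃ x : F, x ^ n * W.f = 1 := by
  classical
  obtain ⟨d, v, hvL, -, hvrep⟩ := M.exists_lattice_basis W.D m
  obtain ⟨d2, w, hwL, hwK, hwrep⟩ := M.exists_lattice_basis 0 (n * m)
  have hWL : ∀ y : F, y ∈ M.GI → (∀ P : Place K F, Bd P y ((n * m : ℕ) * max (-P.ord M.J) 0)) →
      y ∈ (M.pair (0 : Divisor K F)).L (n * m) := fun y hy hb => M.mem_pair_L.2 ⟨hy, fun P => by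
    have := hb P
    show Bd P y _
    simpa [RR.Pol_apply] using this⟩
  have hone : ∀ P : Place K F, Bd P (1 : F) ((n * m : ℕ) * max (-P.ord M.J) 0) := fun P => by
    have := (RR.Bd.of_algebraMap (v := P) (1 : K)).mono
      (mul_nonneg (Int.natCast_nonneg (n * m)) (le_max_right (-P.ord M.J) 0))
    rwa [map_one] at this
  have hprod : ∀ u : Fin n → F, (∀ i, u i ∈ (M.pair W.D).L m) →
      (∏ i, u i) * W.f ∈ (M.pair (0 : Divisor K F)).L (n * m) := by
    intro u hu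
    refine hWL _ (M.GI.mul_mem (prod_mem fun i _ => (hu i).1) (M.mem_GI.2 W.f_mem)) fun P => ?_
    have h1 : ∀ i, Bd P (u i) ((m : ℤ) * max (-P.ord M.J) 0 + W.D P) := fun i => by
      have := (M.mem_pair_L.1 (hu i)).2 P
      change Bd P (u i) ((m • Pol (K := K) M.J + W.D) P) at this
      simpa [RR.Pol_apply] using this
    have h2 : ∀ s : Finset (Fin n), Bd P (∏ i ∈ s, u i)
        ((s.card : ℤ) * ((m : ℤ) * max (-P.ord M.J) 0 + W.D P)) := by
      intro s
      induction s using Finset.induction with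
      | empty => simpa using RR.Bd.of_algebraMap (v := P) (1 : K)
      | insert i s hi ih =>
        rw [Finset.prod_insert hi, Finset.card_insert_of_notMem hi]
        refine ((h1 i).mul ih).mono (le_of_eq ?_)
        push_cast; ring
    have hf : Bd P W.f (-((n : ℤ) * W.D P)) := (RR.bd_iff_ord W.f_ne).2 (by rw [neg_neg, W.ord_f])
    refine ((h2 Finset.univ).mul hf).mono (le_of_eq ?_)
    rw [Finset.card_univ, Fintype.card_fin]
    push_cast; ring
  choose cf hcf using fun t : Fin n → Fin d => hwrep _ (hprod (fun i => v (t i)) fun i => hvL _)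
  obtain ⟨c1, hc1⟩ := hwrep 1 (hWL 1 M.GI.one_mem hone)
  set P : Fin d2 → MvPolynomial (Fin d) A := fun j =>
    ∑ t : Fin n → Fin d, MvPolynomial.C (M.toA (cf t j)) * ∏ i, MvPolynomial.X (t i)
      - MvPolynomial.C (M.toA (c1 j)) with hP
  have key : ∀ a : Fin d → K, (∑ i, ι' (a i) * v i) ^ n * W.f - 1
      = ∑ j, ι' (MvPolynomial.aeval a (P j)) * w j := by
    intro a
    have e1 : ∀ j, MvPolynomial.aeval a (P j)
        = ∑ t : Fin n → Fin d, ((cf t j : M.T) : K) * ∏ i, a (t i) - ((c1 j : M.T) : K) := fun j => by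
      simp [hP]
      rfl
    simp only [e1, map_sub, map_sum, map_mul, map_prod, sub_mul, Finset.sum_sub_distrib,
      Finset.sum_mul]
    rw [← hc1, Finset.sum_comm, Fintype.sum_pow, Finset.sum_mul]
    congr 1
    refine Finset.sum_congr rfl fun t _ => ?_
    rw [Finset.prod_mul_distrib, mul_assoc, hcf t, Finset.mul_sum]
    exact Finset.sum_congr rfl fun j _ => by ring
  by_contra hno
  push Not at hno
  have hnz : ∀ a : Fin d → K, ∃ j, MvPolynomial.aeval a (P j) ≠ 0 := by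
    intro a
    by_contra h
    push Not at h
    exact hno (∑ i, ι' (a i) * v i) (sub_eq_zero.1 (by rw [key a]; simp [h]))
  have hqm : (M.toA M.qO) ∈ maximalIdeal A :=
    (residue_eq_zero_iff _).1 (M.residue_toA_eq_zero (M.mem_maximal_iff.2 dvd_rfl))
  have hnf : ¬ IsField A := fun h => by
    rw [(IsLocalRing.isField_iff_maximalIdeal_eq.mp h), Ideal.mem_bot] at hqm
    exact M.q_ne (congrArg Subtype.val hqm)
  obtain ⟨c, hc0, hc⟩ := SS.exists_no_approx_zero hnf P hnz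
  obtain ⟨j, hj⟩ := hA c _ hc0 hqm
  obtain ⟨x, hxL, hxj⟩ := happ j
  obtain ⟨a, rfl⟩ := hvrep x hxL
  obtain ⟨l, hl⟩ := hc fun i => M.toA (a i)
  set g := ((∑ i, ι' ((a i : M.T) : K) * v i) ^ n * W.f - 1) * (ι' (M.q : K) ^ j)⁻¹ with hg
  have hgL : g ∈ (M.pair (0 : Divisor K F)).L (n * m) := by
    refine hWL g hxj fun P => ?_
    have hp := (M.mem_pair_L.1 (hprod (fun _ => _) fun _ => hxL)).2 P
    rw [Finset.prod_const, Finset.card_univ, Fintype.card_fin] at hp
    change Bd P _ (((n * m) • Pol (K := K) M.J + 0) P) at hp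
    have hp' : Bd P ((∑ i, ι' ((a i : M.T) : K) * v i) ^ n * W.f) ((n * m : ℕ) * max (-P.ord M.J) 0) := by
      simpa [RR.Pol_apply] using hp
    have := (hp'.sub (hone P)).smul (((M.q : K) ^ j)⁻¹)
    rw [Algebra.smul_def, map_inv₀, map_pow, mul_comm] at this
    exact this
  obtain ⟨cz, hcz⟩ := hwrep g hgL
  have h0 : ∑ k, (((M.q : K) ^ j) * ((cz k : M.T) : K) - MvPolynomial.aeval
      (fun i => ((a i : M.T) : K)) (P k)) • w k = 0 := by
    have hk := key fun i => ((a i : M.T) : K)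
    have hg' : g * ι' (M.q : K) ^ j = (∑ i, ι' ((a i : M.T) : K) * v i) ^ n * W.f - 1 := by
      rw [hg, mul_assoc, inv_mul_cancel₀ (pow_ne_zero _ M.q_ne'), mul_one]
    rw [← hg', hcz, Finset.sum_mul] at hk
    simp only [Finset.sum_sub_distrib, Algebra.smul_def, map_sub, sub_mul, map_mul, map_pow]
    rw [sub_eq_zero, ← hk]
    exact Finset.sum_congr rfl fun k _ => by ring
  have h1 := sub_eq_zero.1 (Fintype.linearIndependent_iff.1 hwK _ h0 l)
  refine hl (hj.trans ⟨M.toA (cz l), Subtype.ext ?_⟩)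
  show ((MvPolynomial.eval (fun i => M.toA (a i)) (P l) : A) : K) = _
  refine ((MvPolynomial.aeval_algebraMap_apply (B := K) (x := fun i => M.toA (a i)) (p := P l)).symm.trans
    h1.symm).trans ?_
  push_cast
  rfl

variable (M)

theorem exists_principal (hA : SS.Arch A) (hn : (n : ResidueField A) ≠ 0) (W : M.Twist n)
    (ω : Fin 3 → ResidueField A) (hω : ∀ b, ω b ^ n = 1)
    (hroot : ∀ s, ∃ x ∈ M.I W.D s, ∀ b, M.red b x = algebraMap (ResidueField A) Fs (ω b)) :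
    ∃ x : F, x ≠ 0 ∧ ∀ P : Place K F, W.D P = P.ord x := by
  have hn0 : n ≠ 0 := fun h => hn (by simp [h])
  obtain ⟨m, hsurj, -⟩ := M.exists_stable hn0 W
  choose x0 hx0 hx0r using hroot
  have hpow : ∀ s b, M.red b (x0 s) ^ n = 1 := fun s b => by
    rw [hx0r, ← map_pow, hω, map_one]
  have happ : ∀ j : ℕ, ∃ v ∈ (M.pair W.D).L m,
      (v ^ n * W.f - 1) * (ι' (M.q : K) ^ j)⁻¹ ∈ M.GI := by
    intro j
    obtain ⟨x, hx, hxr, hxj⟩ := newton_chart hn (hx0 false) (hpow false) j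
    obtain ⟨y, hy, hyr, hyj⟩ := newton_chart hn (hx0 true) (hpow true) j
    have hxy : (x - y) * (ι' (M.q : K) ^ j)⁻¹ ∈ M.GI :=
      sub_div_mem hn hx.1 hy.1 ω hω (fun b => (hxr b).trans (hx0r false b))
        (fun b => (hyr b).trans (hx0r true b))
        (by rw [← sub_sub_sub_cancel_right _ _ (1 : F), sub_mul]; exact M.GI.sub_mem hxj hyj)
    have hyC : M.OnChart W.D true ((M.J ^ m)⁻¹ * y) := by
      intro P hP
      have h : Bd P ((M.J ^ m)⁻¹) 0 := by
        rw [← inv_pow]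
        have := (M.Jc_mem_R true).2 P hP
        simpa [Jc] using this.pow m
      simpa using h.mul (hy.2 P hP)
    obtain ⟨v, hv, hvx⟩ := M.exists_lift (hsurj m le_rfl) j x y hx.1 hx.2 hy.1 hyC hxy
    refine ⟨v, hv, ?_⟩
    have := M.GI.add_mem (pow_congr_mem (W := W) hv.1 hx.1 hvx) hxj
    rwa [← add_mul, sub_add_sub_cancel] at this
  obtain ⟨x, hx⟩ := exists_root hA hn0 W m happ
  have hx0' : x ≠ 0 := by rintro rfl; rw [zero_pow hn0, zero_mul] at hx; exact zero_ne_one hx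
  refine ⟨x⁻¹, inv_ne_zero hx0', fun P => ?_⟩
  have h1 := congrArg P.ord hx
  rw [P.ord_mul (pow_ne_zero _ hx0') W.f_ne, RR.ord_pow, ← W.ord_f,
    show P.ord (1 : F) = 0 by simpa using RR.ord_algebraMap P (1 : K), ← mul_add] at h1
  rw [P.ord_inv]
  rcases mul_eq_zero.mp h1 with h2 | h2
  · exact absurd h2 (by exact_mod_cast hn0)
  · omega

end FLTAgent.SS2.Fib
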