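import Fermat.Agent.SS2.BranchesGauss
import Fermat.Agent.SS2.Incl
import Fermat.Agent.Reduction.Atkin

/-!
The three expansions of the function field of `X₀(Mq²)`: for a function `a` of level `M` the images
of `(a(τ), a(qτ), a(q²τ))` are `(a(q), a(q^q), a(q^(q²)))`, `(a(q^(q²)), a(q^q), a(q))` and
`(a(ζq), a(q^q), a(q))`.
-/

set_option autoImplicit false
set_option linter.all false
set_option synthInstance.maxHeartbeats 100000
set_option maxHeartbeats 1000000

noncomputable section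

open ModularCurve UpperHalfPlane CongruenceSubgroup AlgebraicCurve
open scoped MatrixGroups Real Manifold
open FLTAgent.Reduction (Qb FB kA up dn)

namespace FLTAgent.SS2

open FLTAgent.ModFun (embC jFun jdM M1 lx scale aff Mod1 Good qp qx)

/-! ### translations -/

/-- `q`-th root of unity `exp(2πik/q)` -/
def cRoot (q : ℕ) (k : ℤ) : ℂ := Complex.exp (2 * π * Complex.I * ((k : ℂ) / q))

theorem qp_aff (q : ℕ) [NeZero q] (k : ℤ) (τ : ℍ) : qp (aff q k q τ) = cRoot q k * qp τ := by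
  have hq : (q : ℂ) ≠ 0 := Nat.cast_ne_zero.mpr (NeZero.ne q)
  simp only [qp, Function.Periodic.qParam, cRoot, ← Complex.exp_add, ModFun.coe_aff]
  congr 1
  field_simp
  push_cast
  ring

theorem mdiff_comp_aff {F : ℍ → ℂ} (hF : MDiff F) (A : ℕ) (B : ℤ) (D : ℕ) [NeZero A] [NeZero D] :
    MDiff fun τ => F (aff A B D τ) := by
  rw [UpperHalfPlane.mdifferentiable_iff] at hF ⊢
  have hc : DifferentiableOn ℂ (fun z : ℂ => ((A : ℂ) * z + B) / D) upperHalfPlaneSet := by
    fun_prop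
  have hmaps : Set.MapsTo (fun z : ℂ => ((A : ℂ) * z + B) / D) upperHalfPlaneSet
      upperHalfPlaneSet := fun z (hz : 0 < z.im) => by
    exact (aff A B D ⟨z, hz⟩).im_pos
  refine (hF.comp hc hmaps).congr fun z (hz : 0 < z.im) => ?_
  simp only [Function.comp_apply]
  rw [ofComplex_apply_of_im_pos hz, ofComplex_apply_of_im_pos (hmaps hz)]
  rfl

theorem periodic_comp_aff {f : ℍ → ℂ} (hf : Function.Periodic (f ∘ ofComplex) 1) (q : ℕ) [NeZero q]
    (k : ℤ) : Function.Periodic ((fun τ => f (aff q k q τ)) ∘ ofComplex) 1 :=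
  ModFun.periodic_ofComplex_of fun z hz hz' => by
    have h := hf ((aff q k q ⟨z, hz⟩ : ℍ) : ℂ)
    simp only [Function.comp_apply, UpperHalfPlane.ofComplex_apply] at h
    rw [← h]
    congr 1
    have hq : (q : ℂ) ≠ 0 := Nat.cast_ne_zero.mpr (NeZero.ne q)
    have hpos : 0 < (((aff q k q ⟨z, hz⟩ : ℍ) : ℂ) + 1).im := by
      simpa using (aff q k q ⟨z, hz⟩).im_pos
    rw [ofComplex_apply_of_im_pos hpos]
    ext
    show ((aff q k q ⟨z + 1, hz'⟩ : ℍ) : ℂ) = ((aff q k q ⟨z, hz⟩ : ℍ) : ℂ) + 1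
    rw [ModFun.coe_aff, ModFun.coe_aff]
    show ((q : ℂ) * (z + 1) + k) / q = ((q : ℂ) * z + k) / q + 1
    field_simp
    ring

theorem good_comp_aff {f : ℍ → ℂ} (hf : Good f) (q : ℕ) [NeZero q] (k : ℤ) :
    Good fun τ => f (aff q k q τ) :=
  ⟨periodic_comp_aff hf.per q k, mdiff_comp_aff hf.holo q k q,
    hf.bdd.comp_tendsto (ModFun.tendsto_aff q k q)⟩

theorem mod1_comp_aff {f : ℍ → ℂ} (hf : Mod1 f) (q : ℕ) [NeZero q] (k : ℤ) :
    Mod1 fun τ => f (aff q k q τ) := by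
  obtain ⟨n, hn⟩ := hf.growth
  refine ⟨periodic_comp_aff hf.per q k, mdiff_comp_aff hf.holo q k q, n, ?_⟩
  have h1 : ((fun τ => f (aff q k q τ)) * qp ^ n) =
      (cRoot q k ^ n)⁻¹ • fun τ => (f * qp ^ n) (aff q k q τ) := by
    funext τ
    have : cRoot q k ≠ 0 := Complex.exp_ne_zero _
    simp only [Pi.mul_apply, Pi.pow_apply, Pi.smul_apply, qp_aff, smul_eq_mul, mul_pow]
    field_simp
  rw [h1]
  exact (Good.smul _ (good_comp_aff (hf.good_mul hn) q k)).bdd

/-- translation by `k/q` -/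
def shiftM (q : ℕ) [NeZero q] (k : ℤ) : M1 →ₐ[ℂ] M1 where
  toFun f := ⟨fun τ => (f : ℍ → ℂ) (aff q k q τ), mod1_comp_aff f.2 q k⟩
  map_one' := rfl
  map_mul' _ _ := rfl
  map_zero' := rfl
  map_add' _ _ := rfl
  commutes' _ := rfl

theorem shiftM_apply (q : ℕ) [NeZero q] (k : ℤ) (f : M1) (τ : ℍ) :
    (shiftM q k f : ℍ → ℂ) τ = (f : ℍ → ℂ) (aff q k q τ) := rfl

/-- `exp(2πik/q)` as a unit -/
def cRootU (q : ℕ) (k : ℤ) : ℂˣ := Units.mk0 (cRoot q k) (Complex.exp_ne_zero _)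

theorem lx_shiftM_good (q : ℕ) [NeZero q] (k : ℤ) {f : ℍ → ℂ} (hf : Good f) :
    lx (shiftM q k ⟨f, hf.mod1⟩) = Reduction.twist (cRootU q k) (lx ⟨f, hf.mod1⟩) := by
  have h1 : lx (shiftM q k ⟨f, hf.mod1⟩) =
      HahnSeries.ofPowerSeries ℤ ℂ (qx fun τ => f (aff q k q τ)) :=
    ModFun.Lx_of_good (good_comp_aff hf q k)
  have h2 : qx (fun τ => f (aff q k q τ)) =
      PowerSeries.mk fun m => cRoot q k ^ m * (qx f).coeff m := by
    refine ModFun.coeff_unique' (good_comp_aff hf q k) fun τ => ?_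
    convert hf.hasSum (aff q k q τ) using 1
    funext m
    rw [qp_aff, mul_pow]
    ring
  rw [h1, h2, ModFun.lx_good hf]
  ext m
  rw [Reduction.twist_coeff]
  rcases lt_or_ge m 0 with hm | hm
  · rw [ofPowerSeries_coeff_of_neg _ hm, ofPowerSeries_coeff_of_neg _ hm, mul_zero]
  · lift m to ℕ using hm
    rw [HahnSeries.ofPowerSeries_apply_coeff, HahnSeries.ofPowerSeries_apply_coeff,
      PowerSeries.coeff_mk, zpow_natCast, Units.val_pow_eq_pow_val]
    rfl

theorem lx_shiftM (q : ℕ) [NeZero q] (k : ℤ) (f : M1) :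
    lx (shiftM q k f) = Reduction.twist (cRootU q k) (lx f) := by
  obtain ⟨n, hn⟩ := f.2.growth
  set Q : M1 := ⟨qp, ModFun.good_qp.mod1⟩ with hQ
  set G : M1 := ⟨(f : ℍ → ℂ) * qp ^ n, (f.2.good_mul hn).mod1⟩ with hG
  have hprod : G = f * Q ^ n := Subtype.ext rfl
  have e1 := lx_shiftM_good q k (f.2.good_mul hn)
  have e2 := lx_shiftM_good q k ModFun.good_qp
  rw [← hG, hprod] at e1
  simp only [map_mul, map_pow] at e1
  rw [← hQ] at e2
  rw [e2] at e1
  have hne : Reduction.twist (cRootU q k) (lx Q) ^ n ≠ 0 := by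
    refine pow_ne_zero _ ((map_ne_zero _).mpr ?_)
    rw [hQ, ModFun.lx_good ModFun.good_qp, ModFun.qx_qp, HahnSeries.ofPowerSeries_X]
    exact HahnSeries.single_ne_zero one_ne_zero
  exact mul_right_cancel₀ hne e1

/-! ### homomorphisms from substitutions -/

theorem coeffMap_embC_inj : Function.Injective (coeffMap embC) := fun a b h =>
  HahnSeries.ext (funext fun k => embC.injective
    (by simpa using congrArg (fun x : LaurentSeries ℂ => x.coeff k) h))

/-- the expansion of `j(nτ)` -/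
def jser (n : ℕ) [NeZero n] : LS := coeffEmb Qb (qExpand ℚ n jq)

theorem jser_congr {n m : ℕ} [NeZero n] [NeZero m] (h : n = m) : jser n = jser m := by subst h; rfl

theorem qExpand_jser (n m : ℕ) [NeZero n] [NeZero m] [NeZero (n * m)] :
    qExpand Qb n (jser m) = jser (n * m) := by
  rw [jser, jser, coeffEmb, ← ModularCurve.coeffMap_qExpand, qExpand_qExpand]

theorem coeffMap_jser (n : ℕ) [NeZero n] : coeffMap embC (jser n) = lx (jdM n) := by
  rw [ModFun.lx_jdM, jser, ModFun.coeffMap_coeffEmb_comp]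

/-- the series `m` is the expansion of `j(d σ τ)` -/
def Expands (σ : ℍ → ℍ) (d : ℕ) [NeZero d] (m : LS) : Prop :=
  ∃ g : M1, coeffMap embC m = lx g ∧ ∀ τ, jFun (scale d (σ τ)) = (g : ℍ → ℂ) τ

theorem Expands.unique {σ : ℍ → ℍ} {d : ℕ} [NeZero d] {m m' : LS} (h : Expands σ d m)
    (h' : Expands σ d m') : m = m' := by
  obtain ⟨g, hg, hgτ⟩ := h
  obtain ⟨g', hg', hgτ'⟩ := h'
  have : g = g' := Subtype.ext (funext fun τ => (hgτ τ).symm.trans (hgτ' τ))
  exact coeffMap_embC_inj (hg.trans (this ▸ hg'.symm))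

theorem Expands.congr {σ : ℍ → ℍ} {d d' : ℕ} [NeZero d] [NeZero d'] (e : d = d') {m : LS}
    (h : Expands σ d m) : Expands σ d' m := by subst e; exact h

/-- a substitution of the upper half plane gives an embedding into Laurent series -/
theorem exists_algHom_sub (N : ℕ) [NeZero N] (σ : ℍ → ℍ) (hσ : Function.Surjective σ)
    (h : ∀ d : N.divisors, ∃ m, Expands σ (d : ℕ) m) :
    ∃ e : FB N →ₐ[Qb] LS, ∀ d : N.divisors, Expands σ (d : ℕ) (e (Genus.gen N d)) := by
  classical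
  choose m g hm hg using h
  obtain ⟨e, he⟩ := Genus.exists_algHom m fun P => by
    refine (ModFun.transferBar embC (fun d : N.divisors => (d : ℕ)) P).trans ?_
    have h1 : (∀ τ : ℍ, MvPolynomial.eval (fun i : N.divisors => jFun (scale (i : ℕ) τ))
        (MvPolynomial.map embC P) = 0) ↔
        MvPolynomial.aeval g (MvPolynomial.map embC P) = 0 := by
      constructor
      · intro H
        refine Subtype.ext (funext fun τ => ?_)
        rw [← ModFun.evalM_apply, MvPolynomial.comp_aeval_apply]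
        refine Eq.trans ?_ (H (σ τ))
        rw [MvPolynomial.aeval_eq_eval₂Hom]
        simp only [hg]
        rfl
      · intro H τ
        obtain ⟨τ, rfl⟩ := hσ τ
        have := congrArg (ModFun.evalM τ) H
        rw [MvPolynomial.comp_aeval_apply, map_zero] at this
        refine Eq.trans ?_ this
        rw [MvPolynomial.aeval_eq_eval₂Hom]
        simp only [hg]
        rfl
    rw [h1, ← map_eq_zero_iff _ ModFun.lx_injective, MvPolynomial.comp_aeval_apply,
      ← map_eq_zero_iff _ coeffMap_embC_inj]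
    have h2 : coeffMap embC (MvPolynomial.aeval m P) =
        MvPolynomial.aeval (fun d => lx (g d)) (MvPolynomial.map embC P) := by
      clear h1
      induction P using MvPolynomial.induction_on with
      | C a =>
        rw [MvPolynomial.map_C, MvPolynomial.aeval_C, MvPolynomial.aeval_C,
          algebraMap_laurentSeries_eq_single, algebraMap_laurentSeries_eq_single, coeffMap_single]
      | add p q hp hq => simp only [map_add, hp, hq]
      | mul_X p i hp => simp only [map_mul, MvPolynomial.map_X, MvPolynomial.aeval_X, hp, hm]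
    rw [h2]
  exact ⟨e, fun d => he d ▸ ⟨g d, hm d, hg d⟩⟩

theorem jFun_scale_aff_int (n : ℕ) [NeZero n] (q : ℕ) [NeZero q] (k c : ℤ) (τ : ℍ)
    (h : (n : ℤ) * k = c * q) : jFun (scale n (aff q k q τ)) = jFun (scale n τ) := by
  have e : scale n (aff q k q τ) = ModularGroup.T ^ c • scale n τ := by
    rw [UpperHalfPlane.modular_T_zpow_smul]
    ext
    rw [UpperHalfPlane.coe_vadd, ModFun.coe_scale, ModFun.coe_scale, ModFun.coe_aff]
    have hq : (q : ℂ) ≠ 0 := Nat.cast_ne_zero.mpr (NeZero.ne q)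
    have h' : (n : ℂ) * (k : ℂ) = (c : ℂ) * q := by exact_mod_cast h
    field_simp
    push_cast
    linear_combination h'
  rw [e, ModFun.jFun_smul]

theorem surjective_aff (A : ℕ) (B : ℤ) (D : ℕ) [NeZero A] [NeZero D] :
    Function.Surjective (aff A B D) := by
  intro z
  have hA : (0 : ℝ) < A := by exact_mod_cast Nat.pos_of_ne_zero (NeZero.ne A)
  have hD : (0 : ℝ) < D := by exact_mod_cast Nat.pos_of_ne_zero (NeZero.ne D)
  refine ⟨⟨((D : ℂ) * z - B) / A, ?_⟩, ?_⟩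
  · rw [Complex.div_natCast_im]
    simp [Complex.mul_im, hA, hD, z.im_pos]
  · ext
    rw [ModFun.coe_aff]
    show ((A : ℂ) * (((D : ℂ) * z - B) / A) + B) / D = z
    have : (A : ℂ) ≠ 0 := Nat.cast_ne_zero.mpr (NeZero.ne A)
    have : (D : ℂ) ≠ 0 := Nat.cast_ne_zero.mpr (NeZero.ne D)
    field_simp
    ring

/-! ### level `M q²` -/

variable (M q : ℕ) [NeZero M] [NeZero q]

/-- the first copy of the functions of level `M` -/
def i0 : FB M →ₐ[Qb] FB (M * q * q) :=
  (heckeAlphaBar Qb (M * q) q).comp (heckeAlphaBar Qb M q)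

/-- the middle copy -/
def i1 : FB M →ₐ[Qb] FB (M * q * q) :=
  (heckeAlphaBar Qb (M * q) q).comp (heckeBetaBar Qb M q)

/-- the last copy -/
def i2 : FB M →ₐ[Qb] FB (M * q * q) :=
  (heckeBetaBar Qb (M * q) q).comp (heckeBetaBar Qb M q)

variable {M q}

theorem coe_i0 (a : FB M) : ((i0 M q a : FB (M * q * q)) : LS) = a := by
  rw [i0, AlgHom.comp_apply, coe_heckeAlphaBar, coe_heckeAlphaBar]

theorem coe_i1 (a : FB M) : ((i1 M q a : FB (M * q * q)) : LS) = qExpand Qb q a := by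
  rw [i1, AlgHom.comp_apply, coe_heckeAlphaBar, coe_heckeBetaBar]

theorem coe_i2 (a : FB M) :
    ((i2 M q a : FB (M * q * q)) : LS) = qExpand Qb q (qExpand Qb q a) := by
  rw [i2, AlgHom.comp_apply, coe_heckeBetaBar, coe_heckeBetaBar]

theorem beta_alpha (a : FB M) :
    heckeBetaBar Qb (M * q) q (heckeAlphaBar Qb M q a) = i1 M q a :=
  Subtype.ext (by rw [coe_i1, coe_heckeBetaBar, coe_heckeAlphaBar])

theorem coe_gen_M (d : M.divisors) : ((Genus.gen M d : FB M) : LS) = jser (d : ℕ) := rfl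

theorem coe_gen_N {N : ℕ} (d : N.divisors) : ((Genus.gen N d : FB N) : LS) = jser (d : ℕ) := rfl

theorem i0_gen (d : M.divisors) (d₁ : (M * q * q).divisors) (h : (d₁ : ℕ) = d) :
    i0 M q (Genus.gen M d) = Genus.gen (M * q * q) d₁ :=
  Subtype.ext (by rw [coe_i0, coe_gen_N, coe_gen_M, jser_congr h.symm])

theorem i1_gen (d : M.divisors) (d₁ : (M * q * q).divisors) (h : (d₁ : ℕ) = d * q) :
    i1 M q (Genus.gen M d) = Genus.gen (M * q * q) d₁ := by
  haveI : NeZero (q * (d : ℕ)) := ⟨mul_ne_zero (NeZero.ne q) (NeZero.ne _)⟩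
  refine Subtype.ext ?_
  rw [coe_i1, coe_gen_N, coe_gen_M, qExpand_jser]
  exact jser_congr (by rw [h, mul_comm])

theorem i2_gen (d : M.divisors) (d₁ : (M * q * q).divisors) (h : (d₁ : ℕ) = d * q * q) :
    i2 M q (Genus.gen M d) = Genus.gen (M * q * q) d₁ := by
  haveI : NeZero (q * (d : ℕ)) := ⟨mul_ne_zero (NeZero.ne q) (NeZero.ne _)⟩
  haveI : NeZero (q * (q * (d : ℕ))) := ⟨mul_ne_zero (NeZero.ne q) (NeZero.ne _)⟩
  refine Subtype.ext ?_
  rw [coe_i2, coe_gen_N, coe_gen_M, qExpand_jser, qExpand_jser]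
  exact jser_congr (by rw [h]; ring)

theorem dvd_cases (hq : q.Prime) {d : ℕ} (hd : d ∣ M * q * q) :
    ∃ d', d' ∣ M ∧ (d = d' ∨ d = d' * q ∨ d = d' * q * q) := by
  rw [mul_assoc] at hd
  obtain ⟨a, b, ha, hb, rfl⟩ := Nat.dvd_mul.mp hd
  obtain ⟨k, hk, rfl⟩ := (Nat.dvd_prime_pow hq).mp (show b ∣ q ^ 2 by rwa [sq])
  refine ⟨a, ha, ?_⟩
  interval_cases k
  · exact Or.inl (by rw [pow_zero, mul_one])
  · exact Or.inr (Or.inl (by rw [pow_one]))
  · exact Or.inr (Or.inr (by ring))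

/-- every generator comes from level `M` -/
theorem gen_cases (hq : q.Prime) (d : (M * q * q).divisors) :
    ∃ a, Genus.gen (M * q * q) d = i0 M q a ∨ Genus.gen (M * q * q) d = i1 M q a ∨
      Genus.gen (M * q * q) d = i2 M q a := by
  obtain ⟨d', hd', h⟩ := dvd_cases (M := M) hq (Nat.dvd_of_mem_divisors d.2)
  refine ⟨Genus.gen M ⟨d', Nat.mem_divisors.mpr ⟨hd', NeZero.ne M⟩⟩, ?_⟩
  rcases h with h | h | h
  · exact Or.inl (i0_gen _ d h).symm
  · exact Or.inr (Or.inl (i1_gen _ d h).symm)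
  · exact Or.inr (Or.inr (i2_gen _ d h).symm)

/-- homomorphisms out of level `M q²` are determined on the three copies of level `M` -/
theorem algHom_ext_i (hq : q.Prime) {L : Type*} [Field L] [Algebra Qb L]
    {f g : FB (M * q * q) →ₐ[Qb] L} (h0 : ∀ a, f (i0 M q a) = g (i0 M q a))
    (h1 : ∀ a, f (i1 M q a) = g (i1 M q a)) (h2 : ∀ a, f (i2 M q a) = g (i2 M q a)) : f = g := by
  refine Genus.algHom_ext fun d => ?_
  obtain ⟨a, h | h | h⟩ := gen_cases hq d <;> rw [h]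
  · exact h0 a
  · exact h1 a
  · exact h2 a

theorem ringHom_ext_gen {N : ℕ} [NeZero N] {L : Type*} [Field L] {f g : FB N →+* L}
    (hc : ∀ c, f (algebraMap Qb (FB N) c) = g (algebraMap Qb (FB N) c))
    (h : ∀ d, f (Genus.gen N d) = g (Genus.gen N d)) : f = g := by
  letI : Algebra Qb L := (f.comp (algebraMap Qb (FB N))).toAlgebra
  let F' : FB N →ₐ[Qb] L := { f with commutes' := fun _ => rfl }
  let G' : FB N →ₐ[Qb] L := { g with commutes' := fun c => (hc c).symm }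
  exact RingHom.ext fun x => DFunLike.congr_fun (Genus.algHom_ext (σ := F') (σ' := G') h) x

/-- ring homomorphisms out of level `M q²` agreeing on constants and the three copies -/
theorem ringHom_ext_i (hq : q.Prime) {L : Type*} [Field L] {f g : FB (M * q * q) →+* L}
    (hc : ∀ c, f (algebraMap Qb _ c) = g (algebraMap Qb _ c))
    (h0 : ∀ a, f (i0 M q a) = g (i0 M q a))
    (h1 : ∀ a, f (i1 M q a) = g (i1 M q a)) (h2 : ∀ a, f (i2 M q a) = g (i2 M q a)) : f = g := by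
  refine ringHom_ext_gen hc fun d => ?_
  obtain ⟨a, h | h | h⟩ := gen_cases hq d <;> rw [h]
  · exact h0 a
  · exact h1 a
  · exact h2 a

/-- `q ↦ q^n` -/
def qExpA (n : ℕ) [NeZero n] : LS →ₐ[Qb] LS :=
  { qExpand Qb n with
    commutes' := fun a => by
      show qExpand Qb n (algebraMap Qb LS a) = algebraMap Qb LS a
      rw [algebraMap_laurentSeries_eq_single, qExpand_single, mul_zero] }

theorem qExpA_apply (n : ℕ) [NeZero n] (y : LS) : qExpA n y = qExpand Qb n y := rfl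

/-- `q ↦ uq` -/
def twistA (u : Qbˣ) : LS →ₐ[Qb] LS :=
  { Reduction.twist u with
    commutes' := fun a => by
      show Reduction.twist u (algebraMap Qb LS a) = algebraMap Qb LS a
      rw [algebraMap_laurentSeries_eq_single, Reduction.twist_single_zero] }

theorem twistA_apply (u : Qbˣ) (y : LS) : twistA u y = Reduction.twist u y := rfl

/-- the inclusion in the series -/
def valA (N : ℕ) [NeZero N] : FB N →ₐ[Qb] LS := (modularFunctionFieldBar N).val

theorem valA_apply {N : ℕ} [NeZero N] (x : FB N) : valA N x = (x : LS) := rfl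

/-- primitive `q`-th roots of unity -/
abbrev PR (q : ℕ) : Type := ↥(primitiveRoots q Qb)

theorem PR.prim (ζ : PR q) : IsPrimitiveRoot (ζ : Qb) q :=
  (mem_primitiveRoots (Nat.pos_of_ne_zero (NeZero.ne q))).mp ζ.2

/-- a primitive root as a unit -/
def PR.u (ζ : PR q) : Qbˣ := Units.mk0 (ζ : Qb) (ζ.prim.ne_zero (NeZero.ne q))

theorem PR.coe_u (ζ : PR q) : ((PR.u ζ : Qbˣ) : Qb) = ζ := rfl

theorem PR.u_pow (ζ : PR q) : PR.u ζ ^ q = 1 := by
  refine Units.ext ?_
  rw [Units.val_pow_eq_pow_val, Units.val_one, PR.coe_u, ζ.prim.pow_eq_one]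

theorem PR.u_inj : Function.Injective (PR.u (q := q)) := fun a b h =>
  Subtype.ext (congrArg Units.val h)

/-- embeddings of level `M q²` from a substitution, given its effect on the three copies -/
theorem exists_algHom_copies (hq : q.Prime) (σ : ℍ → ℍ) (hσ : Function.Surjective σ)
    (t0 t1 t2 : FB M →ₐ[Qb] LS)
    (h0 : ∀ d : M.divisors, Expands σ (d : ℕ) (t0 (Genus.gen M d)))
    (h1 : ∀ (d : M.divisors) [NeZero ((d : ℕ) * q)],
      Expands σ ((d : ℕ) * q) (t1 (Genus.gen M d)))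
    (h2 : ∀ (d : M.divisors) [NeZero ((d : ℕ) * q * q)],
      Expands σ ((d : ℕ) * q * q) (t2 (Genus.gen M d))) :
    ∃ e : FB (M * q * q) →ₐ[Qb] LS, ∀ a,
      e (i0 M q a) = t0 a ∧ e (i1 M q a) = t1 a ∧ e (i2 M q a) = t2 a := by
  have hall : ∀ d : (M * q * q).divisors, ∃ m, Expands σ (d : ℕ) m := by
    intro d
    obtain ⟨d', hd', h⟩ := dvd_cases (M := M) hq (Nat.dvd_of_mem_divisors d.2)
    let dd : M.divisors := ⟨d', Nat.mem_divisors.mpr ⟨hd', NeZero.ne M⟩⟩
    haveI : NeZero d' := ⟨ne_zero_of_dvd_ne_zero (NeZero.ne M) hd'⟩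
    haveI : NeZero (dd : ℕ) := ⟨ne_zero_of_dvd_ne_zero (NeZero.ne M) hd'⟩
    haveI : NeZero ((dd : ℕ) * q) := ⟨mul_ne_zero (NeZero.ne _) (NeZero.ne q)⟩
    haveI : NeZero ((dd : ℕ) * q * q) := ⟨mul_ne_zero (NeZero.ne _) (NeZero.ne q)⟩
    rcases h with h | h | h
    · exact ⟨_, (h0 dd).congr h.symm⟩
    · exact ⟨_, (h1 dd).congr h.symm⟩
    · exact ⟨_, (h2 dd).congr h.symm⟩
  obtain ⟨e, he⟩ := exists_algHom_sub _ σ hσ hall
  have hmem : ∀ (d' : M.divisors) (a : ℕ), a ∣ q * q → (d' : ℕ) * a ∈ (M * q * q).divisors := by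
    intro d' a ha
    refine Nat.mem_divisors.mpr ⟨?_, NeZero.ne _⟩
    rw [mul_assoc]
    exact Nat.mul_dvd_mul (Nat.dvd_of_mem_divisors d'.2) ha
  have e0 : e.comp (i0 M q) = t0 := Genus.algHom_ext fun d' => by
    let d₁ : (M * q * q).divisors := ⟨_, hmem d' 1 (one_dvd _)⟩
    have hd₁ : (d₁ : ℕ) = d' := mul_one _
    rw [AlgHom.comp_apply, i0_gen d' d₁ hd₁]
    exact (Expands.congr hd₁ (he d₁)).unique (h0 d')
  have e1 : e.comp (i1 M q) = t1 := Genus.algHom_ext fun d' => by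
    let d₁ : (M * q * q).divisors := ⟨_, hmem d' q (dvd_mul_right _ _)⟩
    haveI : NeZero ((d' : ℕ) * q) := ⟨mul_ne_zero (NeZero.ne _) (NeZero.ne q)⟩
    have hd₁ : (d₁ : ℕ) = d' * q := rfl
    rw [AlgHom.comp_apply, i1_gen d' d₁ hd₁]
    exact (Expands.congr hd₁ (he d₁)).unique (h1 d')
  have e2 : e.comp (i2 M q) = t2 := Genus.algHom_ext fun d' => by
    let d₁ : (M * q * q).divisors := ⟨_, hmem d' (q * q) dvd_rfl⟩
    haveI : NeZero ((d' : ℕ) * q * q) := ⟨mul_ne_zero (NeZero.ne _) (NeZero.ne q)⟩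
    have hd₁ : (d₁ : ℕ) = d' * q * q := (mul_assoc _ _ _).symm
    rw [AlgHom.comp_apply, i2_gen d' d₁ hd₁]
    exact (Expands.congr hd₁ (he d₁)).unique (h2 d')
  exact ⟨e, fun a => ⟨DFunLike.congr_fun e0 a, DFunLike.congr_fun e1 a, DFunLike.congr_fun e2 a⟩⟩

theorem exists02 (hq : q.Prime) (hqM : ¬ q ∣ M) :
    ∃ e : FB (M * q * q) →ₐ[Qb] LS, ∀ a : FB M,
      e (i0 M q a) = qExpand Qb q (qExpand Qb q (a : LS)) ∧
      e (i1 M q a) = qExpand Qb q (a : LS) ∧ e (i2 M q a) = (a : LS) := by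
  haveI : NeZero (q * q) := ⟨mul_ne_zero (NeZero.ne q) (NeZero.ne q)⟩
  obtain ⟨x, y, hxy⟩ : IsCoprime ((q : ℤ) * q) (M : ℤ) :=
    (Nat.isCoprime_iff_coprime.mpr (hq.coprime_iff_not_dvd.mpr hqM)).mul_left
      (Nat.isCoprime_iff_coprime.mpr (hq.coprime_iff_not_dvd.mpr hqM))
  let γ : SL(2, ℤ) := ⟨!![x, -y; (M : ℤ), (q : ℤ) * q], by
    simp [Matrix.det_fin_two]; linear_combination hxy⟩
  set σ : ℍ → ℍ := fun τ => γ • scale (q * q) τ with hσ
  have hsurj : Function.Surjective σ := fun z => by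
    obtain ⟨τ, hτ⟩ := surjective_aff (q * q) 0 1 (γ⁻¹ • z)
    exact ⟨τ, by show γ • aff (q * q) 0 1 τ = z; rw [hτ, smul_inv_smul]⟩
  have hk : ∀ (d' : ℕ) [NeZero d'] (a b : ℕ) [NeZero a] [NeZero b] [NeZero (d' * a)]
      [NeZero (d' * b)], d' ∣ M → a * b = q * q → Expands σ (d' * a) (jser (d' * b)) := by
    intro d' _ a b _ _ _ _ ⟨e, he⟩ hab
    refine ⟨jdM (d' * b), coeffMap_jser _, fun τ => ?_⟩
    have he' : (M : ℤ) = d' * e := by exact_mod_cast he
    have hab' : (a : ℤ) * b = q * q := by exact_mod_cast hab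
    let γ' : SL(2, ℤ) := ⟨!![(a : ℤ) * x, -((d' : ℤ) * y); (e : ℤ), (b : ℤ)], by
      simp [Matrix.det_fin_two]; linear_combination hxy - y * he' + x * hab'⟩
    have h := (ModFun.scale_smul_eq (d' * a) γ γ' d' 0 a (by simp [γ, γ']; ring)
      (by simp [γ, γ']; ring) (by simp [γ, γ']; linear_combination he')
      (by simp [γ, γ']; linear_combination -hab') (scale (q * q) τ)).1
    rw [hσ, h, ModFun.jFun_smul]
    show jFun _ = jFun (scale (d' * b) τ)
    congr 1
    ext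
    rw [ModFun.coe_aff, ModFun.coe_scale, ModFun.coe_scale]
    have ha : (a : ℂ) ≠ 0 := Nat.cast_ne_zero.mpr (NeZero.ne a)
    have hab'' : (a : ℂ) * b = q * q := by exact_mod_cast hab
    field_simp
    push_cast
    linear_combination (-(d' : ℂ) * (τ : ℂ)) * hab''
  refine exists_algHom_copies hq σ hsurj ((qExpA q).comp ((qExpA q).comp (valA M)))
    ((qExpA q).comp (valA M)) (valA M) (fun d => ?_) (fun d _ => ?_) (fun d _ => ?_)
  · haveI : NeZero ((d : ℕ) * (q * q)) := ⟨mul_ne_zero (NeZero.ne _) (NeZero.ne _)⟩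
    haveI : NeZero (q * (d : ℕ)) := ⟨mul_ne_zero (NeZero.ne q) (NeZero.ne _)⟩
    haveI : NeZero (q * (q * (d : ℕ))) := ⟨mul_ne_zero (NeZero.ne q) (NeZero.ne _)⟩
    have h := (hk (d : ℕ) 1 (q * q) (Nat.dvd_of_mem_divisors d.2) (one_mul _)).congr (mul_one _)
    simp only [AlgHom.comp_apply, qExpA_apply, valA_apply, coe_gen_M, qExpand_jser]
    rwa [jser_congr (show q * (q * (d : ℕ)) = (d : ℕ) * (q * q) by ring)]
  · haveI : NeZero (q * (d : ℕ)) := ⟨mul_ne_zero (NeZero.ne q) (NeZero.ne _)⟩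
    have h := hk (d : ℕ) q q (Nat.dvd_of_mem_divisors d.2) rfl
    simp only [AlgHom.comp_apply, qExpA_apply, valA_apply, coe_gen_M, qExpand_jser]
    rwa [jser_congr (mul_comm q (d : ℕ))]
  · haveI : NeZero ((d : ℕ) * (q * q)) := ⟨mul_ne_zero (NeZero.ne _) (NeZero.ne _)⟩
    have h := (hk (d : ℕ) (q * q) 1 (Nat.dvd_of_mem_divisors d.2) (mul_one _)).congr
      (mul_assoc _ _ _).symm
    simp only [valA_apply, coe_gen_M]
    rwa [jser_congr (mul_one (d : ℕ))] at h

theorem exists11 (hq : q.Prime) (hqM : ¬ q ∣ M) (ζ : PR q) :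
    ∃ e : FB (M * q * q) →ₐ[Qb] LS, ∀ a : FB M,
      e (i0 M q a) = Reduction.twist ζ.u (a : LS) ∧
      e (i1 M q a) = qExpand Qb q (a : LS) ∧ e (i2 M q a) = (a : LS) := by
  obtain ⟨k, hkq, hkc, hk⟩ := (Complex.isPrimitiveRoot_iff _ q (NeZero.ne q)).mp
    (ζ.prim.map_of_injective embC.injective)
  have hqk : ¬ (q : ℤ) ∣ (k : ℤ) := fun h => by
    have h1 : q ∣ 1 := hkc ▸ Nat.dvd_gcd (Int.natCast_dvd_natCast.mp h) dvd_rfl
    exact hq.one_lt.ne' (Nat.dvd_one.mp h1)
  obtain ⟨u, v, huv⟩ : IsCoprime (q : ℤ) (M : ℤ) :=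
    Nat.isCoprime_iff_coprime.mpr (hq.coprime_iff_not_dvd.mpr hqM)
  set δ : ℤ := (q : ℤ) * u - M * k with hδ
  have hcop : IsCoprime δ ((M : ℤ) * q) := by
    refine IsCoprime.mul_right ⟨1, v + k, by rw [hδ]; linear_combination huv⟩ ?_
    have hq' : Prime (q : ℤ) := Nat.prime_iff_prime_int.mp hq
    refine ((Prime.coprime_iff_not_dvd hq').mpr fun h => ?_).symm
    have h2 : (q : ℤ) ∣ (M : ℤ) * k := by
      have := dvd_sub (dvd_mul_right (q : ℤ) u) h
      rwa [hδ, sub_sub_cancel] at this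
    rcases hq'.dvd_mul.mp h2 with h3 | h3
    · exact hqM (Int.natCast_dvd_natCast.mp h3)
    · exact hqk h3
  obtain ⟨a, b, hab⟩ := hcop
  let γ : SL(2, ℤ) := ⟨!![a, -b; (M : ℤ) * q, δ], by
    simp [Matrix.det_fin_two]; linear_combination hab⟩
  set σ : ℍ → ℍ := fun τ => γ • aff q k q τ with hσ
  have hsurj : Function.Surjective σ := fun z => by
    obtain ⟨τ, hτ⟩ := surjective_aff q k q (γ⁻¹ • z)
    exact ⟨τ, by show γ • aff q k q τ = z; rw [hτ, smul_inv_smul]⟩
  have hroot : Units.map (embC : Qb →* ℂ) ζ.u = cRootU q k := by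
    refine Units.ext ?_
    show embC (ζ : Qb) = cRoot q k
    rw [← hk, cRoot]
    push_cast
    rfl
  have hΓ : ∀ (n : ℕ) [NeZero n], n ∣ M * q → ∀ z : ℍ,
      jFun (scale n (γ • z)) = jFun (scale n z) := by
    intro n _ hn z
    have hmem : γ ∈ Gamma0 n := by
      rw [Gamma0_mem, ZMod.intCast_zmod_eq_zero_iff_dvd]
      show (n : ℤ) ∣ (M : ℤ) * q
      exact_mod_cast hn
    obtain ⟨γ', h⟩ := ModFun.scale_smul_Gamma0 n hmem z
    rw [h, ModFun.jFun_smul]
  have h0 : ∀ (d' : ℕ) [NeZero d'], d' ∣ M →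
      Expands σ d' (Reduction.twist ζ.u (jser d')) := by
    intro d' _ hd'
    refine ⟨shiftM q k (jdM d'), ?_, fun τ => ?_⟩
    · rw [lx_shiftM, Reduction.coeffMap_twist, coeffMap_jser, hroot]
    · rw [hσ, hΓ d' (hd'.mul_right q)]
      rfl
  have h1 : ∀ (d' : ℕ) [NeZero d'] [NeZero (d' * q)], d' ∣ M →
      Expands σ (d' * q) (jser (d' * q)) := by
    intro d' _ _ hd'
    refine ⟨jdM (d' * q), coeffMap_jser _, fun τ => ?_⟩
    rw [hσ, hΓ (d' * q) (Nat.mul_dvd_mul_right hd' q),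
      jFun_scale_aff_int (d' * q) q k ((d' : ℤ) * k) τ (by push_cast; ring)]
    rfl
  have h2 : ∀ (d' : ℕ) [NeZero d'] [NeZero (d' * q)] [NeZero (d' * q * q)], d' ∣ M →
      Expands σ (d' * q * q) (jser d') := by
    intro d' _ _ _ ⟨e, he⟩
    refine ⟨jdM d', coeffMap_jser _, fun τ => ?_⟩
    have he' : (M : ℤ) = d' * e := by exact_mod_cast he
    let γ' : SL(2, ℤ) := ⟨!![(q : ℤ) * a, (d' : ℤ) * (-(b * q) + a * k); (e : ℤ), u], by
      simp [Matrix.det_fin_two]
      linear_combination hab - a * hδ - (b * q - a * k) * he'⟩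
    have h := (ModFun.scale_smul_eq (d' * q * q) γ γ' (d' * q) (-((d' : ℤ) * k)) q
      (by simp [γ, γ']; ring) (by simp [γ, γ']; ring)
      (by simp [γ, γ']; linear_combination (q : ℤ) * he')
      (by simp [γ, γ', hδ]; linear_combination -(k : ℤ) * he') (aff q k q τ)).1
    rw [hσ, h, ModFun.jFun_smul]
    show jFun _ = jFun (scale d' τ)
    congr 1
    ext
    rw [ModFun.coe_aff, ModFun.coe_scale, ModFun.coe_aff]
    have hq0 : (q : ℂ) ≠ 0 := Nat.cast_ne_zero.mpr (NeZero.ne q)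
    field_simp
    push_cast
    ring
  refine exists_algHom_copies hq σ hsurj ((twistA ζ.u).comp (valA M))
    ((qExpA q).comp (valA M)) (valA M) (fun d => ?_) (fun d _ => ?_) (fun d _ => ?_)
  · simp only [AlgHom.comp_apply, twistA_apply, valA_apply, coe_gen_M]
    exact h0 (d : ℕ) (Nat.dvd_of_mem_divisors d.2)
  · haveI : NeZero (q * (d : ℕ)) := ⟨mul_ne_zero (NeZero.ne q) (NeZero.ne _)⟩
    simp only [AlgHom.comp_apply, qExpA_apply, valA_apply, coe_gen_M, qExpand_jser]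
    rw [jser_congr (mul_comm q (d : ℕ))]
    exact h1 (d : ℕ) (Nat.dvd_of_mem_divisors d.2)
  · haveI : NeZero ((d : ℕ) * q) := ⟨mul_ne_zero (NeZero.ne _) (NeZero.ne q)⟩
    simp only [valA_apply, coe_gen_M]
    exact h2 (d : ℕ) (Nat.dvd_of_mem_divisors d.2)

variable (M q)

/-- the expansion `20`: the given one -/
def e20 : FB (M * q * q) →ₐ[Qb] LS := valA (M * q * q)

/-- the expansion `02` -/
def e02 (hq : q.Prime) (hqM : ¬ q ∣ M) : FB (M * q * q) →ₐ[Qb] LS := (exists02 hq hqM).choose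

/-- the expansion `11`, for a choice of primitive root -/
def e11 (hq : q.Prime) (hqM : ¬ q ∣ M) (ζ : PR q) : FB (M * q * q) →ₐ[Qb] LS :=
  (exists11 hq hqM ζ).choose

variable {M q} (hq : q.Prime) (hqM : ¬ q ∣ M)

theorem e20_apply (x : FB (M * q * q)) : e20 M q x = (x : LS) := rfl

theorem e20_i0 (a : FB M) : e20 M q (i0 M q a) = (a : LS) := coe_i0 (q := q) a

theorem e20_i1 (a : FB M) : e20 M q (i1 M q a) = qExpand Qb q (a : LS) := coe_i1 a

theorem e20_i2 (a : FB M) : e20 M q (i2 M q a) = qExpand Qb q (qExpand Qb q (a : LS)) := coe_i2 a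

theorem e02_i0 (a : FB M) :
    e02 M q hq hqM (i0 M q a) = qExpand Qb q (qExpand Qb q (a : LS)) :=
  ((exists02 hq hqM).choose_spec a).1

theorem e02_i1 (a : FB M) : e02 M q hq hqM (i1 M q a) = qExpand Qb q (a : LS) :=
  ((exists02 hq hqM).choose_spec a).2.1

theorem e02_i2 (a : FB M) : e02 M q hq hqM (i2 M q a) = (a : LS) :=
  ((exists02 hq hqM).choose_spec a).2.2

theorem e11_i0 (ζ : PR q) (a : FB M) :
    e11 M q hq hqM ζ (i0 M q a) = Reduction.twist ζ.u (a : LS) :=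
  ((exists11 hq hqM ζ).choose_spec a).1

theorem e11_i1 (ζ : PR q) (a : FB M) : e11 M q hq hqM ζ (i1 M q a) = qExpand Qb q (a : LS) :=
  ((exists11 hq hqM ζ).choose_spec a).2.1

theorem e11_i2 (ζ : PR q) (a : FB M) : e11 M q hq hqM ζ (i2 M q a) = (a : LS) :=
  ((exists11 hq hqM ζ).choose_spec a).2.2

include hq hqM in
theorem e02_mem (x : FB (M * q * q)) : e02 M q hq hqM x ∈ modularFunctionFieldBar (M * q * q) := by
  have key : ∀ d, e02 M q hq hqM (Genus.gen (M * q * q) d) ∈ modularFunctionFieldBar (M * q * q) := by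
    intro d
    obtain ⟨a, h | h | h⟩ := gen_cases hq d <;> rw [h]
    · rw [e02_i0, ← coe_i2]; exact SetLike.coe_mem _
    · rw [e02_i1, ← coe_i1]; exact SetLike.coe_mem _
    · rw [e02_i2, ← coe_i0 (q := q)]; exact SetLike.coe_mem _
  obtain ⟨P, Q, -, rfl⟩ := Genus.exists_repr _ x
  have hP : ∀ R : MvPolynomial (M * q * q).divisors Qb,
      e02 M q hq hqM (MvPolynomial.aeval (Genus.gen (M * q * q)) R) ∈
        modularFunctionFieldBar (M * q * q) := by
    intro R
    induction R using MvPolynomial.induction_on with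
    | C a => rw [MvPolynomial.aeval_C, AlgHom.commutes]; exact IntermediateField.algebraMap_mem _ a
    | add p r hp hr => rw [map_add, map_add]; exact add_mem hp hr
    | mul_X p d hp => rw [map_mul, map_mul, MvPolynomial.aeval_X]; exact mul_mem hp (key d)
  rw [map_div₀]
  exact div_mem (hP P) (hP Q)

/-- the involution exchanging the outer copies -/
def swap : FB (M * q * q) →ₐ[Qb] FB (M * q * q) :=
  (e02 M q hq hqM).codRestrict (modularFunctionFieldBar (M * q * q)).toSubalgebra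
    (e02_mem hq hqM)

theorem coe_swap (x : FB (M * q * q)) :
    ((swap hq hqM x : FB (M * q * q)) : LS) = e02 M q hq hqM x := rfl

theorem swap_i0 (a : FB M) : swap hq hqM (i0 M q a) = i2 M q a :=
  Subtype.ext (by rw [coe_swap, e02_i0, coe_i2])

theorem swap_i1 (a : FB M) : swap hq hqM (i1 M q a) = i1 M q a :=
  Subtype.ext (by rw [coe_swap, e02_i1, coe_i1])

theorem swap_i2 (a : FB M) : swap hq hqM (i2 M q a) = i0 M q a :=
  Subtype.ext (by rw [coe_swap, e02_i2, coe_i0])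

theorem swap_swap (x : FB (M * q * q)) : swap hq hqM (swap hq hqM x) = x := by
  refine DFunLike.congr_fun (algHom_ext_i hq (f := (swap hq hqM).comp (swap hq hqM))
    (g := AlgHom.id Qb _) (fun a => ?_) (fun a => ?_) (fun a => ?_)) x <;>
  simp [swap_i0, swap_i1, swap_i2]

end FLTAgent.SS2

end
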