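import Fermat.Agent.SS2.Inertia
import Fermat.Agent.SS2.Fib
import Fermat.Agent.Reduction.Gauss

/-!
Rational functions span the Riemann–Roch spaces of rational divisors; functions of exact order at a
place.
-/

set_option autoImplicit false
set_option linter.unusedSectionVars false
set_option synthInstance.maxHeartbeats 100000
set_option maxHeartbeats 1000000

noncomputable section

open ModularCurve AlgebraicCurve
open FLTAgent.RR (Bd Pol)

namespace FLTAgent.SS2

open FLTAgent.Reduction (Qb FB)

variable {A : ValuationSubring Qb} {N : ℕ} [NeZero N]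

/-- coefficient of the expansion at infinity -/
def coeffLin (N : ℕ) [NeZero N] (i : ℤ) : FB N →ₗ[Qb] Qb where
  toFun x := (x : LaurentSeries Qb).coeff i
  map_add' x y := by rw [AddMemClass.coe_add, HahnSeries.coeff_add]
  map_smul' c x := by
    rw [Algebra.smul_def, MulMemClass.coe_mul, RingHom.id_apply, smul_eq_mul, Reduction.coe_cB N c,
      HahnSeries.coeff_single_zero_mul]

theorem coeffLin_apply (i : ℤ) (x : FB N) : coeffLin N i x = (x : LaurentSeries Qb).coeff i := rfl

/-- a finite set of coefficients is a system of coordinates on a finite dimensional space -/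
theorem exists_pivots : ∀ (d : ℕ) (V : Submodule Qb (FB N)), FiniteDimensional Qb V →
    Module.finrank Qb V = d → ∃ s : Finset ℤ,
      Function.Bijective ((LinearMap.pi fun i : s => coeffLin N i).comp V.subtype) := by
  classical
  intro d
  induction d with
  | zero =>
    intro V hV hd
    haveI := hV
    have hbot : V = ⊥ := Submodule.finrank_eq_zero.mp hd
    subst hbot
    refine ⟨∅, fun x y _ => Subsingleton.elim x y, fun c => ⟨0, funext fun i => absurd i.2 (Finset.notMem_empty _)⟩⟩
  | succ d ih =>
    intro V hV hd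
    haveI := hV
    have hne : V ≠ ⊥ := fun h => by
      rw [h, finrank_bot] at hd
      omega
    obtain ⟨x, hx, hx0⟩ := V.exists_mem_ne_zero_of_ne_bot hne
    obtain ⟨i, hi⟩ : ∃ i : ℤ, coeffLin N i x ≠ 0 := by
      by_contra h
      push Not at h
      exact hx0 (Subtype.ext (HahnSeries.ext (funext fun i => by rw [← coeffLin_apply, h i]; rfl)))
    set φ := (coeffLin N i).comp V.subtype
    have hφ : φ ≠ 0 := fun h => hi (LinearMap.congr_fun h ⟨x, hx⟩)
    have hker : Module.finrank Qb (LinearMap.ker φ) = d := by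
      have h1 := LinearMap.finrank_range_add_finrank_ker φ
      have h2 : LinearMap.range φ = ⊤ := LinearMap.range_eq_top.mpr (φ.surjective hφ)
      rw [h2, finrank_top, Module.finrank_self, hd] at h1
      omega
    set W := (LinearMap.ker φ).map V.subtype
    have hWd : Module.finrank Qb W = d := by
      rw [← hker]
      exact (Submodule.equivMapOfInjective _ Subtype.val_injective _).finrank_eq.symm
    obtain ⟨s, hsi, hss⟩ := ih W inferInstance hWd
    have hWi : ∀ y ∈ W, coeffLin N i y = 0 := by
      rintro _ ⟨y, hy, rfl⟩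
      exact hy
    have his : i ∉ s := fun h => by
      obtain ⟨y, hy⟩ := hss (Pi.single ⟨i, h⟩ 1)
      have h1 := congrFun hy ⟨i, h⟩
      simp only [LinearMap.comp_apply, LinearMap.pi_apply, Submodule.subtype_apply,
        hWi _ y.2, Pi.single_eq_same] at h1
      exact zero_ne_one h1
    set ψ := (LinearMap.pi fun j : (insert i s : Finset ℤ) => coeffLin N j).comp V.subtype
    have hinj : Function.Injective ψ := by
      rw [← LinearMap.ker_eq_bot, LinearMap.ker_eq_bot']
      intro y hy
      have hyi : φ y = 0 := congrFun hy ⟨i, Finset.mem_insert_self i s⟩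
      have hyW : (y : FB N) ∈ W := ⟨y, hyi, rfl⟩
      have hz : (⟨(y : FB N), hyW⟩ : W) = 0 := hsi (by
        rw [map_zero]
        funext j
        exact congrFun hy ⟨j, Finset.mem_insert_of_mem j.2⟩)
      exact Subtype.ext (by simpa using congrArg Subtype.val hz)
    refine ⟨insert i s, hinj, (LinearMap.injective_iff_surjective_of_finrank_eq_finrank ?_).mp hinj⟩
    have hsd : d = s.card := by
      rw [← hWd, LinearEquiv.finrank_eq (LinearEquiv.ofBijective _ ⟨hsi, hss⟩)]
      simp
    rw [hd, Module.finrank_fintype_fun_eq_card, Fintype.card_coe, Finset.card_insert_of_notMem his,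
      hsd]

/-- a space stable under inertia is spanned by its rational elements -/
theorem le_span_rational (V : Submodule Qb (FB N)) [FiniteDimensional Qb V]
    (hst : ∀ σ ∈ A.inertiaSubgroupIn ℚ, ∀ x ∈ V, galFn N σ • x ∈ V) :
    V ≤ Submodule.span Qb {x : FB N | x ∈ V ∧ x ∈ rationalFn A N} := by
  classical
  obtain ⟨s, hinj, hsurj⟩ := exists_pivots _ V inferInstance rfl
  choose u hu using fun j : s => hsurj (Pi.single j 1)
  have hrat : ∀ j, (u j : FB N) ∈ rationalFn A N := by
    intro j σ hσ
    have := hinj (a₁ := ⟨galFn N σ • (u j : FB N), hst σ hσ _ (u j).2⟩) (a₂ := u j) (by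
      funext i
      have h := congrFun (hu j) i
      simp only [LinearMap.comp_apply, LinearMap.pi_apply, Submodule.subtype_apply] at h ⊢
      rw [h]
      show (((galFn N σ • (u j : FB N) : FB N)) : LaurentSeries Qb).coeff _ = _
      rw [coe_arithmeticGalois_smul, coeffMap_coeff, ← coeffLin_apply, h, Pi.single_apply]
      split_ifs <;> simp)
    exact congrArg Subtype.val this
  intro x hx
  have hxe : (⟨x, hx⟩ : V) = ∑ j : s, coeffLin N j x • u j := hinj (by
    rw [map_sum]
    funext i
    simp only [Finset.sum_apply, LinearMap.map_smul, Pi.smul_apply, hu, Pi.single_apply,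
      smul_eq_mul, mul_ite, mul_one, mul_zero, Finset.sum_ite_eq, Finset.mem_univ, if_true]
    rfl)
  have hx' : x = ((∑ j : s, coeffLin N j x • u j : V) : FB N) := congrArg Subtype.val hxe
  rw [hx', AddSubmonoidClass.coe_finset_sum]
  exact Submodule.sum_mem _ fun j _ =>
    Submodule.smul_mem _ _ (Submodule.subset_span ⟨(u j).2, hrat j⟩)

theorem rr_stable {E : Divisor Qb (FB N)} {σ : Qb ≃ₐ[ℚ] Qb} (hE : galFn N σ • E = E)
    {x : FB N} (hx : x ∈ riemannRochSpace E) : galFn N σ • x ∈ riemannRochSpace E := by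
  intro P
  show Bd P (galFn N σ • x) (E P)
  rcases eq_or_ne x 0 with rfl | hx0
  · rw [smul_zero]; exact RR.Bd.zero
  rw [RR.bd_iff_ord ((smul_ne_zero_iff_ne (galFn N σ)).mpr hx0)]
  have h := SemilinearAut.ord_smul (galFn N σ) ((galFn N σ)⁻¹ • P) x
  rw [smul_inv_smul] at h
  have h2 := (RR.bd_iff_ord hx0).mp (show Bd ((galFn N σ)⁻¹ • P) x _ from hx _)
  have h3 : E P = E ((galFn N σ)⁻¹ • P) := by
    conv_lhs => rw [← hE]
    rw [SemilinearAut.divisor_smul_apply]
  rw [h, h3]
  exact h2

theorem pol_fixed {J : FB N} (hJ : J ∈ rationalFn A N) {σ : Qb ≃ₐ[ℚ] Qb}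
    (hσ : σ ∈ A.inertiaSubgroupIn ℚ) : galFn N σ • Pol (K := Qb) J = Pol (K := Qb) J := by
  ext P
  rw [SemilinearAut.divisor_smul_apply, RR.Pol_apply, RR.Pol_apply]
  have h := SemilinearAut.ord_smul (galFn N σ) ((galFn N σ)⁻¹ • P) J
  rw [smul_inv_smul, hJ σ hσ] at h
  rw [h]

/-- a rational function, bounded by a rational divisor on a chart, of exact order at a given place -/
theorem exists_exact {J : FB N} (hJ : J ∈ rationalFn A N) (hJt : Transcendental Qb J)
    (D : Divisor Qb (FB N)) (hD : ∀ σ ∈ A.inertiaSubgroupIn ℚ, galFn N σ • D = D)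
    {P₀ : Place Qb (FB N)} :
      ∃ (m : ℕ) (x : FB N), x ∈ rationalFn A N ∧ x ∈ riemannRochSpace (m • Pol (K := Qb) J + D) ∧
        ¬ Bd P₀ x ((m • Pol (K := Qb) J + D) P₀ - 1) := by
  classical
  set g := RR.genusX hJt
  obtain ⟨m, hm⟩ : ∃ m : ℕ, 2 * (g : ℤ) + 1 < (m : ℤ) * RR.ndeg Qb J + Divisor.degree D := by
    refine ⟨2 * g + (Divisor.degree D).natAbs + 2, ?_⟩
    have := RR.ndeg_pos hJt
    have h1 := Int.le_natAbs (a := -Divisor.degree D)
    rw [Int.natAbs_neg] at h1
    push_cast
    nlinarith [neg_abs_le (Divisor.degree D), abs_nonneg (Divisor.degree D)]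
  set E := m • Pol (K := Qb) J + D
  have hdeg : Divisor.degree E = (m : ℤ) * RR.ndeg Qb J + Divisor.degree D := by
    rw [map_add, map_nsmul, RR.degree_Pol hJt, nsmul_eq_mul]
  have hell : ∀ E' : Divisor Qb (FB N), 2 * (g : ℤ) - 1 ≤ Divisor.degree E' →
      (RR.ell E' : ℤ) = Divisor.degree E' + 1 - g := fun E' hE' => by
    have h := RR.rr hJt E'
    have hneg : Divisor.degree (RR.Kd hJt - E') < 0 := by
      rw [map_sub, RR.degree_Kd]
      omega
    rw [RR.ell_of_degree_neg hneg] at h
    simpa using h
  have h1 := hell E (by omega)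
  set E' := E - Finsupp.single P₀ 1
  have hdeg' : Divisor.degree E' = Divisor.degree E - 1 := by
    rw [map_sub, Divisor.degree_single, RR.deg_eq_one]
    simp
  have h2 := hell E' (by omega)
  by_contra hcon
  push Not at hcon
  haveI := RR.finiteDimensional_rr (K := Qb) E
  haveI := RR.finiteDimensional_rr (K := Qb) E'
  have hle : riemannRochSpace E ≤ riemannRochSpace E' := by
    refine (le_span_rational (A := A) _ fun σ hσ x hx => rr_stable ?_ hx).trans
      (Submodule.span_le.mpr ?_)
    · show galFn N σ • (m • Pol (K := Qb) J + D) = _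
      rw [smul_add, hD σ hσ, show galFn N σ • (m • Pol (K := Qb) J) = m • galFn N σ • Pol (K := Qb) J from
        map_nsmul (DistribSMul.toAddMonoidHom (Divisor Qb (FB N)) (galFn N σ)) m _, pol_fixed hJ hσ]
    · rintro x ⟨hx, hxr⟩ P
      show Bd P x (E' P)
      rw [Finsupp.sub_apply, Finsupp.single_apply]
      split_ifs with h
      · subst h
        exact (hcon m x hxr hx)
      · rw [sub_zero]; exact hx P
  have h3 := Submodule.finrank_mono hle
  change RR.ell E ≤ RR.ell E' at h3
  omega

end FLTAgent.SS2
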