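import Fermat.Agent.SS2.FibVal
import Mathlib.LinearAlgebra.Matrix.Charpoly.LinearMap

/-!
A local generator of the twisted sections at a point of the special fibre whose maximal ideal is
generated by `x` and one more element, and the unit it trivialises.
-/

set_option autoImplicit false
set_option linter.unusedSectionVars false
set_option linter.unusedVariables false

noncomputable section

open AlgebraicCurve IsLocalRing
open FLTAgent.RR (Bd)
open FLTAgent.Reduction (Val)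

namespace FLTAgent.SS2

/-- A finite module with a map to a ring whose values are pairwise comparable at the prime `P` and
whose kernel is locally inside `x •` the module, `x ∈ P`, is cyclic at `P`. -/
theorem exists_local_generator {R N B : Type*} [CommRing R] [AddCommGroup N] [Module R N]
    [Module.Finite R N] [CommRing B] (P : Ideal R) [P.IsPrime] {x : R} (hx : x ∈ P)
    (ev : R →+* B) (lam : N →+ B) (hsmul : ∀ (r : R) (m : N), lam (r • m) = ev r * lam m)
    (hker : ∀ m, lam m = 0 → ∃ e : R, e ∉ P ∧ ∃ m' : N, e • m = x • m')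
    (hcomp : ∀ m m' : N, ∃ e : R, e ∉ P ∧ ∃ r : R,
      ev e * lam m = ev r * lam m' ∨ ev e * lam m' = ev r * lam m) :
    ∃ g : N, ∀ m : N, ∃ e : R, e ∉ P ∧ ∃ r : R, e • m = r • g := by
  classical
  obtain ⟨S, hS⟩ := Module.Finite.fg_top (R := R) (M := N)
  have hne : (1 : R) ∉ P := fun h => Ideal.IsPrime.ne_top ‹_› ((Ideal.eq_top_iff_one P).mpr h)
  have hmul : ∀ {a b : R}, a ∉ P → b ∉ P → a * b ∉ P := fun ha hb h =>
    (Ideal.IsPrime.mem_or_mem ‹_› h).elim ha hb
  obtain ⟨g, hg⟩ : ∃ g : N, ∀ m ∈ S, ∃ e : R, e ∉ P ∧ ∃ r : R, ev e * lam m = ev r * lam g := by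
    clear hS
    induction S using Finset.induction with
    | empty => exact ⟨0, fun m hm => absurd hm (Finset.notMem_empty m)⟩
    | insert a S ha ih =>
      obtain ⟨g, hg⟩ := ih
      obtain ⟨e, he, r, h | h⟩ := hcomp a g
      · refine ⟨g, fun m hm => ?_⟩
        rcases Finset.mem_insert.mp hm with rfl | hm
        · exact ⟨e, he, r, h⟩
        · exact hg m hm
      · refine ⟨a, fun m hm => ?_⟩
        rcases Finset.mem_insert.mp hm with rfl | hm
        · exact ⟨1, hne, 1, rfl⟩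
        · obtain ⟨e', he', r', h'⟩ := hg m hm
          refine ⟨e * e', hmul he he', r' * r, ?_⟩
          rw [map_mul, map_mul, mul_assoc, h', mul_left_comm, h, mul_assoc]
  have hloc : ∀ m : N, ∃ e : R, e ∉ P ∧ ∃ (r : R) (m' : N), e • m = r • g + x • m' := by
    intro m
    have hm : m ∈ Submodule.span R (S : Set N) := hS ▸ Submodule.mem_top
    induction hm using Submodule.span_induction with
    | mem m hm =>
      obtain ⟨e, he, r, h⟩ := hg m hm
      obtain ⟨e', he', m', h'⟩ := hker (e • m - r • g) (by rw [map_sub, hsmul, hsmul, h, sub_self])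
      refine ⟨e' * e, hmul he' he, e' * r, m', ?_⟩
      rw [← h', smul_sub, mul_smul, mul_smul]
      abel
    | zero => exact ⟨1, hne, 0, 0, by simp⟩
    | add u v _ _ hu hv =>
      obtain ⟨e, he, r, a, h⟩ := hu
      obtain ⟨e', he', r', a', h'⟩ := hv
      refine ⟨e' * e, hmul he' he, e' * r + e * r', e' • a + e • a', ?_⟩
      rw [smul_add, mul_smul, h, mul_comm e' e, mul_smul, h', smul_add, smul_add, smul_add,
        add_smul, mul_smul, mul_smul, smul_comm e' x, smul_comm e x]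
      abel
    | smul c u _ hu =>
      obtain ⟨e, he, r, a, h⟩ := hu
      refine ⟨e, he, c * r, c • a, ?_⟩
      rw [smul_comm, h, smul_add, mul_smul, smul_comm x c]
  choose e he r a hea using hloc
  let E : R := ∏ m ∈ S, e m
  have hE : E ∉ P := by
    refine Finset.prod_induction _ (fun t => t ∉ P) (fun _ _ => hmul) hne fun m _ => he m
  set Q := N ⧸ Submodule.span R {g}
  have hrange : LinearMap.range (algebraMap R (Module.End R Q) E) ≤
      Ideal.span {x} • (⊤ : Submodule R Q) := by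
    rintro _ ⟨z, rfl⟩
    rw [Module.algebraMap_end_apply]
    obtain ⟨m, rfl⟩ := Submodule.Quotient.mk_surjective _ z
    have hm : m ∈ Submodule.span R (S : Set N) := hS ▸ Submodule.mem_top
    induction hm using Submodule.span_induction with
    | mem m hm =>
      have hfac : E = (∏ m' ∈ S.erase m, e m') * e m := (Finset.prod_erase_mul S e hm).symm
      rw [hfac, mul_smul, ← Submodule.Quotient.mk_smul _ (e m), hea, Submodule.Quotient.mk_add,
        (Submodule.Quotient.mk_eq_zero _).mpr (Submodule.smul_mem _ _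
          (Submodule.mem_span_singleton_self g)), zero_add, Submodule.Quotient.mk_smul]
      exact Submodule.smul_mem _ _
        (Submodule.smul_mem_smul (Ideal.mem_span_singleton_self x) Submodule.mem_top)
    | zero => rw [Submodule.Quotient.mk_zero, smul_zero]; exact zero_mem _
    | add u v _ _ hu hv => rw [Submodule.Quotient.mk_add, smul_add]; exact add_mem hu hv
    | smul c u _ hu =>
      rw [Submodule.Quotient.mk_smul, smul_comm]; exact Submodule.smul_mem _ _ hu
  obtain ⟨p, hp, -, hcoef, hzero⟩ :=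
    LinearMap.exists_monic_and_natDegree_eq_and_coeff_mem_pow_and_aeval_eq_zero R
      (algebraMap R (Module.End R Q) E) (Ideal.span {x}) hrange
  have hEp : p.eval E ∉ P := by
    intro hmem
    refine hE (Ideal.IsPrime.mem_of_pow_mem ‹_› p.natDegree ?_)
    rw [Polynomial.eval_eq_sum_range, Finset.sum_range_succ, hp.coeff_natDegree, one_mul] at hmem
    refine (Submodule.add_mem_iff_right P (sum_mem fun i hi => Ideal.mul_mem_right _ _ ?_)).mp hmem
    exact (Ideal.span_le.mpr (Set.singleton_subset_iff.mpr hx))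
      (Ideal.pow_le_self (by have := Finset.mem_range.mp hi; omega) (hcoef i))
  refine ⟨g, fun m => ⟨p.eval E, hEp, ?_⟩⟩
  have hz : (p.eval E) • (Submodule.Quotient.mk m : Q) = 0 := by
    have h0 := LinearMap.congr_fun hzero (Submodule.Quotient.mk m : Q)
    rw [Polynomial.aeval_algebraMap_apply, Module.algebraMap_end_apply,
      Polynomial.coe_aeval_eq_eval, LinearMap.zero_apply] at h0
    exact h0
  rw [← Submodule.Quotient.mk_smul, Submodule.Quotient.mk_eq_zero,
    Submodule.mem_span_singleton] at hz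
  obtain ⟨c, hc⟩ := hz
  exact ⟨c, hc.symm⟩

theorem prod_not_mem {R κ : Type*} [CommRing R] (P : Ideal R) [P.IsPrime] (S : Finset κ)
    (f : κ → R) (hf : ∀ i, f i ∉ P) : (∏ i ∈ S, f i) ∉ P :=
  Finset.prod_induction f (fun t => t ∉ P)
    (fun _ _ ha hb h => (Ideal.IsPrime.mem_or_mem ‹_› h).elim ha hb)
    (fun h => Ideal.IsPrime.ne_top ‹_› ((Ideal.eq_top_iff_one P).mpr h)) fun i _ => hf i

namespace Fib

variable {K : Type*} [Field K] [IsAlgClosed K] [CharZero K] {A : ValuationSubring K}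
  {F : Type*} [Field F] [Algebra K F] [RR.FnField K F]
  {Fs : Type*} [Field Fs] [Algebra (ResidueField A) Fs] (M : Fib K A F Fs) {n : ℕ}

/-- the maximal ideal of a point of the special fibre in a chart -/
def ptIdeal (s : Bool) (b : Fin 3) (Q : Place (ResidueField A) Fs)
    (hQ : InChart s (Q.ord (M.Jbar b))) : Ideal (M.R s) where
  carrier := {e | Val Q (M.red b (e : F)) 0}
  add_mem' := fun {e e'} he he' => by
    show Val Q (M.red b ((e : F) + (e' : F))) 0
    rw [M.red_add b _ (M.GI_iff.mp e.2.1 b) _ (M.GI_iff.mp e'.2.1 b)]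
    simpa using Val.add he he'
  zero_mem' := by
    show Val Q (M.red b (0 : F)) 0
    rw [M.red_zero]; exact Val.zero
  smul_mem' := fun r e he => by
    show Val Q (M.red b ((r : F) * (e : F))) 0
    obtain ⟨v, hv⟩ := M.val_exists hQ r.2
    rw [M.red_mul b _ (M.GI_iff.mp r.2.1 b) _ (M.GI_iff.mp e.2.1 b)]
    simpa using hv.mul he

theorem mem_ptIdeal {s : Bool} {b : Fin 3} {Q : Place (ResidueField A) Fs}
    {hQ : InChart s (Q.ord (M.Jbar b))} {e : M.R s} :
    e ∈ M.ptIdeal s b Q hQ ↔ Val Q (M.red b (e : F)) 0 := Iff.rfl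

theorem ptIdeal_isPrime (s : Bool) (b : Fin 3) (Q : Place (ResidueField A) Fs)
    (hQ : InChart s (Q.ord (M.Jbar b))) : (M.ptIdeal s b Q hQ).IsPrime := by
  refine ⟨fun h => ?_, fun {e e'} h => ?_⟩
  · have h1 : Val Q (M.red b ((1 : M.R s) : F)) 0 := (Ideal.eq_top_iff_one _).mp h
    rw [Subring.coe_one, M.red_one] at h1
    exact one_ne_zero (Val.one.unique h1)
  · obtain ⟨v, hv⟩ := M.val_exists hQ e.2
    obtain ⟨v', hv'⟩ := M.val_exists hQ e'.2
    rw [mem_ptIdeal, Subring.coe_mul, M.red_mul b _ (M.GI_iff.mp e.2.1 b) _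
      (M.GI_iff.mp e'.2.1 b)] at h
    rcases mul_eq_zero.mp ((hv.mul hv').unique h) with rfl | rfl
    · exact Or.inl hv
    · exact Or.inr hv'

/-- sections of exact order can be made integral on all components -/
theorem exists_integral_section {D : Divisor K F} {s : Bool} {m : F} (hm : m ∈ M.Ω)
    (hmc : M.OnChart D s m) :
    ∃ m' ∈ M.I D s, (m ≠ 0 → m' ≠ 0) ∧ ∀ P : Place K F, P.ord m' = P.ord m := by
  choose N hN using fun b => M.exists_killing_exp b hm
  set k := ∑ b, N b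
  set c : F := algebraMap K F ((M.q : K) ^ k) with hc
  refine ⟨m * c, ⟨M.GI_iff.mpr fun b => ?_, fun P hP => ?_⟩,
    fun h => mul_ne_zero h ((map_ne_zero _).mpr (pow_ne_zero _ M.q_ne)), fun P => ?_⟩
  · rw [hc, map_pow]
    exact (hN b _ (M.q_mem_G b).1 (M.q_mem_G b).2 k
      (Finset.single_le_sum (fun _ _ => Nat.zero_le _) (Finset.mem_univ b))).1
  · have h1 := (hmc P hP).mul (RR.Bd.of_algebraMap (v := P) ((M.q : K) ^ k))
    rwa [add_zero] at h1
  · rcases eq_or_ne m 0 with rfl | h0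
    · simp
    rw [P.ord_mul h0 ((map_ne_zero _).mpr (pow_ne_zero _ M.q_ne)), RR.ord_algebraMap, add_zero]

/-- a section with nonzero restriction to a component, from any nonzero section and a uniformiser
regular on the chart -/
theorem exists_section_red_ne {D : Divisor K F} {s : Bool} (b : Fin 3) {m ρ : F} (hm : m ∈ M.Ω)
    (hm0 : m ≠ 0) (hmc : M.OnChart D s m) (hρc : M.OnChart 0 s ρ)
    (hρ : ρ * (M.ϖ b)⁻¹ ∈ M.G b) (hρr : M.red b (ρ * (M.ϖ b)⁻¹) ≠ 0) :
    ∃ m' ∈ M.I D s, M.red b m' ≠ 0 := by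
  classical
  obtain ⟨i, y, hy, hyr, hmy⟩ := M.exists_unit_part b hm hm0
  set l := i.toNat
  set k := ((l : ℤ) * M.e b - i).toNat
  have he := M.e_pos b
  have hk : (k : ℤ) = (l : ℤ) * M.e b - i := by
    refine Int.toNat_of_nonneg (sub_nonneg.mpr ?_)
    have : (l : ℤ) ≤ l * M.e b := le_mul_of_one_le_right (Int.natCast_nonneg l) (by exact_mod_cast he)
    omega
  set c : F := algebraMap K F (((M.q : K) ^ l)⁻¹) with hc
  set w := algebraMap K F (M.q : K) * (M.ϖ b ^ M.e b)⁻¹ with hw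
  have hwG := M.inv_mem_G b (M.q_eq b).1 (M.q_eq b).2
  set m1 := m * ρ ^ k * c with hm1
  have hm1eq : m1 = y * (ρ * (M.ϖ b)⁻¹) ^ k * (w⁻¹) ^ l := by
    have hϖ := M.ϖ_ne b
    have hq : algebraMap K F (M.q : K) ≠ 0 := (map_ne_zero _).mpr M.q_ne
    rw [hm1, hc, hmy, hw, mul_inv, inv_inv, mul_pow, mul_pow, map_inv₀, map_pow, inv_pow, inv_pow,
      ← pow_mul]
    have hpow : M.ϖ b ^ i = M.ϖ b ^ (M.e b * l) * ((M.ϖ b) ^ k)⁻¹ := by
      rw [← zpow_natCast, ← zpow_natCast, ← zpow_neg, ← zpow_add₀ hϖ]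
      congr 1
      rw [hk]; push_cast; ring
    rw [hpow]
    ring
  have hm1G : m1 ∈ M.G b := by
    rw [hm1eq]; exact mul_mem (mul_mem hy (pow_mem hρ k)) (pow_mem hwG.1 l)
  have hm1r : M.red b m1 ≠ 0 := by
    rw [hm1eq, M.red_mul b _ (mul_mem hy (pow_mem hρ k)) _ (pow_mem hwG.1 l),
      M.red_mul b _ hy _ (pow_mem hρ k), M.red_pow b hρ, M.red_pow b hwG.1, hwG.2]
    exact mul_ne_zero (mul_ne_zero hyr (pow_ne_zero _ hρr))
      (pow_ne_zero _ (inv_ne_zero (M.q_eq b).2))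
  have hρΩ : ρ ∈ M.Ω := by
    have := mul_mem (M.G_le b _ hρ) (M.ϖ_mem_Ω b)
    rwa [inv_mul_cancel_right₀ (M.ϖ_ne b)] at this
  have hm1Ω : m1 ∈ M.Ω :=
    mul_mem (mul_mem hm (pow_mem hρΩ k)) (M.const_Ω _ (inv_mem (pow_mem M.q_mem_T l)))
  obtain ⟨ε, hεG, hεc, hεb, hε0⟩ := M.separated s b
  choose N hN using fun b' => M.exists_killing_exp b' hm1Ω
  set j := ∑ b', N b'
  refine ⟨m1 * ε ^ j, ⟨M.GI_iff.mpr fun b' => ?_, fun P hP => ?_⟩, ?_⟩
  · rcases eq_or_ne b' b with rfl | hne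
    · exact mul_mem hm1G (pow_mem (hεG _) j)
    · exact (hN b' ε (hεG b') (hε0 b' hne) j
        (Finset.single_le_sum (fun _ _ => Nat.zero_le _) (Finset.mem_univ b'))).1
  · have h1 : Bd P (m * ρ ^ k * c) (D P + (k : ℤ) * 0 + 0) :=
      ((hmc P hP).mul ((by simpa using hρc P hP : Bd P ρ 0).pow k)).mul (RR.Bd.of_algebraMap _)
    simpa [m1] using h1.mul ((hεc P hP).pow j)
  · rw [M.red_mul b _ hm1G _ (pow_mem (hεG b) j), M.red_pow b (hεG b)]
    exact mul_ne_zero hm1r (pow_ne_zero _ hεb)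

theorem exists_chart_place (s : Bool) : ∃ P : Place K F, InChart s (P.ord M.J) := by
  haveI := RR.finiteDimensional_adjoin (K := K) M.transc_J
  have hpos : 0 < RR.ndeg K M.J := Module.finrank_pos
  cases s with
  | false =>
    by_contra hcon
    push Not at hcon
    have h := RR.sum_ord_sub_const (K := K) M.transc_J 0 ∅ fun P => by
      simp only [Finset.notMem_empty, map_zero, sub_zero, false_iff, not_lt]
      have := hcon P
      simp [InChart] at this
      omega
    simp at h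
    omega
  | true =>
    by_contra hcon
    push Not at hcon
    have h := RR.sum_ord_poles (K := K) M.transc_J ∅ fun P => by
      simp only [Finset.notMem_empty, false_iff, not_lt]
      have := hcon P
      simp [InChart] at this
      omega
    simp at h
    omega

/-- the unit trivialised by a local generator -/
theorem unit_not_mem (hn : n ≠ 0) (W : M.Triv n) (s : Bool) (P : Ideal (M.R s)) [P.IsPrime]
    {g : F} (hg : g ∈ M.I W.D s)
    (hgen : ∀ m ∈ M.I W.D s, ∃ e : M.R s, e ∉ P ∧ ∃ r : M.R s, (e : F) * m = (r : F) * g)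
    (hfull : ∀ PK : Place K F, InChart s (PK.ord M.J) →
      ∃ m ∈ M.Ω, m ≠ 0 ∧ M.OnChart W.D s m ∧ PK.ord m = -W.D PK)
    (hρ : ∀ b, ∃ ρ : F, M.OnChart 0 s ρ ∧ ρ * (M.ϖ b)⁻¹ ∈ M.G b ∧
      M.red b (ρ * (M.ϖ b)⁻¹) ≠ 0) :
    ∃ u : M.R s, (u : F) = g ^ n * W.f ∧ u ∉ P := by
  classical
  have hmul : ∀ {a b : M.R s}, a ∉ P → b ∉ P → a * b ∉ P := fun ha hb h =>
    (Ideal.IsPrime.mem_or_mem ‹_› h).elim ha hb
  have hne1 : (1 : M.R s) ∉ P := fun h => Ideal.IsPrime.ne_top ‹_› ((Ideal.eq_top_iff_one P).mpr h)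
  -- the trivialised powers are chart functions
  have hpowR : ∀ m ∈ M.I W.D s, m ^ n * W.f ∈ M.R s := by
    intro m hm
    refine ⟨mul_mem (pow_mem hm.1 n) (M.GI_iff.mpr W.f_mem), fun Q hQ => ?_⟩
    rcases eq_or_ne m 0 with rfl | hm0
    · simp [zero_pow hn, RR.Bd.zero]
    have hb := (RR.bd_iff_ord hm0).mp (hm.2 Q hQ)
    rw [RR.bd_iff_ord (mul_ne_zero (pow_ne_zero _ hm0) W.f_ne),
      Q.ord_mul (pow_ne_zero _ hm0) W.f_ne, RR.ord_pow, ← W.ord_f, Finsupp.zero_apply]
    nlinarith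
  set u : M.R s := ⟨g ^ n * W.f, hpowR g hg⟩ with hu
  refine ⟨u, rfl, fun huP => ?_⟩
  have hord_nonneg : ∀ (r : M.R s) (Q : Place K F), InChart s (Q.ord M.J) → 0 ≤ Q.ord (r : F) := by
    intro r Q hQ
    rcases eq_or_ne (r : F) 0 with h0 | h0
    · simp [h0]
    have := (RR.bd_iff_ord h0).mp (r.2.2 Q hQ)
    simpa using this
  -- a nonzero section
  obtain ⟨Q₀, hQ₀⟩ := M.exists_chart_place s
  obtain ⟨m₀, hm₀Ω, hm₀0, hm₀c, -⟩ := hfull Q₀ hQ₀
  obtain ⟨m₁, hm₁, hm₁0, -⟩ := M.exists_integral_section hm₀Ω hm₀c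
  -- components through the point
  have hcomp : ∀ b, (∀ e : M.R s, e ∉ P → M.red b (e : F) ≠ 0) → M.red b (u : F) ≠ 0 := by
    intro b hb hub
    obtain ⟨ρ, hρc, hρG, hρr⟩ := hρ b
    obtain ⟨m, hm, hmr⟩ := M.exists_section_red_ne b hm₀Ω hm₀0 hm₀c hρc hρG hρr
    obtain ⟨e, he, r, her⟩ := hgen m hm
    have h1 : ((e : F) * m) ^ n * W.f = (r : F) ^ n * (g ^ n * W.f) := by rw [her]; ring
    have heG := M.GI_iff.mp e.2.1 b
    have hmG := M.GI_iff.mp hm.1 b
    have h2 := congrArg (M.red b) h1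
    rw [M.red_mul b _ (pow_mem (mul_mem heG hmG) n) _ (W.f_mem b), M.red_pow b (mul_mem heG hmG),
      M.red_mul b _ heG _ hmG,
      M.red_mul b _ (pow_mem (M.GI_iff.mp r.2.1 b) n) _ (M.GI_iff.mp u.2.1 b),
      show M.red b (g ^ n * W.f) = 0 from hub, mul_zero] at h2
    exact mul_ne_zero (pow_ne_zero n (mul_ne_zero (hb e he) hmr)) (W.red_ne b) h2
  have hu0 : (u : F) ≠ 0 := by
    refine mul_ne_zero (pow_ne_zero _ ?_) W.f_ne
    intro hg0
    -- with `g = 0` every section would be killed outside `P`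
    obtain ⟨e, he, r, her⟩ := hgen m₁ hm₁
    rw [hg0, mul_zero, mul_eq_zero] at her
    rcases her with h | h
    · exact he (by rw [show e = 0 from Subtype.ext h]; exact zero_mem _)
    · exact hm₁0 hm₀0 h
  -- places through the point
  have hplace : ∀ Q : Place K F, InChart s (Q.ord M.J) →
      (∀ e : M.R s, e ∉ P → Q.ord (e : F) ≤ 0) → Q.ord (u : F) = 0 := by
    intro Q hQ hQe
    obtain ⟨m, hmΩ, hm0, hmc, hmord⟩ := hfull Q hQ
    obtain ⟨m', hm', hm'ne, hm'ord⟩ := M.exists_integral_section hmΩ hmc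
    obtain ⟨e, he, r, her⟩ := hgen m' hm'
    have he0 : (e : F) ≠ 0 := fun h => he (by rw [show e = 0 from Subtype.ext h]; exact zero_mem _)
    have heord : Q.ord (e : F) = 0 := le_antisymm (hQe e he) (hord_nonneg e Q hQ)
    have hm'0 := hm'ne hm0
    have h1 := congrArg (fun z => Q.ord (z ^ n * W.f)) her
    simp only [mul_pow, mul_assoc] at h1
    have hg0 : g ≠ 0 := fun h => hu0 (by simp [hu, h, zero_pow hn])
    have hr0 : (r : F) ≠ 0 := fun h => by
      rw [h, zero_mul] at her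
      exact mul_ne_zero he0 hm'0 her
    rw [Q.ord_mul (pow_ne_zero _ he0) (mul_ne_zero (pow_ne_zero _ hm'0) W.f_ne),
      Q.ord_mul (pow_ne_zero _ hm'0) W.f_ne, RR.ord_pow, RR.ord_pow, hm'ord, hmord, ← W.ord_f,
      heord, Q.ord_mul (pow_ne_zero _ hr0) hu0, RR.ord_pow] at h1
    have hr := hord_nonneg r Q hQ
    have huo := hord_nonneg u Q hQ
    nlinarith
  -- an element outside `P` killing the other zeros
  have hex : ∀ b, ∃ e : M.R s, e ∉ P ∧
      ((∀ e' : M.R s, e' ∉ P → M.red b (e' : F) ≠ 0) ∨ M.red b (e : F) = 0) := fun b => by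
    by_cases hb : ∀ e' : M.R s, e' ∉ P → M.red b (e' : F) ≠ 0
    · exact ⟨1, hne1, Or.inl hb⟩
    · push Not at hb
      obtain ⟨e, he, her⟩ := hb
      exact ⟨e, he, Or.inr her⟩
  choose eb heb hebr using hex
  set bad := (RR.finite_ord_ne_zero (K := K) hu0).toFinset.filter
    fun Q : Place K F => InChart s (Q.ord M.J)
  have hexQ : ∀ Q : Place K F, ∃ e : M.R s, e ∉ P ∧ (Q ∈ bad → 1 ≤ Q.ord (e : F)) := fun Q => by
    by_cases hQ : Q ∈ bad
    · obtain ⟨hQ1, hQ2⟩ := Finset.mem_filter.mp hQ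
      by_contra hcon
      push Not at hcon
      refine (Set.Finite.mem_toFinset _).mp hQ1 (hplace Q hQ2 fun e he => ?_)
      have := (hcon e he).2
      omega
    · exact ⟨1, hne1, fun h => absurd h hQ⟩
  choose eQ heQ heQord using hexQ
  obtain ⟨E, hEdef⟩ : ∃ E : M.R s, E = (∏ b, eb b) * ∏ Q ∈ bad, eQ Q := ⟨_, rfl⟩
  have hE : E ∉ P := hEdef ▸ hmul (prod_not_mem P Finset.univ eb heb) (prod_not_mem P bad eQ heQ)
  have hE0 : (E : F) ≠ 0 := fun h => hE (by rw [show E = 0 from Subtype.ext h]; exact zero_mem _)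
  have huΩ : (u : F)⁻¹ ∈ M.Ω := inv_mem (M.G_le 0 _ (M.GI_iff.mp u.2.1 0))
  choose N hN using fun b => M.exists_killing_exp b huΩ
  set k := ∑ b, N b + ∑ Q ∈ bad, (Q.ord (u : F)).natAbs with hk
  have hzR : (u : F)⁻¹ * (E : F) ^ k ∈ M.R s := by
    refine ⟨M.GI_iff.mpr fun b => ?_, fun Q hQ => ?_⟩
    · rcases hebr b with hb | hb
      · exact mul_mem (M.inv_mem_G b (M.GI_iff.mp u.2.1 b) (hcomp b hb)).1
          (pow_mem (M.GI_iff.mp E.2.1 b) k)
      · refine (hN b _ (M.GI_iff.mp E.2.1 b) ?_ k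
          ((Finset.single_le_sum (fun _ _ => Nat.zero_le _) (Finset.mem_univ b)).trans
            (Nat.le_add_right _ _))).1
        have hsplit : E = eb b * ((∏ c ∈ Finset.univ.erase b, eb c) * ∏ Q ∈ bad, eQ Q) := by
          rw [hEdef, ← mul_assoc, Finset.mul_prod_erase _ _ (Finset.mem_univ b)]
        rw [hsplit, Subring.coe_mul, M.red_mul b _ (M.GI_iff.mp (eb b).2.1 b) _
          (M.GI_iff.mp (((∏ c ∈ Finset.univ.erase b, eb c) * ∏ Q ∈ bad, eQ Q : M.R s)).2.1 b),
          hb, zero_mul]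
    · rw [RR.bd_iff_ord (mul_ne_zero (inv_ne_zero hu0) (pow_ne_zero _ hE0)),
        Q.ord_mul (inv_ne_zero hu0) (pow_ne_zero _ hE0), Q.ord_inv, RR.ord_pow,
        Finsupp.zero_apply, neg_zero]
      have hEord := hord_nonneg E Q hQ
      by_cases hbad : Q ∈ bad
      · have hle : (Q.ord (u : F)).natAbs ≤ k :=
          (Finset.single_le_sum (f := fun Q : Place K F => (Q.ord (u : F)).natAbs)
            (fun _ _ => Nat.zero_le _) hbad).trans (Nat.le_add_left _ _)
        have hsplit : E = eQ Q * ((∏ b, eb b) * ∏ Q' ∈ bad.erase Q, eQ Q') := by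
          rw [hEdef, mul_left_comm, Finset.mul_prod_erase _ _ hbad]
        have h1 : 1 ≤ Q.ord (E : F) := by
          rw [hsplit, Subring.coe_mul] at hE0 ⊢
          rw [Q.ord_mul (left_ne_zero_of_mul hE0) (right_ne_zero_of_mul hE0)]
          have := hord_nonneg ((∏ b, eb b) * ∏ Q' ∈ bad.erase Q, eQ Q') Q hQ
          have := heQord Q hbad
          omega
        have : (k : ℤ) ≤ k * Q.ord (E : F) := le_mul_of_one_le_right (Int.natCast_nonneg k) h1
        omega
      · have hzero : Q.ord (u : F) = 0 := by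
          by_contra h
          exact hbad (Finset.mem_filter.mpr ⟨(Set.Finite.mem_toFinset _).mpr h, hQ⟩)
        rw [hzero]
        have := mul_nonneg (Int.natCast_nonneg k) hEord
        omega
  have hmem : E ^ k ∈ P := by
    have : E ^ k = u * ⟨_, hzR⟩ := Subtype.ext (by
      rw [Subring.coe_mul, SubmonoidClass.coe_pow]
      exact (mul_inv_cancel_left₀ hu0 _).symm)
    rw [this]
    exact Ideal.mul_mem_right _ _ huP
  exact hE (Ideal.IsPrime.mem_of_pow_mem ‹_› k hmem)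

/-- the local generator and the common value of the unit on a point of the special fibre -/
theorem exists_generator (hn : n ≠ 0) (W : M.Triv n) (s : Bool) (b : Fin 3)
    (Q : Place (ResidueField A) Fs) (hQ : InChart s (Q.ord (M.Jbar b)))
    (hfg : (M.I W.D s).FG) {B : Type*} [CommRing B] (ev : M.R s →+* B) {x : M.R s}
    (hx : Val Q (M.red b (x : F)) 0) (lam : M.I W.D s →+ B)
    (hsmul : ∀ (r : M.R s) (m : M.I W.D s), lam (r • m) = ev r * lam m)
    (hker : ∀ m : M.I W.D s, lam m = 0 →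
      ∃ e : M.R s, ¬ Val Q (M.red b (e : F)) 0 ∧ ∃ m' : M.I W.D s, e • m = x • m')
    (hcomp : ∀ m m' : M.I W.D s, ∃ e : M.R s, ¬ Val Q (M.red b (e : F)) 0 ∧ ∃ r : M.R s,
      ev e * lam m = ev r * lam m' ∨ ev e * lam m' = ev r * lam m)
    (hfull : ∀ PK : Place K F, InChart s (PK.ord M.J) →
      ∃ m ∈ M.Ω, m ≠ 0 ∧ M.OnChart W.D s m ∧ PK.ord m = -W.D PK)
    (hρ : ∀ b, ∃ ρ : F, M.OnChart 0 s ρ ∧ ρ * (M.ϖ b)⁻¹ ∈ M.G b ∧
      M.red b (ρ * (M.ϖ b)⁻¹) ≠ 0) :
    ∃ g ∈ M.I W.D s,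
      (∀ m ∈ M.I W.D s, ∃ e : M.R s, ¬ Val Q (M.red b (e : F)) 0 ∧
        ∃ r : M.R s, (e : F) * m = (r : F) * g) ∧
      ∃ c : ResidueField A, c ≠ 0 ∧ Val Q (M.red b (g ^ n * W.f)) c ∧
        ∀ b' (Q' : Place (ResidueField A) Fs), InChart s (Q'.ord (M.Jbar b')) →
          M.SamePt s b Q b' Q' → Val Q' (M.red b' (g ^ n * W.f)) c := by
  haveI := M.ptIdeal_isPrime s b Q hQ
  haveI : Module.Finite (M.R s) (M.I W.D s) := Module.Finite.iff_fg.mpr hfg
  obtain ⟨g, hg⟩ := exists_local_generator (M.ptIdeal s b Q hQ) (x := x) hx ev lam hsmul hker hcomp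
  have hgen : ∀ m ∈ M.I W.D s, ∃ e : M.R s, e ∉ M.ptIdeal s b Q hQ ∧
      ∃ r : M.R s, (e : F) * m = (r : F) * (g : F) := fun m hm => by
    obtain ⟨e, he, r, h⟩ := hg ⟨m, hm⟩
    exact ⟨e, he, r, congrArg Subtype.val h⟩
  obtain ⟨u, hu, huP⟩ := M.unit_not_mem hn W s (M.ptIdeal s b Q hQ) g.2 hgen hfull hρ
  obtain ⟨c, hc⟩ := M.val_exists hQ u.2
  refine ⟨g, g.2, hgen, c, fun h0 => huP (M.mem_ptIdeal.mpr (h0 ▸ hc)), hu ▸ hc,
    fun b' Q' hQ' hsame => hu ▸ hsame.val_eq M u.2 hc⟩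

/-- on a twist the value of the unit is a power of the value of the section -/
theorem exists_root_val (hn : n ≠ 0) (W : M.Twist n) {g : F} {b : Fin 3} (hg : g ∈ M.G b)
    {Q : Place (ResidueField A) Fs} {c : ResidueField A}
    (h : Val Q (M.red b (g ^ n * W.f)) c) : ∃ ζ, Val Q (M.red b g) ζ ∧ ζ ^ n = c := by
  rw [M.red_mul b _ (pow_mem hg n) _ (W.f_mem b), W.red_f, mul_one, M.red_pow b hg] at h
  obtain ⟨ζ, hζ⟩ := Reduction.exists_val (M.hasRes Q) (bd_pow_iff' hn h.bd)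
  exact ⟨ζ, hζ, (hζ.pow n).unique h⟩

end Fib

end FLTAgent.SS2

end
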