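import Fermat.Agent.SS2.FibBasic

/-!
The rational sections of a twist as a degeneration over the ring of constants `O = A ∩ T`, with
`E = GI / q GI`, and the finiteness and linear bound of its special fibre.
-/

set_option autoImplicit false
set_option linter.unusedSectionVars false
set_option linter.style.haveILetI false
set_option linter.unusedVariables false

noncomputable section

open AlgebraicCurve IsLocalRing
open FLTAgent.RR (Bd Pol)

namespace FLTAgent.SS2.Fib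

variable {K : Type*} [Field K] [IsAlgClosed K] [CharZero K] {A : ValuationSubring K}
  {F : Type*} [Field F] [Algebra K F] [RR.FnField K F]
  {Fs : Type*} [Field Fs] [Algebra (ResidueField A) Fs] (M : Fib K A F Fs) {n : ℕ}

local notation "ι'" => algebraMap K F
local notation "𝕜" => ResidueField A
local notation "kO" => ResidueField M.O

theorem smul_O (a : M.O) (x : F) : a • x = ι' ((a : M.T) : K) * x := by
  rw [← Algebra.smul_def]; rfl

theorem smul_T (c : M.T) (x : F) : c • x = ι' (c : K) * x := by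
  rw [← Algebra.smul_def]; rfl

/-- the functions integral on all components, over the constants -/
def GIO : Submodule M.O F where
  carrier := {x | x ∈ M.GI}
  zero_mem' := M.GI.zero_mem
  add_mem' := fun hx hy => M.GI.add_mem hx hy
  smul_mem' := fun a x (hx : x ∈ M.GI) => by
    show a • x ∈ M.GI
    rw [M.smul_O]
    exact mul_mem (M.mem_GI.2 fun b => M.G_const b a) hx

theorem mem_GIO {x : F} : x ∈ M.GIO ↔ x ∈ M.GI := Iff.rfl

/-- functions on the special fibre: `GI / q GI` -/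
abbrev Esp : Type _ := M.GIO ⧸ (maximalIdeal M.O • (⊤ : Submodule M.O M.GIO))

instance instModuleEsp : Module kO M.Esp :=
  inferInstanceAs (Module (M.O ⧸ maximalIdeal M.O) M.Esp)

instance instTowerEsp : IsScalarTower M.O kO M.Esp :=
  inferInstanceAs (IsScalarTower M.O (M.O ⧸ maximalIdeal M.O) M.Esp)

theorem residue_smul (a : M.O) (y : M.Esp) : residue M.O a • y = a • y := rfl

/-- restriction to the special fibre -/
def resE (x : F) : M.Esp :=
  open Classical in if hx : x ∈ M.GI then Submodule.Quotient.mk ⟨x, hx⟩ else 0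

theorem resE_of_mem {x : F} (hx : x ∈ M.GI) : M.resE x = Submodule.Quotient.mk ⟨x, hx⟩ := dif_pos hx

theorem resE_eq_zero_iff {x : F} (hx : x ∈ M.GI) :
    M.resE x = 0 ↔ ∃ z ∈ M.GI, x = ι' (M.q : K) * z := by
  rw [M.resE_of_mem hx, Submodule.Quotient.mk_eq_zero, M.maximalIdeal_eq,
    Submodule.ideal_span_singleton_smul, Submodule.mem_smul_pointwise_iff_exists]
  constructor
  · rintro ⟨z, -, hz⟩
    refine ⟨z, z.2, ?_⟩
    have := congrArg Subtype.val hz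
    rw [Submodule.coe_smul, M.smul_O] at this
    exact this.symm
  · rintro ⟨z, hz, rfl⟩
    refine ⟨⟨z, hz⟩, Submodule.mem_top, Subtype.ext ?_⟩
    rw [Submodule.coe_smul, M.smul_O]
    rfl

theorem resE_add {x y : F} (hx : x ∈ M.GI) (hy : y ∈ M.GI) :
    M.resE (x + y) = M.resE x + M.resE y := by
  rw [M.resE_of_mem hx, M.resE_of_mem hy, M.resE_of_mem (add_mem hx hy)]
  rfl

theorem resE_sub {x y : F} (hx : x ∈ M.GI) (hy : y ∈ M.GI) :
    M.resE (x - y) = M.resE x - M.resE y := by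
  rw [M.resE_of_mem hx, M.resE_of_mem hy, M.resE_of_mem (sub_mem hx hy)]
  rfl

theorem resE_smul (a : M.O) {x : F} (hx : x ∈ M.GI) : M.resE (a • x) = residue M.O a • M.resE x := by
  rw [M.resE_of_mem (M.GIO.smul_mem a hx), M.resE_of_mem hx, M.residue_smul]
  rfl

theorem mul_mem_GI_iff {x : F} : M.J * x ∈ M.GI ↔ x ∈ M.GI := by
  refine ⟨fun h => ?_, fun h => mul_mem M.J_mem_GI h⟩
  have := mul_mem M.J_inv_mem_GI h
  rwa [← mul_assoc, inv_mul_cancel₀ M.J_ne_zero, one_mul] at this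

/-- multiplication by the coordinate on integral functions -/
def mulGIO : M.GIO ≃ₗ[M.O] M.GIO where
  toFun x := ⟨M.J * x, M.GI.mul_mem M.J_mem_GI x.2⟩
  invFun x := ⟨M.J⁻¹ * x, M.GI.mul_mem M.J_inv_mem_GI x.2⟩
  map_add' x y := Subtype.ext (mul_add _ _ _)
  map_smul' a x := Subtype.ext (by simp [M.smul_O, mul_left_comm])
  left_inv x := Subtype.ext (by simp [M.J_ne_zero])
  right_inv x := Subtype.ext (by simp [M.J_ne_zero])

/-- multiplication by the coordinate on the special fibre -/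
def mulEsp : M.Esp ≃ₗ[kO] M.Esp :=
  let e : M.Esp ≃ₗ[M.O] M.Esp := Submodule.Quotient.equiv _ _ M.mulGIO (by
    rw [Submodule.map_smul'', Submodule.map_top, LinearEquiv.range])
  { e with
    map_smul' := fun c x => by
      obtain ⟨a, rfl⟩ := residue_surjective c
      exact e.map_smul a x }

theorem mulEsp_resE {x : F} (hx : x ∈ M.GI) : M.mulEsp (M.resE x) = M.resE (M.J * x) := by
  rw [M.resE_of_mem hx, M.resE_of_mem (mul_mem M.J_mem_GI hx)]
  rfl

/-- multiplication by the coordinate -/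
def mulF : F ≃ₗ[M.T] F where
  toFun x := M.J * x
  invFun x := M.J⁻¹ * x
  map_add' x y := mul_add _ _ _
  map_smul' c x := by simp [M.smul_T, mul_left_comm]
  left_inv x := by simp [M.J_ne_zero]
  right_inv x := by simp [M.J_ne_zero]

/-- rational sections on a chart -/
def Vc (D : Divisor K F) (s : Bool) : Submodule M.T F where
  carrier := {x | x ∈ M.Ω ∧ M.OnChart D s x}
  zero_mem' := ⟨zero_mem _, fun P _ => RR.Bd.zero⟩
  add_mem' := fun hx hy => ⟨add_mem hx.1 hy.1, M.onChart_add hx.2 hy.2⟩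
  smul_mem' := fun c x hx => by
    show c • x ∈ M.Ω ∧ M.OnChart D s (c • x)
    rw [M.smul_T]
    exact ⟨mul_mem (M.const_Ω _ c.2) hx.1, M.onChart_smul _ hx.2⟩

theorem mem_I {D : Divisor K F} {s : Bool} {x : F} :
    x ∈ M.I D s ↔ x ∈ M.GI ∧ M.OnChart D s x := Iff.rfl

theorem Vc_mul_Jc {D : Divisor K F} (s : Bool) {x : F} (hx : x ∈ M.Vc D s) :
    M.Jc s * x ∈ M.Vc D s := by
  refine ⟨mul_mem (M.mem_Ω_of_GI (M.Jc_mem_R s).1) hx.1, fun P hP => ?_⟩
  simpa using ((M.Jc_mem_R s).2 P hP).mul (hx.2 P hP)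

/-- the degeneration -/
def pair (D : Divisor K F) : SS.ChartPair M.O M.T kO F M.Esp where
  pi := residue M.O
  pi_surjective := residue_surjective
  J := M.mulF
  Jb := M.mulEsp
  O := M.GIO
  r := M.resE
  r_add := fun x hx y hy => M.resE_add hx hy
  r_smul := fun a x hx => M.resE_smul a hx
  J_mem := fun x => M.mul_mem_GI_iff
  r_J := fun x hx => (M.mulEsp_resE hx).symm
  V0 := M.Vc D false
  Vinf := M.Vc D true
  J_V0 := fun x hx => M.Vc_mul_Jc false hx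
  J_symm_Vinf := fun x hx => M.Vc_mul_Jc true hx

theorem pair_pow (D : Divisor K F) (m : ℕ) (x : F) : ((M.pair D).J ^ m) x = M.J ^ m * x := by
  induction m with
  | zero => simp
  | succ m ih => rw [pow_succ', LinearEquiv.mul_apply, ih, pow_succ', mul_assoc]; rfl

theorem pair_symm_pow (D : Divisor K F) (m : ℕ) (x : F) :
    ((M.pair D).J ^ m).symm x = (M.J ^ m)⁻¹ * x := by
  rw [LinearEquiv.symm_apply_eq, pair_pow, ← mul_assoc,
    mul_inv_cancel₀ (pow_ne_zero _ M.J_ne_zero), one_mul]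

theorem mem_pair_L {D : Divisor K F} {m : ℕ} {x : F} :
    x ∈ (M.pair D).L m ↔ x ∈ M.GI ∧ x ∈ riemannRochSpace (m • Pol (K := K) M.J + D) := by
  rw [SS.ChartPair.mem_L, pair_symm_pow, M.mem_chart_pair_iff]
  constructor
  · rintro ⟨h, h0, h1⟩
    exact ⟨h, h0.2, h1.2⟩
  · rintro ⟨h, h0, h1⟩
    exact ⟨h, ⟨M.mem_Ω_of_GI h, h0⟩, mul_mem (inv_mem (pow_mem (M.mem_Ω_of_GI M.J_mem_GI) m))
      (M.mem_Ω_of_GI h), h1⟩

/-! ### the graded pieces of the special fibre -/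

theorem const_G' {b : Fin 3} {a : A} (ha : (a : K) ∈ M.T) : ι' (a : K) ∈ M.G b := M.const_mem b a ha

theorem q_div_mem {b : Fin 3} {i : ℕ} (hi : i ≤ M.e b) : ι' (M.q : K) * (M.ϖ b ^ i)⁻¹ ∈ M.G b := by
  obtain ⟨d, hd⟩ := Nat.exists_eq_add_of_le hi
  have : ι' (M.q : K) * (M.ϖ b ^ i)⁻¹ = ι' (M.q : K) * (M.ϖ b ^ M.e b)⁻¹ * M.ϖ b ^ d := by
    rw [hd, pow_add]
    field_simp [M.ϖ_ne b]
  rw [this]
  exact mul_mem (M.q_eq b).1 (pow_mem (M.ϖ_mem b) d)

/-- classes vanishing to order `i` on a component -/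
def fil (b : Fin 3) (i : ℕ) : Submodule kO M.Esp where
  carrier := {y | ∃ x ∈ M.GI, x * (M.ϖ b ^ i)⁻¹ ∈ M.G b ∧ M.resE x = y}
  zero_mem' := ⟨0, zero_mem _, by rw [zero_mul]; exact zero_mem _, by rw [M.resE_of_mem (zero_mem _)]; rfl⟩
  add_mem' := by
    rintro _ _ ⟨x, hx, hxi, rfl⟩ ⟨x', hx', hxi', rfl⟩
    exact ⟨x + x', add_mem hx hx', by rw [add_mul]; exact add_mem hxi hxi', M.resE_add hx hx'⟩
  smul_mem' := by
    rintro c _ ⟨x, hx, hxi, rfl⟩
    obtain ⟨a, rfl⟩ := residue_surjective c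
    refine ⟨a • x, M.GIO.smul_mem a hx, ?_, M.resE_smul a hx⟩
    rw [M.smul_O, mul_assoc]
    exact mul_mem (M.G_const b a) hxi

theorem fil_zero (b : Fin 3) : M.fil b 0 = ⊤ := by
  refine eq_top_iff.2 fun y _ => ?_
  obtain ⟨⟨x, hx⟩, rfl⟩ := Submodule.Quotient.mk_surjective _ y
  exact ⟨x, hx, by rw [pow_zero, inv_one, mul_one]; exact M.mem_GI.1 hx b, M.resE_of_mem hx⟩

theorem eq_zero_of_mem_fil {y : M.Esp} (hy : ∀ b, y ∈ M.fil b (M.e b)) : y = 0 := by
  obtain ⟨⟨x, hx⟩, rfl⟩ := Submodule.Quotient.mk_surjective _ y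
  rw [← M.resE_of_mem hx, M.resE_eq_zero_iff hx]
  refine ⟨x * (ι' (M.q : K))⁻¹, M.mem_GI.2 fun b => ?_, by
    rw [mul_comm x, ← mul_assoc, mul_inv_cancel₀ M.q_ne', one_mul]⟩
  obtain ⟨x', hx', hxb, he⟩ := hy b
  obtain ⟨z, hz, hxz⟩ := (M.resE_eq_zero_iff (sub_mem hx hx')).1 (by
    rw [M.resE_sub hx hx', M.resE_of_mem hx, he, sub_self])
  have : x * (ι' (M.q : K))⁻¹ =
      z + x' * (M.ϖ b ^ M.e b)⁻¹ * (M.ϖ b ^ M.e b * (ι' (M.q : K))⁻¹) := by
    rw [show x = ι' (M.q : K) * z + x' by rw [← hxz]; ring, mul_assoc x',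
      ← mul_assoc (M.ϖ b ^ M.e b)⁻¹, inv_mul_cancel₀ (pow_ne_zero _ (M.ϖ_ne b)), one_mul, add_mul,
      mul_comm (ι' (M.q : K)) z, mul_assoc z, mul_inv_cancel₀ M.q_ne', mul_one]
  rw [this]
  exact add_mem (M.mem_GI.1 hz b) (mul_mem hxb (M.ϖ_pow_div_q b).1)

/-- the graded class of an element -/
def gr (b : Fin 3) (i : ℕ) (x : F) : Fs := M.red b (x * (M.ϖ b ^ i)⁻¹)

theorem gr_eq_zero {b : Fin 3} {i : ℕ} {x : F} (hxi : x * (M.ϖ b ^ i)⁻¹ ∈ M.G b)
    (h : M.gr b i x = 0) : x * (M.ϖ b ^ (i + 1))⁻¹ ∈ M.G b := by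
  rw [pow_succ, mul_inv, ← mul_assoc]
  exact M.div_ϖ_mem hxi h

theorem gr_congr {b : Fin 3} {i : ℕ} (hi : i < M.e b) {x x' : F} (hx : x ∈ M.GI) (hx' : x' ∈ M.GI)
    (hxi : x * (M.ϖ b ^ i)⁻¹ ∈ M.G b) (h : M.resE x = M.resE x') :
    x' * (M.ϖ b ^ i)⁻¹ ∈ M.G b ∧ M.gr b i x' = M.gr b i x := by
  obtain ⟨z, hz, hxz⟩ := (M.resE_eq_zero_iff (sub_mem hx' hx)).1 (by
    rw [M.resE_sub hx' hx, h, sub_self])
  have hq : ι' (M.q : K) * z * (M.ϖ b ^ (i + 1))⁻¹ ∈ M.G b := by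
    rw [mul_right_comm]
    exact mul_mem (M.q_div_mem hi) (M.mem_GI.1 hz b)
  have e : x' * (M.ϖ b ^ i)⁻¹ =
      x * (M.ϖ b ^ i)⁻¹ + ι' (M.q : K) * z * (M.ϖ b ^ (i + 1))⁻¹ * M.ϖ b := by
    rw [show x' = x + ι' (M.q : K) * z by rw [← hxz]; ring, pow_succ]
    field_simp [M.ϖ_ne b]
  refine ⟨e ▸ add_mem hxi (mul_mem hq (M.ϖ_mem b)), ?_⟩
  rw [gr, e, M.red_add b _ hxi _ (mul_mem hq (M.ϖ_mem b)), M.red_mul b _ hq _ (M.ϖ_mem b), M.red_ϖ,
    mul_zero, add_zero]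
  rfl

end FLTAgent.SS2.Fib

end
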