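import Fermat.Agent.SS2.FibPair

/-!
The special fibre of a twist has finite dimension and linear growth, so reduction of the bounded
sections is onto for large bounds.

For a section `x` with class of order `i` on the component `b`, `x^(n e) f^e q^(-n i) s^k` is
integral (`s` separates `b` from the other components), so `regular` bounds the poles of the graded
class times `σ^k`, and `bounded` gives the linear bound.
-/

set_option autoImplicit false
set_option linter.unusedSectionVars false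
set_option linter.style.haveILetI false
set_option linter.unusedVariables false

noncomputable section

open AlgebraicCurve IsLocalRing
open FLTAgent.RR (Bd Pol)

namespace FLTAgent.SS2.Fib

variable {K : Type*} [Field K] [IsAlgClosed K] [CharZero K] {A : ValuationSubring K}
  {F : Type*} [Field F] [Algebra K F] [RR.FnField K F]
  {Fs : Type*} [Field Fs] [Algebra (ResidueField A) Fs] (M : Fib K A F Fs) {n : ℕ}

local notation "ι'" => algebraMap K F
local notation "𝕜" => ResidueField A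
local notation "kO" => ResidueField M.O

theorem regular_R {s : Bool} {x : F} (hx : x ∈ M.R s) (b : Fin 3) (Q : Place 𝕜 Fs)
    (hQ : InChart s (Q.ord (M.Jbar b))) : Bd Q (M.red b x) 0 :=
  M.regular s x (M.mem_GI.1 hx.1) (fun P hP => by simpa using hx.2 P hP) b Q hQ

theorem red_Jc_pow (s : Bool) (b : Fin 3) (a : ℕ) :
    M.Jc s ^ a ∈ M.G b ∧
      M.red b (M.Jc s ^ a) = (if s then (M.Jbar b)⁻¹ else M.Jbar b) ^ a := by
  have h := M.mem_GI.1 (M.Jc_mem_R s).1 b
  refine ⟨pow_mem h a, ?_⟩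
  rw [M.red_pow b h]
  congr 1
  cases s <;> simp [Jc, M.red_J, (M.J_inv_mem b).2]

/-- the bound on one chart -/
theorem chart_bound (hn : n ≠ 0) (W : M.Twist n) {s : Bool} {b : Fin 3} {i : ℕ} (hi : i ≤ M.e b)
    {w : F} (hw : w ∈ M.R s) (hwb : ∀ b', b' ≠ b → M.red b' w = 0) {x : F} (hx : x ∈ M.I W.D s)
    (hxi : x * (M.ϖ b ^ i)⁻¹ ∈ M.G b) {Q : Place 𝕜 Fs} (hQ : InChart s (Q.ord (M.Jbar b))) :
    Bd Q (M.gr b i x * M.red b w ^ (n * i * M.emax)) |Q.ord (M.uq b)| := by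
  set e := M.e b with he
  set k := n * i * M.emax with hk
  have hϖ := M.ϖ_ne b
  have hq0 := M.q_ne'
  set y := x ^ (n * e) * W.f ^ e * (ι' (M.q : K))⁻¹ ^ (n * i) * w ^ k with hy
  set z := x * (M.ϖ b ^ i)⁻¹ with hz
  set r := M.ϖ b ^ e * (ι' (M.q : K))⁻¹ with hr
  have hyb : y = z ^ (n * e) * W.f ^ e * r ^ (n * i) * w ^ k := by
    simp only [hy, hz, hr, mul_pow, inv_pow, ← pow_mul]
    rw [show i * (n * e) = e * (n * i) by ring]
    field_simp
  have hrG := M.ϖ_pow_div_q b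
  have hwG : ∀ b', w ∈ M.G b' := fun b' => M.mem_GI.1 hw.1 b'
  have hyR : y ∈ M.R s := by
    refine ⟨M.mem_GI.2 fun b' => ?_, fun P hP => ?_⟩
    · by_cases hb : b' = b
      · subst hb
        rw [hyb]
        exact mul_mem (mul_mem (mul_mem (pow_mem hxi _) (pow_mem (W.f_mem _) _))
          (pow_mem hrG.1 _)) (pow_mem (hwG _) _)
      · obtain ⟨d, hd⟩ := Nat.exists_eq_add_of_le (show M.e b' * (n * i) ≤ k by
          rw [hk, mul_comm (M.e b')]; exact Nat.mul_le_mul_left _ (M.e_le b'))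
        have hd' : y = x ^ (n * e) * W.f ^ e * (M.ϖ b' ^ M.e b' * (ι' (M.q : K))⁻¹) ^ (n * i) *
            (w ^ k * (M.ϖ b' ^ k)⁻¹) * M.ϖ b' ^ d := by
          simp only [hy, hd, mul_pow, pow_add, pow_mul, inv_pow]
          field_simp [M.ϖ_ne b']
        rw [hd']
        exact mul_mem (mul_mem (mul_mem (mul_mem (pow_mem (M.mem_GI.1 hx.1 b') _)
          (pow_mem (W.f_mem _) _)) (pow_mem (M.ϖ_pow_div_q b').1 _))
          (M.pow_div_ϖ_mem (hwG b') (hwb b' hb) k)) (pow_mem (M.ϖ_mem b') _)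
    · rw [Finsupp.zero_apply]
      have hf : Bd P W.f (-((n : ℤ) * W.D P)) :=
        (RR.bd_iff_ord W.f_ne).2 (by rw [neg_neg, W.ord_f])
      have hc : Bd P ((ι' (M.q : K))⁻¹) 0 := by rw [← map_inv₀]; exact RR.Bd.of_algebraMap _
      have := (((hx.2 P hP).pow (n * e)).mul (hf.pow e)).mul (hc.pow (n * i)) |>.mul
        ((hw.2 P hP).pow k)
      refine this.mono (le_of_eq ?_)
      push_cast [Finsupp.zero_apply]
      ring
  have h1 := M.regular_R hyR b Q hQ
  rw [hyb, M.red_mul b _ (mul_mem (mul_mem (pow_mem hxi _) (pow_mem (W.f_mem b) _))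
      (pow_mem hrG.1 _)) _ (pow_mem (hwG b) _),
    M.red_mul b _ (mul_mem (pow_mem hxi _) (pow_mem (W.f_mem b) _)) _ (pow_mem hrG.1 _),
    M.red_mul b _ (pow_mem hxi _) _ (pow_mem (W.f_mem b) _), M.red_pow b hxi, M.red_pow b (W.f_mem b),
    W.red_f, one_pow, mul_one, M.red_pow b hrG.1, hrG.2, M.red_pow b (hwG b)] at h1
  change Bd Q (M.gr b i x ^ (n * e) * (M.uq b)⁻¹ ^ (n * i) * M.red b w ^ k) 0 at h1
  have hσ := M.regular_R hw b Q hQ
  set t := M.gr b i x * M.red b w ^ k with ht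
  rcases eq_or_ne t 0 with h0 | h0
  · rw [h0]; exact RR.Bd.zero
  have hne : 0 < n * e := Nat.mul_pos (Nat.pos_of_ne_zero hn) (M.e_pos b)
  have h2 : Bd Q (t ^ (n * e) * (M.uq b)⁻¹ ^ (n * i)) 0 := by
    obtain ⟨d, hd⟩ : ∃ d, n * e = d + 1 := ⟨n * e - 1, by omega⟩
    have : t ^ (n * e) * (M.uq b)⁻¹ ^ (n * i) =
        M.gr b i x ^ (n * e) * (M.uq b)⁻¹ ^ (n * i) * M.red b w ^ k * (M.red b w ^ k) ^ d := by
      rw [ht, hd, mul_pow, pow_succ (M.red b w ^ k)]; ring
    rw [this]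
    simpa using h1.mul ((hσ.pow k).pow d)
  have hu := M.uq_ne b
  rw [RR.bd_iff_ord (mul_ne_zero (pow_ne_zero _ h0) (pow_ne_zero _ (inv_ne_zero hu))),
    Q.ord_mul (pow_ne_zero _ h0) (pow_ne_zero _ (inv_ne_zero hu)), RR.ord_pow, RR.ord_pow,
    Q.ord_inv] at h2
  rw [RR.bd_iff_ord h0]
  by_contra hcon
  push Not at hcon
  have hni : (n * i : ℕ) ≤ n * e := Nat.mul_le_mul_left n hi
  have hmul : ((n * e : ℕ) : ℤ) * Q.ord t < ((n * e : ℕ) : ℤ) * -|Q.ord (M.uq b)| :=
    mul_lt_mul_of_pos_left hcon (by exact_mod_cast hne)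
  have hmono : ((n * i : ℕ) : ℤ) * |Q.ord (M.uq b)| ≤ ((n * e : ℕ) : ℤ) * |Q.ord (M.uq b)| :=
    mul_le_mul_of_nonneg_right (by exact_mod_cast hni) (abs_nonneg _)
  have hab : ((n * i : ℕ) : ℤ) * -|Q.ord (M.uq b)| ≤ ((n * i : ℕ) : ℤ) * Q.ord (M.uq b) :=
    mul_le_mul_of_nonneg_left (neg_abs_le _) (Int.natCast_nonneg _)
  simp only [mul_neg] at h2 hmul hab
  linarith

/-- functions with poles bounded by those of the coordinate and by `u` -/
def tgt (b : Fin 3) (m : ℕ) : Submodule 𝕜 Fs :=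
  RR.boundedOn (fun _ => True)
    (fun Q : Place 𝕜 Fs => (m : ℤ) * max (-Q.ord (M.Jbar b)) 0 + |Q.ord (M.uq b)|)

/-- the graded pieces land in a space of linear growth, after a fixed multiplication -/
theorem exists_mult (hn : n ≠ 0) (W : M.Twist n) (b : Fin 3) {i : ℕ} (hi : i < M.e b) :
    ∃ (c : Fs) (a : ℕ), c ≠ 0 ∧ ∀ (m : ℕ), ∀ y ∈ (M.pair W.D).T m, ∀ x ∈ M.GI, M.resE x = y →
      x * (M.ϖ b ^ i)⁻¹ ∈ M.G b → M.gr b i x * c ∈ M.tgt b (m + a) := by
  classical
  choose w hwG hwC hwb hw0 using fun s => M.separated s b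
  have hwR : ∀ s, w s ∈ M.R s := fun s =>
    ⟨M.mem_GI.2 (hwG s), fun P hP => by simpa using hwC s P hP⟩
  choose a ha using fun s => M.exists_pow_onChart s (x := w s) (hwR s).2
  have hother : ∀ s, M.Jc (!s) ^ a s * w s ∈ M.R (!s) := fun s =>
    ⟨mul_mem (pow_mem (M.Jc_mem_R (!s)).1 _) (hwR s).1, ha s⟩
  set k := n * i * M.emax with hk
  have hJ := M.Jbar_ne_zero b
  refine ⟨M.red b (w false) ^ k * M.red b (w true) ^ k * M.Jbar b ^ (k * a true),
    k * a false + k * a true,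
    mul_ne_zero (mul_ne_zero (pow_ne_zero _ (hwb false)) (pow_ne_zero _ (hwb true))) (pow_ne_zero _ hJ),
    fun m y hy x hx hxy hxi => ?_⟩
  obtain ⟨⟨x0, hx0, ⟨-, hx0C⟩, hx0y⟩, x1, hx1, ⟨-, hx1C⟩, hx1y⟩ := hy
  change M.resE x0 = y at hx0y
  change M.resE x1 = ((M.pair W.D).Jb ^ m).symm y at hx1y
  obtain ⟨hx0i, hx0g⟩ := M.gr_congr hi hx hx0 hxi (hxy.trans hx0y.symm)
  have hJm : M.J ^ m * x1 ∈ M.GI := mul_mem (pow_mem M.J_mem_GI m) hx1
  have hy1 : M.resE (M.J ^ m * x1) = y := by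
    have h := (M.pair W.D).r_pow m (x := x1) hx1
    rw [M.pair_pow] at h
    refine h.trans ?_
    change ((M.pair W.D).Jb ^ m) (M.resE x1) = y
    rw [hx1y, LinearEquiv.apply_symm_apply]
  obtain ⟨hJxi, hJxg⟩ := M.gr_congr hi hx hJm hxi (hxy.trans hy1.symm)
  have hx1i : x1 * (M.ϖ b ^ i)⁻¹ ∈ M.G b := by
    have := mul_mem (pow_mem (M.J_inv_mem b).1 m) hJxi
    rwa [← mul_assoc, ← mul_assoc, ← mul_pow, inv_mul_cancel₀ M.J_ne_zero, one_pow, one_mul] at this
  have hx1g : M.gr b i x = M.Jbar b ^ m * M.gr b i x1 := by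
    rw [← hJxg, gr, gr, mul_assoc, M.red_mul b _ (pow_mem (M.J_mem b) m) _ hx1i,
      M.red_pow b (M.J_mem b), M.red_J]
  rw [tgt, RR.mem_boundedOn]
  intro Q _
  rcases le_or_gt 0 (Q.ord (M.Jbar b)) with hQ | hQ
  · rw [max_eq_right (by omega), mul_zero, zero_add]
    have hQ0 : InChart false (Q.ord (M.Jbar b)) := by simpa [InChart] using hQ
    have h1 := M.chart_bound hn W hi.le (hwR false) (hw0 false) ⟨hx0, hx0C⟩ hx0i hQ0
    rw [hx0g, ← hk] at h1
    have h2 := M.regular_R (hother true) b Q hQ0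
    rw [M.red_mul b _ (M.red_Jc_pow _ b _).1 _ (hwG true b), (M.red_Jc_pow _ b _).2] at h2
    simp only [Bool.not_true, Bool.false_eq_true, if_false] at h2
    have := h1.mul (h2.pow k)
    rw [mul_zero, add_zero] at this
    convert this using 1
    rw [mul_pow, ← pow_mul, mul_comm (a true) k]
    ring
  · rw [max_eq_left (by omega)]
    have hQ1 : InChart true (Q.ord (M.Jbar b)) := by simp [InChart]; omega
    have h1 := M.chart_bound hn W hi.le (hwR true) (hw0 true) ⟨hx1, hx1C⟩ hx1i hQ1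
    rw [← hk] at h1
    have h2 := M.regular_R (hother false) b Q hQ1
    rw [M.red_mul b _ (M.red_Jc_pow _ b _).1 _ (hwG false b), (M.red_Jc_pow _ b _).2] at h2
    simp only [Bool.not_false, if_true] at h2
    have hJb : Bd Q (M.Jbar b ^ (m + (k * a false + k * a true)))
        (((m + (k * a false + k * a true) : ℕ) : ℤ) * -Q.ord (M.Jbar b)) := by
      rw [RR.bd_iff_ord (pow_ne_zero _ hJ), RR.ord_pow, mul_neg, neg_neg]
    have := (hJb.mul h1).mul (h2.pow k)
    rw [mul_zero, add_zero] at this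
    convert this using 1
    rw [hx1g, mul_pow ((M.Jbar b)⁻¹ ^ a false), ← pow_mul, inv_pow, mul_comm (a false) k,
      pow_add, pow_add]
    field_simp

/-! ### dimensions -/

/-- constants of `O` as constants of `A` -/
def toAHom : M.O →+* A where
  toFun := M.toA
  map_one' := rfl
  map_mul' _ _ := rfl
  map_zero' := rfl
  map_add' _ _ := rfl

instance isLocalHom_toAHom : IsLocalHom M.toAHom := by
  refine ⟨fun a ha => ?_⟩
  by_contra hna
  exact (residue_eq_zero_iff _).1 (M.residue_toA_eq_zero hna) ha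

/-- the residue fields agree -/
def resMap : kO →+* 𝕜 := IsLocalRing.ResidueField.map M.toAHom

theorem resMap_surjective : Function.Surjective M.resMap := by
  intro z
  obtain ⟨a, rfl⟩ := residue_surjective z
  obtain ⟨t, ht, hta⟩ := M.res_T a
  exact ⟨residue M.O ⟨⟨(t : K), ht⟩, t.2⟩, hta⟩

instance instAlgkO : Algebra kO 𝕜 := M.resMap.toAlgebra

instance instAlgkOFs : Algebra kO Fs := ((algebraMap 𝕜 Fs).comp M.resMap).toAlgebra

instance instTowerkO : IsScalarTower kO 𝕜 Fs := IsScalarTower.of_algebraMap_eq fun _ => rfl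

theorem kO_smul (a : M.O) (z : Fs) :
    residue M.O a • z = algebraMap 𝕜 Fs (residue A (M.toA a)) * z := by
  rw [Algebra.smul_def]; rfl

theorem finrank_restrict (P : Submodule 𝕜 Fs) [FiniteDimensional 𝕜 P] :
    FiniteDimensional kO (P.restrictScalars kO) ∧
      Module.finrank kO (P.restrictScalars kO) = Module.finrank 𝕜 P := by
  have hb : Function.Bijective (Algebra.linearMap kO 𝕜) :=
    ⟨M.resMap.injective, M.resMap_surjective⟩
  let e := LinearEquiv.ofBijective (Algebra.linearMap kO 𝕜) hb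
  haveI : Module.Finite kO 𝕜 := Module.Finite.equiv e
  haveI hP : FiniteDimensional kO P := Module.Finite.trans (R := kO) 𝕜 P
  have h1 : Module.finrank kO 𝕜 = 1 := by rw [← e.finrank_eq, Module.finrank_self]
  refine ⟨hP, ?_⟩
  have h2 := Module.finrank_mul_finrank kO 𝕜 P
  rw [h1, one_mul] at h2
  exact h2.symm

theorem gr_add {b : Fin 3} {i : ℕ} {x x' : F} (hx : x * (M.ϖ b ^ i)⁻¹ ∈ M.G b)
    (hx' : x' * (M.ϖ b ^ i)⁻¹ ∈ M.G b) : M.gr b i (x + x') = M.gr b i x + M.gr b i x' := by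
  rw [gr, add_mul, M.red_add b _ hx _ hx']; rfl

theorem gr_smul {b : Fin 3} {i : ℕ} (a : M.O) {x : F} (hx : x * (M.ϖ b ^ i)⁻¹ ∈ M.G b) :
    M.gr b i (a • x) = residue M.O a • M.gr b i x := by
  rw [M.kO_smul, gr, M.smul_O, mul_assoc, M.red_mul b _ (M.G_const b a) _ hx]
  exact congrArg (· * _) (M.red_const b (M.toA a) (a : M.T).2)

set_option maxHeartbeats 1000000 in
set_option synthInstance.maxHeartbeats 200000 in
/-- dimension bound along one step of the filtration -/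
theorem step_bound {b : Fin 3} {i : ℕ} (hi : i < M.e b) (V : Submodule kO M.Esp) (c : Fs) (hc : c ≠ 0)
    (P : Submodule 𝕜 Fs) [FiniteDimensional 𝕜 P]
    (h : ∀ y ∈ V, ∀ x ∈ M.GI, M.resE x = y → x * (M.ϖ b ^ i)⁻¹ ∈ M.G b → M.gr b i x * c ∈ P)
    (r : ℕ) [FiniteDimensional kO ↥(V ⊓ M.fil b (i + 1))]
    (hr : Module.finrank kO ↥(V ⊓ M.fil b (i + 1)) ≤ r) :
    FiniteDimensional kO ↥(V ⊓ M.fil b i) ∧
      Module.finrank kO ↥(V ⊓ M.fil b i) ≤ r + Module.finrank 𝕜 P := by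
  classical
  obtain ⟨hPf, hPr⟩ := M.finrank_restrict P
  haveI := hPf
  set U := V ⊓ M.fil b i with hU
  have hrep : ∀ y : U, ∃ x ∈ M.GI, x * (M.ϖ b ^ i)⁻¹ ∈ M.G b ∧ M.resE x = (y : M.Esp) := fun y =>
    (Submodule.mem_inf.1 y.2).2
  choose rep hrG hri hre using hrep
  let φ : U →ₗ[kO] (P.restrictScalars kO) :=
    { toFun := fun y => ⟨M.gr b i (rep y) * c,
        h y (Submodule.mem_inf.1 y.2).1 _ (hrG y) (hre y) (hri y)⟩
      map_add' := fun y y' => by
        refine Subtype.ext ?_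
        change M.gr b i (rep (y + y')) * c = M.gr b i (rep y) * c + M.gr b i (rep y') * c
        rw [← add_mul, ← M.gr_add (hri y) (hri y'), (M.gr_congr hi (add_mem (hrG y) (hrG y'))
          (hrG (y + y')) (by rw [add_mul]; exact add_mem (hri y) (hri y'))
          (by rw [hre, M.resE_add (hrG y) (hrG y'), hre, hre]; rfl)).2]
      map_smul' := fun z y => by
        obtain ⟨a, rfl⟩ := residue_surjective z
        refine Subtype.ext ?_
        change M.gr b i (rep (residue M.O a • y)) * c = residue M.O a • (M.gr b i (rep y) * c)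
        rw [← smul_mul_assoc, ← M.gr_smul a (hri y), (M.gr_congr hi (M.GIO.smul_mem a (hrG y))
          (hrG (residue M.O a • y)) (by rw [M.smul_O, mul_assoc]; exact mul_mem (M.G_const b a) (hri y))
          (by rw [hre, M.resE_smul a (hrG y), hre]; rfl)).2] }
  have hker : LinearMap.ker φ ≤ (V ⊓ M.fil b (i + 1)).comap U.subtype := by
    intro y hy
    have h0 : M.gr b i (rep y) * c = 0 := congrArg Subtype.val (LinearMap.mem_ker.1 hy)
    refine ⟨(Submodule.mem_inf.1 y.2).1, rep y, hrG y,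
      M.gr_eq_zero (hri y) ((mul_eq_zero.1 h0).resolve_right hc), hre y⟩
  let j : LinearMap.ker φ →ₗ[kO] ↥(V ⊓ M.fil b (i + 1)) :=
    LinearMap.codRestrict _ (U.subtype.comp (LinearMap.ker φ).subtype) fun y => hker y.2
  have hj : Function.Injective j := fun y y' hyy =>
    Subtype.ext (Subtype.ext (congrArg Subtype.val hyy :))
  haveI : FiniteDimensional kO (LinearMap.ker φ) := FiniteDimensional.of_injective j hj
  haveI : FiniteDimensional kO (LinearMap.range φ) := inferInstance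
  haveI : Module.Finite kO (U ⧸ LinearMap.ker φ) := Module.Finite.equiv φ.quotKerEquivRange.symm
  haveI hUf : FiniteDimensional kO U := Module.Finite.of_submodule_quotient (LinearMap.ker φ)
  refine ⟨hUf, ?_⟩
  have h1 := LinearMap.finrank_range_add_finrank_ker φ
  have h2 := LinearMap.finrank_le_finrank_of_injective hj
  have h3 := Submodule.finrank_le (LinearMap.range φ)
  omega

set_option maxHeartbeats 1000000 in
/-- the special fibre of a twist grows linearly -/
theorem exists_linear_bound (hn : n ≠ 0) (W : M.Twist n) : ∃ C : ℕ, ∀ m : ℕ,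
    FiniteDimensional kO ((M.pair W.D).T m) ∧
      Module.finrank kO ((M.pair W.D).T m) ≤ C * (m + 1) := by
  classical
  have key : ∀ (b : Fin 3) (d : ℕ), d ≤ M.e b → ∃ C : ℕ, ∀ (m : ℕ) (V : Submodule kO M.Esp),
      V ≤ (M.pair W.D).T m → ∀ r, FiniteDimensional kO ↥(V ⊓ M.fil b (M.e b)) →
        Module.finrank kO ↥(V ⊓ M.fil b (M.e b)) ≤ r →
          FiniteDimensional kO ↥(V ⊓ M.fil b (M.e b - d)) ∧
            Module.finrank kO ↥(V ⊓ M.fil b (M.e b - d)) ≤ r + C * (m + 1) := by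
    intro b d
    induction d with
    | zero => exact fun _ => ⟨0, fun m V _ r h h' => by simpa using And.intro h h'⟩
    | succ d ih =>
      intro hd
      obtain ⟨C, hC⟩ := ih (by omega)
      have hi : M.e b - (d + 1) < M.e b := by omega
      obtain ⟨c, a, hc, hm⟩ := M.exists_mult hn W b hi
      obtain ⟨C', hC'⟩ := M.bounded b (M.uq b) (M.uq_ne b)
      refine ⟨C + C' * (a + 1), fun m V hV r hf hr => ?_⟩
      obtain ⟨hf1, hr1⟩ := hC m V hV r hf hr
      rw [show M.e b - d = M.e b - (d + 1) + 1 by omega] at hf1 hr1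
      haveI : FiniteDimensional 𝕜 (M.tgt b (m + a)) := (hC' (m + a)).1
      haveI := hf1
      obtain ⟨hf2, hr2⟩ := M.step_bound hi V c hc (M.tgt b (m + a))
        (fun y hy x hx hxy hxi => hm m y (hV hy) x hx hxy hxi) _ hr1
      refine ⟨hf2, hr2.trans ?_⟩
      have h3 : Module.finrank 𝕜 (M.tgt b (m + a)) ≤ C' * (a + 1) * (m + 1) := by
        refine ((hC' (m + a)).2).trans ?_
        rw [mul_assoc]
        exact Nat.mul_le_mul_left _ (by nlinarith)
      rw [add_mul]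
      omega
  choose C hC using fun b => key b (M.e b) le_rfl
  refine ⟨C 0 + C 1 + C 2, fun m => ?_⟩
  set V0 := (M.pair W.D).T m with hV0
  have top : ∀ (b : Fin 3) (V : Submodule kO M.Esp), V ≤ V0 → ∀ r,
      FiniteDimensional kO ↥(V ⊓ M.fil b (M.e b)) →
      Module.finrank kO ↥(V ⊓ M.fil b (M.e b)) ≤ r →
      FiniteDimensional kO V ∧ Module.finrank kO V ≤ r + C b * (m + 1) := fun b V hV r h h' => by
    have := hC b m V hV r h h'
    rwa [Nat.sub_self, M.fil_zero, inf_top_eq] at this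
  set V1 := V0 ⊓ M.fil 0 (M.e 0) with hV1
  set V2 := V1 ⊓ M.fil 1 (M.e 1) with hV2
  have h3 : V2 ⊓ M.fil 2 (M.e 2) = ⊥ := by
    refine eq_bot_iff.2 fun y hy => ?_
    obtain ⟨hy2, hy'⟩ := Submodule.mem_inf.1 hy
    obtain ⟨hy1, hy''⟩ := Submodule.mem_inf.1 hy2
    obtain ⟨-, hy'''⟩ := Submodule.mem_inf.1 hy1
    refine (Submodule.mem_bot _).2 (M.eq_zero_of_mem_fil fun b => ?_)
    fin_cases b
    exacts [hy''', hy'', hy']
  have hbot : FiniteDimensional kO ↥(V2 ⊓ M.fil 2 (M.e 2)) ∧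
      Module.finrank kO ↥(V2 ⊓ M.fil 2 (M.e 2)) ≤ 0 := by
    rw [h3]
    exact ⟨inferInstance, by rw [finrank_bot]⟩
  obtain ⟨f2, r2⟩ := top 2 V2 (inf_le_left.trans inf_le_left) 0 hbot.1 hbot.2
  obtain ⟨f1, r1⟩ := top 1 V1 inf_le_left _ f2 r2
  obtain ⟨f0, r0⟩ := top 0 V0 le_rfl _ f1 r1
  refine ⟨f0, r0.trans ?_⟩
  rw [add_mul, add_mul]
  omega

theorem exists_pow_pair_false {D : Divisor K F} {x : F} (hx : x ∈ M.Vc D false) :
    ∃ m : ℕ, (M.J ^ m)⁻¹ * x ∈ M.Vc D true := by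
  obtain ⟨m, hm⟩ := M.exists_pow_onChart false hx.2
  refine ⟨m, mul_mem (inv_mem (pow_mem (M.mem_Ω_of_GI M.J_mem_GI) m)) hx.1, ?_⟩
  simpa [Jc, inv_pow] using hm

theorem exists_pow_pair_true {D : Divisor K F} {x : F} (hx : x ∈ M.Vc D true) :
    ∃ m : ℕ, M.J ^ m * x ∈ M.Vc D false := by
  obtain ⟨m, hm⟩ := M.exists_pow_onChart true hx.2
  refine ⟨m, mul_mem (pow_mem (M.mem_Ω_of_GI M.J_mem_GI) m) hx.1, ?_⟩
  simpa [Jc] using hm

/-- an eventually linear sequence -/
theorem eventually_linear (d : ℕ → ℕ) (C : ℕ) (hd : ∀ m, d m ≤ C * (m + 1))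
    (hconv : ∀ m, 2 * d (m + 1) ≤ d m + d (m + 2)) (hmono : ∀ m, d m ≤ d (m + 1)) :
    ∃ m0, ∀ m, m0 ≤ m → d m + d (m + 2) = 2 * d (m + 1) := by
  classical
  have hinc : ∀ a b, a ≤ b → d (a + 1) - d a ≤ d (b + 1) - d b := by
    intro a b hab
    induction b, hab using Nat.le_induction with
    | base => exact le_rfl
    | succ b _ ih =>
      refine ih.trans ?_
      have := hconv b
      have := hmono b
      show d (b + 1) - d b ≤ d (b + 2) - d (b + 1)
      omega
  have hbdd : ∀ a, d (a + 1) - d a ≤ C := by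
    intro a
    by_contra hcon
    push Not at hcon
    have hgrow : ∀ t, d a + t * (C + 1) ≤ d (a + t) := by
      intro t
      induction t with
      | zero => simp
      | succ t ih =>
        have h1 := hinc a (a + t) (by omega)
        have h2 := hmono (a + t)
        rw [add_mul, one_mul, show a + (t + 1) = a + t + 1 by omega]
        omega
    have h1 := hgrow (C * (a + 1) + 1)
    have h2 := hd (a + (C * (a + 1) + 1))
    nlinarith
  obtain ⟨m0, hm0⟩ : ∃ m0, ∀ m, d (m + 1) - d m ≤ d (m0 + 1) - d m0 := by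
    let P : ℕ → Prop := fun v => ∃ m, d (m + 1) - d m = v
    obtain ⟨m0, hm0⟩ := Nat.findGreatest_spec (P := P) (hbdd 0) ⟨0, rfl⟩
    exact ⟨m0, fun m => by rw [hm0]; exact Nat.le_findGreatest (hbdd m) ⟨m, rfl⟩⟩
  refine ⟨m0, fun m hm => ?_⟩
  have h1 := hinc m0 m hm
  have h2 := hinc m0 (m + 1) (by omega)
  have h3 := hm0 m
  have h4 := hm0 (m + 1)
  have := hmono m
  have := hmono (m + 1)
  rw [show m + 1 + 1 = m + 2 by omega] at *
  omega

/-- the special fibre is generated in low degree, and its dimension is eventually linear -/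
theorem exists_linear (hn : n ≠ 0) (W : M.Twist n) :
    ∃ m0, (∀ m, FiniteDimensional kO ((M.pair W.D).T m)) ∧ ∀ m, m0 ≤ m →
      Module.finrank kO ((M.pair W.D).T m) + Module.finrank kO ((M.pair W.D).T (m + 2)) =
        2 * Module.finrank kO ((M.pair W.D).T (m + 1)) := by
  obtain ⟨C, hC⟩ := M.exists_linear_bound hn W
  set D := M.pair W.D with hD
  haveI hfin : ∀ m, FiniteDimensional kO (D.T m) := fun m => (hC m).1
  have hmono : ∀ m, Module.finrank kO (D.T m) ≤ Module.finrank kO (D.T (m + 1)) := fun m =>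
    Submodule.finrank_mono (D.T_le_succ m)
  have hconv : ∀ m, 2 * Module.finrank kO (D.T (m + 1)) ≤
      Module.finrank kO (D.T m) + Module.finrank kO (D.T (m + 2)) := by
    intro m
    set P := (D.T (m + 1)).map (D.Jb : M.Esp →ₗ[kO] M.Esp) with hP
    haveI : FiniteDimensional kO P := inferInstance
    have hinf : D.T (m + 1) ⊓ P ≤ (D.T m).map (D.Jb : M.Esp →ₗ[kO] M.Esp) := by
      rintro _ ⟨h1, y, hy, rfl⟩
      refine ⟨y, ⟨hy.1, ?_⟩, rfl⟩
      have h2 : (D.Jb ^ (m + 1)).symm (D.Jb y) ∈ D.Minf := h1.2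
      have h3 := SS.ChartPair.symm_pow_add D.Jb 1 m y
      rw [pow_one] at h3
      rw [add_comm m 1, h3] at h2
      exact h2
    have hle : D.T (m + 1) ⊔ P ≤ D.T (m + 2) := sup_le (D.T_le_succ (m + 1)) (by
      rintro _ ⟨y, hy, rfl⟩
      exact D.Jb_T hy)
    haveI : FiniteDimensional kO ((D.T m).map (D.Jb : M.Esp →ₗ[kO] M.Esp)) := inferInstance
    have h4 := Submodule.finrank_sup_add_finrank_inf_eq (D.T (m + 1)) P
    have h5 := Submodule.finrank_mono hinf
    have h6 := Submodule.finrank_mono hle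
    rw [hP] at h4 h5 h6
    rw [LinearEquiv.finrank_map_eq] at h4 h5
    omega
  obtain ⟨m0, hm0⟩ := eventually_linear _ C (fun m => (hC m).2) hconv hmono
  exact ⟨m0, hfin, hm0⟩

theorem exists_T_gen (hn : n ≠ 0) (W : M.Twist n) :
    ∃ m0, ∀ m, m0 ≤ m → (M.pair W.D).T (m + 1) = (M.pair W.D).T m ⊔ ((M.pair W.D).T m).map
      ((M.pair W.D).Jb : M.Esp →ₗ[kO] M.Esp) := by
  obtain ⟨m0, hfin, hlin⟩ := M.exists_linear hn W
  haveI := hfin
  refine ⟨m0 + 1, fun m hm => ?_⟩
  obtain ⟨k, rfl⟩ : ∃ k, m = k + 1 := ⟨m - 1, by omega⟩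
  exact (M.pair W.D).T_succ_eq (hlin k (by omega))

/-- reduction is onto for large bounds -/
theorem exists_surj (hn : n ≠ 0) (W : M.Twist n) :
    ∃ n0, ∀ m, n0 ≤ m → (M.pair W.D).RL m = (M.pair W.D).T m := by
  obtain ⟨m0, hfin, hm0⟩ := M.exists_linear hn W
  refine (M.pair W.D).exists_RL_eq_T m0 (fun m _ => hfin m) hm0 (fun x hx hx0 => ?_) fun x hx hx1 => ?_
  · obtain ⟨m, hm⟩ := M.exists_pow_pair_false hx0
    exact ⟨m, by rw [M.pair_symm_pow]; exact hm⟩
  · obtain ⟨m, hm⟩ := M.exists_pow_pair_true hx1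
    exact ⟨m, by rw [M.pair_pow]; exact hm⟩

end FLTAgent.SS2.Fib

end
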