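import Fermat.Agent.SS2.Transfer
import Fermat.Agent.Attach.Interface
import Fermat.Agent.Attach.Eigen
import Fermat.Prelude.Def_GaloisRep_LocalConditions

/-!
If the representation of an eigencharacter is unipotent on inertia, inertia fixes a nonzero vector
in the eigen part of the Tate module.
-/

set_option autoImplicit false
set_option linter.style.haveILetI false
set_option linter.unusedSectionVars false

noncomputable section

open IsLocalRing Polynomial
open scoped Matrix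

namespace FLTAgent.SS2

open FLTAgent.Attach (GaloisInputs HeckeLattice TFull)

local notation "GalQ" => AlgebraicClosure ℚ ≃ₐ[ℚ] AlgebraicClosure ℚ

variable {O : Type} [CommRing O] [IsDomain O] [IsDiscreteValuationRing O]
  [IsAdicComplete (maximalIdeal O) O] [CharZero O] {p : ℕ} (hp : p.Prime)
  (hpO : (p : O) ∈ maximalIdeal O) {N : ℕ} [NeZero N]

open scoped Classical in
include hp hpO in
theorem exists_fixed_eigvec (D : HeckeLattice N) (G : GaloisInputs N) (f : TFull N →+* O)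
    (ρ : GaloisRepAdic O) (S : Finset ℕ)
    (hρ : ∀ (ℓ : ℕ) (hℓ : ℓ.Prime) (hℓN : ¬ ℓ ∣ N), ℓ ∉ S →
      ∀ A : ValuationSubring (AlgebraicClosure ℚ), A.LiesOverPrime ℓ →
        ∀ σ : GalQ, A.IsFrobeniusAt σ ℓ →
          LinearMap.charpoly (ρ.ρ σ) =
            X ^ 2 - C (f (CuspForm.heckeAlgebra.T hℓ hℓN (Set.notMem_empty _))) * X + C (ℓ : O))
    {A : ValuationSubring (AlgebraicClosure ℚ)}
    (hu : ∀ σ ∈ A.inertiaSubgroupIn ℚ, LinearMap.charpoly (ρ.ρ σ) = (X - 1) ^ 2) :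
    ∃ x : D.Idx → O, x ≠ 0 ∧ x ∈ D.eigSub f ∧
      ∀ σ ∈ A.inertiaSubgroupIn ℚ, D.galMat hp hpO σ *ᵥ x = x := by
  obtain ⟨W, P, hPW, hE⟩ :
      ∃ (W : Matrix D.Idx (Fin 2) O) (P : Matrix (Fin 2) D.Idx O),
        P * W = 1 ∧ ∀ x, x ∈ D.eigSub f ↔ W *ᵥ (P *ᵥ x) = x := by
    have h := Attach.exists_frame (D.eigSub f) (D.eigSub_saturated f)
    rwa [D.finrank_eigSub f] at h
  have hW : ∀ y, W *ᵥ y ∈ D.eigSub f := fun y => (hE _).2 (by
    rw [Matrix.mulVec_mulVec y P W, hPW, Matrix.one_mulVec])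
  have hTW : ∀ t : TFull N, (D.mat (D.act t) : Matrix D.Idx D.Idx O) * W = f t • W := fun t =>
    Matrix.ext_of_mulVec_single fun j => by
      rw [← Matrix.mulVec_mulVec, hW (Pi.single j 1) t, Matrix.smul_mulVec]
  set M := D.galMat hp hpO with hM
  have hMW : ∀ σ, W * (P * (M σ * W)) = M σ * W := by
    intro σ
    refine Matrix.ext_of_mulVec_single fun j => ?_
    rw [← Matrix.mulVec_mulVec, ← Matrix.mulVec_mulVec (Pi.single j 1) P, (hE _).1]
    intro t
    rw [Matrix.mulVec_mulVec, ← Matrix.mul_assoc, ← D.galMat_comm hp hpO G σ (D.act_mem t),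
      Matrix.mul_assoc, hTW, Matrix.mul_smul, Matrix.smul_mulVec]
  let r : GalQ → Deform.Mt O := fun σ => P * (M σ * W)
  have h1 : r 1 = 1 := by
    simp only [r, hM, D.galMat_one, Matrix.one_mul, hPW]
  have hmul : ∀ σ τ, r (σ * τ) = r σ * r τ := by
    intro σ τ
    simp only [r, hM, D.galMat_mul, Matrix.mul_assoc (D.galMat hp hpO σ)]
    nth_rw 1 [← hMW τ]
    simp only [Matrix.mul_assoc]
    rfl
  have hcont : Deform.MatCont r := by
    intro n
    obtain ⟨L, hL, hlev⟩ := D.galMat_level hp hpO G n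
    refine ⟨L, hL, fun σ hσ i j => ?_⟩
    have h : P * (M σ * W) - 1 = P * ((M σ - 1) * W) := by
      rw [Matrix.sub_mul, Matrix.one_mul, Matrix.mul_sub, hPW]
    rw [← Matrix.sub_apply, show r σ - 1 = _ from h]
    simp only [Matrix.mul_apply]
    exact Ideal.sum_mem _ fun a _ => Ideal.mul_mem_left _ _
      (Ideal.sum_mem _ fun c _ => Ideal.mul_mem_right _ _ (hlev σ hσ a c))
  obtain ⟨R, hR⟩ := Deform.exists_repMat ρ
  have hquad := quadratic_transfer (S ∪ N.primeFactors ∪ {p}) r R h1 hmul hcont hR.map_one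
    hR.map_mul (Deform.repMat_matCont hR) (fun ℓ hℓ hℓS B hB σ hσ => by
      simp only [Finset.mem_union, Finset.mem_singleton, Nat.mem_primeFactors, not_or] at hℓS
      obtain ⟨⟨hℓS, hℓN⟩, hℓp⟩ := hℓS
      have hℓN : ¬ ℓ ∣ N := fun hd => hℓN ⟨hℓ, hd, NeZero.ne N⟩
      obtain ⟨b, hb⟩ := hR
      obtain ⟨e1, e2⟩ := trace_det_toMatrix b (hρ ℓ hℓ hℓN hℓS B hB σ hσ)
      rw [← hb, e1, e2]
      have hfr := D.galMat_frobenius hp hpO G hℓ hℓN hℓp hB hσ
      rw [← D.act_T hℓ hℓN] at hfr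
      have h : (M σ * M σ + (ℓ : Matrix D.Idx D.Idx O)) * W =
          f (CuspForm.heckeAlgebra.T hℓ hℓN (Set.notMem_empty _)) • (M σ * W) := by
        rw [hM, hfr, ← D.galMat_comm hp hpO G σ (D.act_mem _), Matrix.mul_assoc, hTW,
          Matrix.mul_smul]
      have h' := congrArg (P * ·) h
      simp only [Matrix.add_mul, Matrix.mul_add, Matrix.mul_smul] at h'
      have hr2 : r σ * r σ = P * (M σ * M σ * W) := by
        simp only [r]
        rw [Matrix.mul_assoc P (M σ * W), Matrix.mul_assoc (M σ) W, hMW σ,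
          ← Matrix.mul_assoc (M σ)]
      have hn : P * ((ℓ : Matrix D.Idx D.Idx O) * W) = (ℓ : O) • 1 := by
        rw [← nsmul_one ℓ, Matrix.smul_mul, Matrix.one_mul, Matrix.mul_smul, hPW,
          Nat.cast_smul_eq_nsmul]
      rw [← hr2, hn] at h'
      rw [show r σ = P * (M σ * W) from rfl] at h' ⊢
      rw [sub_add_eq_add_sub, h', sub_self])
  obtain ⟨y, hy0, hy⟩ := exists_common_fixed (A.inertiaSubgroupIn ℚ) r hmul fun σ hσ => by
    obtain ⟨b, hb⟩ := hR
    have hcp : LinearMap.charpoly (ρ.ρ σ) = X ^ 2 - C (2 : O) * X + C 1 := by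
      rw [hu σ hσ, map_ofNat, map_one]; ring
    obtain ⟨e1, e2⟩ := trace_det_toMatrix b hcp
    have h := hquad σ
    rw [← hb, e1, e2, one_smul, two_smul] at h
    rw [← h, sub_mul, mul_sub, one_mul, mul_one]
    abel
  refine ⟨W *ᵥ y, fun h => hy0 ?_, hW y, fun σ hσ => ?_⟩
  · have h' := congrArg (P *ᵥ ·) h
    simpa [Matrix.mulVec_mulVec, hPW] using h'
  · conv_rhs => rw [← hy σ hσ]
    simp only [r, Matrix.mulVec_mulVec]
    rw [hMW σ]

end FLTAgent.SS2

end
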