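import Fermat.Agent.SS2.Inertia

/-!
Classes killed by both pushforwards to level `N`.
-/

set_option autoImplicit false

noncomputable section

open ModularCurve AlgebraicCurve

namespace FLTAgent.SS2

local notation "Kb" => AlgebraicClosure ℚ

/-- both pushforwards of the class to level `N` vanish -/
def KilledByPush (N q : ℕ) [NeZero N] [NeZero q] (y : JZero (N * q)) : Prop :=
  ∀ (hα : HeckeAlphaBarIntegral Kb N q) (hβ : HeckeBetaBarIntegral Kb N q)
    (D : Divisor.degZero (K := Kb) (F := Fld (N * q))), Pic0.mk D = y →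
    (Divisor.pushforwardAlong (heckeAlphaBar Kb N q) hα (D : Divisor Kb (Fld (N * q)))).IsPrincipal ∧
    (Divisor.pushforwardAlong (heckeBetaBar Kb N q) hβ (D : Divisor Kb (Fld (N * q)))).IsPrincipal

end FLTAgent.SS2
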