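import Fermat.Agent.SS2.PointValBase

/-!
Elementwise congruences of Kronecker type between two copies of level `M`: the reduction of the
second point determined by the first, and the valuation bound at a vanishing residue.
-/

set_option autoImplicit false
set_option linter.unusedSectionVars false
set_option linter.style.haveILetI false
set_option synthInstance.maxHeartbeats 400000
set_option maxHeartbeats 1000000

noncomputable section

open ModularCurve AlgebraicCurve IsLocalRing Polynomial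
open FLTAgent.RR (Bd KK)

namespace FLTAgent.SS2

open FLTAgent.Reduction

variable {A : ValuationSubring Qb} {M q : ℕ} [NeZero M] [NeZero q]

/-- the residual Kronecker polynomial of `x` -/
def kronPoly (C : Ctx A M q) (x : FS A M) : (FS A M)[X] :=
  (X - Polynomial.C (SS.Fr C x)) * (X ^ q - Polynomial.C (frobS C • x))

/-- every rational chart function has, along a pair of embeddings, a monic equation of Kronecker
type -/
def KronPair (C : Ctx A M q) (s : Bool) {L : ℕ} [NeZero L] (ι ι' : FB M →ₐ[Qb] FB L) : Prop :=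
  ∀ x : FB M, BT A M s x → x ∈ rationalFn A M → ∃ Φ : (FB M)[X],
    Φ.Monic ∧ Φ.natDegree = q + 1 ∧
    (∀ j, BT A M s (Φ.coeff j) ∧ Φ.coeff j ∈ rationalFn A M ∧
      red A M (Φ.coeff j) = (kronPoly C (red A M x)).coeff j) ∧
    Φ.eval₂ ι.toRingHom (ι' x) = 0

/-- the elementwise congruence of Kronecker at level `Mq` -/
def KronChart (C : Ctx A M q) (s : Bool) : Prop :=
  KronPair C s (heckeAlphaBar Qb M q) (heckeBetaBar Qb M q)

namespace PV

section Pairs

variable {C : Ctx A M q} {s : Bool} (h : KronChart C s)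
include h

theorem pair_push {L : ℕ} [NeZero L] (g : FB (M * q) →ₐ[Qb] FB L) :
    KronPair C s (g.comp (heckeAlphaBar Qb M q)) (g.comp (heckeBetaBar Qb M q)) := by
  intro x hx hr
  obtain ⟨Φ, h1, h2, h3, h4⟩ := h x hx hr
  refine ⟨Φ, h1, h2, h3, ?_⟩
  show Φ.eval₂ (g.toRingHom.comp (heckeAlphaBar Qb M q).toRingHom)
    (g.toRingHom (heckeBetaBar Qb M q x)) = 0
  rw [← Polynomial.hom_eval₂, h4, map_zero]

theorem pair01 : KronPair C s (i0 M q) (i1 M q) := by
  rw [i0, i1]
  exact pair_push (L := M * q * q) h (heckeAlphaBar Qb (M * q) q)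

theorem pair12 : KronPair C s (i1 M q) (i2 M q) := by
  have e : i1 M q = (heckeBetaBar Qb (M * q) q).comp (heckeAlphaBar Qb M q) :=
    AlgHom.ext fun a => (beta_alpha a).symm
  rw [e, i2]
  exact pair_push h (heckeBetaBar Qb (M * q) q)

theorem pair10 : KronPair C s (i1 M q) (i0 M q) := by
  have e1 : i1 M q =
      ((heckeAlphaBar Qb (M * q) q).comp (SS.atkinW M q)).comp (heckeAlphaBar Qb M q) :=
    AlgHom.ext fun a => by rw [AlgHom.comp_apply, AlgHom.comp_apply, SS.atkinW_i1 C a]; rfl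
  have e0 : i0 M q =
      ((heckeAlphaBar Qb (M * q) q).comp (SS.atkinW M q)).comp (heckeBetaBar Qb M q) :=
    AlgHom.ext fun a => by rw [AlgHom.comp_apply, AlgHom.comp_apply, SS.atkinW_i2 C a]; rfl
  rw [e1, e0]
  exact pair_push h ((heckeAlphaBar Qb (M * q) q).comp (SS.atkinW M q))

theorem pair_both {x : FB M} (hx : BT A M s x) (hr : x ∈ rationalFn A M) :
    ∃ Φ : (FB M)[X], Φ.Monic ∧ Φ.natDegree = q + 1 ∧
      (∀ j, BT A M s (Φ.coeff j) ∧ Φ.coeff j ∈ rationalFn A M ∧
        red A M (Φ.coeff j) = (kronPoly C (red A M x)).coeff j) ∧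
      Φ.eval₂ (i1 M q).toRingHom (i2 M q x) = 0 ∧ Φ.eval₂ (i1 M q).toRingHom (i0 M q x) = 0 := by
  obtain ⟨Φ, h1, h2, h3, h4⟩ := h x hx hr
  have key : ∀ g : FB (M * q) →ₐ[Qb] FB (M * q * q),
      Φ.eval₂ (g.comp (heckeAlphaBar Qb M q)).toRingHom (g (heckeBetaBar Qb M q x)) = 0 := fun g => by
    show Φ.eval₂ (g.toRingHom.comp (heckeAlphaBar Qb M q).toRingHom)
      (g.toRingHom (heckeBetaBar Qb M q x)) = 0
    rw [← Polynomial.hom_eval₂, h4, map_zero]
  refine ⟨Φ, h1, h2, h3, ?_, ?_⟩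
  · have e : i1 M q = (heckeBetaBar Qb (M * q) q).comp (heckeAlphaBar Qb M q) :=
      AlgHom.ext fun a => (beta_alpha a).symm
    rw [e, i2, AlgHom.comp_apply]
    exact key (heckeBetaBar Qb (M * q) q)
  · have e1 : i1 M q =
        ((heckeAlphaBar Qb (M * q) q).comp (SS.atkinW M q)).comp (heckeAlphaBar Qb M q) :=
      AlgHom.ext fun a => by rw [AlgHom.comp_apply, AlgHom.comp_apply, SS.atkinW_i1 C a]; rfl
    have e0 : i0 M q =
        ((heckeAlphaBar Qb (M * q) q).comp (SS.atkinW M q)).comp (heckeBetaBar Qb M q) :=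
      AlgHom.ext fun a => by rw [AlgHom.comp_apply, AlgHom.comp_apply, SS.atkinW_i2 C a]; rfl
    rw [e1, e0, AlgHom.comp_apply]
    exact key ((heckeAlphaBar Qb (M * q) q).comp (SS.atkinW M q))

end Pairs

variable (C : Ctx A M q)
include C

theorem monic_kronPoly (x : FS A M) :
    (kronPoly C x).Monic ∧ (kronPoly C x).natDegree = q + 1 := by
  have h1 := monic_X_sub_C (SS.Fr C x)
  have h2 := monic_X_pow_sub_C (frobS C • x) C.prime.ne_zero
  refine ⟨h1.mul h2, ?_⟩
  rw [kronPoly, h1.natDegree_mul h2, natDegree_X_sub_C, natDegree_X_pow_sub_C, add_comm]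

/-- below the top all coefficients vanish where both roots do -/
theorem val_kronPoly_zero {Q : PS A M} {x : FS A M} (h1 : Val Q (SS.Fr C x) 0)
    (h2 : Val Q (frobS C • x) 0) {j : ℕ} (hj : j ≤ q) : Val Q ((kronPoly C x).coeff j) 0 := by
  set f := SS.Fr C x
  set g := frobS C • x
  have hb : ∀ i, ∃ c, Val Q ((X ^ q - Polynomial.C g : (FS A M)[X]).coeff i) c := fun i => by
    rw [coeff_sub, coeff_X_pow, coeff_C]
    split_ifs
    · exact ⟨_, Val.one.sub h2⟩
    · exact ⟨_, Val.one.sub Val.zero⟩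
    · exact ⟨_, Val.zero.sub h2⟩
    · exact ⟨_, Val.zero.sub Val.zero⟩
  have hlow : ∀ i < q, Val Q ((X ^ q - Polynomial.C g : (FS A M)[X]).coeff i) 0 := fun i hi => by
    rw [coeff_sub, coeff_X_pow, if_neg hi.ne, coeff_C]
    split_ifs
    · simpa using Val.zero.sub h2
    · simpa using (Val.zero (v := Q)).sub Val.zero
  show Val Q (((X - Polynomial.C f) * (X ^ q - Polynomial.C g) : (FS A M)[X]).coeff j) 0
  rw [sub_mul, coeff_sub, coeff_C_mul]
  obtain ⟨c, hc⟩ := hb j
  have hfc := h1.mul hc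
  rw [zero_mul] at hfc
  cases j with
  | zero =>
    rw [coeff_X_mul_zero]
    simpa using Val.zero.sub hfc
  | succ i =>
    rw [coeff_X_mul]
    simpa using (hlow i hj).sub hfc

theorem coeff_one_kronPoly (x : FS A M) : (kronPoly C x).coeff 1 = -(frobS C • x) := by
  rw [kronPoly, sub_mul, coeff_sub, coeff_C_mul, show (1 : ℕ) = 0 + 1 from rfl, coeff_X_mul,
    coeff_sub, coeff_sub, coeff_X_pow, coeff_X_pow, coeff_C_zero, coeff_C,
    if_neg C.prime.ne_zero.symm, if_neg (by have := C.prime.two_le; omega),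
    if_neg (Nat.succ_ne_zero 0)]
  ring

/-- the outer copies differ on a lifted uniformiser -/
theorem outer_ne {s : Bool} {Q : PS A M} {x : FB M} (hx : BT A M s x)
    (h1 : Q.ord (red A M x) = 1) : i2 M q x ≠ i0 M q x := by
  intro e
  obtain ⟨G, y, hG, -⟩ := exists_series_BT C s hx
  have e' : qExpand Qb q (qExpand Qb q (x : LaurentSeries Qb)) = (x : LaurentSeries Qb) := by
    rw [← coe_i2, e, coe_i0]
  have h2 : qExpand A q (qExpand A q G) = G := by
    refine toBar_injective A ?_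
    show up A _ = up A _
    rw [coeffMap_qExpand, coeffMap_qExpand]
    show qExpand Qb q (qExpand Qb q (up A G)) = up A G
    rw [hG, e']
  refine ord_ne_one_of_Fr C (Subtype.ext ?_) h1
  rw [SS.coe_Fr, SS.coe_Fr, coe_red C (BT.mem_GR C hx), redS_series hG, ← coeffMap_qExpand,
    ← coeffMap_qExpand, h2]

variable {s : Bool} {L : ℕ} [NeZero L] {ι ι' : FB M →ₐ[Qb] FB L} (hK : KronPair C s ι ι')
  {w : PB L}
include hK

omit hK in
theorem exists_val_chart {P : PB M} {Qa : PS A M} (hP : rP C P = Qa) (hQ : Bd Qa (tS A M s) 0)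
    {b : FB M} (hb : BT A M s b) :
    ∃ c : A, Val P b (c : Qb) ∧ Val Qa (red A M b) (residue A c) := by
  obtain ⟨d, hdA, hd⟩ := (fin_rP_iff C).mp (hP ▸ hQ : Bd (rP C P) (tS A M s) 0)
  obtain ⟨c, hc⟩ := val_exists_B (hb.mem_regOn P hd.bd)
  obtain ⟨hcA, hv⟩ := val_rP C hb hd hdA hc
  exact ⟨⟨c, hcA⟩, hc, hP ▸ hv⟩

variable {Qa : PS A M} (hι : ι.toRingHom.IsIntegral) (hP : rP C (w.restrictAlong ι hι) = Qa)
  (hQ : Bd Qa (tS A M s) 0)
include hP hQ

/-- the value of the second copy satisfies the equation with values at the first point -/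
theorem relation {x : FB M} (hx : BT A M s x) (hr : x ∈ rationalFn A M) :
    ∃ (Φ : (FB M)[X]) (u : A) (c : ℕ → A),
      Φ.Monic ∧ Φ.natDegree = q + 1 ∧
      (∀ j, BT A M s (Φ.coeff j) ∧ Φ.coeff j ∈ rationalFn A M ∧
        red A M (Φ.coeff j) = (kronPoly C (red A M x)).coeff j) ∧
      Φ.eval₂ ι.toRingHom (ι' x) = 0 ∧
      Val w (ι' x) (u : Qb) ∧
      (∀ j, Val (w.restrictAlong ι hι) (Φ.coeff j) (c j : Qb) ∧
        Val Qa ((kronPoly C (red A M x)).coeff j) (residue A (c j))) ∧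
      (u : Qb) ^ (q + 1) + ∑ j ∈ Finset.range (q + 1), (c j : Qb) * (u : Qb) ^ j = 0 := by
  obtain ⟨Φ, h1, h2, h3, h4⟩ := hK x hx hr
  choose c hc hcr using fun j => exists_val_chart C hP hQ (h3 j).1
  have hcw : ∀ j, Val w (ι (Φ.coeff j)) (c j : Qb) := fun j => (val_restrict_iff ι hι).mp (hc j)
  obtain ⟨u, hu⟩ := val_exists_B (bd_of_eval₂ ι.toRingHom h1 (fun j => (hcw j).bd) h4)
  have hrel := val_eval₂ ι.toRingHom h2 h1 (c := fun j => (c j : Qb)) hcw hu h4
  refine ⟨Φ, ⟨u, mem_A_of_relation hrel⟩, c, h1, h2, h3, h4, hu,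
    fun j => ⟨hc j, ?_⟩, hrel⟩
  rw [← (h3 j).2.2]
  exact hcr j

/-- the residual equation -/
theorem residual {x : FB M} (hx : BT A M s x) (hr : x ∈ rationalFn A M) {f g : kA A}
    (hf : Val Qa (SS.Fr C (red A M x)) f) (hg : Val Qa (frobS C • red A M x) g) :
    ∃ u : A, Val w (ι' x) (u : Qb) ∧ (residue A u - f) * (residue A u ^ q - g) = 0 := by
  obtain ⟨Φ, u, c, -, -, -, -, hu, hc, hrel⟩ := relation C hK hι hP hQ hx hr
  refine ⟨u, hu, ?_⟩
  set r := residue A u
  set p := kronPoly C (red A M x) with hp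
  have hr0 := residue_relation hrel
  have h1 : Val Qa (p.eval (algebraMap (kA A) (FS A M) r)) ((r - f) * (r ^ q - g)) := by
    rw [hp, kronPoly, eval_mul, eval_sub, eval_sub, eval_X, eval_C, eval_C, eval_pow, eval_X]
    exact ((Val.const r).sub hf).mul (((Val.const r).pow q).sub hg)
  have h2 : Val Qa (p.eval (algebraMap (kA A) (FS A M) r))
      (r ^ (q + 1) + ∑ j ∈ Finset.range (q + 1), residue A (c j) * r ^ j) := by
    rw [eval_eq_sum_range, (monic_kronPoly C _).2, Finset.sum_range_succ, add_comm (r ^ (q + 1))]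
    have hlead : p.coeff (q + 1) = 1 := by
      rw [← (monic_kronPoly C (red A M x)).2]
      exact (monic_kronPoly C _).1.coeff_natDegree
    rw [hlead, one_mul]
    exact (val_sum _ _ _ fun j _ => (hc j).2.mul ((Val.const r).pow j)).add
      ((Val.const r).pow (q + 1))
  rw [hr0] at h2
  exact h1.unique h2

variable (hfix : frobS C • frobS C • Qa = Qa) (hι' : ι'.toRingHom.IsIntegral)
include hfix

omit hK hP hQ in
theorem val_roots {g : FS A M} {v : kA A} (h : Val (frobS C • Qa) g v) :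
    Val Qa (SS.Fr C g) v ∧ Val Qa (frobS C • g) (v ^ q) :=
  ⟨val_Fr C h, by simpa only [hfix] using val_frobS C h⟩

/-- the second point reduces to the image of the first -/
theorem next_place : rP C (w.restrictAlong ι' hι') = frobS C • Qa := by
  set P' := w.restrictAlong ι' hι'
  have hsec : ∀ {x : FB M} {v : kA A}, BT A M s x → x ∈ rationalFn A M →
      Val (frobS C • Qa) (red A M x) v → ∃ u : A, Val P' x (u : Qb) ∧ residue A u = v := by
    intro x v hx hr hv
    obtain ⟨h1, h2⟩ := val_roots C hfix hv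
    obtain ⟨u, hu, he⟩ := residual C hK hι hP hQ hx hr h1 h2
    refine ⟨u, (val_restrict_iff ι' hι').mpr hu, ?_⟩
    rcases mul_eq_zero.mp he with h | h
    · exact sub_eq_zero.mp h
    · refine (frobK C).injective ?_
      rw [frobK_apply, frobK_apply]
      exact sub_eq_zero.mp h
  have hR := fin_frobS C hQ
  obtain ⟨v, hv⟩ := val_exists_S C hR
  obtain ⟨d, hd, -⟩ := hsec (x := tB M s) (v := v) (BT_tB s) (tB_mem_rationalFn A M s)
    (by rw [red_tB C]; exact hv)
  have hfin : Bd (rP C P') (tS A M s) 0 := (fin_rP_iff C).mpr ⟨_, d.2, hd⟩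
  by_contra hne
  haveI := finite_tS C s
  haveI := separable_tS C s
  obtain ⟨g, hg, hg1, hg0, hg2⟩ :=
    exists_separate (transcendental_tS A M s) hR hfin (Ne.symm hne)
  obtain ⟨x, hx, hr, hxg⟩ := exists_rational_lift C ((BS_iff C).mpr hg)
  obtain ⟨u, hu, hu0⟩ := hsec (v := 0) hx hr (by rw [hxg, Val, map_zero, sub_zero]; exact hg1)
  obtain ⟨huA, hval⟩ := val_rP C hx hd d.2 hu
  rw [hxg, show residue A ⟨(u : Qb), huA⟩ = 0 from hu0] at hval
  have := hval.ord_pos hg0
  omega

omit hfix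
variable (hfixP : ∀ σ ∈ A.inertiaSubgroupIn ℚ,
  galFn M σ • w.restrictAlong ι hι = w.restrictAlong ι hι)
include hfix hfixP

/-- a value with zero residue is at most of valuation `1/(q+1)` -/
theorem small {x : FB M} (hx : BT A M s x) (hr : x ∈ rationalFn A M)
    (h0 : Val (frobS C • Qa) (red A M x) 0) {u : Qb} (hu : Val w (ι' x) u) :
    A.valuation u ^ (q + 1) ≤ A.valuation (q : Qb) := by
  obtain ⟨Φ, u', c, -, -, h3, -, hu', hc, hrel⟩ := relation C hK hι hP hQ hx hr
  obtain ⟨h1, h2⟩ := val_roots C hfix h0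
  rw [zero_pow C.prime.ne_zero] at h2
  have hsmall : ∀ j ∈ Finset.range (q + 1),
      A.valuation ((c j : Qb) * (u' : Qb) ^ j) ≤ A.valuation (q : Qb) := by
    intro j hj
    have hres : residue A (c j) = 0 :=
      (hc j).2.unique (val_kronPoly_zero C h1 h2 (by have := Finset.mem_range.mp hj; omega))
    rw [map_mul, map_pow]
    exact (mul_le_of_le_one_right' (pow_le_one₀ zero_le (val_le_one_of_mem u'.2))).trans
      (le_q_of_lt_one C.prime C.lies (val_mem_fixed C hfixP (h3 j).2.1 (hc j).1)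
        ((res_eq_zero_iff A _).mp hres))
  rw [hu.unique hu', ← map_pow, eq_neg_of_add_eq_zero_left hrel, Valuation.map_neg]
  exact Valuation.map_sum_le _ hsmall

end PV

end FLTAgent.SS2

end
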